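/-
The valuation of a place of `ℚ̄` above a prime has rank one.
-/
import Fermat.Agent.Curve.ModelDef
import Fermat.Agent.Galois.QbarInstances
import Fermat.Prelude.Def_FLTPrelim_Ramification
import Fermat.Prelude.Def_EllipticCurve_FrobeniusTrace
import Mathlib.RingTheory.Localization.Integral
import Mathlib.FieldTheory.IsAlgClosed.AlgebraicClosure

set_option autoImplicit false

noncomputable section

namespace Fermat.Agent.Mazur

local notation "ℚbar" => AlgebraicClosure ℚ

variable {A : ValuationSubring ℚbar}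

/-- An element of `A` is a root of an integral polynomial. -/
theorem exists_int_root (a : A) : ∃ f : Polynomial ℤ, f ≠ 0 ∧ Polynomial.aeval a f = 0 := by
  have h : IsAlgebraic ℤ (a : ℚbar) :=
    (IsFractionRing.isAlgebraic_iff ℤ ℚ ℚbar).2
      (Algebra.IsAlgebraic.isAlgebraic (R := ℚ) (a : ℚbar))
  obtain ⟨f, hf0, hf⟩ := h
  refine ⟨f, hf0, Subtype.ext ?_⟩
  have h2 := Polynomial.aeval_algHom_apply (A.subtype.toIntAlgHom) a f
  exact h2.symm.trans hf

/-- A non-zero element of `A` divides a non-zero integer. -/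
theorem exists_int_dvd {a : A} (ha : a ≠ 0) : ∃ c : ℤ, c ≠ 0 ∧ a ∣ (c : A) := by
  obtain ⟨f, hf0, hf⟩ := exists_int_root a
  obtain ⟨g, hfg, hg⟩ := f.exists_eq_pow_rootMultiplicity_mul_and_not_dvd hf0 0
  rw [map_zero, sub_zero] at hfg hg
  rw [hfg] at hf
  have hga : Polynomial.aeval a g = 0 := by
    simpa [ha] using hf
  refine ⟨g.coeff 0, fun h => hg (Polynomial.X_dvd_iff.2 h), ?_⟩
  have hdvd := Polynomial.X_dvd_iff.2 (show (g - Polynomial.C (g.coeff 0)).coeff 0 = 0 by simp)
  have := map_dvd (Polynomial.aeval a) hdvd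
  rw [Polynomial.aeval_X, map_sub, hga, Polynomial.aeval_C, zero_sub, dvd_neg] at this
  simpa using this

/-- A power of a non-unit is divisible by the residue characteristic. -/
theorem exists_pow_dvd {p : ℕ} (hp : p.Prime) (hA : A.LiesOverPrime p) {a : A}
    (ha : a ∈ IsLocalRing.maximalIdeal A) : ∃ n : ℕ, (p : A) ∣ a ^ n := by
  classical
  obtain ⟨f₀, hf₀, hf₀a⟩ := exists_int_root a
  have hmult : FiniteMultiplicity (Polynomial.C (p : ℤ)) f₀ :=
    FiniteMultiplicity.of_prime_left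
      (Polynomial.prime_C_iff.2 (Nat.prime_iff_prime_int.1 hp)) hf₀
  obtain ⟨g, hg, hgnd⟩ := hmult.exists_eq_pow_mul_and_not_dvd
  have hp0 : (p : A) ≠ 0 := fun h => by
    have := congrArg Subtype.val h
    simp [hp.ne_zero] at this
  have hga : Polynomial.aeval a g = 0 := by
    rw [hg, map_mul, map_pow, Polynomial.aeval_C, map_natCast] at hf₀a
    exact (mul_eq_zero.1 hf₀a).resolve_left (pow_ne_zero _ hp0)
  rw [Polynomial.C_dvd_iff_dvd_coeff] at hgnd
  push Not at hgnd
  set i := Nat.find hgnd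
  have hi : ¬ (p : ℤ) ∣ g.coeff i := Nat.find_spec hgnd
  refine ⟨i, ?_⟩
  rw [Polynomial.aeval_eq_sum_range' (n := i + 1 + g.natDegree) (by omega)] at hga
  rw [Finset.sum_range_add, Finset.sum_range_succ] at hga
  have hlow : (p : A) ∣ ∑ j ∈ Finset.range i, g.coeff j • a ^ j := by
    refine Finset.dvd_sum fun j hj => ?_
    obtain ⟨c, hc⟩ := not_not.1 (Nat.find_min hgnd (Finset.mem_range.1 hj))
    rw [hc, zsmul_eq_mul, Int.cast_mul, Int.cast_natCast, mul_assoc]
    exact dvd_mul_right _ _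
  have hunit : IsUnit ((g.coeff i : A) + a * ∑ x ∈ Finset.range g.natDegree,
      g.coeff (i + 1 + x) • a ^ x) := by
    by_contra h
    have hm : (g.coeff i : A) ∈ IsLocalRing.maximalIdeal A := by
      have := Ideal.sub_mem _ ((IsLocalRing.mem_maximalIdeal _).2 h)
        (Ideal.mul_mem_right (∑ x ∈ Finset.range g.natDegree, g.coeff (i + 1 + x) • a ^ x) _ ha)
      rwa [add_sub_cancel_right] at this
    have hpm : (p : A) ∈ IsLocalRing.maximalIdeal A := by
      have h : ((p : A) : ℚbar) ∈ A.nonunits := by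
        simpa [ValuationSubring.LiesOverPrime] using hA
      exact ValuationSubring.coe_mem_nonunits_iff.mp h
    obtain ⟨u, v, huv⟩ := ((Nat.prime_iff_prime_int.1 hp).coprime_iff_not_dvd.2 hi)
    have h1 : (1 : A) = (u : A) * (p : A) + (v : A) * (g.coeff i : A) := by
      rw [← Int.cast_natCast (R := A) p, ← Int.cast_mul, ← Int.cast_mul, ← Int.cast_add, huv,
        Int.cast_one]
    exact (IsLocalRing.maximalIdeal.isMaximal A).ne_top ((Ideal.eq_top_iff_one _).2
      (h1 ▸ Ideal.add_mem _ (Ideal.mul_mem_left _ _ hpm) (Ideal.mul_mem_left _ _ hm)))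
  refine (IsUnit.dvd_mul_right hunit).1 ?_
  have heq : a ^ i * ((g.coeff i : A) + a * ∑ x ∈ Finset.range g.natDegree,
      g.coeff (i + 1 + x) • a ^ x) = - ∑ j ∈ Finset.range i, g.coeff j • a ^ j := by
    rw [eq_neg_iff_add_eq_zero, ← hga, mul_add, Finset.mul_sum, Finset.mul_sum, add_comm,
      ← add_assoc]
    congr 1
    · rw [zsmul_eq_mul, mul_comm]
    · refine Finset.sum_congr rfl fun x _ => ?_
      rw [zsmul_eq_mul, zsmul_eq_mul, pow_add, pow_succ]
      ring
  rw [heq, dvd_neg]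
  exact hlow

/-- The valuation has rank one. -/
theorem rankLeOne_of_liesOverPrime {p : ℕ} (hp : p.Prime) (hA : A.LiesOverPrime p) :
    Curve.RankLeOne A := by
  intro a d ha hd
  obtain ⟨c, hc, hdc⟩ := exists_int_dvd hd
  obtain ⟨n, hn⟩ := exists_pow_dvd hp hA ha
  obtain ⟨v, u, hu, hcu⟩ := Nat.exists_eq_pow_mul_and_not_dvd (Int.natAbs_ne_zero.2 hc) p hp.ne_one
  have hcA : d ∣ (p : A) ^ v := by
    have h1 : d ∣ ((c.natAbs : ℕ) : A) := by
      rcases Int.natAbs_eq c with h | h
      · rw [h, Int.cast_natCast] at hdc; exact hdc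
      · rw [h, Int.cast_neg, Int.cast_natCast, dvd_neg] at hdc; exact hdc
    rw [hcu, Nat.cast_mul, Nat.cast_pow] at h1
    refine (IsUnit.dvd_mul_right ?_).1 h1
    by_contra hnu
    have hpm : (p : A) ∈ IsLocalRing.maximalIdeal A := by
      have h : ((p : A) : ℚbar) ∈ A.nonunits := by
        simpa [ValuationSubring.LiesOverPrime] using hA
      exact ValuationSubring.coe_mem_nonunits_iff.mp h
    obtain ⟨x, y, hxy⟩ := (Nat.isCoprime_iff_coprime.2 ((Nat.Prime.coprime_iff_not_dvd hp).2 hu))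
    have h2 : (1 : A) = (x : A) * (p : A) + (y : A) * (u : A) := by
      rw [← Int.cast_natCast (R := A) p, ← Int.cast_natCast (R := A) u, ← Int.cast_mul,
        ← Int.cast_mul, ← Int.cast_add, hxy, Int.cast_one]
    exact (IsLocalRing.maximalIdeal.isMaximal A).ne_top ((Ideal.eq_top_iff_one _).2
      (h2 ▸ Ideal.add_mem _ (Ideal.mul_mem_left _ _ hpm)
        (Ideal.mul_mem_left _ _ ((IsLocalRing.mem_maximalIdeal _).2 hnu))))
  exact ⟨n * v, hcA.trans (by rw [pow_mul]; exact pow_dvd_pow_of_dvd hn v)⟩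

end Fermat.Agent.Mazur

end
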