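/-
Mazur's Eisenstein descent: the vocabulary of the Galois-cohomological Eisenstein descent.

A *Selmer triple* on a finite `n`-torsion Galois module `M` is a cocycle `c`, unramified outside
`p` and `q`, whose extension `M ×_c ℤ/n` has a finite flat model at `q`, together with elements
`m`, `m'` trivialising it on inertia at `P ∣ p`, resp. at complex conjugation.
-/
import Fermat.Agent.Flat.HopfDefs
import Fermat.Agent.Galois.QbarInstances
import Fermat.Prelude.Def_EllipticCurve_FrobeniusTrace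
import Fermat.Prelude.Def_GaloisRep_ComplexConjugation
import Fermat.Prelude.Def_ModularCurve_HeckeModule
import Fermat.Prelude.Def_ModularCurve_X0ModL

set_option autoImplicit false

noncomputable section

namespace Fermat.Agent.Mazur

local notation "ℚbar" => AlgebraicClosure ℚ
local notation "Γℚ" => AlgebraicClosure ℚ ≃ₐ[ℚ] AlgebraicClosure ℚ

section Dual

/-- The Cartier dual `Hom (M, ℚ̄ˣ)` of a Galois module. -/
def CartierDual (M : Type) [AddCommGroup M] : Type := M →+ Additive (ℚbar)ˣ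

variable {M : Type} [AddCommGroup M]

instance : AddCommGroup (CartierDual M) :=
  inferInstanceAs (AddCommGroup (M →+ Additive (ℚbar)ˣ))

/-- The underlying character. -/
def CartierDual.toHom (χ : CartierDual M) : M →+ Additive (ℚbar)ˣ := χ

/-- A character as an element of the dual. -/
def CartierDual.ofHom (f : M →+ Additive (ℚbar)ˣ) : CartierDual M := f

@[ext] theorem CartierDual.ext {χ ψ : CartierDual M} (h : ∀ x, χ.toHom x = ψ.toHom x) : χ = ψ :=
  DFunLike.ext (F := M →+ Additive (ℚbar)ˣ) χ ψ h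

end Dual

section Modules

variable {M : Type} [AddCommGroup M] [DistribMulAction Γℚ M]

/-- The action on the extension `M ×_c ℤ/n` defined by a cocycle `c` with values in `M`
(meaningful when `n • c σ = 0`). -/
def kummerAct (n : ℕ) (c : Γℚ → M) (σ : Γℚ) (z : M × ZMod n) : M × ZMod n :=
  (σ • z.1 + z.2.val • c σ, z.2)

@[simp] theorem kummerAct_fst (n : ℕ) (c : Γℚ → M) (σ : Γℚ) (z : M × ZMod n) :
    (kummerAct n c σ z).1 = σ • z.1 + z.2.val • c σ := rfl

@[simp] theorem kummerAct_snd (n : ℕ) (c : Γℚ → M) (σ : Γℚ) (z : M × ZMod n) :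
    (kummerAct n c σ z).2 = z.2 := rfl

/-- A Selmer triple. -/
structure IsSelmerTriple (p q n : ℕ) (P : ValuationSubring ℚbar) (c : Γℚ → M) (m m' : M) :
    Prop where
  cocycle : ∀ σ τ : Γℚ, c (σ * τ) = c σ + σ • c τ
  smooth : ∃ U : Subgroup Γℚ, IsOpen (U : Set Γℚ) ∧ ∀ σ : Γℚ, ∀ u ∈ U, c (σ * u) = c σ
  unramified : ∀ ℓ : ℕ, ℓ.Prime → ℓ ≠ p → ℓ ≠ q → ∀ A : ValuationSubring ℚbar,
    A.LiesOverPrime ℓ → ∀ σ ∈ A.inertiaSubgroupIn ℚ, c σ = 0
  flat : FlatModel.HasFlatModel q (M × ZMod n) (kummerAct n c)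
  local_p : ∀ σ ∈ P.inertiaSubgroupIn ℚ, c σ = σ • m - m
  local_inf : c complexConjugation = complexConjugation • m' - m'

variable (M) in
/-- The set of Selmer triples. -/
def selmerTriples (p q n : ℕ) (P : ValuationSubring ℚbar) : Set ((Γℚ → M) × M × M) :=
  {z | IsSelmerTriple p q n P z.1 z.2.1 z.2.2}

/-- Galois-stable subgroups. -/
def IsStable (N : AddSubgroup M) : Prop := ∀ σ : Γℚ, ∀ x ∈ N, σ • x ∈ N

/-- `σ` acts on the `q`-th roots of unity as `μ ↦ μ ^ a`. -/
def ActsOnRoots (q : ℕ) (σ : Γℚ) (a : ℕ) : Prop := ∀ μ : ℚbar, μ ^ q = 1 → σ μ = μ ^ a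

variable (M) in
/-- A Galois module of order `q` on which the action is trivial or cyclotomic. -/
def IsPiece (q : ℕ) : Prop :=
  Nat.card M = q ∧
    ((∀ (σ : Γℚ) (x : M), σ • x = x) ∨
      ∀ (σ : Γℚ) (a : ℕ), ActsOnRoots q σ a → ∀ x : M, σ • x = a • x)

variable (M) in
/-- Every proper stable subgroup is contained with index `q` in a stable subgroup, the action on
the quotient being trivial or cyclotomic: all simple constituents are `ℤ/q` or `μ_q`. -/
def IsEisensteinModule (q : ℕ) : Prop :=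
  ∀ M₁ : AddSubgroup M, IsStable M₁ → M₁ ≠ ⊤ →
    ∃ M₂ : AddSubgroup M, IsStable M₂ ∧ M₁ ≤ M₂ ∧ M₁.relIndex M₂ = q ∧
      ((∀ σ : Γℚ, ∀ x ∈ M₂, σ • x - x ∈ M₁) ∨
        ∀ (σ : Γℚ) (a : ℕ), ActsOnRoots q σ a → ∀ x ∈ M₂, σ • x - a • x ∈ M₁)

/-- The action on the units of `ℚ̄`, written additively. -/
def unitsHom (σ : Γℚ) : Additive (ℚbar)ˣ →+ Additive (ℚbar)ˣ :=
  MonoidHom.toAdditive (Units.map (σ : ℚbar →* ℚbar))

instance : SMul Γℚ (CartierDual M) :=
  ⟨fun σ χ => CartierDual.ofHom
    ((unitsHom σ).comp (χ.toHom.comp (DistribSMul.toAddMonoidHom M σ⁻¹)))⟩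

theorem CartierDual.smul_apply (σ : Γℚ) (χ : CartierDual M) (x : M) :
    (σ • χ).toHom x = unitsHom σ (χ.toHom (σ⁻¹ • x)) := rfl

instance : DistribMulAction Γℚ (CartierDual M) where
  one_smul χ := CartierDual.ext fun x => by
    rw [CartierDual.smul_apply, inv_one, one_smul]
    exact Units.ext rfl
  mul_smul σ τ χ := CartierDual.ext fun x => by
    rw [CartierDual.smul_apply, CartierDual.smul_apply, CartierDual.smul_apply, mul_inv_rev,
      mul_smul]
    exact Units.ext rfl
  smul_zero σ := CartierDual.ext fun x => by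
    rw [CartierDual.smul_apply]
    exact map_zero (unitsHom σ)
  smul_add σ χ ψ := CartierDual.ext fun x => by
    rw [CartierDual.smul_apply]
    exact map_add (unitsHom σ) _ _

end Modules

section Jacobian

open ModularCurve

variable (N : ℕ)

/-- A Galois-stable subgroup of `J₀(N)`. -/
structure GalSub where
  /-- the subgroup -/
  carrier : AddSubgroup (JZero N)
  stable : ∀ (σ : Γℚ), ∀ x ∈ carrier, σ • x ∈ carrier

variable {N}

instance (S : GalSub N) : SMul Γℚ S.carrier := ⟨fun σ x => ⟨σ • (x : JZero N), S.stable σ x x.2⟩⟩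

@[simp] theorem GalSub.coe_smul (S : GalSub N) (σ : Γℚ) (x : S.carrier) :
    ((σ • x : S.carrier) : JZero N) = σ • (x : JZero N) := rfl

instance (S : GalSub N) : DistribMulAction Γℚ S.carrier :=
  Subtype.val_injective.distribMulAction S.carrier.subtype fun _ _ => rfl

variable (N)

/-- The `n`-torsion of `J₀(N)` with its Galois action. -/
def torsSub (n : ℕ) : GalSub N where
  carrier := (nsmulAddMonoidHom n : JZero N →+ JZero N).ker
  stable σ x hx := by
    rw [AddMonoidHom.mem_ker, nsmulAddMonoidHom_apply] at hx ⊢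
    have h := map_nsmul (DistribSMul.toAddMonoidHom (JZero N) σ) n x
    simp only [DistribSMul.toAddMonoidHom_apply, hx, smul_zero] at h
    exact h.symm

theorem mem_torsSub {n : ℕ} {x : JZero N} : x ∈ (torsSub N n).carrier ↔ n • x = 0 := by
  rw [torsSub, AddMonoidHom.mem_ker, nsmulAddMonoidHom_apply]

/-- The ring of endomorphisms of `J₀(N)` generated by the Hecke operators at primes outside
`S`. -/
def heckeAway [NeZero N] (S : Finset ℕ) : Subring (AddMonoid.End (JZero N)) :=
  Subring.closure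
    ((fun ℓ : Nat.Primes => (heckeOperatorBar N ℓ).toAddMonoidHom) '' {ℓ | (ℓ : ℕ) ∉ S})

/-- An Eisenstein eigenvector for the Hecke operators outside `S`. -/
def IsEisensteinVector [NeZero N] (S : Finset ℕ) (x : JZero N) : Prop :=
  ∀ ℓ : Nat.Primes, (ℓ : ℕ) ∉ S → heckeOperatorBar N ℓ x = (1 + (ℓ : ℕ)) • x

variable {N}

/-- The image of `J₀(N)[n]` under an endomorphism commuting with the Galois group. -/
def eisPart (n : ℕ) (E : AddMonoid.End (JZero N))
    (hE : ∀ (σ : Γℚ) (x : JZero N), σ • E x = E (σ • x)) : GalSub N where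
  carrier := (torsSub N n).carrier.map (E : JZero N →+ JZero N)
  stable σ := by
    rintro _ ⟨x, hx, rfl⟩
    exact ⟨σ • x, (torsSub N n).stable σ x hx, (hE σ x).symm⟩

/-- The Kummer cocycle of an `n`-th root `z` of a rational point. -/
def kummerCocycle (n : ℕ) (z : JZero N) (hz : ∀ σ : Γℚ, σ • (n • z) = n • z) (σ : Γℚ) :
    (torsSub N n).carrier :=
  ⟨σ • z - z, (mem_torsSub N).2 (by
    have h := map_nsmul (DistribSMul.toAddMonoidHom (JZero N) σ) n z
    simp only [DistribSMul.toAddMonoidHom_apply, hz σ] at h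
    rw [nsmul_sub, ← h, sub_self])⟩

/-- `(J₁, J₂)` is a zero of the modular polynomial of level `N`. -/
def IsModularPair (N : ℕ) [NeZero N] (J₁ J₂ : ℚ) : Prop :=
  ∀ data : ModularPolynomialData N,
    data.Φ.eval₂ (Polynomial.eval₂RingHom (Int.castRingHom ℚ) J₁) J₂ = 0

end Jacobian

end Fermat.Agent.Mazur

end
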