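/-
The toric part of the torsion of `J₀(p)` at `p`: the good classes for the gluing structure of the
special fibre of `X₀(p)`.
-/
import Fermat.Agent.Mazur.LocalRank
import Fermat.Agent.Mazur.Defs
import Fermat.Agent.BadReduction.X0Conductor
import Fermat.Agent.ES.SpecialGalois
import Fermat.Agent.MW.WeakReduction
import Fermat.Agent.Genus.Differential

set_option autoImplicit false

noncomputable section

namespace Fermat.Agent.Mazur

open AlgebraicCurve ModularCurve IsLocalRing IntermediateField
open Fermat.Agent.Bad Fermat.Agent.BadReduction Fermat.Agent.Curve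

local notation "ℚbar" => AlgebraicClosure ℚ
local notation "Γℚ" => AlgebraicClosure ℚ ≃ₐ[ℚ] AlgebraicClosure ℚ

set_option synthInstance.maxHeartbeats 400000

/-- In `k(t)` there is only one zero of `t`. -/
theorem eq_of_ord_pos_of_adjoin_eq_top {k F : Type*} [Field k] [Field F] [Algebra k F]
    [IsFunctionFieldOne k F] {t : F} (ht : Transcendental k t) (htop : k⟮t⟯ = ⊤)
    {v w : Place k F} (hv : 0 < v.ord t) (hw : 0 < w.ord t) : v = w := by
  classical
  by_contra hne
  have h := sum_ord_mul_deg_le ht {v, w} (by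
    intro u hu
    rcases Finset.mem_insert.1 hu with rfl | hu
    · exact hv
    · rw [Finset.mem_singleton.1 hu]; exact hw)
  rw [Finset.sum_pair hne, htop, IntermediateField.finrank_top, Nat.cast_one] at h
  have h1 := Curve.deg_pos v
  have h2 := Curve.deg_pos w
  nlinarith

section LevelOne

variable (k : Type*) [Field k]

/-- `j` as a function on the special fibre of level one -/
def jOne : modularFunctionFieldFullC k 1 := ⟨jqModC k, jqModC_mem_full k 1⟩

theorem transcendental_jOne : Transcendental k (jOne k) := fun h =>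
  transcendental_jqModC' k (h.algHom (modularFunctionFieldFullC k 1).val)

theorem adjoin_jOne_sub (a : k) :
    k⟮jOne k - algebraMap k (modularFunctionFieldFullC k 1) a⟯ = ⊤ := by
  have h1 : k⟮jOne k⟯ = ⊤ := by
    apply IntermediateField.map_injective (modularFunctionFieldFullC k 1).val
    rw [IntermediateField.adjoin_map, ← AlgHom.fieldRange_eq_map, IntermediateField.fieldRange_val,
      Set.image_singleton]
    apply le_antisymm
    · rw [IntermediateField.adjoin_le_iff, Set.singleton_subset_iff]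
      exact jqModC_mem_full k 1
    · refine IntermediateField.adjoin_le_iff.mpr ?_
      rintro _ ⟨d, hd, hd1, rfl⟩
      obtain rfl := Nat.dvd_one.1 hd1
      rw [qExpand_one_apply]
      exact IntermediateField.subset_adjoin k _ rfl
  rw [eq_top_iff, ← h1, IntermediateField.adjoin_le_iff, Set.singleton_subset_iff]
  have := add_mem (mem_adjoin_simple_self k (jOne k - algebraMap k _ a))
    (k⟮jOne k - algebraMap k (modularFunctionFieldFullC k 1) a⟯.algebraMap_mem a)
  rwa [sub_add_cancel] at this

variable {k} [IsAlgClosed k]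

/-- The residual value of `j` at a place: either a pole or an element of `k`. -/
theorem exists_locus (v : Place k (modularFunctionFieldFullC k 1)) :
    0 < v.ord (jOne k)⁻¹ ∨
      ∃ a : k, 0 < v.ord (jOne k - algebraMap k (modularFunctionFieldFullC k 1) a) := by
  rcases lt_or_ge (v.ord (jOne k)) 0 with h | h
  · left; rw [Place.ord_inv]; omega
  · right
    haveI : v.FiniteResidue := ⟨Curve.finite_residueField v⟩
    have hmem := mem_of_ord_nonneg v h
    obtain ⟨a, ha⟩ := (Genus.residue_algebraMap_bijective v).2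
      (IsLocalRing.residue _ ⟨jOne k, hmem⟩)
    refine ⟨a, ?_⟩
    have h0 : IsLocalRing.residue v.toValuationSubring
        (⟨jOne k, hmem⟩ - algebraMap k v.toValuationSubring a) = 0 := by
      rw [map_sub, ← ha, sub_eq_zero]
      rfl
    refine ((Curve.residue_eq_zero_iff v _).1 h0).resolve_left fun h1 => transcendental_jOne k ?_
    have h2 : jOne k = algebraMap k (modularFunctionFieldFullC k 1) a := sub_eq_zero.1 h1
    exact h2 ▸ isAlgebraic_algebraMap a

/-- Every place is fixed by a power of the Frobenius of the constants. -/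
theorem exists_fixed_power {p : ℕ} (hk : ∀ a : k, ∃ n, 0 < n ∧ a ^ p ^ n = a)
    (v : Place k (modularFunctionFieldFullC k 1)) :
    ∃ n, 0 < n ∧ ∀ (m : ℕ) (s : k ≃+* k), (∀ x, s x = x ^ p ^ (n * m)) →
      ES.coeffAut 1 s • v = v := by
  have hjfix : ∀ s : k ≃+* k, ES.coeffAut 1 s • jOne k = jOne k := fun s =>
    Subtype.ext (by
      rw [ES.coe_coeffAut_smul]
      exact coeffMap_jqModC _)
  rcases exists_locus v with h | ⟨a, ha⟩
  · refine ⟨1, one_pos, fun m s _ => eq_of_ord_pos_of_adjoin_eq_top ?_ ?_ ?_ h⟩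
    · exact fun halg => transcendental_jOne k (inv_inv (jOne k) ▸ halg.inv)
    · rw [adjoin_inv]
      have := adjoin_jOne_sub k 0
      rwa [map_zero, sub_zero] at this
    · have h2 := SemilinearAut.ord_smul (ES.coeffAut 1 s) v (jOne k)⁻¹
      rw [smul_inv₀', hjfix] at h2
      rwa [h2]
  · obtain ⟨n, hn, hna⟩ := hk a
    refine ⟨n, hn, fun m s hs => eq_of_ord_pos_of_adjoin_eq_top ?_ (adjoin_jOne_sub k a) ?_ ha⟩
    · exact fun halg => transcendental_jOne k (by
        have := halg.add (isAlgebraic_algebraMap a)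
        rwa [sub_add_cancel] at this)
    · have hsa : s a = a := by
        rw [hs]
        clear hs
        induction m with
        | zero => simp
        | succ m ih => rw [mul_add, mul_one, pow_add, pow_mul, ih, hna]
      have h2 := SemilinearAut.ord_smul (ES.coeffAut 1 s) v
        (jOne k - algebraMap k (modularFunctionFieldFullC k 1) a)
      rw [smul_sub, hjfix, SemilinearAut.smul_algebraMap] at h2
      rw [show SemilinearAut.baseAut (ES.coeffAut 1 s) a = a from hsa] at h2
      rwa [h2]

end LevelOne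

/-- The orbits of a Galois automorphism on `ℚ̄` are finite. -/
theorem exists_periodic (σ : Γℚ) (a : ℚbar) : ∃ m : ℕ, 0 < m ∧ (σ : ℚbar → ℚbar)^[m] a = a := by
  set f := minpoly ℚ a
  have hf : f ≠ 0 := minpoly.ne_zero (Algebra.IsIntegral.isIntegral a)
  have hmem : ∀ i : ℕ, (σ : ℚbar → ℚbar)^[i] a ∈ f.rootSet ℚbar := fun i => by
    induction i with
    | zero => exact (Polynomial.mem_rootSet_of_ne hf).2 (minpoly.aeval ℚ a)
    | succ i ih =>
      rw [Function.iterate_succ_apply']
      refine (Polynomial.mem_rootSet_of_ne hf).2 ?_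
      have := Polynomial.aeval_algHom_apply σ.toAlgHom ((σ : ℚbar → ℚbar)^[i] a) f
      rw [(Polynomial.mem_rootSet_of_ne hf).1 ih, map_zero] at this
      exact this
  have := (f.rootSet_finite ℚbar).to_subtype
  obtain ⟨i, j, hij, he⟩ := Finite.exists_ne_map_eq_of_infinite
    (fun i : ℕ => (⟨_, hmem i⟩ : f.rootSet ℚbar))
  have he' : (σ : ℚbar → ℚbar)^[i] a = (σ : ℚbar → ℚbar)^[j] a := congrArg Subtype.val he
  rcases lt_or_gt_of_ne hij with h | h
  · refine ⟨j - i, by omega, (σ.injective.iterate i) ?_⟩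
    rw [← Function.iterate_add_apply, Nat.add_sub_cancel' h.le, he']
  · refine ⟨i - j, by omega, (σ.injective.iterate j) ?_⟩
    rw [← Function.iterate_add_apply, Nat.add_sub_cancel' h.le, he']

section Equivariance

variable {M q : ℕ} [NeZero M] [hq : Fact q.Prime] (hqM : ¬ q ∣ M)
variable (A : ValuationSubring ℚbar) (hA : A.LiesOverPrime q) {σ : Γℚ}

local instance : NeZero q := ⟨hq.out.ne_zero⟩

theorem infRed_residueAut (hσ : σ ∈ A.decompositionSubgroup ℚ) {x : X0F M q}
    (hx : x ∈ infV M q A) :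
    infRed M q A ⟨_, galois_mem_infV A hσ hx⟩ =
      coeffMap (ES.residueAut A hσ : ResidueField A →+* ResidueField A)
        (infRed M q A ⟨x, hx⟩) := by
  let g : A →+* A := ES.decompRingHom A hσ
  haveI : IsLocalHom g := ⟨fun a ha => by
    have h := ha.map (ES.decompRingHom A (inv_mem hσ))
    have he : ES.decompRingHom A (inv_mem hσ) (g a) = a := Subtype.ext (by
      rw [ES.coe_decompRingHom, ES.coe_decompRingHom, ← AlgEquiv.mul_apply, inv_mul_cancel,
        AlgEquiv.one_apply])
    rwa [he] at h⟩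
  obtain ⟨y₁, y₂, hne, e⟩ := id hx
  obtain ⟨h1, h2⟩ := galois_quotient_eq A g σ (fun _ => rfl) x hne e
  have hred : ∀ y : LaurentSeries A, coeffMap (residue A) (coeffMap g y) =
      coeffMap (ES.residueAut A hσ : ResidueField A →+* ResidueField A)
        (coeffMap (residue A) y) := fun y => by
    rw [coeffMap_coeffMap, coeffMap_coeffMap]
    exact coeffMap_congr (RingHom.ext fun a => rfl) _
  rw [infRed_eq A ⟨_, galois_mem_infV A hσ hx⟩ h1 h2, infRed_eq A ⟨x, hx⟩ hne e, hred, hred,
    map_div₀]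

theorem compPhi_residueAut (hσ : σ ∈ A.decompositionSubgroup ℚ) :
    ∀ (i : Fin 2) (x : compV hqM A i),
    compPhi hqM A hA i ⟨_, (galois_mem_compV_iff hqM A hσ i x).2 x.2⟩ =
      ES.coeffRingAut M (ES.residueAut A hσ) (compPhi hqM A hA i x)
  | 0, x => Subtype.ext (by
      rw [coe_compPhi_zero]
      exact infRed_residueAut A hσ x.2)
  | 1, x => Subtype.ext (by
      rw [coe_compPhi_one]
      have hx : atkinLehner hqM (x : X0F M q) ∈ infV M q A := x.2
      refine Eq.trans ?_ ((infRed_residueAut A hσ hx).trans ?_)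
      · congr 1
        exact Subtype.ext (atkinLehner_galois hqM σ _)
      · show _ = coeffMap _ (compPhi hqM A hA 1 x : LaurentSeries (ResidueField A))
        rw [coe_compPhi_one])

theorem galois_smul_poleX (σ : Γℚ) :
    arithmeticGalois (modularFunctionFieldFull (M * q)) σ • (x0Reduction hqM A hA).poleX =
      (x0Reduction hqM A hA).poleX := by
  have hfix : arithmeticGalois (modularFunctionFieldFull (M * q)) σ • x0Fun hqM =
      x0Fun hqM := by
    have hj : arithmeticGalois (modularFunctionFieldFull (M * q)) σ • Igusa.jBar (M * q) =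
        Igusa.jBar (M * q) := Subtype.ext (by
      rw [coe_galois_smul, Igusa.coe_jBar]
      exact coeffMap_coeffEmb σ _)
    have hc : arithmeticGalois (modularFunctionFieldFull (M * q)) σ • cubicJ M q = cubicJ M q := by
      have h := Polynomial.aeval_algHom_apply
        (MulSemiringAction.toRingHom (SemilinearAut ℚbar (X0F M q)) (X0F M q)
          (arithmeticGalois (modularFunctionFieldFull (M * q)) σ)).toIntAlgHom
        (Igusa.jBar (M * q)) (cubic q)
      simp only [RingHom.toIntAlgHom_apply, MulSemiringAction.toRingHom_apply] at h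
      rw [hj] at h
      exact h.symm
    rw [x0Fun, smul_inv₀', smul_mul', hc, ← atkinLehner_galois, hc]
  ext P
  rw [SemilinearAut.divisor_smul_apply, MultiReduction.poleX, poleDivisor_apply,
    poleDivisor_apply]
  have h := SemilinearAut.ord_smul (arithmeticGalois (modularFunctionFieldFull (M * q)) σ)
    ((arithmeticGalois (modularFunctionFieldFull (M * q)) σ)⁻¹ • P) (x0Fun hqM)
  rw [smul_inv_smul, hfix] at h
  show max (-(((arithmeticGalois (modularFunctionFieldFull (M * q)) σ)⁻¹ • P).ord (x0Fun hqM))) 0 = _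
  rw [← h]
  rfl

include hA in
theorem isInertial_galois (hσ : σ ∈ A.inertiaSubgroupIn ℚ) :
    IsInertial (x0Reduction hqM A hA) (arithmeticGalois (modularFunctionFieldFull (M * q)) σ) where
  valuation_eq a := by
    obtain ⟨τ, -, rfl⟩ := Subgroup.mem_map.1 hσ
    refine valuation_eq_of_periodic (τ : Γℚ).toRingEquiv (fun a => ?_) (fun a => ?_) a
    · refine ⟨fun h => ?_, fun h => ((τ : A.decompositionSubgroup ℚ) • (⟨a, h⟩ : A)).2⟩
      have := ((τ⁻¹ : A.decompositionSubgroup ℚ) • (⟨_, h⟩ : A)).2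
      convert this using 1
      show a = (τ : Γℚ)⁻¹ ((τ : Γℚ) a)
      rw [← AlgEquiv.mul_apply, inv_mul_cancel, AlgEquiv.one_apply]
    · exact exists_periodic (τ : Γℚ) a
  π_eq a := by
    obtain ⟨h, hres⟩ := ES.residueAut_eq_one_of_mem_inertia A hσ
    refine ⟨(ES.decompRingHom A h a).2, ?_⟩
    have := RingEquiv.congr_fun hres (residue A a)
    rw [ES.residueAut_residue] at this
    exact this
  φ_eq i f := compPhi_galois hqM A hA hσ i f
  smul_poleX := galois_smul_poleX hqM A hA σ

/-- A decomposition element as an automorphism of the special fibre. -/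
def decompAut (hσ : σ ∈ A.decompositionSubgroup ℚ) : ReductionAut (x0Reduction hqM A hA) where
  g := arithmeticGalois (modularFunctionFieldFull (M * q)) σ
  mem_A_iff a := by
    refine ⟨fun h => ?_, fun h => (ES.decompRingHom A hσ ⟨a, h⟩).2⟩
    have := (ES.decompRingHom A (inv_mem hσ) ⟨_, h⟩).2
    rw [ES.coe_decompRingHom] at this
    convert this using 1
    show a = σ⁻¹ (σ a)
    rw [← AlgEquiv.mul_apply, inv_mul_cancel, AlgEquiv.one_apply]
  σk := ES.residueAut A hσ
  π_apply _ := rfl
  τ := Equiv.refl _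
  mem_V_iff i f := galois_mem_compV_iff hqM A hσ i f
  θ _ := ES.coeffRingAut M (ES.residueAut A hσ)
  θ_algebraMap _ a := (ES.coeffAut M (ES.residueAut A hσ)).2 a
  φ_smul i f := compPhi_residueAut hqM A hA hσ i f
  smul_poleX := galois_smul_poleX hqM A hA σ

include hA in
theorem residueAut_pow {φ : Γℚ} (hφ : A.IsFrobeniusAt φ q) (f : ℕ)
    (h : φ ^ f ∈ A.decompositionSubgroup ℚ) (x : ResidueField A) :
    ES.residueAut A h x = x ^ q ^ f := by
  obtain ⟨hd, hfr⟩ := hφ
  have key : ∀ m : ℕ, ((⟨φ, hd⟩ : A.decompositionSubgroup ℚ) ^ m) • x = x ^ q ^ m := by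
    intro m
    induction m with
    | zero => simp
    | succ m ih => rw [pow_succ', mul_smul, ih, hfr, ← pow_mul, ← pow_succ]
  exact key f

end Equivariance

/-- The toric part, for the level written as `1 * p`. -/
theorem exists_toric_aux {p : ℕ} [Fact p.Prime] {P : ValuationSubring ℚbar}
    (hP : P.LiesOverPrime p) (N : ℕ) (hN : N = 1 * p) :
    ∃ f : ℕ, 0 < f ∧ ∀ n : ℕ, ¬ p ∣ n →
      ∃ G : AddSubgroup (JZero N), G ≤ (torsSub N n).carrier ∧
        (∀ σ ∈ P.inertiaSubgroupIn ℚ, ∀ x : JZero N, n • x = 0 → σ • x - x ∈ G) ∧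
        (∀ σ ∈ P.inertiaSubgroupIn ℚ, ∀ g ∈ G, σ • g = g) ∧
        ∀ φ : Γℚ, P.IsFrobeniusAt φ p → ∀ g ∈ G, (φ ^ f) • g = (p ^ f) • g := by
  classical
  subst hN
  have hp := (Fact.out : p.Prime)
  haveI : NeZero p := ⟨hp.ne_zero⟩
  have h1 : ¬ p ∣ 1 := fun h => hp.ne_one (Nat.dvd_one.1 h)
  set R := x0Reduction h1 P hP with hR
  haveI : IsAlgClosed (ResidueField P) :=
    (Igusa.x0GoodReduction (N := 1) (ℓ := p) h1 hP).isAlgClosed_residue
  haveI : CharP (ResidueField P) p := by
    refine (CharP.charP_iff_prime_eq_zero hp).2 ?_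
    rw [← map_natCast (residue P) p, IsLocalRing.residue_eq_zero_iff, ← P.coe_mem_nonunits_iff]
    exact hP
  have hA := rankLeOne_of_liesOverPrime hp hP
  obtain ⟨B, hreg, hmeets, N₀, hZ⟩ := exists_conductor_proof h1 P hP
  let G := Gluing.ofVanishing R B hreg hmeets ⟨N₀, hZ⟩
  have hsn : G.IsSeminormal := Gluing.ofVanishing_isSeminormal R B hreg hmeets ⟨N₀, hZ⟩
  choose e he hfix using fun b : Σ _ : Fin 2, Place (ResidueField P) (X0Res 1 P) =>
    exists_fixed_power (p := p) (MW.exists_pow_pow_eq hP) b.2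
  refine ⟨∏ b ∈ B, e b, Finset.prod_pos fun b _ => he b, fun n hn => ?_⟩
  set f := ∏ b ∈ B, e b with hf
  have hn' : (n : ResidueField P) ≠ 0 := fun h => hn ((CharP.cast_eq_zero_iff _ p n).1 h)
  have htors : goodTorsion G n ≤ (torsSub (1 * p) n).carrier := by
    rw [goodTorsion, AddSubgroup.closure_le]
    rintro c ⟨D, g, N', z, rfl, hnf, -⟩
    rw [SetLike.mem_coe, mem_torsSub]
    have h := (Pic0.mem_torsion).1 (IsComponentTrivial.mem_torsion (R := R) ⟨D, g, rfl, hnf⟩)
    rwa [natCast_zsmul] at h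
  refine ⟨goodTorsion G n, htors, fun σ hσ x hx => ?_, fun σ hσ g hg => ?_, fun φ hφ g hg => ?_⟩
  · rw [galois_smul_pic0_def]
    exact (hsn.isGood G hn' ((isInertial_galois h1 P hP hσ).isComponentTrivial_smul_sub hn'
      (Pic0.mem_torsion.2 (by rw [natCast_zsmul]; exact hx)))).mem_goodTorsion
  · rw [galois_smul_pic0_def]
    exact (isInertial_galois h1 P hP hσ).smul_eq_self G hA p hn' hg
  · have hd : φ ^ f ∈ P.decompositionSubgroup ℚ := pow_mem hφ.mem_decompositionSubgroup f
    have hs : ∀ x, ES.residueAut P hd x = x ^ p ^ f := residueAut_pow P hP hφ f hd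
    let S := decompAut h1 P hP hd
    have hfb : ∀ b : ↥G.B, S.mapBranch b = b := by
      rintro ⟨⟨i, v⟩, hb⟩
      refine Sigma.ext rfl (heq_of_eq ?_)
      obtain ⟨m, hm⟩ : e ⟨i, v⟩ ∣ f := Finset.dvd_prod_of_mem e hb
      have hv := hfix ⟨i, v⟩ m (ES.residueAut P hd) (fun x => by rw [hs, hm])
      refine Eq.trans ?_ hv
      ext1
      ext z
      show (ES.coeffRingAut 1 (ES.residueAut P hd)).symm z ∈ v.toValuationSubring ↔ _
      rw [SemilinearAut.smul_toValuationSubring,
        ValuationSubring.mem_pointwise_smul_iff_inv_smul_mem]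
      rfl
    let Q : S.Preserves G :=
      { e := Equiv.refl _
        coe_e := fun b => (hfb b).symm
        pt_compat := fun b b' h => h }
    obtain ⟨γ, hγ⟩ : ∃ γ, gluingHom G hn' ⟨g, hg⟩ = G.mkData γ := by
      obtain ⟨γ, hγ⟩ := QuotientGroup.mk_surjective (Additive.toMul (gluingHom G hn' ⟨g, hg⟩))
      exact ⟨γ, by rw [Gluing.mkData, hγ]; rfl⟩
    have hon : Q.onValues G γ = γ ^ (p ^ f) := funext fun b => Units.ext (by
      rw [Pi.pow_apply, Units.val_pow_eq_pow_val]
      exact hs _)
    have hmem := Q.smul_mem_goodTorsion G hn' hg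
    have key : (⟨S.g • g, hmem⟩ : goodTorsion G n) = (p ^ f) • ⟨g, hg⟩ := by
      apply gluingHom_injective G hA p hn'
      rw [Q.gluingHom_smul G hn' hg hγ, map_nsmul, hγ, hon]
      rfl
    rw [galois_smul_pic0_def]
    exact congrArg Subtype.val key

/-- The toric part of the torsion at `p`, from the gluing map. -/
theorem exists_toric_proof {p : ℕ} [Fact p.Prime] {P : ValuationSubring ℚbar}
    (hP : P.LiesOverPrime p) :
    ∃ f : ℕ, 0 < f ∧ ∀ n : ℕ, ¬ p ∣ n →
      ∃ G : AddSubgroup (JZero p), G ≤ (torsSub p n).carrier ∧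
        (∀ σ ∈ P.inertiaSubgroupIn ℚ, ∀ x : JZero p, n • x = 0 → σ • x - x ∈ G) ∧
        (∀ σ ∈ P.inertiaSubgroupIn ℚ, ∀ g ∈ G, σ • g = g) ∧
        ∀ φ : Γℚ, P.IsFrobeniusAt φ p → ∀ g ∈ G, (φ ^ f) • g = (p ^ f) • g :=
  exists_toric_aux hP p (one_mul p).symm

end Fermat.Agent.Mazur

end
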