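/-
The second and fourth logarithmic derivatives of Tate's series `X(u, q)`.
-/
import Fermat.Agent.Tate.Eval.Symmetry

set_option autoImplicit false

noncomputable section

namespace Fermat.Agent.Mazur

open AddMonoidAlgebra Fermat.Agent.Tate

/-- `(u d/du)^k` of the tail of `X`. -/
def dTail : ℕ → LPS
  | 0 => tailX
  | k + 1 => sθ (dTail k)

theorem dTail_succ (k : ℕ) : dTail (k + 1) = sθ (dTail k) := rfl

theorem coeff_dTail (k j : ℕ) (m : ℤ) :
    (PowerSeries.coeff j (dTail k)).coeff m = m ^ k * (PowerSeries.coeff j tailX).coeff m := by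
  induction k with
  | zero => simp [dTail]
  | succ k ih =>
    rw [dTail_succ, coeff_sEuler, coeff_euler, ih, AddMonoidHom.id_apply, pow_succ]
    ring

theorem θ_dP : θ dP = wP + 2 := by
  rw [dP, map_sub, θ_um, θ_um, wP]
  simp

theorem θ_two : θ (2 : LP) = 0 := by
  rw [show (2 : LP) = single 0 2 from rfl, euler_single]
  simp

local notation "W" => (PowerSeries.C wP : LPS)

local notation "D" => (PowerSeries.C dP : LPS)

theorem C_wP_add_two : PowerSeries.C (wP + 2 : LP) = W + 2 := by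
  rw [map_add, map_ofNat]

theorem sθ_W : sθ W = D := by rw [sEuler_C, θ_wP]

theorem sθ_D : sθ D = W + 2 := by rw [sEuler_C, θ_dP, C_wP_add_two]

theorem sθ_natCast' (n : ℕ) : sθ (n : LPS) = 0 := sEuler_natCast _ n

theorem D_sq : D ^ 2 = W ^ 2 + 4 * W := by
  rw [← map_pow, dP_sq, map_add, map_mul, map_pow, map_ofNat]

/-- `u d/du (X) = Z`, cleared. -/
theorem W_mul_sθ_hatX : W * sθ hatX = hatZ + D * hatX := by
  rw [hatZ]; ring

/-- `(u d/du)^2 X = 6 X² + X + 2 a₄`, cleared. -/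
theorem dd_formal :
    W ^ 2 * dTail 2 + W + 6 = 6 * hatX ^ 2 + W * hatX + 2 * cs a4s * W ^ 2 := by
  have hW : W ≠ 0 := C_wP_ne_zero
  have h := sθ_hatZ
  have hs : sθ hatZ = -(W + 2) + 2 * W * D * dTail 1 + W ^ 2 * dTail 2 := by
    rw [hatZ_eq, map_add, map_neg, sθ_D, sEuler_mul, sEuler_sq, sθ_W]
    simp only [dTail]
    ring
  rw [hs, hatZ_eq] at h
  simp only [dTail] at h ⊢
  refine mul_left_cancel₀ hW ?_
  linear_combination h - 2 * D_sq

/-- `(u d/du)^4 X` as a polynomial in `X`, cleared. -/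
theorem dddd_formal :
    12 * hatZ ^ 2 + W * (12 * hatX + W) * (6 * hatX ^ 2 + W * hatX + 2 * cs a4s * W ^ 2) =
      W ^ 3 + 30 * W ^ 2 + 120 * W + W ^ 4 * dTail 4 := by
  have h2' : sθ (2 : LPS) = 0 := by exact_mod_cast sθ_natCast' 2
  have h4' : sθ (4 : LPS) = 0 := by exact_mod_cast sθ_natCast' 4
  have h6' : sθ (6 : LPS) = 0 := by exact_mod_cast sθ_natCast' 6
  have h12' : sθ (12 : LPS) = 0 := by exact_mod_cast sθ_natCast' 12
  have e1 : 2 * W * D * dTail 2 + W ^ 2 * dTail 3 + D =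
      12 * hatX * sθ hatX + W * sθ hatX + D * hatX + 4 * cs a4s * W * D := by
    have h := congrArg sθ dd_formal
    simp only [map_add, sEuler_mul, sEuler_sq, sθ_W, sθ_cs, h2', h6', zero_mul, zero_add,
      add_zero, mul_zero] at h
    simp only [dTail] at h ⊢
    linear_combination h
  have e2 : 2 * (D ^ 2 + W * (W + 2)) * dTail 2 + 4 * W * D * dTail 3 + W ^ 2 * dTail 4 + (W + 2) =
      12 * sθ hatX ^ 2 + (12 * hatX + W) * sθ (sθ hatX) + 2 * D * sθ hatX + (W + 2) * hatX
        + 4 * cs a4s * (D ^ 2 + W * (W + 2)) := by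
    have h := congrArg sθ e1
    simp only [map_add, sEuler_mul, sEuler_sq, sθ_W, sθ_D, sθ_cs, h2', h4', h12', zero_mul,
      zero_add, add_zero, mul_zero] at h
    simp only [dTail] at h ⊢
    linear_combination h
  have hX := W_mul_sθ_hatX
  have h2 : W ^ 2 * sθ (sθ hatX) = 2 * D * hatZ
      + W * (6 * hatX ^ 2 + W * hatX + 2 * cs a4s * W ^ 2) + W * (W + 2) * hatX := by
    have h := congrArg sθ hX
    simp only [map_add, sEuler_mul, sθ_W, sθ_D] at h
    linear_combination W * h + sθ_hatZ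
  linear_combination (-1 : LPS) * W ^ 2 * e2 + 4 * D * W * e1
    - (6 * D ^ 2 - 2 * W ^ 2 - 4 * W) * dd_formal
    - (12 * (W * sθ hatX + hatZ + D * hatX) + 2 * D * W - 4 * D * (12 * hatX + W)) * hX
    - (12 * hatX + W) * h2 + (36 + 2 * W) * D_sq

variable {K : Type*} [NormedField K] [IsUltrametricDist K] [CompleteSpace K]
variable {q : K} {u : Kˣ}

theorem norm_evChar_le_of_support (u : Kˣ) (f : LP) {n : ℕ}
    (h : ∀ m : ℤ, f.coeff m ≠ 0 → m.natAbs ≤ n) :
    ‖evChar u f‖ ≤ max ‖(u : K)‖ ‖(u : K)‖⁻¹ ^ n := by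
  rw [← (hasSum_evChar u f).tsum_eq]
  refine IsUltrametricDist.norm_tsum_le_of_forall_le_of_nonneg (by positivity) fun m => ?_
  rcases eq_or_ne (f.coeff m) 0 with h0 | h0
  · rw [h0, Int.cast_zero, zero_mul, norm_zero]; positivity
  · exact norm_mul_le_of_le_one (IsUltrametricDist.norm_intCast_le_one K _)
      (norm_zpow_le_max u (h m h0))

theorem dTail_mem (h : InAnn q u) (k : ℕ) : dTail k ∈ convOf (evChar u) q :=
  mem_convOf_of_bound _ annRate_nonneg h.rate_lt_one fun n => by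
    rw [norm_mul, norm_pow, annRate, mul_pow, mul_comm]
    refine mul_le_mul_of_nonneg_left (norm_evChar_le_of_support u _ fun m hm => ?_) (by positivity)
    rw [coeff_dTail, coeff_tailX] at hm
    split_ifs at hm with h0 h1
    · omega
    · exact Nat.divisor_le h1
    · simp at hm

/-- The value of the tail of `(u d/du)^k X`. -/
def tailDVal (k : ℕ) (q : K) (u : Kˣ) : K :=
  ∑' n, evChar u (PowerSeries.coeff n (dTail k)) * q ^ n

theorem valOf_dTail (h : InAnn q u) (k : ℕ) :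
    valOf (evChar u) q ⟨dTail k, dTail_mem h k⟩ = tailDVal k q u :=
  valOf_apply _ _ _

/-- The singular part of `(u d/du)^2 X`. -/
def sing2 (u : Kˣ) : K := (wVal u + 6) / wVal u ^ 2

/-- The singular part of `(u d/du)^4 X`. -/
def sing4 (u : Kˣ) : K := 1 / wVal u + 30 / wVal u ^ 2 + 120 / wVal u ^ 3

/-- `(u d/du)^2 X` at `u`. -/
def tateT (q : K) (u : Kˣ) : K := sing2 u + tailDVal 2 q u

/-- `(u d/du)^4 X` at `u`. -/
def tateV (q : K) (u : Kˣ) : K := sing4 u + tailDVal 4 q u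

theorem tateT_eq (hq : ‖q‖ < 1) (h : InAnn q u) (hu : u ≠ 1) :
    tateT q u = 6 * tateX q u ^ 2 + tateX q u + 2 * a4Val hq := by
  let X' : convOf (evChar u) q := ⟨hatX, hatX_mem h⟩
  let W' : convOf (evChar u) q := ⟨_, C_mem_convOf _ _ wP⟩
  let A' : convOf (evChar u) q := ⟨cs a4s, map_intCast_mem_convOf _ hq a4s⟩
  let T' : convOf (evChar u) q := ⟨dTail 2, dTail_mem h 2⟩
  have e : W' ^ 2 * T' + W' + 6 = 6 * X' ^ 2 + W' * X' + 2 * A' * W' ^ 2 := by
    refine Subtype.ext ?_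
    simp only [Subring.coe_add, Subring.coe_mul, Subring.coe_pow]
    exact dd_formal
  have hA : valOf (evChar u) q A' = a4Val hq := valOf_map_intCast _ hq _
  have hW : valOf (evChar u) q W' = wVal u := by rw [valOf_C, evChar_wP]
  have e' := congrArg (valOf (evChar u) q) e
  simp only [map_add, map_mul, map_pow, map_ofNat, hA, hW, X', T', valOf_hatX' h hu,
    valOf_dTail h] at e'
  have hw := wVal_ne_zero hu
  rw [tateT, sing2]
  field_simp
  linear_combination e'

theorem tateV_eq (hq : ‖q‖ < 1) (h : InAnn q u) (hu : u ≠ 1) :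
    tateV q u = 12 * tateZ q u ^ 2 + (12 * tateX q u + 1) * tateT q u := by
  let X' : convOf (evChar u) q := ⟨hatX, hatX_mem h⟩
  let Z' : convOf (evChar u) q := ⟨hatZ, hatZ_mem h⟩
  let W' : convOf (evChar u) q := ⟨_, C_mem_convOf _ _ wP⟩
  let A' : convOf (evChar u) q := ⟨cs a4s, map_intCast_mem_convOf _ hq a4s⟩
  let T' : convOf (evChar u) q := ⟨dTail 4, dTail_mem h 4⟩
  have e : 12 * Z' ^ 2 + W' * (12 * X' + W') * (6 * X' ^ 2 + W' * X' + 2 * A' * W' ^ 2) =
      W' ^ 3 + 30 * W' ^ 2 + 120 * W' + W' ^ 4 * T' := by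
    refine Subtype.ext ?_
    simp only [Subring.coe_add, Subring.coe_mul, Subring.coe_pow]
    exact dddd_formal
  have hA : valOf (evChar u) q A' = a4Val hq := valOf_map_intCast _ hq _
  have hW : valOf (evChar u) q W' = wVal u := by rw [valOf_C, evChar_wP]
  have e' := congrArg (valOf (evChar u) q) e
  simp only [map_add, map_mul, map_pow, map_ofNat, hA, hW, X', Z', T', valOf_hatX' h hu,
    valOf_hatZ' h hu, valOf_dTail h] at e'
  have hw := wVal_ne_zero hu
  rw [tateT_eq hq h hu, tateV, sing4]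
  linear_combination (norm := (field_simp; ring)) (-1 / wVal u ^ 4) * e'

end Fermat.Agent.Mazur
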