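/-
Velu sums over the subgroups of order `p` of a Tate curve.
-/
import Fermat.Agent.Mazur.ModuliTateDeriv
import Fermat.Agent.Tate.Eval.Uniformisation
import Mathlib.NumberTheory.ArithmeticFunction.Misc
import Mathlib.NumberTheory.TsumDivisorsAntidiagonal
import Mathlib.RingTheory.RootsOfUnity.PrimitiveRoots
import Mathlib.Tactic.FieldSimp
import Mathlib.Algebra.BigOperators.Field

set_option autoImplicit false

noncomputable section

namespace Fermat.Agent.Mazur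

open AddMonoidAlgebra Fermat.Agent.Tate

/-! ### Power sums -/

section powerSums

variable {K : Type*} [Field K] [CharZero K]

theorem sum_range_powers (n : ℕ) :
    ∑ j ∈ Finset.range n, (j : K) = n * (n - 1) / 2 ∧
    ∑ j ∈ Finset.range n, (j : K) ^ 2 = n * (n - 1) * (2 * n - 1) / 6 ∧
    ∑ j ∈ Finset.range n, (j : K) ^ 3 = (n * (n - 1) / 2) ^ 2 ∧
    ∑ j ∈ Finset.range n, (j : K) ^ 4 =
      n * (n - 1) * (2 * n - 1) * (3 * n ^ 2 - 3 * n - 1) / 30 ∧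
    ∑ j ∈ Finset.range n, (j : K) ^ 5 =
      n ^ 2 * (n - 1) ^ 2 * (2 * n ^ 2 - 2 * n - 1) / 12 ∧
    ∑ j ∈ Finset.range n, (j : K) ^ 6 =
      n * (n - 1) * (2 * n - 1) * (3 * n ^ 4 - 6 * n ^ 3 + 3 * n + 1) / 42 := by
  induction n with
  | zero => simp
  | succ n ih =>
    obtain ⟨h1, h2, h3, h4, h5, h6⟩ := ih
    refine ⟨?_, ?_, ?_, ?_, ?_, ?_⟩ <;>
      · rw [Finset.sum_range_succ]
        simp only [h1, h2, h3, h4, h5, h6]
        push_cast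
        ring

variable {p : ℕ} {ξ : K}

/-- A root of unity times a sum against a periodic function. -/
theorem w_mul_sum (hp : p ≠ 0) (hξ : ξ ^ p = 1) (Q : ℤ → K) (hQ : Q p = Q 0) :
    (ξ + ξ⁻¹ - 2) * ∑ j ∈ Finset.range p, Q j * ξ ^ j =
      ∑ j ∈ Finset.range p, (Q (j + 1) - 2 * Q j + Q (j - 1)) * ξ ^ j
        + (Q (p - 1) - Q (-1)) := by
  have hξ0 : ξ ≠ 0 := by
    rintro rfl
    rw [zero_pow hp] at hξ
    exact zero_ne_one hξ
  obtain ⟨n, rfl⟩ := Nat.exists_eq_succ_of_ne_zero hp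
  have e1 : ∑ j ∈ Finset.range (n + 1), Q (j + 1) * ξ ^ j =
      ξ⁻¹ * ∑ j ∈ Finset.range (n + 1), Q j * ξ ^ j := by
    rw [eq_inv_mul_iff_mul_eq₀ hξ0, Finset.mul_sum, Finset.sum_range_succ,
      Finset.sum_range_succ' (fun j : ℕ => Q j * ξ ^ j)]
    push_cast at hQ ⊢
    rw [hQ]
    congr 1
    · exact Finset.sum_congr rfl fun j _ => by rw [pow_succ]; ring
    · rw [pow_zero, mul_one, mul_comm ξ, mul_assoc, ← pow_succ, hξ, mul_one]
  have e2 : ∑ j ∈ Finset.range (n + 1), Q (j - 1) * ξ ^ j =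
      ξ * ∑ j ∈ Finset.range (n + 1), Q j * ξ ^ j - (Q ((n + 1 : ℕ) - 1) - Q (-1)) := by
    rw [Finset.mul_sum, Finset.sum_range_succ' (fun j : ℕ => Q ((j : ℤ) - 1) * ξ ^ j),
      Finset.sum_range_succ (fun j : ℕ => ξ * (Q j * ξ ^ j)),
      show ∑ j ∈ Finset.range n, ξ * (Q j * ξ ^ j) =
        ∑ j ∈ Finset.range n, Q (((j + 1 : ℕ) : ℤ) - 1) * ξ ^ (j + 1) from
      Finset.sum_congr rfl fun j _ => by push_cast; rw [add_sub_cancel_right, pow_succ]; ring]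
    push_cast
    rw [show ξ * (Q (n : ℤ) * ξ ^ n) = Q n * ξ ^ (n + 1) by rw [pow_succ]; ring, hξ]
    simp only [zero_sub, add_sub_cancel_right, pow_zero, mul_one]
    ring
  simp only [add_mul, sub_mul, Finset.sum_add_distrib, Finset.sum_sub_distrib, e1, e2,
    mul_assoc, ← Finset.mul_sum]
  ring

/-- First periodic antiderivative. -/
def per1 (p : ℕ) (j : ℤ) : K := (j : K) * (p - j) / (2 * p)

/-- Second periodic antiderivative. -/
def per2 (p : ℕ) (j : ℤ) : K :=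
  -(((j : K) * (p - j)) ^ 2 + 2 * ((j : K) * (p - j))) / (24 * p)

/-- Third periodic antiderivative. -/
def per3 (p : ℕ) (j : ℤ) : K :=
  (((j : K) * (p - j)) ^ 3 + (15 + (p : K) ^ 2) / 2 * ((j : K) * (p - j)) ^ 2
    + 12 * ((j : K) * (p - j))) / (720 * p)

theorem sum_zero_of_root (hξ : ξ ^ p = 1) (h1 : ξ ≠ 1) :
    ∑ j ∈ Finset.range p, ξ ^ j = 0 := by
  have := geom_sum_mul ξ p
  rw [hξ, sub_self] at this
  exact (mul_eq_zero.1 this).resolve_right (sub_ne_zero.2 h1)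

/-- `1/w`, `1/w²`, `1/w³` at a root of unity as linear combinations of its powers. -/
theorem inv_w_eq (hp : p ≠ 0) (hξ : ξ ^ p = 1) (h1 : ξ ≠ 1) :
    (∑ j ∈ Finset.range p, per1 p j * ξ ^ j) = (ξ + ξ⁻¹ - 2)⁻¹ ∧
    (∑ j ∈ Finset.range p, per2 p j * ξ ^ j) = ((ξ + ξ⁻¹ - 2) ^ 2)⁻¹ ∧
    (∑ j ∈ Finset.range p, per3 p j * ξ ^ j) = ((ξ + ξ⁻¹ - 2) ^ 3)⁻¹ := by
  have hp0 : (p : K) ≠ 0 := Nat.cast_ne_zero.2 hp
  have h0 := sum_zero_of_root hξ h1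
  have key : ∀ (Q R : ℤ → K) (c : K), Q p = Q 0 →
      (∀ j : ℤ, Q (j + 1) - 2 * Q j + Q (j - 1) = R j + c) →
      (ξ + ξ⁻¹ - 2) * ∑ j ∈ Finset.range p, Q j * ξ ^ j =
        ∑ j ∈ Finset.range p, R j * ξ ^ j + (Q (p - 1) - Q (-1)) := by
    intro Q R c hQ hR
    rw [w_mul_sum hp hξ Q hQ]
    congr 1
    simp only [hR, add_mul, Finset.sum_add_distrib, ← Finset.mul_sum, h0, mul_zero, add_zero]
  have k1 := key (per1 p) 0 (-1 / p) (by simp [per1])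
    (fun j => by simp only [per1, Pi.zero_apply]; push_cast; field_simp; ring)
  have k2 := key (per2 p) (per1 p) (-(2 * (p : K) ^ 2 - 2) / (24 * p)) (by simp [per2])
    (fun j => by simp only [per1, per2]; push_cast; field_simp; ring)
  have k3 := key (per3 p) (per2 p)
    ((-(2 + 6 * (p : K) ^ 2) + (15 + (p : K) ^ 2) / 2 * (2 + 2 * (p : K) ^ 2) - 24) / (720 * p))
    (by simp [per3])
    (fun j => by simp only [per2, per3]; push_cast; field_simp; ring)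
  have c1 : per1 p ((p : ℤ) - 1) - per1 p (-1) = (1 : K) := by
    simp only [per1]; push_cast; field_simp; ring
  have c2 : per2 p ((p : ℤ) - 1) - per2 p (-1) = (0 : K) := by
    simp only [per2]; push_cast; field_simp; ring
  have c3 : per3 p ((p : ℤ) - 1) - per3 p (-1) = (0 : K) := by
    simp only [per3]; push_cast; field_simp; ring
  rw [c1, Pi.zero_def] at k1
  simp only [zero_mul, Finset.sum_const_zero, zero_add] at k1
  rw [c2, add_zero] at k2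
  rw [c3, add_zero] at k3
  have e1 := eq_inv_of_mul_eq_one_right k1
  rw [e1] at k2
  have hw : ξ + ξ⁻¹ - 2 ≠ 0 := left_ne_zero_of_mul_eq_one k1
  have e2 : (∑ j ∈ Finset.range p, per2 p j * ξ ^ j) = ((ξ + ξ⁻¹ - 2) ^ 2)⁻¹ := by
    apply mul_left_cancel₀ hw
    rw [k2]
    field_simp
  refine ⟨e1, e2, ?_⟩
  apply mul_left_cancel₀ hw
  rw [k3, e2]
  field_simp

/-- Sum over the nontrivial powers of a primitive root of a combination of powers. -/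
theorem sum_root_powers (hp : p ≠ 0) {ζ : K} (hζ : IsPrimitiveRoot ζ p) (Q : ℤ → K) :
    ∑ k ∈ Finset.Ico 1 p, ∑ j ∈ Finset.range p, Q j * (ζ ^ k) ^ j =
      p * Q 0 - ∑ j ∈ Finset.range p, Q j := by
  classical
  have hall : ∑ k ∈ Finset.range p, ∑ j ∈ Finset.range p, Q j * (ζ ^ k) ^ j = p * Q 0 := by
    rw [Finset.sum_comm, Finset.sum_eq_single 0]
    · simp
    · intro j hj hj0
      rw [← Finset.mul_sum, show (∑ k ∈ Finset.range p, (ζ ^ k) ^ j) =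
        ∑ k ∈ Finset.range p, (ζ ^ j) ^ k from Finset.sum_congr rfl fun k _ => by
          rw [← pow_mul, ← pow_mul, mul_comm]]
      rw [sum_zero_of_root (by rw [← pow_mul, mul_comm, pow_mul, hζ.pow_eq_one, one_pow])
        (hζ.pow_ne_one_of_pos_of_lt hj0 (Finset.mem_range.1 hj)), mul_zero]
    · intro h
      simp [hp] at h
  rw [← hall, Finset.range_eq_Ico, Finset.sum_eq_sum_Ico_succ_bot (Nat.pos_of_ne_zero hp)]
  simp

/-- The constant terms of the Velu sums over `μ_p`. -/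
theorem sum_sing_roots (hp : p ≠ 0) {ζ : K} (hζ : IsPrimitiveRoot ζ p) :
    (∑ k ∈ Finset.Ico 1 p,
        (((ζ ^ k) + (ζ ^ k)⁻¹ - 2 + 6) / ((ζ ^ k) + (ζ ^ k)⁻¹ - 2) ^ 2)) = ((p : K) ^ 4 - 1) / 120 ∧
    (∑ k ∈ Finset.Ico 1 p,
        (1 / ((ζ ^ k) + (ζ ^ k)⁻¹ - 2) + 30 / ((ζ ^ k) + (ζ ^ k)⁻¹ - 2) ^ 2
          + 120 / ((ζ ^ k) + (ζ ^ k)⁻¹ - 2) ^ 3)) = (1 - (p : K) ^ 6) / 252 := by
  have hp0 : (p : K) ≠ 0 := Nat.cast_ne_zero.2 hp
  have hk : ∀ k ∈ Finset.Ico 1 p,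
      (∑ j ∈ Finset.range p, per1 p j * (ζ ^ k) ^ j) = ((ζ ^ k) + (ζ ^ k)⁻¹ - 2)⁻¹ ∧
      (∑ j ∈ Finset.range p, per2 p j * (ζ ^ k) ^ j) = (((ζ ^ k) + (ζ ^ k)⁻¹ - 2) ^ 2)⁻¹ ∧
      (∑ j ∈ Finset.range p, per3 p j * (ζ ^ k) ^ j) = (((ζ ^ k) + (ζ ^ k)⁻¹ - 2) ^ 3)⁻¹ := by
    intro k hk
    obtain ⟨hk1, hk2⟩ := Finset.mem_Ico.1 hk
    exact inv_w_eq hp (by rw [← pow_mul, mul_comm, pow_mul, hζ.pow_eq_one, one_pow])
      (hζ.pow_ne_one_of_pos_of_lt (by omega) hk2)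
  have hw : ∀ k ∈ Finset.Ico 1 p, (ζ ^ k) + (ζ ^ k)⁻¹ - 2 ≠ 0 := by
    intro k hk'
    obtain ⟨hk1, hk2⟩ := Finset.mem_Ico.1 hk'
    have hne : ζ ^ k ≠ 0 := pow_ne_zero _ (hζ.ne_zero hp)
    rw [show (ζ ^ k) + (ζ ^ k)⁻¹ - 2 = (ζ ^ k - 1) ^ 2 / ζ ^ k by field_simp; ring]
    exact div_ne_zero (pow_ne_zero _ (sub_ne_zero.2
      (hζ.pow_ne_one_of_pos_of_lt (by omega) hk2))) hne
  have s1 : ∑ k ∈ Finset.Ico 1 p, ((ζ ^ k) + (ζ ^ k)⁻¹ - 2)⁻¹ =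
      -∑ j ∈ Finset.range p, (per1 p j : K) := by
    rw [← Finset.sum_congr rfl fun k hk' => (hk k hk').1, sum_root_powers hp hζ]
    simp [per1]
  have s2 : ∑ k ∈ Finset.Ico 1 p, (((ζ ^ k) + (ζ ^ k)⁻¹ - 2) ^ 2)⁻¹ =
      -∑ j ∈ Finset.range p, (per2 p j : K) := by
    rw [← Finset.sum_congr rfl fun k hk' => (hk k hk').2.1, sum_root_powers hp hζ]
    simp [per2]
  have s3 : ∑ k ∈ Finset.Ico 1 p, (((ζ ^ k) + (ζ ^ k)⁻¹ - 2) ^ 3)⁻¹ =
      -∑ j ∈ Finset.range p, (per3 p j : K) := by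
    rw [← Finset.sum_congr rfl fun k hk' => (hk k hk').2.2, sum_root_powers hp hζ]
    simp [per3]
  obtain ⟨h1, h2, h3, h4, h5, h6⟩ := sum_range_powers (K := K) p
  have z1 : ∑ j ∈ Finset.range p, ((j : K) * (p - j)) =
      p * (p * (p - 1) / 2) - (p : K) * (p - 1) * (2 * p - 1) / 6 := by
    rw [← h1, ← h2, Finset.mul_sum, ← Finset.sum_sub_distrib]
    exact Finset.sum_congr rfl fun j _ => by ring
  have z2 : ∑ j ∈ Finset.range p, ((j : K) * (p - j)) ^ 2 =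
      (p : K) ^ 2 * ((p : K) * (p - 1) * (2 * p - 1) / 6)
        - 2 * p * ((p : K) * (p - 1) / 2) ^ 2
        + (p : K) * (p - 1) * (2 * p - 1) * (3 * (p : K) ^ 2 - 3 * p - 1) / 30 := by
    rw [← h2, ← h3, ← h4, Finset.mul_sum, Finset.mul_sum, ← Finset.sum_sub_distrib,
      ← Finset.sum_add_distrib]
    exact Finset.sum_congr rfl fun j _ => by ring
  have z3 : ∑ j ∈ Finset.range p, ((j : K) * (p - j)) ^ 3 =
      (p : K) ^ 3 * ((p : K) * (p - 1) / 2) ^ 2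
        - 3 * (p : K) ^ 2 * ((p : K) * (p - 1) * (2 * p - 1) * (3 * (p : K) ^ 2 - 3 * p - 1) / 30)
        + 3 * p * ((p : K) ^ 2 * (p - 1) ^ 2 * (2 * (p : K) ^ 2 - 2 * p - 1) / 12)
        - (p : K) * (p - 1) * (2 * p - 1) * (3 * (p : K) ^ 4 - 6 * (p : K) ^ 3 + 3 * p + 1) / 42 := by
    rw [← h3, ← h4, ← h5, ← h6, Finset.mul_sum, Finset.mul_sum, Finset.mul_sum,
      ← Finset.sum_sub_distrib, ← Finset.sum_add_distrib, ← Finset.sum_sub_distrib]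
    exact Finset.sum_congr rfl fun j _ => by ring
  simp only [per1, per2, per3, Int.cast_natCast, ← Finset.sum_div, neg_add, Finset.sum_add_distrib,
    Finset.sum_neg_distrib, ← Finset.mul_sum, z1, z2, z3] at s1 s2 s3
  constructor
  · rw [show (∑ k ∈ Finset.Ico 1 p,
        (((ζ ^ k) + (ζ ^ k)⁻¹ - 2 + 6) / ((ζ ^ k) + (ζ ^ k)⁻¹ - 2) ^ 2)) =
      ∑ k ∈ Finset.Ico 1 p, (((ζ ^ k) + (ζ ^ k)⁻¹ - 2)⁻¹
        + 6 * (((ζ ^ k) + (ζ ^ k)⁻¹ - 2) ^ 2)⁻¹) from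
      Finset.sum_congr rfl fun k hk' => by have := hw k hk'; field_simp,
      Finset.sum_add_distrib, ← Finset.mul_sum, s1, s2]
    field_simp
    ring
  · simp only [div_eq_mul_inv, one_mul, Finset.sum_add_distrib, ← Finset.mul_sum]
    rw [s1, s2, s3]
    field_simp
    ring

end powerSums

end Fermat.Agent.Mazur
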