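/-
Velu sums over the subgroups of order `p` of a Tate curve, II: the Lambert series.
-/
import Fermat.Agent.Mazur.ModuliTateSums

set_option autoImplicit false

noncomputable section

namespace Fermat.Agent.Mazur

open AddMonoidAlgebra Fermat.Agent.Tate

/-- `∑ σ_k(n) q^n`. -/
def sigSeries (k : ℕ) : PowerSeries ℤ :=
  PowerSeries.mk fun n => ∑ m ∈ n.divisors, (m : ℤ) ^ k

theorem c₄_tateCurveSeries : tateCurveSeries.c₄ = 1 + 240 * sigSeries 3 := by
  simp only [tateCurveSeries, WeierstrassCurve.c₄, WeierstrassCurve.b₂, WeierstrassCurve.b₄, a4s,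
    show (s3 : PowerSeries ℤ) = sigSeries 3 from rfl]
  ring

theorem twelve_s53 : (12 : PowerSeries ℤ) * s53 = sigSeries 5 - sigSeries 3 := by
  ext n
  rw [show (12 : PowerSeries ℤ) = PowerSeries.C (12 : ℤ) from (map_ofNat PowerSeries.C 12).symm,
    PowerSeries.coeff_C_mul, map_sub]
  simp only [sigSeries, s53, PowerSeries.coeff_mk, Finset.mul_sum, ← Finset.sum_sub_distrib]
  refine Finset.sum_congr rfl fun m _ => ?_
  linear_combination (m : ℤ) * twelve_mul_kCoeff m

theorem c₆_tateCurveSeries : tateCurveSeries.c₆ = -1 + 504 * sigSeries 5 := by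
  simp only [tateCurveSeries, WeierstrassCurve.c₆, WeierstrassCurve.b₂, WeierstrassCurve.b₄,
    WeierstrassCurve.b₆, a4s, a6s, show (s3 : PowerSeries ℤ) = sigSeries 3 from rfl]
  linear_combination (504 : PowerSeries ℤ) * twelve_s53

variable {K : Type*} [NormedField K] [IsUltrametricDist K] [CompleteSpace K] [CharZero K]

/-- The value of `∑ σ_k(n) x^n`. -/
def lam (k : ℕ) {x : K} (hx : ‖x‖ < 1) : K := intEval hx (sigSeries k)

theorem hasSum_sigma (k : ℕ) {x : K} (hx : ‖x‖ < 1) :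
    HasSum (fun n : ℕ => ((∑ m ∈ n.divisors, (m : K) ^ k) * x ^ n)) (lam k hx) := by
  rw [lam, intEval_apply]
  refine (((intSeries_mem hx (sigSeries k)).congr fun n => by simp [intSeries]).hasSum).congr_fun
    fun n => ?_
  simp [sigSeries]

/-- The double sum `∑_{m, l ≥ 1} m^k x^(m l)`. -/
theorem hasSum_lambert (k : ℕ) {x : K} (hx : ‖x‖ < 1) :
    HasSum (fun c : ℕ × ℕ => ((c.1 + 1 : ℕ) : K) ^ k * x ^ ((c.1 + 1) * (c.2 + 1))) (lam k hx) := by
  classical
  have hs : Summable (fun c : ℕ × ℕ => ((c.1 + 1 : ℕ) : K) ^ k * x ^ ((c.1 + 1) * (c.2 + 1))) := by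
    refine Summable.of_norm_bounded (g := fun c => ‖x‖ ^ c.1 * ‖x‖ ^ c.2)
      ((summable_geometric_of_lt_one (norm_nonneg x) hx).mul_of_nonneg
        (summable_geometric_of_lt_one (norm_nonneg x) hx) (fun n => by positivity)
        (fun n => by positivity)) fun c => ?_
    rw [norm_mul, norm_pow, norm_pow, ← pow_add]
    refine (mul_le_of_le_one_left (by positivity)
      (pow_le_one₀ (norm_nonneg _) (IsUltrametricDist.norm_natCast_le_one K _))).trans
      (pow_le_pow_of_le_one (norm_nonneg x) hx.le ?_)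
    nlinarith [Nat.zero_le (c.1 * c.2)]
  let g : ℕ × ℕ → ℕ := fun c => (c.1 + 1) * (c.2 + 1)
  have h := hs.hasSum
  rw [← (Equiv.sigmaFiberEquiv g).hasSum_iff] at h
  have key : ∀ n, HasSum (fun c : {c : ℕ × ℕ // g c = n} =>
      ((c.1.1 + 1 : ℕ) : K) ^ k * x ^ ((c.1.1 + 1) * (c.1.2 + 1)))
      ((∑ m ∈ n.divisors, (m : K) ^ k) * x ^ n) := by
    intro n
    let T : Finset (ℕ × ℕ) := n.divisors.image fun m => (m - 1, n / m - 1)
    have hT : ∀ c, c ∈ T ↔ g c = n := by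
      intro c
      simp only [T, g, Finset.mem_image, Nat.mem_divisors]
      constructor
      · rintro ⟨m, ⟨⟨e, rfl⟩, hn⟩, rfl⟩
        have hm : 0 < m := Nat.pos_of_ne_zero (left_ne_zero_of_mul hn)
        have he : 0 < e := Nat.pos_of_ne_zero (right_ne_zero_of_mul hn)
        dsimp only
        rw [Nat.mul_div_cancel_left _ hm, Nat.sub_add_cancel hm, Nat.sub_add_cancel he]
      · intro hc
        refine ⟨c.1 + 1, ⟨⟨c.2 + 1, hc.symm⟩, by rw [← hc]; positivity⟩, ?_⟩
        rw [← hc, Nat.mul_div_cancel_left _ (Nat.succ_pos _)]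
        simp
    have hfs : HasSum (fun c : {c // c ∈ T} =>
        ((c.1.1 + 1 : ℕ) : K) ^ k * x ^ ((c.1.1 + 1) * (c.1.2 + 1)))
        ((∑ m ∈ n.divisors, (m : K) ^ k) * x ^ n) := by
      convert hasSum_fintype (fun c : {c // c ∈ T} =>
        ((c.1.1 + 1 : ℕ) : K) ^ k * x ^ ((c.1.1 + 1) * (c.1.2 + 1))) using 1
      rw [Finset.sum_coe_sort T (fun c => ((c.1 + 1 : ℕ) : K) ^ k * x ^ ((c.1 + 1) * (c.2 + 1))),
        Finset.sum_image, Finset.sum_mul]
      · refine Finset.sum_congr rfl fun m hm => ?_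
        obtain ⟨⟨e, rfl⟩, hn⟩ := Nat.mem_divisors.1 hm
        have hm : 0 < m := Nat.pos_of_ne_zero (left_ne_zero_of_mul hn)
        have he : 0 < e := Nat.pos_of_ne_zero (right_ne_zero_of_mul hn)
        dsimp only
        rw [Nat.mul_div_cancel_left _ hm, Nat.sub_add_cancel hm, Nat.sub_add_cancel he]
      · intro a ha b hb hab
        have := Nat.pos_of_mem_divisors ha
        have := Nat.pos_of_mem_divisors hb
        simp only [Prod.mk.injEq] at hab
        omega
    exact (Equiv.subtypeEquivRight hT).hasSum_iff.1 hfs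
  have h3 := h.sigma key
  rw [(hasSum_sigma k hx).unique h3]
  exact hs.hasSum

/-- Sum of the `d`-th powers of the nontrivial `p`-th roots of unity. -/
theorem sum_zpow_roots {p : ℕ} (hp : p ≠ 0) {ζ : Kˣ} (hζ : IsPrimitiveRoot (ζ : K) p) (d : ℕ) :
    ∑ k ∈ Finset.Ico 1 p, ((ζ : K) ^ k) ^ d = (if p ∣ d then (p : K) else 0) - 1 := by
  have h : ∑ k ∈ Finset.range p, ((ζ : K) ^ k) ^ d = if p ∣ d then (p : K) else 0 := by
    simp only [← pow_mul, mul_comm _ d]
    simp only [pow_mul]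
    split_ifs with hd
    · obtain ⟨e, rfl⟩ := hd
      simp [pow_mul, hζ.pow_eq_one]
    · exact sum_zero_of_root (by rw [← pow_mul, mul_comm, pow_mul, hζ.pow_eq_one, one_pow])
        (fun e => hd (hζ.dvd_of_pow_eq_one d e))
  rw [← h, Finset.range_eq_Ico, Finset.sum_eq_sum_Ico_succ_bot (Nat.pos_of_ne_zero hp)]
  simp

theorem θ_natCast_mul (m : ℕ) (x : LP) : θ ((m : LP) * x) = (m : LP) * θ x := by
  rw [← nsmul_eq_mul, map_nsmul, nsmul_eq_mul]

theorem coeff_dTail_one (n : ℕ) : PowerSeries.coeff n (dTail 1) =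
    ∑ d ∈ n.divisors, ((d : LP) ^ 2) * (um d - um (-(d : ℤ))) := by
  rw [show dTail 1 = sθ tailX from rfl, coeff_sEuler, tailX, PowerSeries.coeff_mk, map_sum]
  refine Finset.sum_congr rfl fun d _ => ?_
  rw [θ_natCast_mul, cP, map_sub, map_add, θ_um, θ_um, θ_two, zsmul_eq_mul, zsmul_eq_mul]
  push_cast
  ring

theorem coeff_dTail_even (n : ℕ) :
    PowerSeries.coeff n (dTail 2) =
      ∑ d ∈ n.divisors, ((d : LP) ^ 3) * (um d + um (-(d : ℤ))) ∧
    PowerSeries.coeff n (dTail 4) =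
      ∑ d ∈ n.divisors, ((d : LP) ^ 5) * (um d + um (-(d : ℤ))) := by
  have hsucc : ∀ (k e : ℕ) (s : ℤ),
      PowerSeries.coeff n (dTail k) =
        ∑ d ∈ n.divisors, ((d : LP) ^ e) * (um d + (s : LP) * um (-(d : ℤ))) →
      PowerSeries.coeff n (dTail (k + 1)) =
        ∑ d ∈ n.divisors, ((d : LP) ^ (e + 1)) * (um d + ((-s : ℤ) : LP) * um (-(d : ℤ))) := by
    intro k e s h
    rw [dTail_succ, coeff_sEuler, h, map_sum]
    refine Finset.sum_congr rfl fun d _ => ?_
    rw [← Nat.cast_pow, θ_natCast_mul, map_add, ← zsmul_eq_mul, map_zsmul, θ_um, θ_um,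
      zsmul_eq_mul, zsmul_eq_mul, zsmul_eq_mul]
    push_cast
    ring
  have h1 : PowerSeries.coeff n (dTail 1) =
      ∑ d ∈ n.divisors, ((d : LP) ^ 2) * (um d + ((-1 : ℤ) : LP) * um (-(d : ℤ))) := by
    rw [coeff_dTail_one]
    exact Finset.sum_congr rfl fun d _ => by push_cast; ring
  have h2 := hsucc 1 2 (-1) h1
  have h3 := hsucc 2 3 _ h2
  have h4 := hsucc 3 4 _ h3
  simp only [neg_neg, Int.cast_one, one_mul] at h2 h4
  exact ⟨h2, h4⟩

theorem norm_root_eq_one {p : ℕ} (hp : p ≠ 0) {u : K} (hu : u ^ p = 1) : ‖u‖ = 1 :=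
  (pow_eq_one_iff_of_nonneg (norm_nonneg u) hp).1 (by rw [← norm_pow, hu, norm_one])

theorem inAnn_of_norm_eq_one {q : K} (hq : ‖q‖ < 1) {u : Kˣ} (hu : ‖(u : K)‖ = 1) : InAnn q u :=
  ⟨by rwa [hu], by rwa [hu, mul_one]⟩

theorem tsum_filter_dvd (e : ℕ) {p : ℕ} (hp : p ≠ 0) {q : K} (hqp : ‖q ^ p‖ < 1) :
    HasSum (fun n : ℕ => (∑ d ∈ n.divisors with p ∣ d, (d : K) ^ e) * q ^ n)
      ((p : K) ^ e * lam e hqp) := by
  have hinj : Function.Injective (fun n : ℕ => p * n) := fun a b h =>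
    Nat.eq_of_mul_eq_mul_left (Nat.pos_of_ne_zero hp) h
  rw [← hinj.hasSum_iff]
  · refine ((hasSum_sigma e hqp).mul_left _).congr_fun fun n => ?_
    rcases eq_or_ne n 0 with rfl | hn
    · simp
    have : ({d ∈ (p * n).divisors | p ∣ d}) = n.divisors.image (p * ·) := by
      ext d
      simp only [Finset.mem_filter, Finset.mem_image, Nat.mem_divisors]
      constructor
      · rintro ⟨⟨hd, -⟩, c, rfl⟩
        exact ⟨c, ⟨(Nat.mul_dvd_mul_iff_left (Nat.pos_of_ne_zero hp)).1 hd, hn⟩, rfl⟩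
      · rintro ⟨c, ⟨hc, -⟩, rfl⟩
        exact ⟨⟨mul_dvd_mul_left p hc, mul_ne_zero hp hn⟩, dvd_mul_right p c⟩
    simp only [Function.comp, this, Finset.sum_image hinj.injOn, Nat.cast_mul, mul_pow,
      ← Finset.mul_sum, ← pow_mul]
    ring
  · intro n hn
    rw [Finset.sum_eq_zero, zero_mul]
    intro d hd
    obtain ⟨hd, c, rfl⟩ := Finset.mem_filter.1 hd
    obtain ⟨e', rfl⟩ := (Nat.mem_divisors.1 hd).1
    exact absurd ⟨c * e', (mul_assoc p c e').symm⟩ hn

/-- The tails summed over `μ_p`. -/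
theorem sum_tailDVal_roots {p : ℕ} (hp : p ≠ 0) {q : K} (hq : ‖q‖ < 1) (hqp : ‖q ^ p‖ < 1)
    {ζ : Kˣ} (hζ : IsPrimitiveRoot (ζ : K) p) {k e : ℕ}
    (hk : ∀ n, PowerSeries.coeff n (dTail k) =
      ∑ d ∈ n.divisors, ((d : LP) ^ e) * (um d + um (-(d : ℤ)))) :
    ∑ i ∈ Finset.Ico 1 p, tailDVal k q (ζ ^ i) =
      2 * ((p : K) ^ (e + 1) * lam e hqp - lam e hq) := by
  have hu : ∀ i : ℕ, ‖((ζ ^ i : Kˣ) : K)‖ = 1 := fun i => by
    refine norm_root_eq_one hp ?_
    rw [Units.val_pow_eq_pow_val, ← pow_mul, mul_comm, pow_mul, hζ.pow_eq_one, one_pow]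
  have hsum : ∀ i, HasSum (fun n => evChar (ζ ^ i) (PowerSeries.coeff n (dTail k)) * q ^ n)
      (tailDVal k q (ζ ^ i)) := fun i =>
    (show Summable fun n => evChar (ζ ^ i) (PowerSeries.coeff n (dTail k)) * q ^ n from
      ((dTail_mem (inAnn_of_norm_eq_one hq (hu i)) k).congr fun n => by simp)).hasSum
  have h1 := hasSum_sum fun i (_ : i ∈ Finset.Ico 1 p) => hsum i
  refine h1.unique ?_
  have h2 := (((tsum_filter_dvd e hp hqp).mul_left (p : K)).sub (hasSum_sigma e hq)).mul_left 2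
  rw [show 2 * ((p : K) ^ (e + 1) * lam e hqp - lam e hq) =
    2 * ((p : K) * ((p : K) ^ e * lam e hqp) - lam e hq) by ring]
  refine h2.congr_fun fun n => ?_
  rw [← Finset.sum_mul, ← mul_assoc, ← sub_mul, ← mul_assoc]
  congr 1
  simp only [hk n, map_sum, map_mul, map_pow, map_natCast, map_add, evChar_um]
  rw [Finset.sum_comm, Finset.sum_filter, Finset.mul_sum, ← Finset.sum_sub_distrib, Finset.mul_sum]
  refine Finset.sum_congr rfl fun d _ => ?_
  simp only [← Finset.mul_sum, Finset.sum_add_distrib, zpow_neg, zpow_natCast,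
    Units.val_pow_eq_pow_val]
  have e1 := sum_zpow_roots hp hζ d
  have e2 : ∑ i ∈ Finset.Ico 1 p, (((ζ : K) ^ i) ^ d)⁻¹ =
      (if p ∣ d then (p : K) else 0) - 1 := by
    have h := sum_zpow_roots hp (ζ := ζ⁻¹)
      (by simpa [Units.val_inv_eq_inv_val] using hζ.inv) d
    simpa [Units.val_inv_eq_inv_val, inv_pow] using h
  rw [e1, e2]
  split_ifs <;> ring

theorem sum_tateT_roots {p : ℕ} (hp : p ≠ 0) {q : K} (hq : ‖q‖ < 1) (hqp : ‖q ^ p‖ < 1)
    {ζ : Kˣ} (hζ : IsPrimitiveRoot (ζ : K) p) :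
    1 + 240 * lam 3 hq + 120 * ∑ i ∈ Finset.Ico 1 p, tateT q (ζ ^ i) =
      (p : K) ^ 4 * (1 + 240 * lam 3 hqp) := by
  have h := (sum_sing_roots hp hζ).1
  have h2 := sum_tailDVal_roots hp hq hqp hζ fun n => (coeff_dTail_even n).1
  simp only [tateT, sing2, wVal, Units.val_pow_eq_pow_val, Finset.sum_add_distrib]
  rw [h, h2]
  ring

theorem sum_tateV_roots {p : ℕ} (hp : p ≠ 0) {q : K} (hq : ‖q‖ < 1) (hqp : ‖q ^ p‖ < 1)
    {ζ : Kˣ} (hζ : IsPrimitiveRoot (ζ : K) p) :
    -1 + 504 * lam 5 hq + 252 * ∑ i ∈ Finset.Ico 1 p, tateV q (ζ ^ i) =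
      (p : K) ^ 6 * (-1 + 504 * lam 5 hqp) := by
  have h := (sum_sing_roots hp hζ).2
  have h2 := sum_tailDVal_roots hp hq hqp hζ fun n => (coeff_dTail_even n).2
  simp only [Finset.sum_add_distrib] at h
  simp only [tateV, sing4, wVal, Units.val_pow_eq_pow_val, Finset.sum_add_distrib]
  rw [h, h2]
  ring

/-! ### Powers of a `p`-th root of the parameter -/

/-- `(u d/du)^k X` in `ℤ⟦a, b⟧`. -/
def abD (k : ℕ) : AB :=
  PowerSeries.mk fun B => PowerSeries.mk fun A => ((A : ℤ) - B) ^ k * cXab A B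

theorem abCoeff_abD (k A B : ℕ) : abCoeff A B (abD k) = ((A : ℤ) - B) ^ k * cXab A B := by
  simp [abCoeff, abD]

theorem coeff_toLSS_abD (k : ℕ) {j : ℕ} (hj : j ≠ 0) :
    PowerSeries.coeff j (toLSS (abD k)) = lpToLS (PowerSeries.coeff j (dTail k)) := by
  ext m
  rw [coeff_toLSS, coeff_lpToLS, coeff_dTail, ← coeff_lpToLS, ← coeff_toLSS_abX hj, coeff_toLSS]
  split_ifs with h
  · rw [abCoeff_abD, show abCoeff ((j : ℤ) + m).toNat j abX = cXab ((j : ℤ) + m).toNat j by
      simp [abCoeff, abX]]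
    congr 2
    omega
  · rw [mul_zero]

theorem coeff_zero_dTail (k : ℕ) : PowerSeries.coeff 0 (dTail k) = 0 := by
  refine coeff_injective (Finsupp.ext fun m => ?_)
  rw [coeff_dTail, coeff_zero_tailX]
  simp

/-- `∑ n^k u^n`. -/
def powSum (k : ℕ) (u : K) : K := ∑' n : ℕ, (n : K) ^ k * u ^ n

theorem hasSum_powSum (k : ℕ) {u : K} (hu : ‖u‖ < 1) :
    HasSum (fun n : ℕ => (n : K) ^ k * u ^ n) (powSum k u) :=
  ((intSeries_mem hu (PowerSeries.mk fun n => (n : ℤ) ^ k)).congr fun n => by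
    simp [intSeries]).hasSum

theorem powSum_rec (k : ℕ) {u : K} (hu : ‖u‖ < 1) :
    powSum (k + 1) u = u * ∑ i ∈ Finset.range (k + 2), ((k + 1).choose i : K) * powSum i u := by
  have h := hasSum_powSum (k + 1) hu
  rw [← hasSum_nat_add_iff' 1] at h
  simp only [Finset.range_one, Finset.sum_singleton, Nat.cast_zero,
    zero_pow (Nat.succ_ne_zero k), zero_mul, sub_zero] at h
  refine h.unique ?_
  refine ((hasSum_sum fun i (_ : i ∈ Finset.range (k + 2)) =>
    (hasSum_powSum i hu).mul_left ((k + 1).choose i : K)).mul_left u).congr_fun fun n => ?_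
  rw [Nat.cast_add, Nat.cast_one, add_pow (n : K) 1 (k + 1), pow_succ, Finset.sum_mul,
    Finset.mul_sum]
  refine Finset.sum_congr rfl fun i _ => ?_
  rw [one_pow]
  ring

theorem powSum_values {u : K} (hu : ‖u‖ < 1) :
    powSum 3 u = u * (1 + 4 * u + u ^ 2) / (1 - u) ^ 4 ∧
    powSum 5 u = u * (1 + 26 * u + 66 * u ^ 2 + 26 * u ^ 3 + u ^ 4) / (1 - u) ^ 6 := by
  have h1 : 1 - u ≠ 0 := sub_ne_zero.2 fun e => by
    rw [← e, norm_one] at hu; exact lt_irrefl _ hu
  have H0 : powSum 0 u = 1 / (1 - u) := by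
    rw [powSum, one_div, ← tsum_geometric_of_norm_lt_one hu]
    simp
  have c : ∀ k, powSum (k + 1) u * (1 - u) =
      u * ∑ i ∈ Finset.range (k + 1), ((k + 1).choose i : K) * powSum i u := by
    intro k
    have h := powSum_rec k hu
    rw [Finset.sum_range_succ, Nat.choose_self, Nat.cast_one, one_mul, mul_add] at h
    linear_combination h
  have e1 := c 0
  have e2 := c 1
  have e3 := c 2
  have e4 := c 3
  have e5 := c 4
  simp only [Nat.reduceAdd, Finset.sum_range_succ, Finset.sum_range_zero, zero_add,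
    Nat.choose, Nat.cast_one, Nat.cast_ofNat, one_mul, H0] at e1 e2 e3 e4 e5
  rw [← eq_div_iff h1] at e1 e2 e3 e4 e5
  rw [e1] at e2 e3 e4 e5
  rw [e2] at e3 e4 e5
  rw [e3] at e4 e5
  rw [e4] at e5
  constructor
  · rw [e3]; field_simp; ring
  · rw [e5]; field_simp; ring

theorem sing_eq_powSum {u : Kˣ} (hu : ‖(u : K)‖ < 1) :
    sing2 u = powSum 3 (u : K) ∧ sing4 u = powSum 5 (u : K) := by
  have h0 := u.ne_zero
  have h1 : (u : K) - 1 ≠ 0 := sub_ne_zero.2 fun e => by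
    rw [e, norm_one] at hu; exact lt_irrefl _ hu
  have h1' : 1 - (u : K) ≠ 0 := fun e => h1 (by linear_combination -e)
  obtain ⟨h3, h5⟩ := powSum_values hu
  rw [h3, h5, sing2, sing4, wVal_eq]
  constructor <;> field_simp <;> ring

theorem abEval_abD {q : K} {v : Kˣ} (hv : ‖(v : K)‖ < 1) (hvq : ‖q / (v : K)‖ < 1) (k : ℕ) :
    abEval (v : K) (q / v) (abD k) = powSum (k + 1) (v : K) + tailDVal k q v := by
  refine abEval_eq hv hvq (coeff_zero_dTail k) (fun B hB => coeff_toLSS_abD k hB) ?_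
  refine (hasSum_powSum (k + 1) hv).congr_fun fun A => ?_
  rw [abCoeff_abD, show cXab A 0 = (A : ℤ) by
    simpa [abCoeff, abX] using abCoeff_abX_zero A]
  push_cast
  ring

/-- The sums over the powers of a `p`-th root of the parameter. -/
theorem sum_abEval_root {p : ℕ} (hp : p ≠ 0) {t : K} (ht : ‖t‖ < 1) (htp : ‖t ^ p‖ < 1)
    {k : ℕ} (hk : Even k) (hk0 : k ≠ 0) :
    ∑ i ∈ Finset.Ico 1 p, abEval (t ^ i) (t ^ (p - i)) (abD k) =
      2 * (lam (k + 1) ht - lam (k + 1) htp) := by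
  classical
  let f : ℕ → ℕ × ℕ → K := fun i x =>
    ((x.1 + 1 : ℕ) : K) ^ (k + 1) * t ^ ((x.1 + 1) * (p * x.2 + i))
  have hlt : ∀ i : ℕ, i ≠ 0 → ‖t ^ i‖ < 1 := fun i hi => by
    rw [norm_pow]; exact pow_lt_one₀ (norm_nonneg t) ht hi
  have hfs : ∀ i, i ≠ 0 → Summable (f i) := by
    intro i hi
    refine Summable.of_norm_bounded (g := fun c => ‖t‖ ^ c.1 * ‖t‖ ^ c.2)
      ((summable_geometric_of_lt_one (norm_nonneg t) ht).mul_of_nonneg
        (summable_geometric_of_lt_one (norm_nonneg t) ht) (fun n => by positivity)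
        (fun n => by positivity)) fun c => ?_
    simp only [f]
    rw [norm_mul, norm_pow, norm_pow, ← pow_add]
    refine (mul_le_of_le_one_left (by positivity)
      (pow_le_one₀ (norm_nonneg _) (IsUltrametricDist.norm_natCast_le_one K _))).trans
      (pow_le_pow_of_le_one (norm_nonneg t) ht.le ?_)
    have : c.2 ≤ p * c.2 := Nat.le_mul_of_pos_left _ (Nat.pos_of_ne_zero hp)
    nlinarith [Nat.zero_le (c.1 * (p * c.2)), Nat.pos_of_ne_zero hi]
  -- one term: the two halves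
  have hterm : ∀ i ∈ Finset.Ico 1 p, abEval (t ^ i) (t ^ (p - i)) (abD k) =
      ∑' x, f i x + ∑' x, f (p - i) x := by
    intro i hi
    obtain ⟨hi1, hi2⟩ := Finset.mem_Ico.1 hi
    have hs := summable_abTerm (hlt i (by omega)) (hlt (p - i) (by omega)) (abD k)
    let gp : ℕ × ℕ → ℕ × ℕ := fun x => ((x.2 + 1) * (x.1 + 1), x.2 * (x.1 + 1))
    let gm : ℕ × ℕ → ℕ × ℕ := fun x => (x.2 * (x.1 + 1), (x.2 + 1) * (x.1 + 1))
    have hinj : Function.Injective gp := by
      rintro ⟨a, b⟩ ⟨a', b'⟩ h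
      simp only [gp, Prod.mk.injEq, add_mul, one_mul] at h
      obtain rfl : a = a' := by omega
      have hb := h.2
      rw [Nat.mul_right_cancel_iff (Nat.succ_pos a)] at hb
      rw [hb]
    have hinj' : Function.Injective gm := fun x y h => hinj (by
      simp only [gm, Prod.mk.injEq] at h
      simp only [gp, Prod.mk.injEq]; exact ⟨h.2, h.1⟩)
    have hsupp : ∀ A B : ℕ, B < A → cXab A B ≠ 0 → (A, B) ∈ Set.range gp := by
      intro A B hBA hc
      rw [cXab, if_neg hBA.ne'] at hc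
      obtain ⟨m, rfl⟩ := Nat.exists_eq_add_of_lt hBA
      split_ifs at hc with hd
      · rw [show ((B + m + 1 : ℕ) : ℤ) - B = ((m + 1 : ℕ) : ℤ) by push_cast; ring,
          Int.natCast_dvd_natCast] at hd
        obtain ⟨c, hc'⟩ := hd
        refine ⟨(m, c), ?_⟩
        simp only [gp, Prod.mk.injEq, hc']
        constructor <;> ring
      · exact absurd rfl hc
    have hval : ∀ x, abTerm (t ^ i) (t ^ (p - i)) (abD k) (gp x) = f i x := by
      rintro ⟨a, b⟩
      simp only [abTerm, abCoeff_abD, gp, f, cXab]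
      have hne : (b + 1) * (a + 1) ≠ b * (a + 1) := by rw [add_mul]; omega
      rw [if_neg hne, show (((b + 1) * (a + 1) : ℕ) : ℤ) - ((b * (a + 1) : ℕ) : ℤ) =
        ((a + 1 : ℕ) : ℤ) by push_cast; ring, if_pos (by push_cast; exact dvd_mul_left _ _),
        Nat.abs_cast, ← pow_mul, ← pow_mul, mul_assoc, ← pow_add, pow_succ]
      push_cast
      congr 2
      obtain ⟨j, rfl⟩ : ∃ j, p = i + j := ⟨p - i, by omega⟩
      rw [Nat.add_sub_cancel_left]
      ring
    have hswap : ∀ x, abTerm (t ^ i) (t ^ (p - i)) (abD k) (gm x) =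
        f (p - i) x := by
      rintro ⟨a, b⟩
      simp only [abTerm, abCoeff_abD, gm, f]
      have hne : (b + 1) * (a + 1) ≠ b * (a + 1) := by rw [add_mul]; omega
      rw [cXab_symm, cXab, if_neg hne,
        show (((b + 1) * (a + 1) : ℕ) : ℤ) - ((b * (a + 1) : ℕ) : ℤ) =
          ((a + 1 : ℕ) : ℤ) by push_cast; ring,
        show ((b * (a + 1) : ℕ) : ℤ) - (((b + 1) * (a + 1) : ℕ) : ℤ) =
          -((a + 1 : ℕ) : ℤ) by push_cast; ring,
        hk.neg_pow, if_pos (by push_cast; exact dvd_mul_left _ _), Nat.abs_cast, ← pow_mul,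
        ← pow_mul, mul_assoc, ← pow_add, pow_succ]
      push_cast
      congr 2
      obtain ⟨j, rfl⟩ : ∃ j, p = i + j := ⟨p - i, by omega⟩
      rw [Nat.add_sub_cancel_left]
      ring
    set F := abTerm (t ^ i) (t ^ (p - i)) (abD k) with hF
    set S₁ : Set (ℕ × ℕ) := {x | x.2 < x.1}
    have hdiag : ∀ A : ℕ, F (A, A) = 0 := fun A => by
      simp [hF, abTerm, abCoeff_abD, zero_pow hk0]
    have e1 : ∑' x, f i x = ∑' x, S₁.indicator F x := by
      rw [← hinj.tsum_eq (f := S₁.indicator F)]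
      · refine tsum_congr fun x => ?_
        rw [Set.indicator_of_mem]
        · exact (hval x).symm
        · show x.2 * (x.1 + 1) < (x.2 + 1) * (x.1 + 1)
          rw [add_mul]; omega
      · rintro ⟨A, B⟩ hx
        simp only [Function.mem_support, ne_eq, Set.indicator_apply_eq_zero, not_forall] at hx
        obtain ⟨hmem, hne⟩ := hx
        refine hsupp A B hmem fun hc => hne ?_
        simp [hF, abTerm, abCoeff_abD, hc]
    have e2 : ∑' x, f (p - i) x = ∑' x, S₁ᶜ.indicator F x := by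
      rw [← hinj'.tsum_eq (f := S₁ᶜ.indicator F)]
      · refine tsum_congr fun x => ?_
        rw [Set.indicator_of_mem]
        · exact (hswap x).symm
        · show ¬ ((x.2 + 1) * (x.1 + 1) < x.2 * (x.1 + 1))
          rw [add_mul]; omega
      · rintro ⟨A, B⟩ hx
        simp only [Function.mem_support, ne_eq, Set.indicator_apply_eq_zero, not_forall] at hx
        obtain ⟨hmem, hne⟩ := hx
        have hAB : A < B := by
          rcases Nat.lt_trichotomy A B with h | h | h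
          · exact h
          · exact absurd (h ▸ hdiag A) hne
          · exact absurd h hmem
        obtain ⟨x, hx⟩ := hsupp B A hAB fun hc => hne <| by
          simp [hF, abTerm, abCoeff_abD, cXab_symm B A, hc]
        refine ⟨x, ?_⟩
        simp only [gp, Prod.mk.injEq] at hx
        simp only [gm, hx.1, hx.2]
    rw [abEval, ← hF, e1, e2, ← (hs.indicator S₁).tsum_add (hs.indicator S₁ᶜ)]
    exact tsum_congr fun x => by rw [Set.indicator_self_add_compl_apply]
  have hflip : ∑ i ∈ Finset.Ico 1 p, ∑' x, f (p - i) x = ∑ i ∈ Finset.Ico 1 p, ∑' x, f i x := by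
    refine Finset.sum_nbij' (fun i => p - i) (fun i => p - i) ?_ ?_ ?_ ?_ ?_
    all_goals intro i hi
    all_goals simp only [Finset.mem_Ico, Finset.mem_coe] at hi ⊢
    all_goals omega
  rw [Finset.sum_congr rfl hterm, Finset.sum_add_distrib, hflip, ← two_mul]
  congr 1
  -- the Lambert series, split according to the exponent modulo `p`
  haveI : NeZero p := ⟨hp⟩
  have hL := hasSum_lambert (k + 1) ht
  let e : (ℕ × ℕ) × Fin p ≃ ℕ × ℕ :=
    (Equiv.prodAssoc ℕ ℕ (Fin p)).trans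
      (Equiv.prodCongr (Equiv.refl ℕ) (Nat.divModEquiv p).symm)
  rw [← e.hasSum_iff] at hL
  have hL2 : HasSum (fun c : (ℕ × ℕ) × Fin p => f ((c.2 : ℕ) + 1) c.1) (lam (k + 1) ht) := by
    refine hL.congr_fun fun c => ?_
    simp only [f, e, Function.comp, Equiv.trans_apply, Equiv.prodAssoc_apply, Equiv.prodCongr_apply,
      Prod.map, Equiv.refl_apply, Nat.divModEquiv_symm_apply]
    ring
  have hL3 : HasSum (fun x : ℕ × ℕ => ∑ i : Fin p, f ((i : ℕ) + 1) x) (lam (k + 1) ht) :=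
    hL2.prod_fiberwise fun x => hasSum_fintype _
  have hsumf : lam (k + 1) ht = ∑ i ∈ Finset.range p, ∑' x, f (i + 1) x := by
    rw [← hL3.tsum_eq]
    simp only [fun x => Fin.sum_univ_eq_sum_range (fun i => f (i + 1) x) p]
    exact Summable.tsum_finsetSum fun i _ => hfs (i + 1) (Nat.succ_ne_zero i)
  have hpterm : ∑' x, f p x = lam (k + 1) htp := by
    rw [← (hasSum_lambert (k + 1) htp).tsum_eq]
    refine tsum_congr fun x => ?_
    simp only [f, ← pow_mul]
    congr 2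
    ring
  obtain ⟨m, rfl⟩ := Nat.exists_eq_succ_of_ne_zero hp
  rw [hsumf, ← hpterm, Finset.sum_range_succ, Finset.sum_Ico_eq_sum_range]
  simp only [Nat.succ_sub_one, add_comm 1, add_sub_cancel_right]

/-- The value of the series at `t ^ i`, where `t ^ p = q`. -/
theorem sum_tate_root {p : ℕ} (hp : p ≠ 0) {t q : Kˣ} (htq : t ^ p = q) (ht : ‖(t : K)‖ < 1)
    (hq : ‖(q : K)‖ < 1) :
    1 + 240 * lam 3 hq + 120 * ∑ i ∈ Finset.Ico 1 p, tateT (q : K) (t ^ i) =
      1 + 240 * lam 3 ht ∧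
    -1 + 504 * lam 5 hq + 252 * ∑ i ∈ Finset.Ico 1 p, tateV (q : K) (t ^ i) =
      -1 + 504 * lam 5 ht := by
  subst htq
  simp only [Units.val_pow_eq_pow_val] at hq ⊢
  have hval : ∀ i ∈ Finset.Ico 1 p,
      tateT ((t : K) ^ p) (t ^ i) = abEval ((t : K) ^ i) ((t : K) ^ (p - i)) (abD 2) ∧
      tateV ((t : K) ^ p) (t ^ i) = abEval ((t : K) ^ i) ((t : K) ^ (p - i)) (abD 4) := by
    intro i hi
    obtain ⟨hi1, hi2⟩ := Finset.mem_Ico.1 hi
    have hv : ‖((t ^ i : Kˣ) : K)‖ < 1 := by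
      rw [Units.val_pow_eq_pow_val, norm_pow]; exact pow_lt_one₀ (norm_nonneg _) ht (by omega)
    have e : (t : K) ^ p / ((t ^ i : Kˣ) : K) = (t : K) ^ (p - i) := by
      rw [Units.val_pow_eq_pow_val, pow_sub₀ _ t.ne_zero hi2.le, div_eq_mul_inv]
    have hvq : ‖(t : K) ^ p / ((t ^ i : Kˣ) : K)‖ < 1 := by
      rw [e, norm_pow]; exact pow_lt_one₀ (norm_nonneg _) ht (by omega)
    have h2 := abEval_abD hv hvq 2
    have h4 := abEval_abD hv hvq 4
    rw [e] at h2 h4
    rw [Units.val_pow_eq_pow_val] at h2 h4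
    rw [h2, h4, tateT, tateV, (sing_eq_powSum hv).1, (sing_eq_powSum hv).2,
      Units.val_pow_eq_pow_val]
    exact ⟨rfl, rfl⟩
  constructor
  · rw [Finset.sum_congr rfl fun i hi => (hval i hi).1,
      sum_abEval_root hp ht hq even_two two_ne_zero]
    ring
  · rw [Finset.sum_congr rfl fun i hi => (hval i hi).2,
      sum_abEval_root hp ht hq (by decide) (by norm_num)]
    ring

end Fermat.Agent.Mazur
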