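/-
Mazur's Eisenstein descent: the shape of the modular polynomial of prime level and the Newton
polygon of its
roots over a point near the cusps.
-/
import Fermat.Agent.ModFun.ModularPolynomial
import Fermat.Agent.Gamma0.PsiIdentity
import Mathlib.RingTheory.Valuation.Basic
import Mathlib.RingTheory.RootsOfUnity.PrimitiveRoots

set_option autoImplicit false

noncomputable section

open Polynomial ModularCurve

namespace Fermat.Agent.Mazur

/-- `x` has no term below `n`. -/
def OrdGE {R : Type*} [Zero R] (x : LaurentSeries R) (n : ℤ) : Prop := ∀ k < n, x.coeff k = 0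

section OrdGE

variable {R : Type*} [CommRing R] {x y : LaurentSeries R} {m n : ℤ}

theorem OrdGE.mono (h : OrdGE x n) (hmn : m ≤ n) : OrdGE x m :=
  fun k hk => h k (lt_of_lt_of_le hk hmn)

theorem OrdGE.coeff_eq_zero (h : OrdGE x n) {k : ℤ} (hk : k < n) : x.coeff k = 0 := h k hk

theorem OrdGE.zero : OrdGE (0 : LaurentSeries R) n := fun _ _ => by simp

theorem OrdGE.one : OrdGE (1 : LaurentSeries R) 0 := fun k hk => by
  rw [HahnSeries.coeff_one, if_neg hk.ne]

theorem OrdGE.neg (h : OrdGE x n) : OrdGE (-x) n := fun k hk => by simp [h k hk]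

theorem OrdGE.sub (h : OrdGE x n) (h' : OrdGE y n) : OrdGE (x - y) n :=
  fun k hk => by simp [h k hk, h' k hk]

theorem OrdGE.mul (hx : OrdGE x m) (hy : OrdGE y n) : OrdGE (x * y) (m + n) := fun k hk => by
  rw [HahnSeries.coeff_mul]
  refine Finset.sum_eq_zero fun ij hij => ?_
  rw [Finset.mem_antidiagonal] at hij
  rcases lt_or_ge ij.1 m with h | h
  · rw [hx _ h, zero_mul]
  · rw [hy _ (by omega), mul_zero]

theorem OrdGE.coeff_mul (hx : OrdGE x m) (hy : OrdGE y n) :
    (x * y).coeff (m + n) = x.coeff m * y.coeff n := by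
  rw [HahnSeries.coeff_mul]
  refine Finset.sum_eq_single (m, n) (fun ij hij hne => ?_) (fun hnot => ?_)
  · rw [Finset.mem_antidiagonal] at hij
    rcases lt_trichotomy ij.1 m with h | h | h
    · rw [hx _ h, zero_mul]
    · exact absurd (Prod.ext h (by omega)) hne
    · rw [hy _ (by omega), mul_zero]
  · simp only [Finset.mem_antidiagonal, HahnSeries.mem_support, ne_eq] at hnot
    by_contra h
    exact hnot ⟨left_ne_zero_of_mul h, right_ne_zero_of_mul h, trivial⟩

theorem coeff_X_sub_C_mul_zero (a : R) (Q : R[X]) : ((X - C a) * Q).coeff 0 = -(a * Q.coeff 0) := by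
  rw [sub_mul, coeff_sub, mul_coeff_zero, coeff_X_zero, zero_mul, coeff_C_mul, zero_sub]

theorem coeff_X_sub_C_mul_succ (a : R) (Q : R[X]) (i : ℕ) :
    ((X - C a) * Q).coeff (i + 1) = Q.coeff i - a * Q.coeff (i + 1) := by
  rw [sub_mul, coeff_sub, coeff_X_mul, coeff_C_mul]

theorem ordGE_jqModC : OrdGE (jqModC R) (-1) := fun _ hk => coeff_jqModC_of_lt R hk

/-- Coefficients of a product of linear factors with roots of order at least `-1`. -/
theorem ordGE_coeff_prod {ι : Type*} (s : Finset ι) (b : ι → LaurentSeries R)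
    (hb : ∀ i ∈ s, OrdGE (b i) (-1)) :
    (∀ i : ℕ, OrdGE ((∏ j ∈ s, (X - C (b j))).coeff i) (-((s.card : ℤ) - i))) ∧
      ((∏ j ∈ s, (X - C (b j))).coeff 0).coeff (-(s.card : ℤ)) = ∏ j ∈ s, -(b j).coeff (-1) := by
  classical
  induction s using Finset.induction with
  | empty =>
    refine ⟨fun i => ?_, by simp⟩
    rcases i with _ | i
    · simpa using OrdGE.one
    · simpa [coeff_one] using OrdGE.zero
  | insert a s ha ih =>
    obtain ⟨h1, h2⟩ := ih fun i hi => hb i (Finset.mem_insert_of_mem hi)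
    have hba := hb a (Finset.mem_insert_self a s)
    rw [Finset.prod_insert ha, Finset.card_insert_of_notMem ha, Finset.prod_insert ha]
    constructor
    · rintro (_ | i)
      · rw [sub_mul, coeff_sub, mul_coeff_zero, coeff_X_zero, zero_mul, coeff_C_mul, zero_sub]
        exact (hba.mul (h1 0)).neg.mono (by push_cast; omega)
      · rw [sub_mul, coeff_sub, coeff_X_mul, coeff_C_mul]
        exact ((h1 i).mono (by push_cast; omega)).sub
          ((hba.mul (h1 (i + 1))).mono (by push_cast; omega))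
    · have h0 := h1 0
      rw [Nat.cast_zero, sub_zero] at h0
      rw [sub_mul, coeff_sub, mul_coeff_zero, coeff_X_zero, zero_mul, coeff_C_mul, zero_sub,
        show -((s.card + 1 : ℕ) : ℤ) = -1 + -(s.card : ℤ) by push_cast; ring, HahnSeries.coeff_neg,
        hba.coeff_mul h0, h2, neg_mul]

end OrdGE

theorem ordGE_qExpand {R : Type*} [CommRing R] (e : ℕ) [NeZero e] {x : LaurentSeries R}
    {n : ℤ} (h : OrdGE x n) : OrdGE (qExpand R e x) (e * n) := fun k hk => by
  by_cases hd : (e : ℤ) ∣ k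
  · obtain ⟨l, rfl⟩ := hd
    rw [qExpand_coeff_mul]
    exact h l (lt_of_mul_lt_mul_left hk (Int.natCast_nonneg e))
  · exact qExpand_coeff_of_not_dvd e x hd

theorem hnfSet_prime {p : ℕ} (hp : p.Prime) :
    ModFun.hnfSet p = insert (p, 0, 1) ((Finset.range p).image fun b => (1, b, p)) := by
  ext ⟨a, b, d⟩
  simp only [ModFun.hnfSet, Finset.mem_filter, Finset.mem_product, Finset.mem_range,
    Finset.mem_insert, Finset.mem_image, Prod.mk.injEq]
  constructor
  · rintro ⟨-, had, hbd, -⟩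
    rcases hp.eq_one_or_self_of_dvd a ⟨d, had.symm⟩ with rfl | rfl
    · rw [one_mul] at had
      exact Or.inr ⟨b, had ▸ hbd, rfl, rfl, had.symm⟩
    · have : d = 1 := by
        have := hp.pos
        exact Nat.eq_of_mul_eq_mul_left this (by rw [had, mul_one])
      exact Or.inl ⟨rfl, by omega, this⟩
  · rintro (⟨rfl, rfl, rfl⟩ | ⟨c, hc, rfl, rfl, rfl⟩)
    · exact ⟨⟨by omega, by omega, by have := hp.pos; omega⟩, mul_one _, Nat.one_pos, by simp⟩
    · exact ⟨⟨by have := hp.pos; omega, by omega, by omega⟩, one_mul _, hc, by simp⟩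

/-- The coefficients of the modular polynomial of prime level: every monomial `X ^ j Y ^ i` other
than `X ^ (p + 1)`, `Y ^ (p + 1)` has `i, j ≤ p`, and the coefficient of `X ^ p Y ^ p` is `-1`. -/
structure PhiShape (p : ℕ) (Φ : Polynomial (Polynomial ℤ)) : Prop where
  monic : Φ.Monic
  natDegree_eq : Φ.natDegree = p + 1
  natDegree_zero : (Φ.coeff 0).natDegree ≤ p + 1
  coeff_zero : (Φ.coeff 0).coeff (p + 1) = 1
  natDegree_le : ∀ i, 1 ≤ i → i ≤ p → (Φ.coeff i).natDegree ≤ p
  coeff_top : (Φ.coeff p).coeff p = -1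

/-- `j (q ^ N)` raised to powers: a polynomial of degree `≤ d` has leading term at `- N d`. -/
theorem coeff_eval₂_qExpand_jqModC (N : ℕ) [NeZero N] (P : Polynomial ℤ) :
    (∀ d, P.natDegree ≤ d →
      (P.eval₂ (Int.castRingHom (LaurentSeries ℂ)) (qExpand ℂ N (jqModC ℂ))).coeff (N * -(d : ℤ))
        = (P.coeff d : ℂ)) := by
  intro d hd
  rw [Polynomial.eval₂_eq_sum_range' _ (Nat.lt_succ_of_le hd), HahnSeries.coeff_sum]
  have hterm : ∀ i, ((Int.castRingHom (LaurentSeries ℂ)) (P.coeff i) *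
      qExpand ℂ N (jqModC ℂ) ^ i).coeff (N * -(d : ℤ)) =
        (P.coeff i : ℂ) * (jqModC ℂ ^ i).coeff (-(d : ℤ)) := by
    intro i
    rw [← map_pow, eq_intCast, ← zsmul_eq_mul, HahnSeries.coeff_smul, qExpand_coeff_mul, zsmul_eq_mul]
  simp only [hterm]
  rw [Finset.sum_eq_single d]
  · rw [coeff_jqModC_pow_self, mul_one]
  · intro i hi hne
    rw [Finset.mem_range] at hi
    rw [coeff_jqModC_pow_of_lt ℂ (by omega), mul_zero]
  · intro h
    exact absurd (Finset.mem_range.2 (Nat.lt_succ_self d)) h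

theorem natDegree_le_of_ordGE {N : ℕ} [NeZero N] (P : Polynomial ℤ) {n : ℤ} {d : ℕ}
    (h : OrdGE (P.eval₂ (Int.castRingHom (LaurentSeries ℂ)) (qExpand ℂ N (jqModC ℂ))) n)
    (hn : (N : ℤ) * -((d : ℤ) + 1) < n) : P.natDegree ≤ d := by
  by_contra hlt
  rw [not_le] at hlt
  have hP : P ≠ 0 := fun h0 => by simp [h0] at hlt
  have h1 := coeff_eval₂_qExpand_jqModC N P P.natDegree le_rfl
  rw [h _ (lt_of_le_of_lt (mul_le_mul_of_nonneg_left (by omega) (Int.natCast_nonneg N)) hn)] at h1
  exact leadingCoeff_ne_zero.2 hP (by exact_mod_cast h1.symm)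

theorem prod_neg_root {K : Type*} [Field K] {ζ : K} {p : ℕ} (hp : 0 < p)
    (hζ : IsPrimitiveRoot ζ p) : ∏ b ∈ Finset.range p, -(ζ ^ b) = -1 := by
  have h := congrArg (Polynomial.eval 0)
    (X_pow_sub_C_eq_prod hζ hp (one_pow (M := K) p))
  simpa [eval_prod, hp.ne'] using h.symm

theorem phiShape {p : ℕ} [Fact p.Prime] (data : ModularPolynomialData p) :
    PhiShape p data.Φ := by
  classical
  have hp := (Fact.out : p.Prime)
  have hp2 := hp.two_le
  haveI : NeZero (p * p) := ⟨mul_ne_zero hp.ne_zero hp.ne_zero⟩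
  set f := Polynomial.eval₂RingHom (Int.castRingHom (LaurentSeries ℂ)) (qExpand ℂ p (jqModC ℂ))
    with hf
  have hdeg : data.Φ.natDegree = p + 1 := by
    rw [data.natDegree_eq]; simpa using Gamma0.dedekindPsi_prime_pow hp 0
  set a := ModFun.conjSeries (p, 0, 1) with ha
  set b := fun i : ℕ => ModFun.conjSeries (1, i, p) with hb
  set Q := ∏ i ∈ Finset.range p, (X - C (b i)) with hQ
  have hfac : data.Φ.map f = (X - C a) * Q := by
    rw [hf, ModFun.map_Φ_jqModC data, hnfSet_prime hp, Finset.prod_insert, Finset.prod_image]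
    · intro i _ j _ h; simpa using h
    · simp only [Finset.mem_image, Prod.mk.injEq, not_exists, not_and]
      intro i _ h; omega
  have hb1 : ∀ i, OrdGE (b i) (-1) ∧ (b i).coeff (-1) = ((ModFun.zetaU p : ℂ)⁻¹) ^ i := by
    intro i
    haveI : NeZero (1 * 1) := ⟨by norm_num⟩
    have hbi : b i = ModFun.twist (ModFun.zetaU p ^ i) (jqModC ℂ) := by
      show ModFun.conjSeries (1, i, p) = _
      simp [ModFun.conjSeries, qExpand_one_apply]
    refine ⟨fun k hk => ?_, ?_⟩
    · rw [hbi, ModFun.twist_coeff, coeff_jqModC_of_lt ℂ hk, mul_zero]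
    · rw [hbi, ModFun.twist_coeff, coeff_jqModC_neg_one, mul_one]
      simp [inv_pow]
  have ha1 : OrdGE a (-(p : ℤ) ^ 2) ∧ a.coeff (-(p : ℤ) ^ 2) = 1 := by
    have haeq : a = qExpand ℂ (p * p) (jqModC ℂ) := by
      rw [ha, ModFun.conjSeries]
      simp only [hp.ne_zero, ↓reduceDIte]
      congr 1
      ext k
      simp [ModFun.twist_coeff]
    have hpe : -(p : ℤ) ^ 2 = ((p * p : ℕ) : ℤ) * (-1) := by push_cast; ring
    rw [haeq, hpe]
    exact ⟨ordGE_qExpand _ ordGE_jqModC, by rw [qExpand_coeff_mul, coeff_jqModC_neg_one]⟩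
  obtain ⟨hQ1, hQ2⟩ := ordGE_coeff_prod (Finset.range p) b fun i _ => (hb1 i).1
  rw [← hQ, Finset.card_range] at hQ1 hQ2
  have hQmon : Q.coeff p = 1 := by
    have hm : Q.Monic := monic_prod_of_monic _ _ fun i _ => monic_X_sub_C _
    have hd : Q.natDegree = p := by
      rw [hQ, natDegree_prod_of_monic _ _ fun i _ => monic_X_sub_C _]; simp
    rw [← hd]; exact hm
  have hcoeff : ∀ i, f (data.Φ.coeff i) = ((X - C a) * Q).coeff i := fun i => by
    rw [← hfac, coeff_map]
  -- constant term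
  have h0 : f (data.Φ.coeff 0) = -(a * Q.coeff 0) := by
    exact (hcoeff 0).trans (coeff_X_sub_C_mul_zero a Q)
  have hQ10 := hQ1 0
  rw [Nat.cast_zero, sub_zero] at hQ10
  have hd0 : (data.Φ.coeff 0).natDegree ≤ p + 1 := by
    refine natDegree_le_of_ordGE (N := p) _ (n := -(p : ℤ) ^ 2 + -(p : ℤ)) ?_ (by push_cast; nlinarith)
    rw [← Polynomial.coe_eval₂RingHom, ← hf, h0]
    exact (ha1.1.mul hQ10).neg
  -- middle terms
  have hi : ∀ i, f (data.Φ.coeff (i + 1)) = Q.coeff i - a * Q.coeff (i + 1) := fun i =>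
    (hcoeff (i + 1)).trans (coeff_X_sub_C_mul_succ a Q i)
  have hdi : ∀ i, 1 ≤ i → i ≤ p → (data.Φ.coeff i).natDegree ≤ p := by
    intro i h1 h2
    obtain ⟨k, rfl⟩ := Nat.exists_eq_succ_of_ne_zero (by omega : i ≠ 0)
    refine natDegree_le_of_ordGE (N := p) _ (n := -(p : ℤ) ^ 2 - ((p : ℤ) - (k + 1 : ℕ))) ?_
      (by push_cast; nlinarith)
    rw [← Polynomial.coe_eval₂RingHom, ← hf, hi]
    refine ((hQ1 k).mono ?_).sub ((ha1.1.mul (hQ1 (k + 1))).mono (by push_cast; linarith))
    push_cast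
    nlinarith
  refine ⟨data.monic, hdeg, hd0, ?_, hdi, ?_⟩
  · have h := coeff_eval₂_qExpand_jqModC p (data.Φ.coeff 0) (p + 1) hd0
    rw [← Polynomial.coe_eval₂RingHom, ← hf, h0,
      show (p : ℤ) * -((p + 1 : ℕ) : ℤ) = -(p : ℤ) ^ 2 + -(p : ℤ) by push_cast; ring,
      HahnSeries.coeff_neg, ha1.1.coeff_mul hQ10, hQ2, ha1.2, one_mul] at h
    simp only [(hb1 _).2] at h
    rw [prod_neg_root hp.pos (ModFun.isPrimitiveRoot_zetaU p).inv, neg_neg] at h
    exact_mod_cast h.symm
  · obtain ⟨k, hk⟩ := Nat.exists_eq_succ_of_ne_zero hp.ne_zero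
    have h := coeff_eval₂_qExpand_jqModC p (data.Φ.coeff p) p (hdi p hp.one_le le_rfl)
    rw [← Polynomial.coe_eval₂RingHom, ← hf] at h
    have hfp : f (data.Φ.coeff p) = Q.coeff k - a := by
      have := hi k
      rwa [show k + 1 = p from hk.symm, hQmon, mul_one] at this
    rw [hfp, HahnSeries.coeff_sub,
      show (p : ℤ) * -(p : ℤ) = -(p : ℤ) ^ 2 by ring, ha1.2,
      (hQ1 k).coeff_eq_zero (by subst hk; push_cast; nlinarith), zero_sub] at h
    exact_mod_cast h.symm

section Roots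

variable {p : ℕ} {Φ : Polynomial (Polynomial ℤ)} (hΦ : PhiShape p Φ) (hp : 2 ≤ p)
  {L : Type*} [CommRing L] {Γ₀ : Type*} [LinearOrderedCommGroupWithZero Γ₀] (v : Valuation L Γ₀)
  (hint : ∀ n : ℤ, v (n : L) ≤ 1)

omit hΦ hp in
include hint in
theorem map_eval₂_le_pow {P : Polynomial ℤ} {d : ℕ} (hP : P.natDegree ≤ d) {x : L}
    (hx : 1 ≤ v x) : v (P.eval₂ (Int.castRingHom L) x) ≤ v x ^ d := by
  rw [Polynomial.eval₂_eq_sum_range' _ (Nat.lt_succ_of_le hP)]
  refine v.map_sum_le fun i hi => ?_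
  rw [map_mul, map_pow]
  exact (mul_le_of_le_one_left' (hint _)).trans
    (pow_le_pow_right' hx (Nat.lt_succ_iff.1 (Finset.mem_range.1 hi)))

include hΦ hp hint in
/-- The dichotomy: above a pole `x`, either `y ~ x ^ p` or `x ~ y ^ p`. -/
theorem PhiShape.dichotomy {x y : L}
    (h0 : Φ.eval₂ (Polynomial.eval₂RingHom (Int.castRingHom L) x) y = 0) (hx : 1 < v x) :
    1 < v y ∧ ((v y = v x ^ p ∧ v (y - x ^ p) < v x ^ p) ∨
      (v x = v y ^ p ∧ v (x - y ^ p) < v y ^ p)) := by
  obtain ⟨k, rfl⟩ : ∃ k, p = k + 1 := ⟨p - 1, by omega⟩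
  set e := Polynomial.eval₂RingHom (Int.castRingHom L) x with he
  set R0 := e (Φ.coeff 0 - X ^ (k + 2)) with hR0
  set Rp := e (Φ.coeff (k + 1) + X ^ (k + 1)) with hRp
  set Rm := ∑ i ∈ Finset.range k, e (Φ.coeff (i + 1)) * y ^ (i + 1) with hRm
  have hR0d : (Φ.coeff 0 - X ^ (k + 2)).natDegree ≤ k + 1 := by
    rw [natDegree_le_iff_coeff_eq_zero]
    intro i hi
    rw [coeff_sub, coeff_X_pow]
    rcases (Nat.succ_le_of_lt hi).eq_or_lt with h | h
    · rw [← h]; simp [hΦ.coeff_zero]
    · rw [coeff_eq_zero_of_natDegree_lt (lt_of_le_of_lt hΦ.natDegree_zero h), if_neg (by omega),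
        sub_zero]
  have hRpd : (Φ.coeff (k + 1) + X ^ (k + 1)).natDegree ≤ k := by
    rw [natDegree_le_iff_coeff_eq_zero]
    intro i hi
    rw [coeff_add, coeff_X_pow]
    rcases (Nat.succ_le_of_lt hi).eq_or_lt with h | h
    · rw [← h]; simp [hΦ.coeff_top]
    · rw [coeff_eq_zero_of_natDegree_lt
        (lt_of_le_of_lt (hΦ.natDegree_le _ (by omega) le_rfl) h), if_neg (by omega), add_zero]
  have hsum : y ^ (k + 2) + (x ^ (k + 2) + R0) + ((Rp - x ^ (k + 1)) * y ^ (k + 1)) + Rm = 0 := by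
    rw [← h0, Polynomial.eval₂_eq_sum_range, hΦ.natDegree_eq, Finset.sum_range_succ,
      Finset.sum_range_succ, Finset.sum_range_succ', ← hRm]
    have htop : Φ.coeff (k + 1 + 1) = 1 := hΦ.natDegree_eq ▸ hΦ.monic.coeff_natDegree
    rw [htop, hR0, hRp, map_sub, map_add, map_one, map_pow, map_pow,
      show e X = x by simp [he], pow_zero, mul_one]
    ring
  have hx1 : (1 : Γ₀) ≤ v x := hx.le
  have hxpos : (0 : Γ₀) < v x := lt_trans zero_lt_one hx
  have bR0 : v R0 ≤ v x ^ (k + 1) := map_eval₂_le_pow v hint hR0d hx1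
  have bRp : v Rp ≤ v x ^ k := map_eval₂_le_pow v hint hRpd hx1
  have bRm : ∀ i ∈ Finset.range k, v (e (Φ.coeff (i + 1)) * y ^ (i + 1)) ≤
      v x ^ (k + 1) * v y ^ (i + 1) := fun i hi => by
    rw [map_mul, map_pow]
    exact mul_le_mul' (map_eval₂_le_pow v hint
      (hΦ.natDegree_le _ (by omega) (by have := Finset.mem_range.1 hi; omega)) hx1) le_rfl
  by_cases hy : v y ≤ 1
  · exfalso
    have hsmall : v (y ^ (k + 2) + R0 + (Rp - x ^ (k + 1)) * y ^ (k + 1) + Rm) ≤
        v x ^ (k + 1) := by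
      refine v.map_add_le (v.map_add_le (v.map_add_le ?_ bR0) ?_) (v.map_sum_le fun i hi => ?_)
      · rw [map_pow]; exact (pow_le_one' hy _).trans (one_le_pow_of_one_le' hx1 _)
      · rw [map_mul, map_pow]
        refine (mul_le_of_le_one_right' (pow_le_one' hy _)).trans (v.map_sub_le ?_ (by rw [map_pow]))
        exact bRp.trans (pow_le_pow_right' hx1 (by omega))
      · exact (bRm i hi).trans (mul_le_of_le_one_right' (pow_le_one' hy _))
    have heq : y ^ (k + 2) + R0 + (Rp - x ^ (k + 1)) * y ^ (k + 1) + Rm = -(x ^ (k + 2)) := by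
      linear_combination hsum
    rw [heq, Valuation.map_neg, map_pow] at hsmall
    exact absurd hsmall (not_le.2 (pow_lt_pow_right₀ hx (by omega)))
  · rw [not_le] at hy
    refine ⟨hy, ?_⟩
    have hypos : (0 : Γ₀) < v y := lt_trans zero_lt_one hy
    set M := v x ^ (k + 1) * v y ^ (k + 1) with hM
    have hMpos : 0 < M := mul_pos (pow_pos hxpos _) (pow_pos hypos _)
    have hR : v (R0 + Rp * y ^ (k + 1) + Rm) < M := by
      refine v.map_add_lt (v.map_add_lt ?_ ?_) (v.map_sum_lt hMpos.ne' fun i hi => ?_)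
      · exact lt_of_le_of_lt bR0 (lt_mul_of_one_lt_right (pow_pos hxpos _) (one_lt_pow₀ hy (by omega)))
      · rw [map_mul, map_pow]
        exact mul_lt_mul_of_pos_right (lt_of_le_of_lt bRp (pow_lt_pow_right₀ hx (by omega)))
          (pow_pos hypos _)
      · refine lt_of_le_of_lt (bRm i hi) (mul_lt_mul_of_pos_left ?_ (pow_pos hxpos _))
        exact pow_lt_pow_right₀ hy (by have := Finset.mem_range.1 hi; omega)
    set R := R0 + Rp * y ^ (k + 1) + Rm with hRdef
    have hxy : v (x ^ (k + 1) * y ^ (k + 1)) = M := by rw [map_mul, map_pow, map_pow]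
    have hpowlt : ∀ {a b : Γ₀}, 0 < b → a < b ^ (k + 1) → a * b ^ (k + 1) < b ^ (k + 1) * b ^ (k + 1) :=
      fun hb h => mul_lt_mul_of_pos_right h (pow_pos hb _)
    rcases le_or_gt (v x) (v y) with hle | hlt
    · -- `v y ≥ v x`
      left
      have hX : v (x ^ (k + 2)) < M := by
        rw [map_pow, pow_succ, hM]
        refine mul_lt_mul_of_pos_left ?_ (pow_pos hxpos _)
        exact lt_of_le_of_lt hle (by simpa using pow_lt_pow_right₀ hy (show 1 < k + 1 by omega))
      have hrest : v (x ^ (k + 2) + R) < M := v.map_add_lt hX hR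
      have hkey : y ^ (k + 1) * (y - x ^ (k + 1)) = -(x ^ (k + 2) + R) := by
        rw [hRdef]; linear_combination hsum
      have hlt' : v y ^ (k + 1) * v (y - x ^ (k + 1)) < v y ^ (k + 1) * v x ^ (k + 1) := by
        rw [← map_pow, ← map_mul, hkey, Valuation.map_neg, ← map_pow, mul_comm, map_pow,
          map_pow]
        exact hrest
      have hd := lt_of_mul_lt_mul_left' hlt'
      refine ⟨?_, hd⟩
      have := v.map_add_eq_of_lt_right (x := y - x ^ (k + 1)) (y := x ^ (k + 1))
        (by rw [map_pow]; exact hd)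
      rw [sub_add_cancel, map_pow] at this
      exact this
    · -- `v x > v y`
      right
      have hY : v (y ^ (k + 2)) < M := by
        rw [map_pow, pow_succ', hM]
        refine mul_lt_mul_of_pos_right ?_ (pow_pos hypos _)
        exact lt_of_lt_of_le hlt (by simpa using pow_le_pow_right₀ hx1 (show 1 ≤ k + 1 by omega))
      have hrest : v (y ^ (k + 2) + R) < M := v.map_add_lt hY hR
      have hkey : x ^ (k + 1) * (x - y ^ (k + 1)) = -(y ^ (k + 2) + R) := by
        rw [hRdef]; linear_combination hsum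
      have hlt' : v x ^ (k + 1) * v (x - y ^ (k + 1)) < v x ^ (k + 1) * v y ^ (k + 1) := by
        rw [← map_pow, ← map_mul, hkey, Valuation.map_neg, map_pow]
        exact hrest
      have hd := lt_of_mul_lt_mul_left' hlt'
      refine ⟨?_, hd⟩
      have := v.map_add_eq_of_lt_right (x := x - y ^ (k + 1)) (y := y ^ (k + 1))
        (by rw [map_pow]; exact hd)
      rw [sub_add_cancel, map_pow] at this
      exact this

end Roots

section Unique

variable {p : ℕ} {Φ : Polynomial (Polynomial ℤ)}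
  {L : Type*} [Field L] [IsAlgClosed L] {Γ₀ : Type*} [LinearOrderedCommGroupWithZero Γ₀]

/-- Over a point near the cusps, there is only one root of size `(v x) ^ p`. -/
theorem PhiShape.eq_of_val_eq (hΦ : PhiShape p Φ) (hp : 2 ≤ p) (v : Valuation L Γ₀)
    (hint : ∀ n : ℤ, v (n : L) ≤ 1) {x y y' : L}
    (h0 : Φ.eval₂ (Polynomial.eval₂RingHom (Int.castRingHom L) x) y = 0)
    (h0' : Φ.eval₂ (Polynomial.eval₂RingHom (Int.castRingHom L) x) y' = 0)
    (hx : 1 < v x) (hy : v y = v x ^ p) (hy' : v y' = v x ^ p) : y = y' := by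
  classical
  by_contra hne
  set e := Polynomial.eval₂RingHom (Int.castRingHom L) x with he
  set P := Φ.map e with hP
  have hmon : P.Monic := hΦ.monic.map e
  have hdeg : P.natDegree = p + 1 := by rw [hP, hΦ.monic.natDegree_map, hΦ.natDegree_eq]
  have hroot : ∀ z, z ∈ P.roots ↔ Φ.eval₂ e z = 0 := fun z => by
    rw [mem_roots hmon.ne_zero, IsRoot, hP, eval_map]
  have hsplit : P.Splits := IsAlgClosed.splits P
  have hcard : Multiset.card P.roots = p + 1 := by rw [hsplit.natDegree_eq_card_roots.symm, hdeg]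
  have hconst : v (P.coeff 0) = v x ^ (p + 1) := by
    rw [hP, coeff_map]
    have hd : (Φ.coeff 0 - X ^ (p + 1)).natDegree ≤ p := by
      rw [natDegree_le_iff_coeff_eq_zero]
      intro i hi
      rw [coeff_sub, coeff_X_pow]
      rcases (Nat.succ_le_of_lt hi).eq_or_lt with h | h
      · rw [← h]; simp [hΦ.coeff_zero]
      · rw [coeff_eq_zero_of_natDegree_lt (lt_of_le_of_lt hΦ.natDegree_zero h),
          if_neg (by omega), sub_zero]
    have h1 := map_eval₂_le_pow v hint hd hx.le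
    have h2 : v (e (Φ.coeff 0 - X ^ (p + 1))) < v (x ^ (p + 1)) := by
      rw [map_pow]; exact lt_of_le_of_lt h1 (pow_lt_pow_right₀ hx (by omega))
    have h3 := v.map_add_eq_of_lt_right h2
    rw [map_sub, map_pow e, show e X = x by simp [he], sub_add_cancel, map_pow] at h3
    exact h3
  have hprod : v P.roots.prod = v x ^ (p + 1) := by
    rw [← hconst, hsplit.coeff_zero_eq_prod_roots_of_monic hmon, hdeg, map_mul, map_pow,
      Valuation.map_neg, map_one, one_pow, one_mul]
  obtain ⟨s, hs⟩ := Multiset.exists_cons_of_mem ((hroot y).2 h0)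
  have hy'mem : y' ∈ s := by
    have := (hroot y').2 h0'
    rw [hs, Multiset.mem_cons] at this
    exact this.resolve_left (Ne.symm hne)
  obtain ⟨t, ht⟩ := Multiset.exists_cons_of_mem hy'mem
  have htcard : Multiset.card t = p - 1 := by
    rw [hs, ht, Multiset.card_cons, Multiset.card_cons] at hcard; omega
  have hge : ∀ z ∈ t, v x ≤ v z ^ p := by
    intro z hz
    have hzr : z ∈ P.roots := by rw [hs, ht]; exact Multiset.mem_cons_of_mem (Multiset.mem_cons_of_mem hz)
    obtain ⟨hz1, h | h⟩ := hΦ.dichotomy hp v hint ((hroot z).1 hzr) hx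
    · rw [h.1, ← pow_mul]; exact le_self_pow hx.le (by nlinarith)
    · exact h.1.le
  have htge : v x ^ (p - 1) ≤ v t.prod ^ p := by
    rw [← htcard]
    clear ht htcard
    induction t using Multiset.induction with
    | empty => simp
    | cons z t ih =>
      rw [Multiset.card_cons, pow_succ', Multiset.prod_cons, map_mul, mul_pow]
      exact mul_le_mul' (hge z (Multiset.mem_cons_self _ _))
        (ih fun w hw => hge w (Multiset.mem_cons_of_mem hw))
  have hbig : v x ^ (p * p + p * p + (p - 1)) ≤ v x ^ ((p + 1) * p) := by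
    rw [pow_mul (v x) (p + 1) p, ← hprod, hs, ht, Multiset.prod_cons, Multiset.prod_cons, map_mul,
      map_mul, mul_pow, mul_pow, hy, hy', pow_add, pow_add, ← pow_mul, mul_assoc]
    exact mul_le_mul' le_rfl (mul_le_mul' le_rfl htge)
  refine absurd hbig (not_le.2 (pow_lt_pow_right₀ hx ?_))
  have h4 : 2 * 2 ≤ p * p := Nat.mul_le_mul hp hp
  have h5 : (p + 1) * p = p * p + p := by ring
  omega

end Unique

end Fermat.Agent.Mazur

end
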