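/-
The modular invariant of a Tate curve and the modular equation at a Tate parameter.
-/
import Fermat.Agent.Mazur.ModuliTateLambert
import Fermat.Agent.Tate.Normalise
import Fermat.Agent.ModFun.JFun
import Fermat.Agent.ModFun.ModularPolynomial
import Fermat.Agent.Mazur.PointPhi
import Mathlib.RingTheory.PowerSeries.Expand

set_option autoImplicit false

noncomputable section

namespace Fermat.Agent.Mazur

open ModularCurve Fermat.Agent.Tate UpperHalfPlane
open scoped MatrixGroups ModularForm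

theorem c₄_tateCurveSeries_eq : tateCurveSeries.c₄ = eisenstein4 := by
  rw [c₄_tateCurveSeries]
  ext n
  rw [map_add, show (240 : PowerSeries ℤ) = PowerSeries.C (240 : ℤ) from
    (map_ofNat PowerSeries.C 240).symm, PowerSeries.coeff_C_mul, sigSeries, eisenstein4,
    PowerSeries.coeff_mk, PowerSeries.coeff_mk, PowerSeries.coeff_one]
  rcases eq_or_ne n 0 with rfl | hn
  · simp
  · simp [hn]

theorem qExpansion_E₆_eq :
    qExpansion 1 ModularForm.E₆ = -(tateCurveSeries.c₆.map (Int.castRingHom ℂ)) := by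
  rw [c₆_tateCurveSeries]
  ext m
  rw [EisensteinSeries.E_qExpansion_coeff _ ⟨3, rfl⟩, map_neg, PowerSeries.coeff_map, map_add,
    show (504 : PowerSeries ℤ) = PowerSeries.C (504 : ℤ) from
      (map_ofNat PowerSeries.C 504).symm, PowerSeries.coeff_C_mul, sigSeries, PowerSeries.coeff_mk]
  rcases eq_or_ne m 0 with rfl | hm
  · simp
  · rw [if_neg hm, map_neg, PowerSeries.coeff_one, if_neg hm]
    simp [show bernoulli 6 = 1 / 42 by decide +kernel, ArithmeticFunction.sigma_apply]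
    norm_num

/-- Jacobi's product for the discriminant of the Tate curve. -/
theorem Δ_tateCurveSeries : tateCurveSeries.Δ = PowerSeries.X * dedekindEtaUnit := by
  set a : ModularForm 𝒮ℒ 12 := ModularForm.mcast (by decide) (ModularForm.E₄.pow 3) with ha
  set b : ModularForm 𝒮ℒ 12 := ModularForm.mcast (by decide) (ModularForm.E₆.pow 2) with hb
  have h : ⇑(a - b) = (1728 : ℂ) • ⇑CuspForm.discriminant := by
    funext z
    rw [Pi.smul_apply, CuspForm.coe_discriminant, smul_eq_mul,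
      ModularForm.discriminant_eq_E₄_cube_sub_E₆_sq]
    simp only [a, b, sub_apply, ModularForm.coe_mcast, ModularForm.coe_pow, Pi.pow_apply]
    ring
  have h2 := congrArg (qExpansion 1) h
  rw [FunLike.coe_sub, ModularForm.qExpansion_sub one_pos one_mem_strictPeriods_SL,
    ModularForm.qExpansion_smul one_pos one_mem_strictPeriods_SL] at h2
  simp only [ha, hb, ModularForm.qExpansion_mcast,
    ModularForm.qExpansion_pow one_pos one_mem_strictPeriods_SL] at h2
  rw [CuspForm.coe_discriminant, ModFun.qExpansion_discriminant, ModFun.qExpansion_E₄,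
    qExpansion_E₆_eq] at h2
  have h3 : ((1728 : PowerSeries ℤ) * tateCurveSeries.Δ).map (Int.castRingHom ℂ) =
      ((1728 : PowerSeries ℤ) * (PowerSeries.X * dedekindEtaUnit)).map (Int.castRingHom ℂ) := by
    rw [tateCurveSeries.c_relation, map_sub, map_pow, map_pow, c₄_tateCurveSeries_eq, map_mul,
      map_mul, PowerSeries.map_X]
    rw [neg_sq] at h2
    rw [h2, map_ofNat, PowerSeries.smul_eq_C_mul, map_ofNat]
  exact mul_left_cancel₀ (fun e => by simpa [map_ofNat] using congrArg PowerSeries.constantCoeff e) (PowerSeries.map_injective _ Int.cast_injective h3)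

theorem jNum_mul_Δ : jNum * tateCurveSeries.Δ = PowerSeries.X * tateCurveSeries.c₄ ^ 3 := by
  rw [Δ_tateCurveSeries, c₄_tateCurveSeries_eq, jNum]
  linear_combination (PowerSeries.X * eisenstein4 ^ 3) * dedekindEtaUnit_mul_inv

variable {K : Type} [NormedField K] [IsUltrametricDist K] [CompleteSpace K] [CharZero K]

/-- The modular invariant at `q = x`. -/
def jT {x : K} (hx : ‖x‖ < 1) : K :=
  intEval hx tateCurveSeries.c₄ ^ 3 / intEval hx tateCurveSeries.Δ

omit [CharZero K] in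
theorem intEval_c₄ {x : K} (hx : ‖x‖ < 1) :
    intEval hx tateCurveSeries.c₄ = 1 + 240 * lam 3 hx := by
  rw [c₄_tateCurveSeries, map_add, map_mul, map_one, map_ofNat, lam]

omit [CharZero K] in
theorem intEval_c₆ {x : K} (hx : ‖x‖ < 1) :
    intEval hx tateCurveSeries.c₆ = -1 + 504 * lam 5 hx := by
  rw [c₆_tateCurveSeries, map_add, map_mul, map_neg, map_one, map_ofNat, lam]

theorem norm_intEval_c₄ {x : K} (hx : ‖x‖ < 1) : ‖intEval hx tateCurveSeries.c₄‖ = 1 := by
  refine norm_sub_one_lt_iff_eq_one ?_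
  have h := norm_intEval_sub_le hx (tateCurveSeries.c₄ - 1) (N := 1) (fun n hn => by
    obtain rfl : n = 0 := by omega
    rw [PowerSeries.coeff_zero_eq_constantCoeff_apply, map_sub, coeff_c₄_tateCurveSeries, map_one,
      sub_self])
  rw [map_sub, map_one, pow_one] at h
  exact h.trans_lt hx

omit [CharZero K] in
theorem norm_intEval_Δ {x : K} (hx : ‖x‖ < 1) (hx0 : x ≠ 0) :
    ‖intEval hx tateCurveSeries.Δ‖ = ‖x‖ := by
  have h : ‖((Units.mk0 x hx0 : Kˣ) : K)‖ < 1 := hx
  have e := norm_tateCurve_Δ h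
  rw [tateCurve, WeierstrassCurve.map_Δ] at e
  exact e

omit [CharZero K] in
theorem intEval_Δ_ne_zero {x : K} (hx : ‖x‖ < 1) (hx0 : x ≠ 0) :
    intEval hx tateCurveSeries.Δ ≠ 0 :=
  norm_ne_zero_iff.1 (by rw [norm_intEval_Δ hx hx0]; exact norm_ne_zero_iff.2 hx0)

theorem norm_jT {x : K} (hx : ‖x‖ < 1) (hx0 : x ≠ 0) : ‖jT hx‖ = ‖x‖⁻¹ := by
  rw [jT, norm_div, norm_pow, norm_intEval_c₄, norm_intEval_Δ hx hx0, one_pow, one_div]

/-- `1728 a ^ 3 / (a ^ 3 - b ^ 2)`. -/
def jOf {F : Type*} [Field F] (a b : F) : F := 1728 * a ^ 3 / (a ^ 3 - b ^ 2)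

theorem map_jOf {F G : Type*} [Field F] [Field G] (f : F →+* G) (a b : F) :
    f (jOf a b) = jOf (f a) (f b) := by
  simp [jOf, map_div₀, map_mul, map_sub, map_pow, map_ofNat]

theorem jOf_scale {F : Type*} [Field F] {l : F} (hl : l ≠ 0) (a b : F) :
    jOf (l ^ 4 * a) (l ^ 6 * b) = jOf a b := by
  rw [jOf, jOf, show 1728 * (l ^ 4 * a) ^ 3 = l ^ 12 * (1728 * a ^ 3) by ring,
    show (l ^ 4 * a) ^ 3 - (l ^ 6 * b) ^ 2 = l ^ 12 * (a ^ 3 - b ^ 2) by ring,
    mul_div_mul_left _ _ (pow_ne_zero 12 hl)]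

theorem jOf_intEval {x : K} (hx : ‖x‖ < 1) :
    jOf (intEval hx tateCurveSeries.c₄) (intEval hx tateCurveSeries.c₆) = jT hx := by
  have h := congrArg (intEval hx) tateCurveSeries.c_relation
  rw [map_mul, map_sub, map_pow, map_pow, map_ofNat] at h
  rw [jOf, ← h, mul_div_mul_left _ _ (by norm_num : (1728 : K) ≠ 0), jT]

/-! ### Evaluation of Laurent series -/

/-- Evaluation at `x` of a Laurent series with integer coefficients. -/
def evL {x : K} (hx : ‖x‖ < 1) (hx0 : x ≠ 0) : LaurentSeries ℤ →+* K :=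
  IsLocalization.Away.lift (PowerSeries.X : PowerSeries ℤ) (g := intEval hx)
    (isUnit_iff_ne_zero.2 (by rwa [intEval_X]))

omit [CharZero K] in
theorem evL_ofPowerSeries {x : K} (hx : ‖x‖ < 1) (hx0 : x ≠ 0) (f : PowerSeries ℤ) :
    evL hx hx0 (HahnSeries.ofPowerSeries ℤ ℤ f) = intEval hx f := by
  rw [evL, ← IsLocalization.Away.lift_eq (S := LaurentSeries ℤ) (PowerSeries.X : PowerSeries ℤ)
    (g := intEval hx) (isUnit_iff_ne_zero.2 (by rwa [intEval_X])) f]
  rfl

omit [CharZero K] in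
theorem evL_single {x : K} (hx : ‖x‖ < 1) (hx0 : x ≠ 0) (n : ℕ) :
    evL hx hx0 (HahnSeries.single (-(n : ℤ)) 1) = (x ^ n)⁻¹ := by
  refine eq_inv_of_mul_eq_one_left ?_
  have e : (HahnSeries.single (-(n : ℤ)) (1 : ℤ)) *
      HahnSeries.ofPowerSeries ℤ ℤ (PowerSeries.X ^ n) = 1 := by
    rw [HahnSeries.ofPowerSeries_X_pow, HahnSeries.single_mul_single]
    simp
  have e2 := congrArg (evL hx hx0) e
  rwa [map_mul, evL_ofPowerSeries, map_pow, intEval_X,
    (evL hx hx0).map_one] at e2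

omit [CharZero K] in
theorem intEval_expand {x : K} (hx : ‖x‖ < 1) {p : ℕ} (hp : p ≠ 0) (hxp : ‖x ^ p‖ < 1)
    (f : PowerSeries ℤ) : intEval hx (PowerSeries.expand p hp f) = intEval hxp f := by
  rw [intEval_apply, intEval_apply]
  have hinj : Function.Injective fun n : ℕ => p * n :=
    fun a b h => mul_left_cancel₀ hp h
  rw [← hinj.tsum_eq]
  · refine tsum_congr fun n => ?_
    rw [PowerSeries.coeff_expand_mul, ← pow_mul]
  · intro m hm
    by_contra hd
    refine hm ?_
    dsimp only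
    have : ¬ p ∣ m := fun ⟨c, hc⟩ => hd ⟨c, hc.symm⟩
    rw [PowerSeries.coeff_expand_of_not_dvd _ _ _ this, Int.cast_zero, zero_mul]

theorem qExpand_ofPowerSeries_int (p : ℕ) [NeZero p] (f : PowerSeries ℤ) :
    qExpand ℤ p (HahnSeries.ofPowerSeries ℤ ℤ f) =
      HahnSeries.ofPowerSeries ℤ ℤ (PowerSeries.expand p (NeZero.ne p) f) := by
  ext m
  by_cases hm : (p : ℤ) ∣ m
  · obtain ⟨i, rfl⟩ := hm
    rw [qExpand_coeff_mul]
    rcases le_or_gt 0 i with hi | hi
    · lift i to ℕ using hi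
      rw [← Nat.cast_mul, HahnSeries.ofPowerSeries_apply_coeff,
        HahnSeries.ofPowerSeries_apply_coeff, PowerSeries.coeff_expand_mul]
    · rw [ofPowerSeries_coeff_of_neg _ hi, ofPowerSeries_coeff_of_neg]
      exact mul_neg_of_pos_of_neg (by exact_mod_cast (NeZero.pos p)) hi
  · rw [qExpand_coeff_of_not_dvd p _ hm]
    rcases le_or_gt 0 m with hi | hi
    · lift m to ℕ using hi
      rw [HahnSeries.ofPowerSeries_apply_coeff, PowerSeries.coeff_expand_of_not_dvd]
      exact fun h => hm (Int.natCast_dvd_natCast.mpr h)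
    · rw [ofPowerSeries_coeff_of_neg _ hi]

omit [CharZero K] in
theorem intEval_jNum {x : K} (hx : ‖x‖ < 1) (hx0 : x ≠ 0) :
    x⁻¹ * intEval hx jNum = jT hx := by
  have h := congrArg (intEval hx) jNum_mul_Δ
  rw [map_mul, map_mul, intEval_X, map_pow] at h
  rw [jT, eq_div_iff (intEval_Δ_ne_zero hx hx0), mul_assoc, h, inv_mul_cancel_left₀ hx0]

omit [CharZero K] in
theorem evL_jqModC {x : K} (hx : ‖x‖ < 1) (hx0 : x ≠ 0) : evL hx hx0 (jqModC ℤ) = jT hx := by
  rw [jqModC, map_mul, evL_ofPowerSeries, RingHom.ext_int (Int.castRingHom ℤ) (RingHom.id ℤ), PowerSeries.map_id, id_eq,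
    show (-1 : ℤ) = -((1 : ℕ) : ℤ) by norm_num, evL_single, pow_one, intEval_jNum hx hx0]

omit [CharZero K] in
theorem evL_jqNModC {x : K} (hx : ‖x‖ < 1) (hx0 : x ≠ 0) (p : ℕ) [NeZero p]
    (hxp : ‖x ^ p‖ < 1) : evL hx hx0 (jqNModC ℤ p) = jT hxp := by
  rw [jqNModC, jqModC, map_mul, qExpand_single, qExpand_ofPowerSeries_int, map_mul,
    evL_ofPowerSeries, RingHom.ext_int (Int.castRingHom ℤ) (RingHom.id ℤ), PowerSeries.map_id, id_eq, intEval_expand hx (NeZero.ne p) hxp,
    show (p : ℤ) * (-1) = -((p : ℕ) : ℤ) by ring, evL_single,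
    intEval_jNum hxp (pow_ne_zero p hx0)]

theorem eval₂_coeffMap {S : Type*} [CommRing S] (f : LaurentSeries ℤ →+* S)
    (Φ : Polynomial (Polynomial ℤ)) (a b : LaurentSeries ℤ) :
    f (Φ.eval₂ (Polynomial.eval₂RingHom (Int.castRingHom (LaurentSeries ℤ)) a) b) =
      Φ.eval₂ (Polynomial.eval₂RingHom (Int.castRingHom S) (f a)) (f b) := by
  rw [Polynomial.hom_eval₂]
  congr 1
  exact Polynomial.ringHom_ext (fun n => by simp) (by simp)

theorem coeffMap_injective {R S : Type*} [CommRing R] [CommRing S] (f : R →+* S)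
    (hf : Function.Injective f) : Function.Injective (coeffMap f) := fun a b h =>
  HahnSeries.ext (funext fun k => hf (congrArg (fun z : LaurentSeries S => z.coeff k) h))

/-- `Φ_p (j (q), j (q ^ p)) = 0` in integral Laurent series. -/
theorem eval_Φ_int {p : ℕ} [NeZero p] (data : ModularPolynomialData p) :
    data.Φ.eval₂ (Polynomial.eval₂RingHom (Int.castRingHom (LaurentSeries ℤ)) (jqModC ℤ))
      (jqNModC ℤ p) = 0 := by
  refine coeffMap_injective (Int.castRingHom ℚ) Int.cast_injective ?_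
  rw [eval₂_coeffMap, map_zero, coeffMap_jqModC, coeffMap_jqNModC]
  refine Eq.trans ?_ data.eval_eq_zero
  show Polynomial.eval₂ _ (jqN p) _ = _
  congr 1
  exact Polynomial.ringHom_ext (fun n => by simp) (by simp; rfl)

/-- `Φ_p (j (q ^ p), j (q)) = 0` in integral Laurent series. -/
theorem eval_Φ_int_swap {p : ℕ} [Fact p.Prime] (data : ModularPolynomialData p) :
    data.Φ.eval₂ (Polynomial.eval₂RingHom (Int.castRingHom (LaurentSeries ℤ)) (jqNModC ℤ p))
      (jqModC ℤ) = 0 := by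
  refine coeffMap_injective (Int.castRingHom ℂ) Int.cast_injective ?_
  rw [eval₂_coeffMap, map_zero, coeffMap_jqModC, coeffMap_jqNModC]
  have hp : p.Prime := Fact.out
  have hmem : ((1, 0, p) : ℕ × ℕ × ℕ) ∈ ModFun.hnfSet p := by
    rw [hnfSet_prime hp]
    exact Finset.mem_insert_of_mem (Finset.mem_image.2 ⟨0, Finset.mem_range.2 hp.pos, rfl⟩)
  have hconj : ModFun.conjSeries (1, 0, p) = jqModC ℂ := by
    ext k
    simp [ModFun.conjSeries, qExpand_one_apply, ModFun.twist_coeff]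
  have h := congrArg (Polynomial.eval (jqModC ℂ)) (ModFun.map_Φ_jqModC data)
  rw [Polynomial.eval_map, Polynomial.eval_prod] at h
  rw [jqNModC]
  refine h.trans (Finset.prod_eq_zero hmem ?_)
  rw [hconj, Polynomial.eval_sub, Polynomial.eval_X, Polynomial.eval_C, sub_self]

/-- The modular equation between `j (s)` and `j (s ^ p)`. -/
theorem eval_Φ_jT {p : ℕ} [Fact p.Prime] (data : ModularPolynomialData p) {s : K}
    (hs : ‖s‖ < 1) (hs0 : s ≠ 0) (hsp : ‖s ^ p‖ < 1) :
    data.Φ.eval₂ (Polynomial.eval₂RingHom (Int.castRingHom K) (jT hs)) (jT hsp) = 0 ∧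
    data.Φ.eval₂ (Polynomial.eval₂RingHom (Int.castRingHom K) (jT hsp)) (jT hs) = 0 := by
  refine ⟨?_, ?_⟩
  · have h := congrArg (evL hs hs0) (eval_Φ_int data)
    rwa [eval₂_coeffMap, map_zero, evL_jqModC, evL_jqNModC hs hs0 p hsp] at h
  · have h := congrArg (evL hs hs0) (eval_Φ_int_swap data)
    rwa [eval₂_coeffMap, map_zero, evL_jqModC, evL_jqNModC hs hs0 p hsp] at h

end Fermat.Agent.Mazur

end
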