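/-
Mazur's Eisenstein descent: the modular unit `Δ (p τ) / Δ (τ)` as an element of the function field
of `X₀(p)`
over `ℚ̄` that is integral, with its inverse, over `ℚ̄[j]`.
-/
import Fermat.Agent.Igusa.FibreIrred
import Fermat.Agent.ModFun.ModularPolynomial
import Fermat.Agent.Curve.BasicModular
import Fermat.Agent.Galois.QbarInstances

set_option autoImplicit false

noncomputable section

open UpperHalfPlane Filter ModularCurve Polynomial CongruenceSubgroup
open scoped Topology Manifold MatrixGroups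

namespace Fermat.Agent.Mazur

open Fermat.Agent.ModFun Fermat.Agent.Igusa.Fibre

local notation "Δ" => ModularForm.discriminant

variable (p : ℕ) [NeZero p]

/-- The series of `Δ (p τ) / Δ (τ)`. -/
def unitS (R : Type*) [CommRing R] : LaurentSeries R :=
  qExpand R p (deltaS R) * deltaInvS R

/-- The series of `Δ (τ) / Δ (p τ)`. -/
def unitInvS (R : Type*) [CommRing R] : LaurentSeries R :=
  qExpand R p (deltaInvS R) * deltaS R

theorem unitS_mul_unitInvS (R : Type*) [CommRing R] : unitS p R * unitInvS p R = 1 := by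
  rw [unitS, unitInvS, mul_mul_mul_comm, ← map_mul, mul_comm (deltaInvS R),
    deltaS_mul_deltaInvS, map_one, one_mul]

theorem coeffMap_unitS {R S : Type*} [CommRing R] [CommRing S] (f : R →+* S) :
    coeffMap f (unitS p R) = unitS p S := by
  rw [unitS, map_mul, coeffMap_qExpand, coeffMap_deltaS, coeffMap_deltaInvS, unitS]

theorem coeffMap_unitInvS {R S : Type*} [CommRing R] [CommRing S] (f : R →+* S) :
    coeffMap f (unitInvS p R) = unitInvS p S := by
  rw [unitInvS, map_mul, coeffMap_qExpand, coeffMap_deltaS, coeffMap_deltaInvS, unitInvS]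

theorem order_unitS (K : Type*) [Field K] : (unitS p K).order = (p : ℤ) - 1 := by
  have h1 := (lead_deltaS (R := K)).qExpand p
  have h2 := lead_deltaInvS (R := K)
  rw [unitS, HahnSeries.order_mul (h1.ne_zero one_ne_zero) (h2.ne_zero one_ne_zero),
    h1.order_eq one_ne_zero, h2.order_eq one_ne_zero]
  ring

theorem uV_q₀ : uV p (q₀ : Gamma0.Coset p) = fun τ : ℍ => Δ (sc p τ) / Δ τ := by
  funext τ
  obtain ⟨γ, h, h'⟩ := sc_smul_Gamma0 (dvd_refl p) rep_q₀_mem τ
  rw [uV, h, discriminant_smul, discriminant_smul, h', mul_div_mul_left]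
  exact pow_ne_zero _ (by rw [← ModularGroup.denom_apply]; exact denom_ne_zero _ _)

theorem hasQExp_unit : HasQExp 1 (uV p (q₀ : Gamma0.Coset p)) (unitS p ℂ) := by
  refine ((Igusa.Fibre.hasQExp_discriminant.comp_mul p).mul hasQExp_inv_discriminant).congr
    (Eventually.of_forall fun τ => ?_)
  rw [uV_q₀]
  simp [sc, heckeDiagMatrix_smul_eq_triPoint, div_eq_mul_inv]

theorem smul_q₀_eq {γ : SL(2, ℤ)} (hγ : γ ∈ Gamma0 p) :
    γ • (q₀ : Gamma0.Coset p) = q₀ := by
  show Gamma0.mk p (γ * 1) = Gamma0.mk p 1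
  exact QuotientGroup.eq.2 (by simpa using hγ)

/-- `ℂ`, with the roots of unity, as a coefficient ring. -/
theorem exists_zetaU_top : ∀ d, d ∣ p → ∃ z : (⊤ : Subring ℂ)ˣ,
    Units.map (⊤ : Subring ℂ).subtype z = zetaU d := fun d _ =>
  ⟨⟨⟨(zetaU d : ℂ), trivial⟩, ⟨((zetaU d)⁻¹ : ℂˣ), trivial⟩, Subtype.ext (zetaU d).mul_inv,
    Subtype.ext (zetaU d).inv_mul⟩, Units.ext rfl⟩

theorem isUnit_natCast_top : IsUnit ((p : ℕ) : (⊤ : Subring ℂ)) :=
  IsUnit.of_mul_eq_one (⟨((p : ℂ))⁻¹, trivial⟩ : (⊤ : Subring ℂ))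
    (Subtype.ext (by simpa using mul_inv_cancel₀ (show (p : ℂ) ≠ 0 by exact_mod_cast NeZero.ne p)))

theorem isModularFun_unit : IsModularFun p (uV p (q₀ : Gamma0.Coset p)) where
  mero := meroH_of_mdifferentiable (mdifferentiable_uV _ _)
  smul_eq γ hγ τ := by rw [uV_smul (dvd_refl p), smul_q₀_eq p (inv_mem hγ)]
  cusps γ := by
    obtain ⟨X, -, -, -, hX, -⟩ := exists_exp_uV (exists_zetaU_top p) (isUnit_natCast_top p)
      (dvd_refl p) (γ⁻¹ • (q₀ : Gamma0.Coset p))
    exact ⟨_, hX.congr (Eventually.of_forall fun τ => (uV_smul (dvd_refl p) γ q₀ τ).symm)⟩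

/-- A conjugate-symmetric family gives a monic relation over `ℂ[j]`. -/
theorem exists_monic_relation {w : LaurentSeries ℂ} (F : Gamma0.Coset p → Gd p (⊤ : Subring ℂ))
    (hperm : ∀ (γ : SL(2, ℤ)) q τ, (F q).1.1 (γ • τ) = (F (γ⁻¹ • q)).1.1 τ)
    (hw : HasQExp 1 (F q₀).1.1 w) :
    ∃ (n : ℕ) (a : ℕ → ℂ[X]),
      w ^ n + ∑ i ∈ Finset.range n, aeval (jqModC ℂ) (a i) * w ^ i = 0 := by
  classical
  set x : Gamma0.Coset p → LaurentSeries ℂ :=
    fun q => coeffMap (⊤ : Subring ℂ).subtype (F q).1.2 with hx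
  have hR := pairPoly_red p (⊤ : Subring ℂ) _ _ (⊤ : Subring ℂ).subtype (x' := x) (u' := x)
    (fun q => rfl) (fun q => rfl)
    (pairPoly_mem_range p (⊤ : Subring ℂ) F F fun γ =>
      ⟨MulAction.toPerm γ⁻¹, fun q τ => ⟨hperm γ q τ, hperm γ q τ⟩⟩)
  set P : (LaurentSeries ℂ)[X] := ∏ q, (X - C (x q)) with hP
  have hP' : (pairPoly x x).map (evalRingHom 0) = P := pairPoly_eval_zero x x
  have hcoef : ∀ i, ∃ a : ℂ[X], aeval (jt p ℂ) a = P.coeff i := fun i => by
    obtain ⟨a, ha⟩ := hR i 0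
    refine ⟨a, ?_⟩
    rw [← hP', coeff_map, coe_evalRingHom, ← coeff_zero_eq_eval_zero]
    exact ha
  choose a ha using hcoef
  have hmon : P.Monic := monic_prod_of_monic _ _ fun q _ => monic_X_sub_C _
  have hx0 : x q₀ = qExpand ℂ p w := by
    have h1 := hw.expand_period p
    rw [one_mul] at h1
    exact (F q₀).2.2.unique h1
  refine ⟨P.natDegree, a, qExpand_injective p ?_⟩
  rw [map_add, map_pow, map_sum, map_zero]
  have h0 : P.eval (qExpand ℂ p w) = 0 := by
    rw [hP, eval_prod]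
    exact Finset.prod_eq_zero (Finset.mem_univ q₀) (by simp [hx0])
  rw [← h0, eval_eq_sum_range, Finset.sum_range_succ, hmon.coeff_natDegree, one_mul, add_comm]
  refine congrArg (· + _) (Finset.sum_congr rfl fun i _ => ?_)
  rw [map_mul, map_pow, ← ha i]
  exact congrArg (· * _) (aeval_algHom_apply (qExpandAlgHomC ℂ p) (jqModC ℂ) (a i)).symm

theorem exists_monic_relation_unit :
    ∃ (n : ℕ) (a : ℕ → ℂ[X]),
      (unitS p ℂ) ^ n + ∑ i ∈ Finset.range n, aeval (jqModC ℂ) (a i) * (unitS p ℂ) ^ i = 0 :=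
  exists_monic_relation p (fun q => uG (exists_zetaU_top p) (isUnit_natCast_top p) (dvd_refl p) q)
    (fun γ q τ => uV_smul (dvd_refl p) γ q τ) (hasQExp_unit p)

theorem exists_monic_relation_unitInv :
    ∃ (n : ℕ) (a : ℕ → ℂ[X]),
      (unitInvS p ℂ) ^ n + ∑ i ∈ Finset.range n, aeval (jqModC ℂ) (a i) * (unitInvS p ℂ) ^ i = 0 :=
  exists_monic_relation p (fun q => vG (exists_zetaU_top p) (isUnit_natCast_top p) (dvd_refl p) q)
    (fun γ q τ => congrArg (·⁻¹) (uV_smul (dvd_refl p) γ q τ))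
    ((hasQExp_unit p).inv.of_eq (inv_eq_of_mul_eq_one_right (unitS_mul_unitInvS p ℂ)))

section Descent

variable {K : Type*} [Field K] [Algebra K ℂ]

/-- Applying a linear form to the coefficients. -/
def coeffProj (φ : ℂ →ₗ[K] K) : LaurentSeries ℂ →+ LaurentSeries K where
  toFun x := x.map φ
  map_zero' := by ext; simp
  map_add' x y := by ext; simp

theorem coeffProj_const_mul (φ : ℂ →ₗ[K] K) (c : ℂ) (z : LaurentSeries K) :
    coeffProj φ (algebraMap ℂ (LaurentSeries ℂ) c * coeffMap (algebraMap K ℂ) z) =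
      algebraMap K (LaurentSeries K) (φ c) * z := by
  ext k
  rw [algebraMap_laurentSeries_eq_single, algebraMap_laurentSeries_eq_single]
  show φ _ = _
  rw [HahnSeries.coeff_single_zero_mul, HahnSeries.coeff_single_zero_mul, coeffMap_coeff,
    mul_comm, ← Algebra.smul_def, map_smul, smul_eq_mul, mul_comm]

theorem coeffProj_coeffMap {φ : ℂ →ₗ[K] K} (hφ : φ 1 = 1) (z : LaurentSeries K) :
    coeffProj φ (coeffMap (algebraMap K ℂ) z) = z := by
  have h := coeffProj_const_mul φ 1 z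
  rwa [map_one, one_mul, hφ, map_one, one_mul] at h

theorem coeffProj_aeval_mul (φ : ℂ →ₗ[K] K) (a : ℂ[X]) (z : LaurentSeries K) :
    ∃ b : K[X], coeffProj φ (aeval (jqModC ℂ) a * coeffMap (algebraMap K ℂ) z) =
      aeval (jqModC K) b * z := by
  refine ⟨∑ l ∈ Finset.range (a.natDegree + 1), C (φ (a.coeff l)) * X ^ l, ?_⟩
  rw [aeval_eq_sum_range, Finset.sum_mul, map_sum, map_sum, Finset.sum_mul]
  refine Finset.sum_congr rfl fun l _ => ?_
  rw [map_mul (aeval (jqModC K)), aeval_C, map_pow, aeval_X, Algebra.smul_def, mul_assoc,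
    ← coeffMap_jqModC (algebraMap K ℂ), ← map_pow, ← map_mul, coeffProj_const_mul, mul_assoc]

theorem exists_monic_relation_descend {φ : ℂ →ₗ[K] K} (hφ : φ 1 = 1) {z : LaurentSeries K}
    (h : ∃ (n : ℕ) (a : ℕ → ℂ[X]), coeffMap (algebraMap K ℂ) z ^ n +
      ∑ i ∈ Finset.range n, aeval (jqModC ℂ) (a i) * coeffMap (algebraMap K ℂ) z ^ i = 0) :
    ∃ (n : ℕ) (b : ℕ → K[X]),
      z ^ n + ∑ i ∈ Finset.range n, aeval (jqModC K) (b i) * z ^ i = 0 := by
  obtain ⟨n, a, ha⟩ := h
  choose b hb using fun i => coeffProj_aeval_mul φ (a i) (z ^ i)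
  refine ⟨n, b, ?_⟩
  have h1 := congrArg (coeffProj φ) ha
  simp only [← map_pow (coeffMap (algebraMap K ℂ)), map_add, map_sum, map_zero,
    coeffProj_coeffMap hφ, hb] at h1
  exact h1

theorem exists_evalPairK_descend {φ : ℂ →ₗ[K] K} (hφ : φ 1 = 1) {z : LaurentSeries K}
    (h : ∃ G : Polynomial (Polynomial ℂ), coeffMap (algebraMap K ℂ) z = evalPairK ℂ p G) :
    ∃ H : Polynomial (Polynomial K), z = evalPairK K p H := by
  obtain ⟨G, hG⟩ := h
  choose b hb using fun i => coeffProj_aeval_mul φ (G.coeff i) (jqNModC K p ^ i)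
  refine ⟨∑ i ∈ Finset.range (G.natDegree + 1), C (b i) * X ^ i, ?_⟩
  rw [evalPairK, coe_eval₂RingHom, eval₂_finsetSum]
  rw [evalPairK, coe_eval₂RingHom, eval₂_eq_sum_range] at hG
  have h1 := congrArg (coeffProj φ) hG
  rw [coeffProj_coeffMap hφ, map_sum] at h1
  rw [h1]
  refine Finset.sum_congr rfl fun i _ => ?_
  rw [eval₂_mul, eval₂_C, eval₂_X_pow, ← coeffMap_jqNModC (algebraMap K ℂ), ← map_pow]
  exact hb i

end Descent

local notation "ℚbar" => AlgebraicClosure ℚ

theorem evalPairK_mem_fullC (K : Type*) [Field K] (H : Polynomial (Polynomial K)) :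
    evalPairK K p H ∈ modularFunctionFieldFullC K p := by
  rw [evalPairK, coe_eval₂RingHom, eval₂_eq_sum_range]
  refine sum_mem fun i _ => mul_mem ?_ (pow_mem (jqModCd_mem_full K p dvd_rfl) _)
  show aeval (jqModC K) (H.coeff i) ∈ _
  rw [aeval_eq_sum_range]
  exact sum_mem fun l _ => by
    rw [Algebra.smul_def]
    exact mul_mem (IntermediateField.algebraMap_mem _ _) (pow_mem (jqModC_mem_full K p) _)

/-- The unit lies in the function field and is integral with its inverse over `ℚ̄[j]`. -/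
theorem unitS_spec :
    unitS p ℚbar ∈ modularFunctionFieldFullC ℚbar p ∧
      (∃ (n : ℕ) (b : ℕ → ℚbar[X]), unitS p ℚbar ^ n +
        ∑ i ∈ Finset.range n, aeval (jqModC ℚbar) (b i) * unitS p ℚbar ^ i = 0) ∧
      ∃ (n : ℕ) (b : ℕ → ℚbar[X]), unitInvS p ℚbar ^ n +
        ∑ i ∈ Finset.range n, aeval (jqModC ℚbar) (b i) * unitInvS p ℚbar ^ i = 0 := by
  obtain ⟨ι⟩ : Nonempty (ℚbar →+* ℂ) :=
    ⟨(IsAlgClosed.lift : ℚbar →ₐ[ℚ] ℂ).toRingHom⟩
  letI : Algebra ℚbar ℂ := ι.toAlgebra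
  obtain ⟨φ, hφ'⟩ := LinearMap.exists_leftInverse_of_injective (Algebra.linearMap ℚbar ℂ)
    (LinearMap.ker_eq_bot.2 (RingHom.injective _))
  have hφ : φ 1 = 1 := by
    have := LinearMap.congr_fun hφ' 1
    simpa using this
  have hw : coeffMap (algebraMap ℚbar ℂ) (unitS p ℚbar) = unitS p ℂ := coeffMap_unitS p _
  have hw' : coeffMap (algebraMap ℚbar ℂ) (unitInvS p ℚbar) = unitInvS p ℂ := coeffMap_unitInvS p _
  refine ⟨?_, exists_monic_relation_descend hφ (by rw [hw]; exact exists_monic_relation_unit p),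
    exists_monic_relation_descend hφ (by rw [hw']; exact exists_monic_relation_unitInv p)⟩
  obtain ⟨data⟩ := ModFun.nonempty_modularPolynomialData p
  set P := data.Φ.map (mapRingHom (Int.castRingHom ℚbar)) with hP
  set D := evalPairK ℚbar p (derivative P) with hD
  have hDC : coeffMap (algebraMap ℚbar ℂ) D =
      evalPair p (derivative (data.Φ.map (mapRingHom (Int.castRingHom ℂ)))) := by
    rw [hD, coeffMap_evalPairK, ← derivative_map, hP, Polynomial.map_map, mapRingHom_comp,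
      RingHom.ext_int ((algebraMap ℚbar ℂ).comp (Int.castRingHom ℚbar)) (Int.castRingHom ℂ)]
    rfl
  have hD0 : D ≠ 0 := fun h => evalPair_derivative_ne_zero data (by rw [← hDC, h, map_zero])
  obtain ⟨G, -, -, hG⟩ := exists_lagrange ⊤ data (isModularFun_unit p) (mdifferentiable_uV _ _)
    (hasQExp_unit p) (Subring.mem_top _) (fun _ _ _ _ => Subring.mem_top _)
  obtain ⟨H, hH⟩ := exists_evalPairK_descend p hφ (z := unitS p ℚbar * D)
    ⟨G, by rw [map_mul, hw, hDC]; exact hG⟩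
  have hmem : unitS p ℚbar * D ∈ modularFunctionFieldFullC ℚbar p :=
    hH ▸ evalPairK_mem_fullC p ℚbar H
  have := div_mem hmem (evalPairK_mem_fullC p ℚbar (derivative P))
  rwa [← hD, mul_div_cancel_right₀ _ hD0] at this

end Fermat.Agent.Mazur

end
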