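/-
Mazur's Eisenstein descent: a function field generated by `j` and `j'` with `Φ_p (j, j') = 0`,
positive genus and
a place `∞` where `j`, `j'` have poles of order `1`, `p`, has exactly one further pole `0` of `j`
or `j'`, of orders `p`, `1`.
-/
import Fermat.Agent.Mazur.PointPhi
import Fermat.Agent.Curve.RiemannRochFunctions

set_option autoImplicit false

noncomputable section

open AlgebraicCurve IntermediateField WithZero Polynomial

namespace Fermat.Agent.Mazur

open Fermat.Agent.Curve

variable {K F : Type*} [Field K] [IsAlgClosed K] [Field F] [Algebra K F] [IsFunctionFieldOne K F]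

/-- A function field with a function of degree one has genus zero. -/
theorem genusFF_eq_zero_of_finrank_one {t : F} (ht : Transcendental K t)
    (h1 : Module.finrank K⟮t⟯ F = 1) : genusFF K F = 0 := by
  have hdeg := degree_poleDivisor ht
  rw [h1, Nat.cast_one] at hdeg
  have hnn : (0 : Divisor K F) ≤ poleDivisor K t := fun v => by simp
  set n := 2 * genusFF K F + 1 with hn
  set D := n • poleDivisor K t with hD
  have hDdeg : Divisor.degree D = (n : ℤ) := by rw [hD, map_nsmul, hdeg]; simp
  have hDnn : (0 : Divisor K F) ≤ D := nsmul_nonneg hnn n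
  have hRR := ellDim_eq_of_degree_ge (D := D) (by rw [hDdeg, hn]; push_cast; omega)
  have ht0 : t ≠ 0 := fun h => ht (h ▸ isAlgebraic_zero)
  have hmem : ∀ i : Fin (n + 1), t ^ (i : ℕ) ∈ riemannRochSpace D := by
    intro i
    rw [mem_riemannRochSpace_iff]
    intro v
    refine Or.inr ?_
    rw [hD, Finsupp.smul_apply, poleDivisor_apply, nsmul_eq_mul, ord_pow]
    have hi : ((i : ℕ) : ℤ) ≤ (n : ℤ) := by exact_mod_cast Nat.lt_succ_iff.1 i.2
    have h0 : 0 ≤ max (-v.ord t) 0 := le_max_right _ _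
    nlinarith [le_max_left (-v.ord t) 0, Int.natCast_nonneg (i : ℕ)]
  have hli : LinearIndependent K fun i : Fin (n + 1) => (⟨_, hmem i⟩ : riemannRochSpace D) := by
    refine LinearIndependent.of_comp (riemannRochSpace D).subtype ?_
    exact (Polynomial.basisMonomials K).linearIndependent.map_injOn
      (Polynomial.aeval t).toLinearMap (fun a _ b _ hab => transcendental_iff_injective.1 ht hab)
      |>.comp (fun i : Fin (n + 1) => (i : ℕ)) Fin.val_injective
      |> fun h => by simpa [Function.comp_def] using h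
  have hge := hli.fintype_card_le_finrank
  rw [Fintype.card_fin] at hge
  change (n + 1 : ℕ) ≤ ellDim D at hge
  omega

section Degree

variable {p : ℕ} {Φ : Polynomial (Polynomial ℤ)} {j j' : F}

omit [IsAlgClosed K] [IsFunctionFieldOne K F] in
theorem adjoin_gen_eq_top (hgen : adjoin K ({j, j'} : Set F) = ⊤) :
    adjoin K⟮j⟯ ({j'} : Set F) = ⊤ := by
  apply restrictScalars_injective K
  rw [adjoin_adjoin_left, restrictScalars_top, ← hgen, Set.union_singleton, Set.pair_comm]

omit [IsAlgClosed K] [IsFunctionFieldOne K F] in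
theorem finrank_le_of_eval (hΦ : PhiShape p Φ)
    (h0 : Φ.eval₂ (Polynomial.eval₂RingHom (Int.castRingHom F) j) j' = 0)
    (hgen : adjoin K ({j, j'} : Set F) = ⊤) :
    Module.finrank K⟮j⟯ F ≤ p + 1 := by
  set g : Polynomial ℤ →+* K⟮j⟯ := Polynomial.eval₂RingHom (Int.castRingHom _)
    ⟨j, mem_adjoin_simple_self K j⟩ with hg
  have hcomp : (algebraMap K⟮j⟯ F).comp g = Polynomial.eval₂RingHom (Int.castRingHom F) j :=
    Polynomial.ringHom_ext (fun a => by simp [hg]) (by simp [hg])
  have hroot : Polynomial.aeval j' (Φ.map g) = 0 := by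
    rw [Polynomial.aeval_def, Polynomial.eval₂_map, hcomp, h0]
  have hmon := hΦ.monic.map g
  have hint : IsIntegral K⟮j⟯ j' := ⟨_, hmon, hroot⟩
  rw [← IntermediateField.finrank_top' (F := K⟮j⟯) (E := F), ← adjoin_gen_eq_top hgen,
    adjoin.finrank hint]
  exact (Polynomial.natDegree_le_of_dvd (minpoly.dvd K⟮j⟯ j' hroot) hmon.ne_zero).trans_eq
    (by rw [hΦ.monic.natDegree_map, hΦ.natDegree_eq])

omit [IsAlgClosed K] [IsFunctionFieldOne K F] in
theorem finrank_le_of_eval' (hΦ : PhiShape p Φ)
    (h0 : Φ.eval₂ (Polynomial.eval₂RingHom (Int.castRingHom F) j) j' = 0)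
    (hgen : adjoin K ({j, j'} : Set F) = ⊤) :
    Module.finrank K⟮j'⟯ F ≤ p + 1 := by
  set c : K⟮j'⟯ := ⟨j', mem_adjoin_simple_self K j'⟩ with hc
  set Ψ : Polynomial K⟮j'⟯ := ∑ i ∈ Finset.range (p + 2),
    Polynomial.C (c ^ i) * (Φ.coeff i).map (Int.castRingHom K⟮j'⟯) with hΨ
  have hroot : Polynomial.aeval j Ψ = 0 := by
    rw [hΨ, map_sum, ← h0, Polynomial.eval₂_eq_sum_range, hΦ.natDegree_eq]
    refine Finset.sum_congr rfl fun i _ => ?_
    rw [map_mul, Polynomial.aeval_C, map_pow, Polynomial.aeval_def, Polynomial.eval₂_map,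
      mul_comm]
    congr 2
  have hdle : ∀ i, i ∈ Finset.range (p + 2) → (Φ.coeff i).natDegree ≤ p + 1 := by
    intro i hi
    rw [Finset.mem_range] at hi
    rcases Nat.eq_zero_or_pos i with rfl | hi0
    · exact hΦ.natDegree_zero
    · rcases Nat.lt_or_ge i (p + 1) with h | h
      · exact (hΦ.natDegree_le i hi0 (Nat.lt_succ_iff.1 h)).trans (Nat.le_succ p)
      · rw [show i = Φ.natDegree by rw [hΦ.natDegree_eq]; omega, hΦ.monic.coeff_natDegree]
        simp
  have hd : Ψ.natDegree ≤ p + 1 := by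
    refine Polynomial.natDegree_sum_le_of_forall_le _ _ fun i hi => ?_
    exact (Polynomial.natDegree_C_mul_le _ _).trans (Polynomial.natDegree_map_le.trans (hdle i hi))
  have hc1 : Ψ.coeff (p + 1) = 1 := by
    rw [hΨ, Polynomial.finsetSum_coeff, Finset.sum_eq_single 0]
    · simp [hΦ.coeff_zero]
    · intro i hi hne
      rw [Polynomial.coeff_C_mul, Polynomial.coeff_map]
      rw [Finset.mem_range] at hi
      rcases Nat.lt_or_ge i (p + 1) with h | h
      · rw [Polynomial.coeff_eq_zero_of_natDegree_lt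
          (Nat.lt_succ_of_le (hΦ.natDegree_le i (Nat.pos_of_ne_zero hne) (Nat.lt_succ_iff.1 h)))]
        simp
      · rw [show i = Φ.natDegree by rw [hΦ.natDegree_eq]; omega, hΦ.monic.coeff_natDegree]
        simp [Polynomial.coeff_one]
    · simp
  have hmon : Ψ.Monic := Polynomial.monic_of_natDegree_le_of_coeff_eq_one _ hd hc1
  have hint : IsIntegral K⟮j'⟯ j := ⟨_, hmon, hroot⟩
  rw [← IntermediateField.finrank_top' (F := K⟮j'⟯) (E := F),
    ← adjoin_gen_eq_top (by rwa [Set.pair_comm]), adjoin.finrank hint]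
  exact (Polynomial.natDegree_le_of_dvd (minpoly.dvd K⟮j'⟯ j hroot) hmon.ne_zero).trans hd

end Degree

section Poles

variable {p : ℕ} {Φ : Polynomial (Polynomial ℤ)} {j j' : F}

omit [IsAlgClosed K] [IsFunctionFieldOne K F] in
theorem adicValuation_intCast_le_one (P : Place K F) (n : ℤ) : P.adicValuation (n : F) ≤ 1 := by
  rw [← map_intCast (algebraMap K F) n]
  exact P.adicValuation_algebraMap_le_one _

omit [IsAlgClosed K] [IsFunctionFieldOne K F] in
theorem one_lt_adicValuation_iff (P : Place K F) {f : F} :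
    1 < P.adicValuation f ↔ P.ord f < 0 := by
  rcases eq_or_ne f 0 with rfl | hf
  · simp
  · rw [P.adicValuation_eq_exp_neg_ord hf, ← exp_zero, exp_lt_exp]
    omega

omit [IsAlgClosed K] [IsFunctionFieldOne K F] in
theorem ord_eq_mul_of_adicValuation_eq (P : Place K F) {f g : F} (hg : g ≠ 0) {n : ℕ}
    (h : P.adicValuation f = P.adicValuation g ^ n) : P.ord f = n * P.ord g := by
  have hf : f ≠ 0 := fun h0 => by
    rw [h0, map_zero] at h
    exact pow_ne_zero n (P.adicValuation_ne_zero hg) h.symm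
  rw [P.adicValuation_eq_exp_neg_ord hf, P.adicValuation_eq_exp_neg_ord hg, ← exp_nsmul,
    exp_inj, nsmul_eq_mul] at h
  linarith

omit [IsAlgClosed K] [IsFunctionFieldOne K F] in
/-- A pole of `j` or of `j'` is a pole of both, with orders in ratio `p` or `1 / p`. -/
theorem ord_dichotomy (hΦ : PhiShape p Φ) (hp : 2 ≤ p)
    (h0 : Φ.eval₂ (Polynomial.eval₂RingHom (Int.castRingHom F) j) j' = 0) (P : Place K F)
    (h : P.ord j < 0 ∨ P.ord j' < 0) :
    P.ord j < 0 ∧ P.ord j' < 0 ∧ (P.ord j' = p * P.ord j ∨ P.ord j = p * P.ord j') := by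
  have hint := adicValuation_intCast_le_one (K := K) P
  have key : P.ord j < 0 →
      P.ord j < 0 ∧ P.ord j' < 0 ∧ (P.ord j' = p * P.ord j ∨ P.ord j = p * P.ord j') := by
    intro hj
    have hj0 : j ≠ 0 := fun h => by simp [h] at hj
    obtain ⟨hj', hcase⟩ := hΦ.dichotomy hp P.adicValuation hint h0
      ((one_lt_adicValuation_iff P).2 hj)
    have hj'o := (one_lt_adicValuation_iff P).1 hj'
    have hj'0 : j' ≠ 0 := fun h => by simp [h] at hj'o
    refine ⟨hj, hj'o, hcase.imp (fun h => ord_eq_mul_of_adicValuation_eq P hj0 h.1)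
      fun h => ord_eq_mul_of_adicValuation_eq P hj'0 h.1⟩
  rcases h with h | h
  · exact key h
  · refine key ?_
    by_contra hj
    have hvj : P.adicValuation j ≤ 1 := not_lt.1 fun hh => hj ((one_lt_adicValuation_iff P).1 hh)
    have hvj' := (one_lt_adicValuation_iff P).2 h
    set e := Polynomial.eval₂RingHom (Int.castRingHom F) j with he
    have hsum : j' ^ (p + 1) = -∑ i ∈ Finset.range (p + 1), e (Φ.coeff i) * j' ^ i := by
      rw [Polynomial.eval₂_eq_sum_range, hΦ.natDegree_eq, Finset.sum_range_succ,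
        show Φ.coeff (p + 1) = 1 from hΦ.natDegree_eq ▸ hΦ.monic.coeff_natDegree, map_one,
        one_mul] at h0
      linear_combination h0
    have hle : P.adicValuation (j' ^ (p + 1)) ≤ P.adicValuation j' ^ p := by
      rw [hsum, Valuation.map_neg]
      refine P.adicValuation.map_sum_le fun i hi => ?_
      rw [map_mul, map_pow]
      refine (mul_le_of_le_one_left' ?_).trans
        (pow_le_pow_right₀ hvj'.le (Nat.lt_succ_iff.1 (Finset.mem_range.1 hi)))
      rw [he, Polynomial.coe_eval₂RingHom, Polynomial.eval₂_eq_sum_range]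
      refine P.adicValuation.map_sum_le fun k _ => ?_
      rw [map_mul, map_pow]
      exact mul_le_one' (hint _) (pow_le_one' hvj _)
    rw [map_pow] at hle
    exact absurd hle (not_le.2 (pow_lt_pow_right₀ hvj' (by omega)))

variable [IsCurveOver K F]

/-- The two cusps. -/
theorem exists_second_pole (hΦ : PhiShape p Φ) (hp : 2 ≤ p)
    (h0 : Φ.eval₂ (Polynomial.eval₂RingHom (Int.castRingHom F) j) j' = 0)
    (hgen : adjoin K ({j, j'} : Set F) = ⊤) (hg : genusFF K F ≠ 0)
    {Q : Place K F} (hQj : Q.ord j = -1) (hQj' : Q.ord j' = -(p : ℤ)) :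
    ∃ Z : Place K F, Z ≠ Q ∧ Z.ord j = -(p : ℤ) ∧ Z.ord j' = -1 ∧
      ∀ P : Place K F, P.ord j < 0 ∨ P.ord j' < 0 → P = Q ∨ P = Z := by
  classical
  have htj : Transcendental K j := transcendental_of_ord_ne_zero Q (by omega)
  have htj' : Transcendental K j' := transcendental_of_ord_ne_zero Q (by omega)
  have dj := degree_poleDivisor htj
  have dj' := degree_poleDivisor htj'
  have hle : ∀ (t : F) (S : Finset (Place K F)),
      ∑ P ∈ S, max (-P.ord t) 0 ≤ Divisor.degree (poleDivisor K t) := by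
    intro t S
    rw [Divisor.degree, Finsupp.liftAddHom_apply, Finsupp.sum_of_support_subset _
      Finset.subset_union_left (fun v a => (AddMonoidHom.mulRight (v.deg : ℤ)) a)
      (fun v _ => map_zero _) (s := (poleDivisor K t).support ∪ S)]
    simp only [AddMonoidHom.coe_mulRight, IsCurveOver.deg_eq_one_of_isAlgClosed, Nat.cast_one,
      mul_one, poleDivisor_apply]
    exact Finset.sum_le_sum_of_subset_of_nonneg Finset.subset_union_right
      fun v _ _ => le_max_right _ _
  have hj'le : (Module.finrank K⟮j'⟯ F : ℤ) ≤ p + 1 := by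
    exact_mod_cast finrank_le_of_eval' hΦ h0 hgen
  have hjle : (Module.finrank K⟮j⟯ F : ℤ) ≤ p + 1 := by
    exact_mod_cast finrank_le_of_eval hΦ h0 hgen
  have hother : ∀ P, P ≠ Q → P.ord j < 0 ∨ P.ord j' < 0 →
      P.ord j = -(p : ℤ) ∧ P.ord j' = -1 := by
    intro P hPQ hP
    obtain ⟨h1, h2, h3⟩ := ord_dichotomy hΦ hp h0 P hP
    have := hle j' {Q, P}
    rw [Finset.sum_pair (Ne.symm hPQ), dj', hQj', neg_neg] at this
    have hb : P.ord j' = -1 := by
      have := le_max_left (-P.ord j') 0
      have := le_max_left (p : ℤ) 0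
      omega
    refine ⟨?_, hb⟩
    rcases h3 with h3 | h3
    · rw [hb] at h3
      rcases Int.eq_one_or_neg_one_of_mul_eq_neg_one h3.symm with hh | hh <;> omega
    · rw [h3, hb]; ring
  obtain ⟨Z, hZQ, hZ⟩ : ∃ Z, Z ≠ Q ∧ Z.ord j < 0 := by
    by_contra hnone
    push Not at hnone
    apply hg
    refine genusFF_eq_zero_of_finrank_one htj ?_
    have : poleDivisor K j = Finsupp.single Q (1 : ℤ) := by
      ext P
      rw [poleDivisor_apply, Finsupp.single_apply]
      split_ifs with h
      · subst h; simp [hQj]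
      · have := hnone P (Ne.symm h); omega
    rw [this, Divisor.degree_single, IsCurveOver.deg_eq_one_of_isAlgClosed] at dj
    omega
  obtain ⟨hZ1, hZ2⟩ := hother Z hZQ (Or.inl hZ)
  refine ⟨Z, hZQ, hZ1, hZ2, fun P hP => ?_⟩
  by_contra hh
  push Not at hh
  obtain ⟨h1, h2⟩ := hother P hh.1 hP
  have := hle j' {Q, Z, P}
  rw [Finset.sum_insert (by simp [Ne.symm hZQ, Ne.symm hh.1]), Finset.sum_pair (Ne.symm hh.2),
    dj', hQj', hZ2, h2] at this
  simp at this
  omega

end Poles

end Fermat.Agent.Mazur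

end
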