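/-
Mazur's Eisenstein descent: `X₀(p)` over an algebraically closed field as a function field of
`q`-expansions: the
generators `j`, `j'`, the modular equation and the place `∞`.
-/
import Fermat.Agent.Mazur.PointCusps
import Fermat.Agent.Curve.BasicModular
import Fermat.Agent.MW.BMarked
import Fermat.Agent.Igusa.FibreCharts

set_option autoImplicit false

noncomputable section

open AlgebraicCurve ModularCurve IntermediateField

namespace Fermat.Agent.Mazur

variable {K : Type*} [Field K]

/-- The order of `f (q ^ d)`. -/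
theorem order_qExpand_eq (d : ℕ) [NeZero d] {x : LaurentSeries K} (hx : x ≠ 0) :
    (qExpand K d x).order = d * x.order := by
  have hd : (d : ℤ) ≠ 0 := by exact_mod_cast NeZero.ne d
  have h1 : (qExpand K d x).coeff ((d : ℤ) * x.order) ≠ 0 := by
    rw [qExpand_coeff_mul]
    exact mt HahnSeries.coeff_order_eq_zero.1 hx
  have hne : qExpand K d x ≠ 0 := HahnSeries.ne_zero_of_coeff_ne_zero h1
  refine le_antisymm (HahnSeries.order_le_of_coeff_ne_zero h1) ?_
  have h2 := mt HahnSeries.coeff_order_eq_zero.1 hne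
  by_cases hdvd : (d : ℤ) ∣ (qExpand K d x).order
  · obtain ⟨m, hm⟩ := hdvd
    rw [hm, qExpand_coeff_mul] at h2
    rw [hm]
    exact mul_le_mul_of_nonneg_left (HahnSeries.order_le_of_coeff_ne_zero h2) (by positivity)
  · exact absurd (qExpand_coeff_of_not_dvd d x hdvd) h2

theorem jqModC_ne (K : Type*) [Field K] : jqModC K ≠ 0 := fun h => by
  simpa [h] using Igusa.Fibre.order_jqModC K

theorem order_jqNModC_eq (p : ℕ) [NeZero p] : (jqNModC K p).order = -(p : ℤ) := by
  rw [jqNModC, order_qExpand_eq p (jqModC_ne K), Igusa.Fibre.order_jqModC]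
  ring

variable (p : ℕ) [Fact p.Prime] (F : IntermediateField K (LaurentSeries K))

/-- `F` is the field generated by `j` and `j'`. -/
theorem adjoin_pair_eq_fullC :
    adjoin K ({jqModC K, jqNModC K p} : Set (LaurentSeries K)) =
      modularFunctionFieldFullC K p := by
  refine le_antisymm ?_ ?_
  · rw [adjoin_le_iff]
    rintro x (rfl | rfl)
    · exact jqModC_mem_full K p
    · exact jqModCd_mem_full K p dvd_rfl
  · rw [modularFunctionFieldFullC, adjoin_le_iff]
    rintro x ⟨d, hd, hdp, rfl⟩
    have := hd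
    rcases (Nat.dvd_prime (Fact.out : p.Prime)).1 hdp with rfl | h
    · rw [qExpand_one_apply]
      exact subset_adjoin _ _ (Set.mem_insert _ _)
    · subst h
      exact subset_adjoin _ _ (Set.mem_insert_of_mem _ rfl)

variable {p F}

section

variable (hF : F = modularFunctionFieldFullC K p)

/-- `j` in `F`. -/
def jEl : F := ⟨jqModC K, by rw [hF]; exact jqModC_mem_full K p⟩

/-- `j'` in `F`. -/
def jpEl : F := ⟨jqNModC K p, by rw [hF]; exact jqModCd_mem_full K p dvd_rfl⟩

@[simp] theorem coe_jEl : (jEl hF : LaurentSeries K) = jqModC K := rfl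

@[simp] theorem coe_jpEl : (jpEl hF : LaurentSeries K) = jqNModC K p := rfl

theorem adjoin_jEl_eq_top : adjoin K ({jEl hF, jpEl hF} : Set F) = ⊤ := by
  apply IntermediateField.lift_injective F
  rw [IntermediateField.lift_adjoin, IntermediateField.lift_top, Set.image_pair]
  exact (adjoin_pair_eq_fullC p).trans hF.symm

theorem eval₂_jEl (data : ModularPolynomialData p) :
    data.Φ.eval₂ (Polynomial.eval₂RingHom (Int.castRingHom F) (jEl hF)) (jpEl hF) = 0 := by
  apply Subtype.val_injective
  show F.val.toRingHom _ = F.val.toRingHom 0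
  rw [Polynomial.hom_eval₂, map_zero]
  refine Eq.trans ?_ (Curve.eval₂_modularPolynomial_eq_zero K data)
  congr 1
  refine Polynomial.ringHom_ext' (Subsingleton.elim _ _) ?_
  simp

theorem order_jEl : ((jEl hF : F) : LaurentSeries K).order = -1 := Igusa.Fibre.order_jqModC K

/-- The place `∞`. -/
def cuspInf : Place K F := MW.BMarked.placeInf (order_jEl hF)

theorem cuspInf_ord (f : F) : (cuspInf hF).ord f = (f : LaurentSeries K).order :=
  (MW.BMarked.order_eq_ord (order_jEl hF) f).symm

theorem cuspInf_ord_jEl : (cuspInf hF).ord (jEl hF) = -1 := by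
  rw [cuspInf_ord, order_jEl]

theorem cuspInf_ord_jpEl : (cuspInf hF).ord (jpEl hF) = -(p : ℤ) := by
  rw [cuspInf_ord, coe_jpEl, order_jqNModC_eq]

theorem transcendental_jEl : Transcendental K (jEl hF) :=
  Curve.transcendental_of_ord_ne_zero (cuspInf hF) (by rw [cuspInf_ord_jEl hF]; omega)

include hF in
theorem isFunctionFieldOne_of_eq : Curve.IsFunctionFieldOne K F := by
  subst hF
  infer_instance

include hF in
theorem isCurveOver_of_eq [IsAlgClosed K] : IsCurveOver K F := by
  subst hF
  infer_instance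

end

/-- The cusps `∞` and `0`. -/
theorem exists_cuspZero [IsAlgClosed K] [Curve.IsFunctionFieldOne K F] [IsCurveOver K F]
    (hF : F = modularFunctionFieldFullC K p) (hg : genusFF K F ≠ 0) :
    ∃ Z : Place K F, Z ≠ cuspInf hF ∧ Z.ord (jEl hF) = -(p : ℤ) ∧ Z.ord (jpEl hF) = -1 ∧
      ∀ P : Place K F, P.ord (jEl hF) < 0 ∨ P.ord (jpEl hF) < 0 → P = cuspInf hF ∨ P = Z := by
  obtain ⟨data⟩ := ModFun.nonempty_modularPolynomialData p
  exact exists_second_pole (phiShape data) (Fact.out : p.Prime).two_le (eval₂_jEl hF data)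
    (adjoin_jEl_eq_top hF) hg (cuspInf_ord_jEl hF) (cuspInf_ord_jpEl hF)

end Fermat.Agent.Mazur

end
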