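/-
Mazur's Eisenstein descent: duality for finite Galois modules with values in `ℚ̄ˣ`, and the dual of
an Eisenstein
module.
-/
import Fermat.Agent.Mazur.Defs
import Mathlib.GroupTheory.FiniteAbelian.Duality
import Mathlib.GroupTheory.Index
import Mathlib.RingTheory.RootsOfUnity.AlgebraicallyClosed
import Mathlib.Analysis.Complex.Polynomial.Basic

set_option autoImplicit false

noncomputable section

namespace Fermat.Agent.Mazur

local notation "ℚbar" => AlgebraicClosure ℚ
local notation "Γℚ" => AlgebraicClosure ℚ ≃ₐ[ℚ] AlgebraicClosure ℚ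

variable {M : Type} [AddCommGroup M]

/-- Evaluation at a point, as a homomorphism. -/
def CartierDual.evalHom (x : M) : CartierDual M →+ Additive (ℚbar)ˣ where
  toFun χ := χ.toHom x
  map_zero' := rfl
  map_add' _ _ := rfl

@[simp] theorem CartierDual.evalHom_apply (x : M) (χ : CartierDual M) :
    CartierDual.evalHom x χ = χ.toHom x := rfl

/-- The characters killing a subgroup. -/
def annihilator (H : AddSubgroup M) : AddSubgroup (CartierDual M) :=
  ⨅ x : H, (CartierDual.evalHom (x : M)).ker

theorem mem_annihilator {H : AddSubgroup M} {χ : CartierDual M} :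
    χ ∈ annihilator H ↔ ∀ x ∈ H, χ.toHom x = 0 := by
  simp [annihilator, AddSubgroup.mem_iInf]

/-- The points killed by a group of characters. -/
def coannihilator (H : AddSubgroup (CartierDual M)) : AddSubgroup M :=
  ⨅ χ : H, (χ : CartierDual M).toHom.ker

theorem mem_coannihilator {H : AddSubgroup (CartierDual M)} {x : M} :
    x ∈ coannihilator H ↔ ∀ χ ∈ H, χ.toHom x = 0 := by
  simp [coannihilator, AddSubgroup.mem_iInf]

theorem le_annihilator_coannihilator (H : AddSubgroup (CartierDual M)) :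
    H ≤ annihilator (coannihilator H) := fun _ hχ =>
  mem_annihilator.2 fun _ hx => mem_coannihilator.1 hx _ hχ

variable [Finite M]

theorem natCard_cartierDual : Nat.card (CartierDual M) = Nat.card M := by
  haveI : NeZero (Monoid.exponent (Multiplicative M)) :=
    ⟨Monoid.exponent_ne_zero_of_finite⟩
  have h := CommGroup.card_monoidHom_of_hasEnoughRootsOfUnity (Multiplicative M) ℚbar
  rw [Nat.card_congr (Multiplicative.ofAdd (α := M))]
  rw [← h]
  exact Nat.card_congr (AddMonoidHom.toMultiplicativeLeft (α := M) (β := (ℚbar)ˣ))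

instance finite_cartierDual : Finite (CartierDual M) :=
  Nat.finite_of_card_ne_zero (by rw [natCard_cartierDual]; exact Nat.card_pos.ne')

theorem exists_toHom_ne_zero {x : M} (hx : x ≠ 0) : ∃ χ : CartierDual M, χ.toHom x ≠ 0 := by
  haveI : NeZero (Monoid.exponent (Multiplicative M)) :=
    ⟨Monoid.exponent_ne_zero_of_finite⟩
  obtain ⟨φ, hφ⟩ := CommGroup.exists_apply_ne_one_of_hasEnoughRootsOfUnity (Multiplicative M) ℚbar
    (a := Multiplicative.ofAdd x) (fun h => hx (Multiplicative.ofAdd.injective h))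
  exact ⟨CartierDual.ofHom (MonoidHom.toAdditiveRight φ), hφ⟩

/-- The characters killing `H` are the characters of `M ⧸ H`. -/
def annihilatorEquiv (H : AddSubgroup M) : annihilator H ≃ CartierDual (M ⧸ H) where
  toFun χ := CartierDual.ofHom
    (QuotientAddGroup.lift H (χ : CartierDual M).toHom
      fun x hx => mem_annihilator.1 χ.2 x hx)
  invFun ψ := ⟨CartierDual.ofHom (ψ.toHom.comp (QuotientAddGroup.mk' H)),
    mem_annihilator.2 fun x hx => by
      show ψ.toHom (QuotientAddGroup.mk' H x) = 0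
      rw [show QuotientAddGroup.mk' H x = 0 from (QuotientAddGroup.eq_zero_iff x).2 hx, map_zero]⟩
  left_inv χ := Subtype.ext (CartierDual.ext fun _ => rfl)
  right_inv ψ := CartierDual.ext fun y => by
    obtain ⟨x, rfl⟩ := QuotientAddGroup.mk'_surjective H y
    rfl

theorem natCard_annihilator_mul (H : AddSubgroup M) :
    Nat.card (annihilator H) * Nat.card H = Nat.card M := by
  rw [Nat.card_congr (annihilatorEquiv H), natCard_cartierDual,
    ← H.card_eq_card_quotient_mul_card_addSubgroup]

variable (M) in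
/-- Evaluation identifies `M` with its double dual. -/
def evalEquiv : M ≃ CartierDual (CartierDual M) :=
  Equiv.ofBijective (fun x => CartierDual.ofHom (CartierDual.evalHom x)) <| by
    refine (Nat.bijective_iff_injective_and_card _).2 ⟨fun x y h => ?_, ?_⟩
    · by_contra hne
      obtain ⟨χ, hχ⟩ := exists_toHom_ne_zero (sub_ne_zero.2 hne)
      apply hχ
      rw [map_sub, sub_eq_zero]
      exact congrArg (fun f : CartierDual (CartierDual M) => f.toHom χ) h
    · rw [natCard_cartierDual, natCard_cartierDual]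

theorem natCard_coannihilator_mul (H : AddSubgroup (CartierDual M)) :
    Nat.card (coannihilator H) * Nat.card H = Nat.card M := by
  rw [← natCard_cartierDual (M := M), ← natCard_annihilator_mul H]
  congr 1
  refine Nat.card_congr ((evalEquiv M).subtypeEquiv fun x => ?_)
  rw [mem_coannihilator, mem_annihilator]
  rfl

theorem annihilator_coannihilator (H : AddSubgroup (CartierDual M)) :
    annihilator (coannihilator H) = H := by
  refine (SetLike.coe_injective ?_).symm
  refine Set.eq_of_subset_of_ncard_le (le_annihilator_coannihilator H) ?_ (Set.toFinite _)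
  have h1 := natCard_annihilator_mul (coannihilator H)
  have h2 := natCard_coannihilator_mul H
  rw [← h2, mul_comm] at h1
  have h3 := Nat.eq_of_mul_eq_mul_left Nat.card_pos h1
  rw [← Nat.card_coe_set_eq, ← Nat.card_coe_set_eq]
  exact h3.le

variable [DistribMulAction Γℚ M]

omit [Finite M] in
theorem isStable_annihilator {H : AddSubgroup M} (hH : IsStable H) :
    IsStable (annihilator H) := fun σ χ hχ =>
  mem_annihilator.2 fun x hx => by
    rw [CartierDual.smul_apply, mem_annihilator.1 hχ _ (hH _ x hx), map_zero]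

omit [Finite M] in
theorem isStable_coannihilator {H : AddSubgroup (CartierDual M)} (hH : IsStable H) :
    IsStable (coannihilator H) := fun σ x hx =>
  mem_coannihilator.2 fun χ hχ => by
    have h := mem_coannihilator.1 hx _ (hH σ⁻¹ χ hχ)
    rw [CartierDual.smul_apply, inv_inv] at h
    have h' := congrArg (unitsHom σ) h
    rw [map_zero] at h'
    rw [← h']
    exact Units.ext (σ.apply_symm_apply _).symm

/-- A nonzero stable subgroup of an Eisenstein module has a stable subgroup of index `q` with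
trivial or cyclotomic quotient. -/
theorem IsEisensteinModule.exists_sub {q : ℕ} (hq : q.Prime) (hM : IsEisensteinModule M q)
    {N : AddSubgroup M} (hN : IsStable N) (hN0 : N ≠ ⊥) :
    ∃ N' : AddSubgroup M, IsStable N' ∧ N' ≤ N ∧ N'.relIndex N = q ∧
      ((∀ σ : Γℚ, ∀ x ∈ N, σ • x - x ∈ N') ∨
        ∀ (σ : Γℚ) (a : ℕ), ActsOnRoots q σ a → ∀ x ∈ N, σ • x - a • x ∈ N') := by
  classical
  haveI : Finite (AddSubgroup M) := Finite.of_injective _ SetLike.coe_injective
  obtain ⟨M₁, hM₁⟩ := Set.Finite.exists_maximal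
    (s := {H : AddSubgroup M | IsStable H ∧ ¬ N ≤ H}) (Set.toFinite _)
    ⟨⊥, fun σ x hx => by rw [AddSubgroup.mem_bot] at hx ⊢; rw [hx, smul_zero],
      fun h => hN0 (le_bot_iff.1 h)⟩
  obtain ⟨⟨hst, hnle⟩, hmax⟩ := hM₁
  have htop : M₁ ≠ ⊤ := fun h => hnle (h ▸ le_top)
  obtain ⟨M₂, hst₂, hle, hidx, hact⟩ := hM M₁ hst htop
  have hne : M₁ ≠ M₂ := by
    rintro rfl
    rw [AddSubgroup.relIndex_self] at hidx
    exact hq.one_lt.ne hidx
  have hNM₂ : N ≤ M₂ := by
    by_contra h
    exact hne (le_antisymm hle (hmax ⟨hst₂, h⟩ hle))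
  refine ⟨M₁ ⊓ N, fun σ x hx => ⟨hst σ x hx.1, hN σ x hx.2⟩, inf_le_right, ?_, ?_⟩
  · rw [AddSubgroup.inf_relIndex_right]
    have hdvd : M₁.relIndex N ∣ q := by
      rw [← hidx, ← AddSubgroup.inf_relIndex_right M₁ N]
      have hj : N ⊔ M₁ ≤ M₂ := sup_le hNM₂ hle
      rw [AddSubgroup.inf_relIndex_right, ← AddSubgroup.relIndex_sup_right N M₁,
        ← AddSubgroup.relIndex_mul_relIndex M₁ (N ⊔ M₁) M₂ le_sup_right hj]
      exact dvd_mul_right _ _
    refine ((Nat.dvd_prime hq).1 hdvd).resolve_left fun h1 => hnle ?_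
    exact AddSubgroup.relIndex_eq_one.1 h1
  · rcases hact with h | h
    · exact Or.inl fun σ x hx => ⟨h σ x (hNM₂ hx), N.sub_mem (hN σ x hx) hx⟩
    · exact Or.inr fun σ a ha x hx =>
        ⟨h σ a ha x (hNM₂ hx), N.sub_mem (hN σ x hx) (N.nsmul_mem hx a)⟩

omit [Finite M] [DistribMulAction Γℚ M] in
theorem nsmul_mem_of_relIndex_eq {q : ℕ} {N' N : AddSubgroup M} (hle : N' ≤ N)
    (hidx : N'.relIndex N = q) {x : M} (hx : x ∈ N) : q • x ∈ N' := by
  have h := AddSubgroup.nsmul_index_mem (N'.addSubgroupOf N) ⟨x, hx⟩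
  have h' : (N'.addSubgroupOf N).index = q := hidx
  rw [h'] at h
  exact h

/-- On a `q`-torsion unit `σ` is multiplication by `a`. -/
theorem unitsHom_eq_nsmul {q : ℕ} {σ : Γℚ} {a : ℕ} (ha : ActsOnRoots q σ a)
    {u : Additive (ℚbar)ˣ} (hu : q • u = 0) : unitsHom σ u = a • u := by
  have h1 : u.toMul ^ q = 1 := by rw [← toMul_nsmul, hu, toMul_zero]
  refine Additive.toMul.injective (Units.ext ?_)
  rw [toMul_nsmul, Units.val_pow_eq_pow_val]
  exact ha _ (by rw [← Units.val_pow_eq_pow_val, h1, Units.val_one])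

theorem exists_actsOnRoots_dual {q : ℕ} (hq : q ≠ 0) (σ : Γℚ) : ∃ b : ℕ, ActsOnRoots q σ b := by
  haveI : NeZero q := ⟨hq⟩
  obtain ⟨ζ, hζ⟩ := HasEnoughRootsOfUnity.exists_primitiveRoot ℚbar q
  obtain ⟨b, -, hb⟩ := hζ.eq_pow_of_pow_eq_one (ξ := σ ζ)
    (by rw [← map_pow, hζ.pow_eq_one, map_one])
  refine ⟨b, fun μ hμ => ?_⟩
  obtain ⟨i, -, rfl⟩ := hζ.eq_pow_of_pow_eq_one hμ
  rw [map_pow, ← hb, ← pow_mul, ← pow_mul, mul_comm]

/-- The dual of an Eisenstein module is an Eisenstein module. -/
theorem IsEisensteinModule.cartierDual {q : ℕ} (hq : q.Prime) (hM : IsEisensteinModule M q) :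
    IsEisensteinModule (CartierDual M) q := by
  intro H hH hHtop
  set N := coannihilator H with hNdef
  have hN0 : N ≠ ⊥ := by
    intro h
    apply hHtop
    rw [← annihilator_coannihilator H, ← hNdef, h, eq_top_iff]
    exact fun χ _ => mem_annihilator.2 fun x hx => by
      rw [AddSubgroup.mem_bot.1 hx, map_zero]
  obtain ⟨N', hst, hle, hidx, hact⟩ := hM.exists_sub hq (isStable_coannihilator hH) hN0
  have hle' : H ≤ annihilator N' := fun χ hχ =>
    mem_annihilator.2 fun x hx => mem_coannihilator.1 (hle hx) χ hχ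
  refine ⟨annihilator N', isStable_annihilator hst, hle', ?_, ?_⟩
  · have hc : Nat.card N' * q = Nat.card N := by
      rw [← hidx, ← AddSubgroup.relIndex_bot_left N', ← AddSubgroup.relIndex_bot_left N,
        AddSubgroup.relIndex_mul_relIndex ⊥ N' N bot_le hle]
    have h1 := natCard_annihilator_mul N'
    have h2 := natCard_coannihilator_mul H
    rw [← hNdef, ← hc, ← h1] at h2
    have h3 : q * Nat.card H = Nat.card (annihilator N') :=
      Nat.eq_of_mul_eq_mul_left (Nat.card_pos (α := N')) (by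
        rw [← mul_assoc, h2, mul_comm])
    have h4 := AddSubgroup.relIndex_mul_relIndex ⊥ H (annihilator N') bot_le hle'
    rw [AddSubgroup.relIndex_bot_left, AddSubgroup.relIndex_bot_left, ← h3, mul_comm] at h4
    exact Nat.eq_of_mul_eq_mul_right Nat.card_pos h4
  · have hkill : ∀ χ ∈ annihilator N', ∀ x ∈ N, q • χ.toHom x = 0 := fun χ hχ x hx => by
      rw [← map_nsmul]
      exact mem_annihilator.1 hχ _ (nsmul_mem_of_relIndex_eq hle hidx hx)
    have key : ∀ (σ : Γℚ) (χ : CartierDual M) (m : ℕ), χ ∈ annihilator N' →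
        (∀ x ∈ N, unitsHom σ (χ.toHom (σ⁻¹ • x)) = m • χ.toHom x) → σ • χ - m • χ ∈ H := by
      intro σ χ m _ h
      rw [← annihilator_coannihilator H, ← hNdef, mem_annihilator]
      intro x hx
      show (σ • χ).toHom x - m • χ.toHom x = 0
      rw [CartierDual.smul_apply, h x hx, sub_self]
    have congr' : ∀ (χ : CartierDual M), χ ∈ annihilator N' → ∀ (σ : Γℚ) (m : ℕ) (x : M),
        σ⁻¹ • x - m • x ∈ N' → χ.toHom (σ⁻¹ • x) = m • χ.toHom x := by
      intro χ hχ σ m x hx
      have := mem_annihilator.1 hχ _ hx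
      rwa [map_sub, map_nsmul, sub_eq_zero] at this
    rcases hact with h | h
    · refine Or.inr fun σ a ha χ hχ => key σ χ a hχ fun x hx => ?_
      rw [congr' χ hχ σ 1 x (by rw [one_smul]; exact h _ x hx), one_smul,
        unitsHom_eq_nsmul ha (hkill χ hχ x hx)]
    · refine Or.inl fun σ χ hχ => ?_
      have hk := key σ χ 1 hχ fun x hx => ?_
      · rwa [one_smul] at hk
      obtain ⟨b, hb⟩ := exists_actsOnRoots_dual hq.ne_zero σ⁻¹
      rw [congr' χ hχ σ b x (h _ b hb x hx), ← unitsHom_eq_nsmul hb (hkill χ hχ x hx), one_smul]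
      exact Units.ext (σ.apply_symm_apply _)

/-- Complex conjugation inverts roots of unity. -/
theorem complexConjugation_apply_root {n : ℕ} (hn : n ≠ 0) {μ : ℚbar} (hμ : μ ^ n = 1) :
    complexConjugation μ = μ⁻¹ := by
  apply (complexEmbedding : ℚbar →+* ℂ).injective
  show complexEmbedding (complexConjugation μ) = complexEmbedding μ⁻¹
  rw [complexEmbedding_complexConjugation, map_inv₀]
  have h1 : complexEmbedding μ ^ n = 1 := by rw [← map_pow, hμ, map_one]
  exact (Complex.inv_eq_conj (Complex.norm_eq_one_of_pow_eq_one h1 hn)).symm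

end Fermat.Agent.Mazur

end
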