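/-
Mazur's Eisenstein descent: constant flat models, twists by coboundaries, fixed points and the
smoothness and
ramification of the Cartier dual (used in the descent bound).
-/
import Fermat.Agent.Mazur.DescentDual
import Fermat.Agent.Flat.HopfToolkit
import Fermat.Agent.Mult.Inertia
import Mathlib.FieldTheory.KrullTopology
import Mathlib.Topology.Algebra.OpenSubgroup

set_option autoImplicit false

noncomputable section

namespace Fermat.Agent.Mazur

local notation "ℚbar" => AlgebraicClosure ℚ
local notation "Γℚ" => AlgebraicClosure ℚ ≃ₐ[ℚ] AlgebraicClosure ℚ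

/-- A finite group with trivial action has a flat model (the constant group). -/
theorem hasFlatModel_of_trivial (q : ℕ) (N : Type) [AddCommGroup N] [Finite N] :
    FlatModel.HasFlatModel q N fun _ x => x := by
  classical
  cases nonempty_fintype N
  have hval : ∀ j m : N, (Pi.single j (1 : ℚbar) : N → ℚbar) m = if m = j then 1 else 0 :=
    fun j m => Pi.single_apply j 1 m
  refine FlatModel.hasFlatModel_of_coordinates
    (Set.range fun j : N => (Pi.single j (1 : ℚbar) : N → ℚbar)) (Set.finite_range _) ?_ ?_ ?_ ?_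
  · rintro _ ⟨j, rfl⟩ m
    simp only [hval]
    split_ifs
    · exact isIntegral_one
    · exact isIntegral_zero
  · rintro _ ⟨j, rfl⟩ σ m
    simp only [hval]
    split_ifs
    · rw [map_one]
    · rw [map_zero]
  · intro x y h
    have h1 := h _ ⟨x, rfl⟩
    simp only [hval, if_true] at h1
    by_contra hne
    rw [if_neg (Ne.symm hne)] at h1
    exact one_ne_zero h1
  · rintro _ ⟨j, rfl⟩
    let e := (Fintype.equivFin N).symm
    refine (FlatModel.mem_boxAlg_iff _ _ _).2 ⟨Fintype.card N,
      fun i => ⟨_, Algebra.subset_adjoin ⟨e i, rfl⟩⟩,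
      fun i => ⟨_, Algebra.subset_adjoin ⟨j - e i, rfl⟩⟩, fun x y => ?_⟩
    rw [Equiv.sum_comp e fun i : N => (Pi.single i (1 : ℚbar) : N → ℚbar) x *
      (Pi.single (j - i) (1 : ℚbar) : N → ℚbar) y]
    rw [Finset.sum_eq_single x (fun b _ hb => by rw [hval, if_neg (Ne.symm hb), zero_mul])
      (fun h => absurd (Finset.mem_univ x) h)]
    simp only [hval, if_true, one_mul]
    exact if_congr (by rw [eq_sub_iff_add_eq, add_comm y]) rfl rfl

/-- A product of flat models. -/
theorem hasFlatModel_prod_points {q : ℕ} {A B : Type} [hA : AddCommGroup A] [AddCommGroup B] [fA : Finite A] [Finite B]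
    {actA : Γℚ → A → A} {actB : Γℚ → B → B} (ha : FlatModel.HasFlatModel q A actA)
    (hb : FlatModel.HasFlatModel q B actB) :
    FlatModel.HasFlatModel q (A × B) fun σ z => (actA σ z.1, actB σ z.2) := by
  let N : Bool → Type := fun b => cond b A B
  let iG : ∀ b, AddCommGroup (N b) := fun b => match b with
    | true => hA
    | false => ‹AddCommGroup B›
  let iF : ∀ b, @Finite (N b) := fun b => match b with
    | true => fA
    | false => ‹Finite B›
  let f : ∀ b, @AddMonoidHom (A × B) (N b) _ (iG b).toAddGroup.toSubNegMonoid.toAddMonoid.toAddZeroClass.toAddZero := fun b => match b with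
    | true => AddMonoidHom.fst A B
    | false => AddMonoidHom.snd A B
  let act : ∀ b, Γℚ → N b → N b := fun b => match b with
    | true => actA
    | false => actB
  refine @FlatModel.hasFlatModel_of_jointly_injective q (A × B) _ _ _ Bool _ N iG iF act ?_ f ?_ ?_
  · intro b; cases b
    · exact hb
    · exact ha
  · intro b σ z; cases b <;> rfl
  · intro x y h; exact Prod.ext (h true) (h false)

section twist

variable {M : Type} [AddCommGroup M] [DistribMulAction Γℚ M] [Finite M]
variable {q n : ℕ} [NeZero n]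

/-- The split extension has a flat model. -/
theorem hasFlatModel_kummerAct_zero (hM : FlatModel.HasFlatModel q M fun σ x => σ • x) :
    FlatModel.HasFlatModel q (M × ZMod n) (kummerAct n (0 : Γℚ → M)) := by
  refine (hasFlatModel_prod_points hM (hasFlatModel_of_trivial q (ZMod n))).of_injective
    (AddMonoidHom.id _) Function.injective_id fun σ z => ?_
  simp [kummerAct]

omit [DistribMulAction Γℚ M] [Finite M] in
theorem val_add_nsmul (hkill : ∀ x : M, n • x = 0) (a b : ZMod n) (x : M) :
    (a + b).val • x = a.val • x + b.val • x := by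
  rw [← add_nsmul, ZMod.val_add]
  conv_rhs => rw [← Nat.mod_add_div (a.val + b.val) n, add_nsmul, mul_comm, mul_nsmul', hkill,
    nsmul_zero, add_zero]

/-- Twisting the cocycle by a coboundary does not change the extension. -/
theorem hasFlatModel_kummerAct_add_coboundary (hkill : ∀ x : M, n • x = 0) {c : Γℚ → M}
    (h : FlatModel.HasFlatModel q (M × ZMod n) (kummerAct n c)) (x : M) :
    FlatModel.HasFlatModel q (M × ZMod n) (kummerAct n fun σ => c σ + (σ • x - x)) := by
  let f : M × ZMod n →+ M × ZMod n :=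
    { toFun := fun z => (z.1 + z.2.val • x, z.2)
      map_zero' := by simp
      map_add' := fun z w => Prod.ext
        (by simp only [Prod.fst_add, Prod.snd_add, val_add_nsmul hkill]; abel) rfl }
  refine h.of_injective f (fun z w e => ?_) fun σ z => ?_
  · simp only [f, AddMonoidHom.coe_mk, ZeroHom.coe_mk, Prod.mk.injEq] at e
    obtain ⟨e1, e2⟩ := e
    rw [e2] at e1
    exact Prod.ext (add_right_cancel e1) e2
  · refine Prod.ext ?_ rfl
    simp only [f, kummerAct, AddMonoidHom.coe_mk, ZeroHom.coe_mk, smul_add, nsmul_sub,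
      smul_comm σ z.2.val x]
    abel

end twist

section fixed

variable (M : Type) [AddCommGroup M] [DistribMulAction Γℚ M]

/-- The points fixed by a set of automorphisms. -/
def fixedOn (s : Set Γℚ) : AddSubgroup M where
  carrier := {x | ∀ σ ∈ s, σ • x = x}
  zero_mem' := fun σ _ => smul_zero σ
  add_mem' := fun ha hb σ hσ => by rw [smul_add, ha σ hσ, hb σ hσ]
  neg_mem' := fun ha σ hσ => by rw [smul_neg, ha σ hσ]

variable {M}

theorem mem_fixedOn {s : Set Γℚ} {x : M} : x ∈ fixedOn M s ↔ ∀ σ ∈ s, σ • x = x := Iff.rfl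

theorem natCard_fixedOn_univ :
    Nat.card (fixedOn M Set.univ) = Nat.card {x : M // ∀ σ : Γℚ, σ • x = x} :=
  Nat.card_congr (Equiv.subtypeEquivRight fun x => by simp [mem_fixedOn])

/-- `x ↦ (σ ↦ σ x - x)`. -/
def displacement : M →+ (Γℚ → M) where
  toFun x σ := σ • x - x
  map_zero' := by funext σ; simp
  map_add' x y := by funext σ; simp only [Pi.add_apply, smul_add]; abel

@[simp] theorem displacement_apply (x : M) (σ : Γℚ) : displacement x σ = σ • x - x := rfl

end fixed

section dual

variable {M : Type} [AddCommGroup M] [DistribMulAction Γℚ M]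

omit [DistribMulAction Γℚ M] in
/-- Values of a character on an `n`-torsion module are `n`-th roots of unity. -/
theorem CartierDual.val_pow_eq_one {n : ℕ} (hkill : ∀ x : M, n • x = 0) (χ : CartierDual M)
    (x : M) : ((χ.toHom x).toMul : ℚbar) ^ n = 1 := by
  rw [← Units.val_pow_eq_pow_val, ← toMul_nsmul, ← map_nsmul, hkill, map_zero, toMul_zero,
    Units.val_one]

theorem CartierDual.smul_eq_self {σ : Γℚ} {χ : CartierDual M} (hx : ∀ x : M, σ⁻¹ • x = x)
    (hv : ∀ x : M, σ ((χ.toHom x).toMul : ℚbar) = (χ.toHom x).toMul) : σ • χ = χ := by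
  refine CartierDual.ext fun x => ?_
  rw [CartierDual.smul_apply, hx]
  exact Units.ext (hv x)

omit [DistribMulAction Γℚ M] in
theorem CartierDual.smul_toHom_eq_zero {n : ℕ} (hkill : ∀ x : M, n • x = 0) (χ : CartierDual M) :
    n • χ = 0 := by
  refine CartierDual.ext fun x => ?_
  show CartierDual.evalHom x (n • χ) = CartierDual.evalHom x 0
  rw [map_zero, map_nsmul, CartierDual.evalHom_apply, ← map_nsmul, hkill, map_zero]

/-- The dual of a smooth finite module is smooth. -/
theorem CartierDual.isOpen_stabilizer [Finite M]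
    (hM : ∀ x : M, IsOpen (MulAction.stabilizer Γℚ x : Set Γℚ)) (χ : CartierDual M) :
    IsOpen (MulAction.stabilizer Γℚ χ : Set Γℚ) := by
  refine Subgroup.isOpen_mono (H₁ := (⨅ x : M, MulAction.stabilizer Γℚ x) ⊓
    ⨅ x : M, MulAction.stabilizer Γℚ ((χ.toHom x).toMul : ℚbar)) (fun σ hσ => ?_) ?_
  · rw [Subgroup.mem_inf, Subgroup.mem_iInf, Subgroup.mem_iInf] at hσ
    refine CartierDual.smul_eq_self (fun x => ?_) fun x => hσ.2 x
    exact inv_smul_eq_iff.2 (hσ.1 x).symm
  · rw [Subgroup.coe_inf, Subgroup.coe_iInf, Subgroup.coe_iInf]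
    exact (isOpen_iInter_of_finite hM).inter
      (isOpen_iInter_of_finite fun x => stabilizer_isOpen_of_isIntegral _)

/-- Inertia at `ℓ` fixes the dual of a `q ^ r`-torsion module on which it acts trivially. -/
theorem CartierDual.inertia_smul_eq {q r ℓ : ℕ} (hq : q.Prime) (hℓ : ℓ.Prime) (hne : ℓ ≠ q)
    (hkill : ∀ x : M, q ^ r • x = 0) {A : ValuationSubring ℚbar} (hA : A.LiesOverPrime ℓ)
    {σ : Γℚ} (hσ : σ ∈ A.inertiaSubgroupIn ℚ) {χ : CartierDual M}
    (hx : ∀ x : M, χ.toHom (σ⁻¹ • x) = χ.toHom x) : σ • χ = χ := by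
  refine CartierDual.ext fun x => ?_
  rw [CartierDual.smul_apply, hx]
  exact Units.ext (Mult.inertia_apply_of_pow_eq_one hℓ hA hσ
    (fun hd => hne ((Nat.prime_dvd_prime_iff_eq hℓ hq).1 (hℓ.dvd_of_dvd_pow hd)))
    (CartierDual.val_pow_eq_one hkill χ x))

end dual

end Fermat.Agent.Mazur

end
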