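/-
Selmer triples are stable under differences and left exact in the module.
-/
import Fermat.Agent.Mazur.Defs
import Fermat.Agent.Flat.HopfToolkit
import Mathlib.Topology.Algebra.OpenSubgroup

set_option autoImplicit false

noncomputable section

namespace Fermat.Agent.Mazur

local notation "ℚbar" => AlgebraicClosure ℚ
local notation "Γℚ" => AlgebraicClosure ℚ ≃ₐ[ℚ] AlgebraicClosure ℚ

variable {M M' M'' : Type} [AddCommGroup M] [DistribMulAction Γℚ M] [AddCommGroup M']
  [DistribMulAction Γℚ M'] [AddCommGroup M''] [DistribMulAction Γℚ M'']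
variable {p q n : ℕ} [NeZero n] {P : ValuationSubring ℚbar}

/-- Differences of flat extensions are flat. -/
theorem hasFlatModel_kummerAct_sub [Finite M] {c c' : Γℚ → M}
    (h : FlatModel.HasFlatModel q (M × ZMod n) (kummerAct n c))
    (h' : FlatModel.HasFlatModel q (M × ZMod n) (kummerAct n c')) :
    FlatModel.HasFlatModel q (M × ZMod n) (kummerAct n (c - c')) := by
  let act3 : Γℚ → M × M × ZMod n → M × M × ZMod n := fun σ x =>
    (σ • x.1 + x.2.2.val • c σ, σ • x.2.1 + x.2.2.val • c' σ, x.2.2)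
  let f : Bool → (M × M × ZMod n →+ M × ZMod n) := fun i =>
    { toFun := fun x => (if i then x.1 else x.2.1, x.2.2)
      map_zero' := by cases i <;> rfl
      map_add' := fun x y => by cases i <;> rfl }
  have hprod : FlatModel.HasFlatModel q (M × M × ZMod n) act3 := by
    refine FlatModel.hasFlatModel_of_jointly_injective (ι := Bool) (N := fun _ => M × ZMod n)
      (actN := fun i => if i then kummerAct n c else kummerAct n c') (fun i => ?_) f
      (fun i σ x => ?_) fun x y he => ?_
    · cases i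
      · exact h'
      · exact h
    · cases i <;> rfl
    · have h1 := he true
      have h2 := he false
      simp only [f, AddMonoidHom.coe_mk, ZeroHom.coe_mk, Prod.mk.injEq] at h1 h2
      exact Prod.ext h1.1 (Prod.ext h2.1 h1.2)
  let g : M × M × ZMod n →+ M × ZMod n :=
    { toFun := fun x => (x.1 - x.2.1, x.2.2)
      map_zero' := by simp
      map_add' := fun x y => by
        simp only [Prod.fst_add, Prod.snd_add, Prod.mk_add_mk]; congr 1; abel }
  refine hprod.of_surjective g (fun y => ⟨(y.1, 0, y.2), by simp [g]⟩) fun σ x => ?_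
  simp only [g, act3, kummerAct, AddMonoidHom.coe_mk, ZeroHom.coe_mk, Pi.sub_apply, smul_sub]
  congr 1
  abel

theorem IsSelmerTriple.sub [Finite M] {c c' : Γℚ → M} {m m' a a' : M}
    (hx : IsSelmerTriple p q n P c m m') (hy : IsSelmerTriple p q n P c' a a') :
    IsSelmerTriple p q n P (c - c') (m - a) (m' - a') where
  cocycle σ τ := by
    simp only [Pi.sub_apply, hx.cocycle, hy.cocycle, smul_sub]; abel
  smooth := by
    obtain ⟨U, hU, hUc⟩ := hx.smooth
    obtain ⟨V, hV, hVc⟩ := hy.smooth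
    exact ⟨U ⊓ V, hU.inter hV, fun σ u hu => by
      simp only [Pi.sub_apply, hUc σ u hu.1, hVc σ u hu.2]⟩
  unramified ℓ hℓ h1 h2 A hA σ hσ := by
    simp [hx.unramified ℓ hℓ h1 h2 A hA σ hσ, hy.unramified ℓ hℓ h1 h2 A hA σ hσ]
  flat := hasFlatModel_kummerAct_sub hx.flat hy.flat
  local_p σ hσ := by
    simp only [Pi.sub_apply, hx.local_p σ hσ, hy.local_p σ hσ, smul_sub]; abel
  local_inf := by
    simp only [Pi.sub_apply, hx.local_inf, hy.local_inf, smul_sub]; abel

/-- Push forward. -/
theorem IsSelmerTriple.map [Finite M] (π : M →+ M'')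
    (hπ : ∀ (σ : Γℚ) x, π (σ • x) = σ • π x) (hsurj : Function.Surjective π) {c : Γℚ → M}
    {m m' : M} (h : IsSelmerTriple p q n P c m m') :
    IsSelmerTriple p q n P (fun σ => π (c σ)) (π m) (π m') where
  cocycle σ τ := by simp only [h.cocycle, map_add, hπ]
  smooth := by
    obtain ⟨U, hU, hUc⟩ := h.smooth
    exact ⟨U, hU, fun σ u hu => by simp only [hUc σ u hu]⟩
  unramified ℓ hℓ h1 h2 A hA σ hσ := by simp [h.unramified ℓ hℓ h1 h2 A hA σ hσ]
  flat := by
    refine h.flat.of_surjective (π.prodMap (AddMonoidHom.id (ZMod n))) ?_ fun σ y => ?_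
    · intro y
      obtain ⟨z, hz⟩ := hsurj y.1
      exact ⟨(z, y.2), Prod.ext hz rfl⟩
    · simp [kummerAct, hπ, map_nsmul]
  local_p σ hσ := by simp [h.local_p σ hσ, hπ]
  local_inf := by simp [h.local_inf, hπ]

/-- Pull back. -/
theorem IsSelmerTriple.of_map [Finite M] (ι : M' →+ M) (hι : Function.Injective ι)
    (hιe : ∀ (σ : Γℚ) x, ι (σ • x) = σ • ι x) {c : Γℚ → M'} {m m' : M'}
    (h : IsSelmerTriple p q n P (fun σ => ι (c σ)) (ι m) (ι m')) :
    IsSelmerTriple p q n P c m m' where
  cocycle σ τ := hι (by simpa [map_add, hιe] using h.cocycle σ τ)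
  smooth := by
    obtain ⟨U, hU, hUc⟩ := h.smooth
    exact ⟨U, hU, fun σ u hu => hι (hUc σ u hu)⟩
  unramified ℓ hℓ h1 h2 A hA σ hσ :=
    hι (by rw [map_zero]; exact h.unramified ℓ hℓ h1 h2 A hA σ hσ)
  flat := by
    haveI : Finite M' := Finite.of_injective ι hι
    refine h.flat.of_injective (ι.prodMap (AddMonoidHom.id (ZMod n)))
      (fun a b h => Prod.ext (hι (congrArg Prod.fst h)) (congrArg Prod.snd h :)) fun σ y => ?_
    simp [kummerAct, hιe, map_nsmul]
  local_p σ hσ := hι (by simpa [hιe] using h.local_p σ hσ)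
  local_inf := hι (by simpa [hιe] using h.local_inf)

/-- **Left exactness** of the Selmer triples. -/
theorem card_selmerTriples_le_mul [Finite M] (ι : M' →+ M) (π : M →+ M'')
    (hι : Function.Injective ι) (hιe : ∀ (σ : Γℚ) x, ι (σ • x) = σ • ι x)
    (hπ : ∀ (σ : Γℚ) x, π (σ • x) = σ • π x) (hsurj : Function.Surjective π)
    (hker : π.ker ≤ ι.range) (h' : (selmerTriples M' p q n P).Finite)
    (h'' : (selmerTriples M'' p q n P).Finite) :
    (selmerTriples M p q n P).Finite ∧ (selmerTriples M p q n P).ncard ≤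
      (selmerTriples M' p q n P).ncard * (selmerTriples M'' p q n P).ncard := by
  classical
  haveI := h'.to_subtype
  haveI := h''.to_subtype
  let Φ : selmerTriples M p q n P → selmerTriples M'' p q n P := fun x =>
    ⟨(fun σ => π (x.1.1 σ), π x.1.2.1, π x.1.2.2), IsSelmerTriple.map π hπ hsurj x.2⟩
  let rep : selmerTriples M p q n P → selmerTriples M p q n P := fun x =>
    Classical.choose (⟨x, rfl⟩ : ∃ y, Φ y = Φ x)
  have hrep : ∀ x, Φ (rep x) = Φ x := fun x =>
    Classical.choose_spec (⟨x, rfl⟩ : ∃ y, Φ y = Φ x)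
  have hdep : ∀ x y, Φ x = Φ y → rep x = rep y := fun x y h => by
    simp only [rep, h]
  have hlift : ∀ x, ∃ y : selmerTriples M' p q n P,
      ((fun σ => ι (y.1.1 σ), ι y.1.2.1, ι y.1.2.2) : (Γℚ → M) × M × M) = x.1 - (rep x).1 := by
    intro x
    have h := congrArg Subtype.val (hrep x)
    have hz : ∀ u v : M, π u = π v → v - u ∈ ι.range := fun u v huv =>
      hker (by rw [AddMonoidHom.mem_ker, map_sub, huv, sub_self])
    choose c hc using fun σ => AddMonoidHom.mem_range.1
      (hz _ _ (congrFun (congrArg Prod.fst h) σ))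
    obtain ⟨a, ha⟩ := AddMonoidHom.mem_range.1 (hz _ _ (congrArg (fun z => z.2.1) h))
    obtain ⟨b, hb⟩ := AddMonoidHom.mem_range.1 (hz _ _ (congrArg (fun z => z.2.2) h))
    have he : ((fun σ => ι (c σ), ι a, ι b) : (Γℚ → M) × M × M) = x.1 - (rep x).1 :=
      Prod.ext (funext fun σ => hc σ) (Prod.ext ha hb)
    have hs : IsSelmerTriple p q n P (x.1.1 - (rep x).1.1) (x.1.2.1 - (rep x).1.2.1)
        (x.1.2.2 - (rep x).1.2.2) := IsSelmerTriple.sub x.2 (rep x).2
    refine ⟨⟨(c, a, b), IsSelmerTriple.of_map ι hι hιe ?_⟩, he⟩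
    simp only [ha, hb, hc]
    exact hs
  choose g hg using hlift
  have hinj : Function.Injective (fun x => (g x, Φ x)) := fun x y h => by
    obtain ⟨h1, h2⟩ := Prod.ext_iff.1 h
    have hr := congrArg Subtype.val (hdep x y h2)
    have := (hg x).symm.trans ((congrArg (fun z : selmerTriples M' p q n P =>
      ((fun σ => ι (z.1.1 σ), ι z.1.2.1, ι z.1.2.2) : (Γℚ → M) × M × M)) h1).trans (hg y))
    rw [hr, sub_left_inj] at this
    exact Subtype.ext this
  refine ⟨Set.finite_coe_iff.1 (Finite.of_injective _ hinj), ?_⟩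
  rw [← Nat.card_coe_set_eq, ← Nat.card_coe_set_eq, ← Nat.card_coe_set_eq, ← Nat.card_prod]
  exact Nat.card_le_card_of_injective _ hinj

end Fermat.Agent.Mazur

end
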