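/-
The action on stable subgroups and quotients; quotients of Eisenstein modules.
-/
import Fermat.Agent.Mazur.PieceExact

set_option autoImplicit false

noncomputable section

namespace Fermat.Agent.Mazur

local notation "ℚbar" => AlgebraicClosure ℚ
local notation "Γℚ" => AlgebraicClosure ℚ ≃ₐ[ℚ] AlgebraicClosure ℚ

/-- The Galois action on a stable subgroup. -/
def subAction {M : Type} [AddCommGroup M] [DistribMulAction Γℚ M] (H : AddSubgroup M)
    (hH : ∀ (σ : Γℚ), ∀ x ∈ H, σ • x ∈ H) : DistribMulAction Γℚ H where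
  smul σ x := ⟨σ • (x : M), hH σ x x.2⟩
  one_smul x := Subtype.ext (one_smul Γℚ (x : M))
  mul_smul σ τ x := Subtype.ext (mul_smul σ τ (x : M))
  smul_zero σ := Subtype.ext (smul_zero σ)
  smul_add σ x y := Subtype.ext (smul_add σ (x : M) (y : M))

/-- The map induced by `σ` on the quotient by a stable subgroup. -/
def quotSMul {M : Type} [AddCommGroup M] [DistribMulAction Γℚ M] (H : AddSubgroup M)
    (hH : ∀ (σ : Γℚ), ∀ x ∈ H, σ • x ∈ H) (σ : Γℚ) : M ⧸ H →+ M ⧸ H :=
  QuotientAddGroup.map H H (DistribMulAction.toAddMonoidEnd Γℚ M σ) fun x hx => hH σ x hx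

theorem quotSMul_mk {M : Type} [AddCommGroup M] [DistribMulAction Γℚ M] (H : AddSubgroup M)
    (hH : ∀ (σ : Γℚ), ∀ x ∈ H, σ • x ∈ H) (σ : Γℚ) (x : M) :
    quotSMul H hH σ (QuotientAddGroup.mk x) = QuotientAddGroup.mk (σ • x) := rfl

/-- The Galois action on the quotient by a stable subgroup. -/
def quotAction {M : Type} [AddCommGroup M] [DistribMulAction Γℚ M] (H : AddSubgroup M)
    (hH : ∀ (σ : Γℚ), ∀ x ∈ H, σ • x ∈ H) : DistribMulAction Γℚ (M ⧸ H) where
  smul σ x := quotSMul H hH σ x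
  one_smul x := by
    obtain ⟨y, rfl⟩ := QuotientAddGroup.mk_surjective x
    exact (quotSMul_mk H hH 1 y).trans (by rw [one_smul])
  mul_smul σ τ x := by
    obtain ⟨y, rfl⟩ := QuotientAddGroup.mk_surjective x
    exact ((quotSMul_mk H hH (σ * τ) y).trans (by rw [mul_smul]; rfl))
  smul_zero σ := map_zero _
  smul_add σ x y := map_add _ x y

/-- The quotient of an Eisenstein module by a stable subgroup is one. -/
theorem isEisensteinModule_quot {M : Type} [AddCommGroup M] [DistribMulAction Γℚ M] {q : ℕ}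
    (h : IsEisensteinModule M q) (H : AddSubgroup M) (hH : IsStable H) :
    letI := quotAction H hH; IsEisensteinModule (M ⧸ H) q := by
  letI := quotAction H hH
  intro K hKs hK
  let π := QuotientAddGroup.mk' H
  have hπ : ∀ (σ : Γℚ) (x : M), π (σ • x) = σ • π x := fun σ x => (quotSMul_mk H hH σ x).symm
  have hs : IsStable (K.comap π) := fun σ x hx => by
    rw [AddSubgroup.mem_comap, hπ]
    exact hKs σ _ hx
  have hne : K.comap π ≠ ⊤ := fun he => hK (by
    rw [← AddSubgroup.map_comap_eq_self_of_surjective (QuotientAddGroup.mk'_surjective H) K, he,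
      AddSubgroup.map_top_of_surjective _ (QuotientAddGroup.mk'_surjective H)])
  obtain ⟨K', hK's, hle, hidx, hact⟩ := h _ hs hne
  refine ⟨K'.map π, ?_, ?_, ?_, ?_⟩
  · rintro σ _ ⟨x, hx, rfl⟩
    exact ⟨σ • x, hK's σ x hx, hπ σ x⟩
  · intro z hz
    obtain ⟨x, rfl⟩ := QuotientAddGroup.mk'_surjective H z
    exact ⟨x, hle hz, rfl⟩
  · rw [← AddSubgroup.relIndex_comap]
    exact hidx
  · rcases hact with ha | ha
    · left
      rintro σ _ ⟨x, hx, rfl⟩
      rw [← hπ, ← map_sub]
      exact ha σ x hx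
    · right
      rintro σ a hσ _ ⟨x, hx, rfl⟩
      rw [← hπ, ← map_nsmul, ← map_sub]
      exact ha σ a hσ x hx

end Fermat.Agent.Mazur

end
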