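/-
Elementary Kummer theory over `ℚ` for the descent: Hilbert 90 for continuous cocycles, valuations
of rationals, rationals with all valuations divisible by `l`.
-/
import Fermat.Agent.Mult.RootMoved
import Fermat.Agent.AtP.Inertia
import Fermat.Agent.Galois.QbarInstances
import Mathlib.RepresentationTheory.Homological.GroupCohomology.Hilbert90
import Mathlib.FieldTheory.Galois.Infinite
import Mathlib.FieldTheory.Galois.Profinite
import Mathlib.Data.Nat.Factorization.Basic

set_option autoImplicit false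

noncomputable section

namespace Fermat.Agent.Mazur

local notation "Qb" => AlgebraicClosure ℚ
local notation "GQ" => (AlgebraicClosure ℚ ≃ₐ[ℚ] AlgebraicClosure ℚ)

/-- **Hilbert 90** for continuous cocycles with values in `ℚ̄ˣ`. -/
theorem exists_apply_eq_mul_of_cocycle (f : GQ → Qbˣ)
    (hf : ∀ σ τ : GQ, (f (σ * τ) : Qb) = (f σ : Qb) * σ (f τ : Qb)) (H : Subgroup GQ)
    (hH : IsOpen (H : Set GQ)) (hfH : ∀ σ : GQ, ∀ h ∈ H, f (σ * h) = f σ) :
    ∃ r : Qbˣ, ∀ σ : GQ, σ (r : Qb) = (f σ : Qb) * r := by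
  obtain ⟨E, hE, hEH⟩ : ∃ E : IntermediateField ℚ Qb, FiniteDimensional ℚ E ∧
      (E.fixingSubgroup : Set GQ) ⊆ H :=
    (krullTopology_mem_nhds_one_iff ℚ Qb _).1 (hH.mem_nhds (one_mem H))
  let L : IntermediateField ℚ Qb := IntermediateField.normalClosure ℚ E Qb
  haveI : FiniteDimensional ℚ L := normalClosure.is_finiteDimensional ℚ E Qb
  haveI : IsGalois ℚ L := IsGalois.normalClosure ℚ E Qb
  have hN : ∀ σ ∈ L.fixingSubgroup, σ ∈ H := fun σ hσ =>
    hEH ((IntermediateField.mem_fixingSubgroup_iff _ _).2 fun x hx =>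
      (IntermediateField.mem_fixingSubgroup_iff _ _).1 hσ x
        (IntermediateField.le_normalClosure E hx))
  let res : GQ →* Gal(L/ℚ) := AlgEquiv.restrictNormalHom L
  have hres : ∀ (σ : GQ) (x : L), σ (x : Qb) = ((res σ x : L) : Qb) := fun σ x =>
    (AlgEquiv.restrictNormalHom_apply L σ x).symm
  have hmem : ∀ σ, res σ = 1 → σ ∈ H := fun σ hσ =>
    hN σ ((IntermediateField.mem_fixingSubgroup_iff _ _).2 fun x hx => by
      rw [hres σ ⟨x, hx⟩, hσ]; rfl)
  have hwd : ∀ σ τ, res σ = res τ → f σ = f τ := fun σ τ h => by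
    have h1 : σ⁻¹ * τ ∈ H := hmem _ (by rw [map_mul, map_inv, h, inv_mul_cancel])
    rw [← hfH σ _ h1, mul_inv_cancel_left]
  have hf1 : (f 1 : Qb) = 1 := by
    have := hf 1 1
    rw [one_mul, AlgEquiv.one_apply] at this
    exact (mul_eq_left₀ (f 1).ne_zero).1 this.symm
  have hL : ∀ τ, (f τ : Qb) ∈ L := by
    intro τ
    rw [← InfiniteGalois.fixedField_fixingSubgroup L, IntermediateField.mem_fixedField_iff]
    intro σ hσ
    have h1 : res σ = 1 := AlgEquiv.ext fun x => Subtype.ext (by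
      rw [← hres]; exact (IntermediateField.mem_fixingSubgroup_iff _ _).1 hσ _ x.2)
    have h2 := hwd (σ * τ) τ (by rw [map_mul, h1, one_mul])
    have h3 := hf σ τ
    rw [h2, hwd σ 1 (by rw [h1, map_one]), hf1, one_mul] at h3
    exact h3.symm
  choose s hs using AlgEquiv.restrictNormalHom_surjective (F := ℚ) (K₁ := L) Qb
  let F : Gal(L/ℚ) → Lˣ := fun g => Units.mk0 ⟨(f (s g) : Qb), hL _⟩
    (fun h => (f (s g)).ne_zero (congrArg Subtype.val h))
  have hF : groupCohomology.IsMulCocycle₁ F := by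
    intro g h
    apply Units.ext
    apply Subtype.ext
    show (f (s (g * h)) : Qb) = (((g • F h : Lˣ) : L) : Qb) * ((F g : L) : Qb)
    rw [hwd (s (g * h)) (s g * s h)
      ((hs (g * h)).trans (((map_mul res _ _).trans (by rw [hs g, hs h])).symm)), hf,
      AlgEquiv.smul_units_def, Units.coe_map, MonoidHom.coe_coe, mul_comm]
    congr 1
    rw [show s g (f (s h) : Qb) = s g ((⟨(f (s h) : Qb), hL _⟩ : L) : Qb) from rfl, hres,
      show res (s g) = g from hs g]
    rfl
  obtain ⟨β, hβ⟩ := groupCohomology.isMulCoboundary₁_of_isMulCocycle₁_of_aut_to_units F hF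
  refine ⟨Units.mk0 ((β : L) : Qb) (fun h => β.ne_zero (Subtype.ext h)), fun σ => ?_⟩
  have h := hβ (res σ)
  rw [div_eq_iff_eq_mul] at h
  have h' := congrArg (fun u : Lˣ => ((u : L) : Qb)) h
  simp only [AlgEquiv.smul_units_def, Units.coe_map, MonoidHom.coe_coe] at h'
  rw [Units.val_mk0, hres σ (β : L)]
  refine h'.trans ?_
  show (f (s (res σ)) : Qb) * ((β : L) : Qb) = _
  rw [hwd (s (res σ)) σ (hs _)]

theorem valuation_natCast_lt_one {q : ℕ} {A : ValuationSubring Qb} (hA : A.LiesOverPrime q) :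
    A.valuation (q : Qb) < 1 :=
  (ValuationSubring.mem_nonunits_iff A).1 hA

/-- The valuation of a rational number at a place over `q`. -/
theorem valuation_ratCast {q : ℕ} (hq : q.Prime) {A : ValuationSubring Qb}
    (hA : A.LiesOverPrime q) {a : ℚ} (ha : a ≠ 0) :
    A.valuation (a : Qb) = A.valuation (q : Qb) ^ padicValRat q a := by
  haveI := Fact.mk hq
  have hq0 : (q : ℚ) ≠ 0 := Nat.cast_ne_zero.2 hq.ne_zero
  set w : ℚ := a / (q : ℚ) ^ padicValRat q a with hw
  have hw0 : w ≠ 0 := div_ne_zero ha (zpow_ne_zero _ hq0)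
  have hvw : padicValRat q w = 0 := by
    rw [hw, padicValRat.div ha (zpow_ne_zero _ hq0), padicValRat.zpow, padicValRat.self hq.one_lt,
      mul_one, sub_self]
  have h1 : A.valuation (w : Qb) ≤ 1 :=
    (A.valuation_le_one_iff _).2 (Mult.ratCast_mem_of_padicValRat_nonneg hq hA hvw.ge)
  have h2 : A.valuation ((w⁻¹ : ℚ) : Qb) ≤ 1 :=
    (A.valuation_le_one_iff _).2 (Mult.ratCast_mem_of_padicValRat_nonneg hq hA
      (by rw [padicValRat.inv, hvw, neg_zero]))
  rw [Rat.cast_inv, map_inv₀] at h2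
  have h3 : A.valuation (w : Qb) = 1 := by
    refine le_antisymm h1 ?_
    rwa [inv_le_one₀ (zero_lt_iff.2 ((map_ne_zero _).2 (Rat.cast_ne_zero.2 hw0)))] at h2
  have : (a : Qb) = (w : Qb) * (q : Qb) ^ padicValRat q a := by
    rw [hw]; push_cast
    rw [div_mul_cancel₀ _ (zpow_ne_zero _ (Nat.cast_ne_zero.2 hq.ne_zero))]
  rw [this, map_mul, h3, one_mul, map_zpow₀]

theorem exists_pow_eq_natCast {l n : ℕ} (hn : n ≠ 0)
    (h : ∀ q : ℕ, q.Prime → l ∣ n.factorization q) : ∃ m : ℕ, m ^ l = n := by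
  refine ⟨n.factorization.prod fun q e => q ^ (e / l), ?_⟩
  conv_rhs => rw [← Nat.prod_factorization_pow_eq_self hn]
  rw [Finsupp.prod, Finsupp.prod, ← Finset.prod_pow]
  refine Finset.prod_congr rfl fun q hq => ?_
  rw [← pow_mul, Nat.div_mul_cancel (h q (Nat.prime_of_mem_primeFactors hq))]

/-- A rational number with all valuations divisible by `l` is, up to sign, an `l`-th power. -/
theorem exists_pow_eq_or_eq_neg {a : ℚ} (ha : a ≠ 0) {l : ℕ}
    (hl : l ≠ 0) (h : ∀ q : ℕ, q.Prime → (l : ℤ) ∣ padicValRat q a) :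
    ∃ s : ℚ, s ≠ 0 ∧ (a = s ^ l ∨ a = -s ^ l) := by
  have hboth : ∀ q : ℕ, q.Prime →
      l ∣ a.num.natAbs.factorization q ∧ l ∣ a.den.factorization q := by
    intro q hq
    have hd := h q hq
    rw [padicValRat_def] at hd
    have e1 : a.num.natAbs.factorization q = padicValInt q a.num := by
      rw [Nat.factorization_def _ hq]; rfl
    have e2 : a.den.factorization q = padicValNat q a.den := Nat.factorization_def _ hq
    rw [e1, e2]
    rcases Nat.eq_zero_or_pos (padicValInt q a.num) with h0 | hpos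
    · refine ⟨by rw [h0]; exact dvd_zero _, ?_⟩
      rw [h0, Nat.cast_zero, zero_sub, dvd_neg] at hd
      exact_mod_cast hd
    · have hden : padicValNat q a.den = 0 := by
        refine padicValNat.eq_zero_of_not_dvd fun hdd => ?_
        have hnum : q ∣ a.num.natAbs := by
          by_contra hc
          exact hpos.ne' (padicValNat.eq_zero_of_not_dvd hc)
        exact Nat.not_coprime_of_dvd_of_dvd hq.one_lt hnum hdd a.reduced
      rw [hden, Nat.cast_zero, sub_zero] at hd
      exact ⟨by exact_mod_cast hd, by rw [hden]; exact dvd_zero _⟩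
  obtain ⟨m, hm⟩ := exists_pow_eq_natCast (Int.natAbs_ne_zero.2 (Rat.num_ne_zero.2 ha))
    (fun q hq => (hboth q hq).1)
  obtain ⟨k, hk⟩ := exists_pow_eq_natCast a.den_nz (fun q hq => (hboth q hq).2)
  refine ⟨(m : ℚ) / k, ?_, ?_⟩
  · refine div_ne_zero ?_ ?_
    · intro h0
      rw [Nat.cast_eq_zero] at h0
      rw [h0, zero_pow hl] at hm
      exact ha (Rat.num_eq_zero.1 (Int.natAbs_eq_zero.1 hm.symm))
    · intro h0
      rw [Nat.cast_eq_zero] at h0
      rw [h0, zero_pow hl] at hk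
      exact a.den_nz hk.symm
  · rw [div_pow]
    have e1 : ((m : ℚ)) ^ l = (a.num.natAbs : ℚ) := by exact_mod_cast hm
    have e2 : ((k : ℚ)) ^ l = (a.den : ℚ) := by exact_mod_cast hk
    rw [e1, e2, ← neg_div]
    rcases Int.natAbs_eq a.num with hn | hn
    · left
      conv_lhs => rw [← Rat.num_div_den a, hn]
      simp [Nat.cast_natAbs]
    · right
      conv_lhs => rw [← Rat.num_div_den a, hn]
      simp [Nat.cast_natAbs]

end Fermat.Agent.Mazur
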