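/-
A bound coming from a finite flat model: if a translation by a `q`-torsion point moves the
coordinates by less than `|q|^(1/(q-1))`, the translation is trivial.  Consequences for a point
`x₁` with `σ x₁ = x₁ + t`: inertia cannot translate by a rational point (`q` odd), and `x₁` cannot
generate the field of a `q`-th root of a rational number of valuation prime to `q`.
-/
import Fermat.Agent.Flat.HopfToolkit
import Fermat.Agent.Mazur.DescentKummer
import Mathlib.RingTheory.Polynomial.Cyclotomic.Eval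
import Mathlib.RingTheory.RootsOfUnity.PrimitiveRoots
import Mathlib.Data.Nat.Choose.Dvd

set_option autoImplicit false
set_option maxHeartbeats 400000

noncomputable section

open Finset

namespace Fermat.Agent.Mazur

local notation "Qb" => AlgebraicClosure ℚ
local notation "GQ" => (AlgebraicClosure ℚ ≃ₐ[ℚ] AlgebraicClosure ℚ)

section basic

variable {q : ℕ} {A : ValuationSubring Qb}

theorem inertia_valuation_sub_lt_one {σ : GQ} (hσ : σ ∈ A.inertiaSubgroupIn ℚ) {y : Qb}
    (hy : y ∈ A) : A.valuation (σ y - y) < 1 := by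
  obtain ⟨⟨σ', hσ'⟩, hker, rfl⟩ := hσ
  have h : (⟨σ', hσ'⟩ : A.decompositionSubgroup ℚ) • IsLocalRing.residue A ⟨y, hy⟩ =
      IsLocalRing.residue A ⟨y, hy⟩ :=
    RingEquiv.congr_fun (MonoidHom.mem_ker.1 hker) _
  rw [← IsLocalRing.ResidueField.residue_smul, ← sub_eq_zero, ← map_sub,
    IsLocalRing.residue_eq_zero_iff, ← ValuationSubring.coe_mem_nonunits_iff] at h
  exact (ValuationSubring.mem_nonunits_iff A).1 h

theorem ratLocalizedAt_mem (hq : q.Prime) (hA : A.LiesOverPrime q)
    (r : GaloisRep.ratLocalizedAt q) : algebraMap (GaloisRep.ratLocalizedAt q) Qb r ∈ A := by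
  have hden : ((r : ℚ).den : Qb) ∉ A.nonunits := by
    intro h
    rw [← Int.cast_natCast, Galois.intCast_mem_nonunits_iff hq hA, Int.natCast_dvd_natCast] at h
    exact Nat.not_coprime_of_dvd_of_dvd hq.one_lt h dvd_rfl r.2
  rw [ValuationSubring.mem_nonunits_iff_or, not_or, not_not] at hden
  show ((r : ℚ) : Qb) ∈ A
  rw [Rat.cast_def, div_eq_mul_inv]
  exact mul_mem (intCast_mem A _) hden.2

theorem mem_of_isIntegral_ratLocalizedAt (hq : q.Prime) (hA : A.LiesOverPrime q) {y : Qb}
    (hy : IsIntegral (GaloisRep.ratLocalizedAt q) y) : y ∈ A := by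
  let f : GaloisRep.ratLocalizedAt q →+* A :=
    (algebraMap (GaloisRep.ratLocalizedAt q) Qb).codRestrict A.toSubring (ratLocalizedAt_mem hq hA)
  letI : Algebra (GaloisRep.ratLocalizedAt q) A := f.toAlgebra
  haveI : IsScalarTower (GaloisRep.ratLocalizedAt q) A Qb :=
    IsScalarTower.of_algebraMap_eq fun _ => rfl
  obtain ⟨z, hz⟩ := IsIntegrallyClosed.algebraMap_eq_of_integral (IsIntegral.tower_top (A := A) hy)
  exact hz ▸ z.2

variable {X : Type} [AddCommGroup X] {act : GQ → X → X}

theorem order_valuation_le_one (O : FlatModel.HopfOrder q X act) (hq : q.Prime)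
    (hA : A.LiesOverPrime q) {f : X → Qb} (hf : f ∈ O.alg) (x : X) : A.valuation (f x) ≤ 1 := by
  have := O.finite
  refine (A.valuation_le_one_iff _).2 (mem_of_isIntegral_ratLocalizedAt hq hA ?_)
  exact IsIntegral.map ((Pi.evalAlgHom _ (fun _ : X => Qb) x).comp O.alg.val)
    (Algebra.IsIntegral.isIntegral (R := GaloisRep.ratLocalizedAt q) (⟨f, hf⟩ : O.alg))

theorem order_exists_sum (O : FlatModel.HopfOrder q X act) {f : X → Qb} (hf : f ∈ O.alg) :
    ∃ (n : ℕ) (a b : Fin n → O.alg),
      ∀ x y, f (x + y) = ∑ i, (a i : X → Qb) x * (b i : X → Qb) y :=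
  (FlatModel.mem_boxAlg_iff O.alg O.alg _).1 (O.comul_mem f hf)

end basic

section translation

variable {q : ℕ} {A : ValuationSubring Qb} {X : Type} [AddCommGroup X] {act : GQ → X → X}

/-- Translation by `t` on functions. -/
def translateEnd (t : X) : Module.End Qb (X → Qb) := LinearMap.funLeft Qb Qb (· + t)

@[simp] theorem translateEnd_apply (t : X) (f : X → Qb) (x : X) :
    translateEnd t f x = f (x + t) := rfl

theorem translateEnd_pow_apply (t : X) (k : ℕ) (f : X → Qb) (x : X) :
    (translateEnd t ^ k) f x = f (x + k • t) := by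
  induction k generalizing f with
  | zero => simp
  | succ k ih =>
    rw [pow_succ, Module.End.mul_apply, ih, translateEnd_apply, succ_nsmul, add_assoc]

/-- The difference operator of a translation. -/
def diffEnd (t : X) : Module.End Qb (X → Qb) := translateEnd t - 1

theorem diffEnd_apply (t : X) (f : X → Qb) (x : X) : diffEnd t f x = f (x + t) - f x := rfl

/-- Iterated differences shrink geometrically. -/
theorem valuation_diffEnd_pow_le (O : FlatModel.HopfOrder q X act) (hq : q.Prime)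
    (hA : A.LiesOverPrime q) (t : X) {δ : A.ValueGroup}
    (hδ : ∀ f ∈ O.alg, A.valuation (f t - f 0) ≤ δ) (k : ℕ) :
    ∀ f ∈ O.alg, ∀ x, A.valuation ((diffEnd t ^ k) f x) ≤ δ ^ k := by
  induction k with
  | zero => intro f hf x; simpa using order_valuation_le_one O hq hA hf x
  | succ k ih =>
    intro f hf x
    obtain ⟨n, a, b, hab⟩ := order_exists_sum O hf
    have hd : diffEnd t f =
        ∑ i, ((b i : X → Qb) t - (b i : X → Qb) 0) • (a i : X → Qb) := by
      funext y
      rw [diffEnd_apply, Finset.sum_apply]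
      conv_lhs => rw [hab y t, show f y = f (y + 0) by rw [add_zero], hab y 0,
        ← Finset.sum_sub_distrib]
      refine Finset.sum_congr rfl fun i _ => ?_
      rw [Pi.smul_apply, smul_eq_mul]
      ring
    rw [pow_succ, Module.End.mul_apply, hd, map_sum, Finset.sum_apply]
    refine Valuation.map_sum_le _ fun i _ => ?_
    rw [map_smul, Pi.smul_apply, smul_eq_mul, map_mul, pow_succ']
    exact mul_le_mul' (hδ _ (b i).2) (ih _ (a i).2 x)

/-- A translation by a point of order dividing `q` moving all functions of an order by less than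
`|q|^(1/(q-1))` is trivial. -/
theorem translation_eq_zero (O : FlatModel.HopfOrder q X act) (hq : q.Prime)
    (hA : A.LiesOverPrime q) {t : X} (ht : q • t = 0)
    (hsmall : ∀ f ∈ O.alg, A.valuation (f t - f 0) ^ (q - 1) < A.valuation (q : Qb)) : t = 0 := by
  classical
  obtain ⟨G, hG⟩ := (Module.Finite.iff_fg (N := Subalgebra.toSubmodule O.alg)).1 O.finite
  have hGmem : ∀ g ∈ insert 0 G, g ∈ O.alg := fun g hg => by
    rcases Finset.mem_insert.1 hg with rfl | hg
    · exact O.alg.zero_mem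
    · rw [← Subalgebra.mem_toSubmodule, ← hG]; exact Submodule.subset_span hg
  obtain ⟨g₀, hg₀, hmax⟩ := Finset.exists_max_image (insert 0 G)
    (fun g : X → Qb => A.valuation (g t - g 0)) (Finset.insert_nonempty _ _)
  set δ := A.valuation (g₀ t - g₀ 0) with hδdef
  have hδ : ∀ f ∈ O.alg, A.valuation (f t - f 0) ≤ δ := by
    intro f hf
    rw [← Subalgebra.mem_toSubmodule, ← hG] at hf
    induction hf using Submodule.span_induction with
    | mem g hg => exact hmax g (Finset.mem_insert_of_mem hg)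
    | zero => simp
    | add a b _ _ ha hb =>
      rw [Pi.add_apply, Pi.add_apply, show a t + b t - (a 0 + b 0) = (a t - a 0) + (b t - b 0) by
        ring]
      exact (Valuation.map_add _ _ _).trans (max_le ha hb)
    | smul r a _ ha =>
      rw [Pi.smul_apply, Pi.smul_apply, Algebra.smul_def, Algebra.smul_def, ← mul_sub, map_mul]
      exact (mul_le_mul' ((A.valuation_le_one_iff _).2 (ratLocalizedAt_mem hq hA r)) ha).trans
        (by rw [one_mul])
  suffices hzero : δ = 0 by
    refine O.separates t 0 fun f hf => ?_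
    have := le_antisymm (hzero ▸ hδ f hf) zero_le
    rwa [map_eq_zero, sub_eq_zero] at this
  by_contra hne
  have hvq0 : 0 < A.valuation (q : Qb) :=
    zero_lt_iff.2 ((map_ne_zero _).2 (Nat.cast_ne_zero.2 hq.ne_zero))
  have hδpow : δ ^ (q - 1) < A.valuation (q : Qb) := hsmall g₀ (hGmem g₀ hg₀)
  have hδ1 : δ < 1 := by
    by_contra h
    exact absurd ((hδpow.trans (valuation_natCast_lt_one hA)))
      (not_lt.2 (one_le_pow₀ (not_lt.1 h)))
  -- `(1 + D) ^ q = 1`
  have hTq : (translateEnd t ^ q) g₀ 0 = g₀ 0 := by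
    rw [translateEnd_pow_apply, ht, add_zero]
  have hexp : ∑ m ∈ Finset.range (q + 1), (q.choose m : Qb) * (diffEnd t ^ m) g₀ 0 = g₀ 0 := by
    have h : translateEnd t = diffEnd t + 1 := by rw [diffEnd, sub_add_cancel]
    rw [← hTq, h, (Commute.one_right (diffEnd t)).add_pow, LinearMap.sum_apply, Finset.sum_apply]
    refine Finset.sum_congr rfl fun m _ => ?_
    rw [one_pow, mul_one, Module.End.mul_apply, Module.End.natCast_apply, map_nsmul,
      Pi.smul_apply, nsmul_eq_mul]
  obtain ⟨r, hr⟩ : ∃ r, q = r + 2 := ⟨q - 2, (Nat.sub_add_cancel hq.two_le).symm⟩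
  rw [Finset.sum_range_succ', Finset.sum_congr (s₂ := Finset.range (r + 2)) (by rw [hr])
    (fun _ _ => rfl), Finset.sum_range_succ'] at hexp
  simp only [Nat.choose_zero_right, Nat.cast_one, pow_zero, one_mul, Module.End.one_apply,
    zero_add, Nat.choose_one_right, pow_one, add_eq_right] at hexp
  have hlt : A.valuation (∑ i ∈ Finset.range (r + 1),
      (q.choose (i + 1 + 1) : Qb) * (diffEnd t ^ (i + 1 + 1)) g₀ 0) <
        A.valuation (q : Qb) * δ := by
    refine Valuation.map_sum_lt _ (mul_ne_zero hvq0.ne' hne) fun i hi => ?_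
    rw [map_mul]
    have hD := valuation_diffEnd_pow_le O hq hA t hδ (i + 1 + 1) g₀ (hGmem g₀ hg₀) 0
    have hi' : i < r + 1 := Finset.mem_range.1 hi
    by_cases hiq : i + 1 + 1 = q
    · rw [hiq, Nat.choose_self, Nat.cast_one, map_one, one_mul]
      rw [hiq] at hD
      refine hD.trans_lt ?_
      nth_rw 1 [show q = (q - 1) + 1 by omega]
      rw [pow_succ]
      exact mul_lt_mul_of_pos_right hδpow (zero_lt_iff.2 hne)
    · obtain ⟨c, hc⟩ := hq.dvd_choose_self (show i + 1 + 1 ≠ 0 by omega) (by omega)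
      rw [hc, Nat.cast_mul, map_mul, mul_assoc]
      refine mul_lt_mul_of_pos_left ?_ hvq0
      refine lt_of_le_of_lt (mul_le_of_le_one_left' ((A.valuation_le_one_iff _).2
        (natCast_mem A c))) (hD.trans_lt ?_)
      calc δ ^ (i + 1 + 1) ≤ δ ^ 2 := pow_le_pow_right_of_le_one' hδ1.le (by omega)
        _ < δ := by rw [pow_two]; exact mul_lt_of_lt_one_left (zero_lt_iff.2 hne) hδ1
  have hkey : (q : Qb) * (diffEnd t g₀ 0) = -(∑ i ∈ Finset.range (r + 1),
      (q.choose (i + 1 + 1) : Qb) * (diffEnd t ^ (i + 1 + 1)) g₀ 0) := by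
    linear_combination hexp
  have hδ' : A.valuation (diffEnd t g₀ 0) = δ := by rw [diffEnd_apply, zero_add]
  rw [← Valuation.map_neg, ← hkey, map_mul, hδ'] at hlt
  exact lt_irrefl _ hlt

theorem valuation_sum_pow_lt {ι : Type*} (s : Finset ι) (f : ι → Qb) {n : ℕ} (hn : n ≠ 0)
    {b : A.ValueGroup} (hb : 0 < b) (h : ∀ i ∈ s, A.valuation (f i) ^ n < b) :
    A.valuation (∑ i ∈ s, f i) ^ n < b := by
  rcases s.eq_empty_or_nonempty with rfl | hs
  · simpa [zero_pow hn] using hb
  · obtain ⟨i, hi, hmax⟩ := Finset.exists_max_image s (fun i => A.valuation (f i)) hs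
    exact lt_of_le_of_lt (pow_le_pow_left₀ zero_le (Valuation.map_sum_le _ fun j hj => hmax j hj) n)
      (h i hi)

/-- If `σ x₁ = x₁ + t` and `σ` moves every integer of the field of definition of `x₁` by less than
`|q|^(1/(q-1))`, then `t = 0`. -/
theorem translation_eq_zero_of_moved (O : FlatModel.HopfOrder q X act) (hq : q.Prime)
    (hA : A.LiesOverPrime q) {σ : GQ} {x₁ t : X} (ht : q • t = 0) (hσ : act σ x₁ = x₁ + t)
    (hy : ∀ y ∈ A, (∀ τ : GQ, act τ x₁ = x₁ → τ y = y) →
      A.valuation (σ y - y) ^ (q - 1) < A.valuation (q : Qb)) : t = 0 := by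
  refine translation_eq_zero O hq hA ht fun f hf => ?_
  obtain ⟨n, a, b, hab⟩ := order_exists_sum O hf
  have h1 : f t - f 0 = ∑ i, (σ ((a i : X → Qb) x₁) - (a i : X → Qb) x₁) * (b i : X → Qb) (-x₁) := by
    rw [show f t = f ((x₁ + t) + -x₁) by congr 1; abel, show f 0 = f (x₁ + -x₁) by rw [add_neg_cancel],
      hab, hab, ← Finset.sum_sub_distrib]
    refine Finset.sum_congr rfl fun i _ => ?_
    rw [← O.equivariant _ (a i).2 σ x₁, hσ]
    ring
  rw [h1]
  refine valuation_sum_pow_lt _ _ (Nat.sub_ne_zero_of_lt hq.one_lt)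
    (zero_lt_iff.2 ((map_ne_zero _).2 (Nat.cast_ne_zero.2 hq.ne_zero))) fun i _ => ?_
  rw [map_mul, mul_pow]
  refine lt_of_le_of_lt (mul_le_of_le_one_right' (pow_le_one₀ zero_le
    (order_valuation_le_one O hq hA (b i).2 _))) ?_
  exact hy _ ((A.valuation_le_one_iff _).1 (order_valuation_le_one O hq hA (a i).2 _))
    fun τ hτ => by rw [← O.equivariant _ (a i).2 τ x₁, hτ]

/-- For odd `q`, inertia at `q` does not translate a point by a rational `q`-torsion point. -/
theorem translation_eq_zero_of_rational (O : FlatModel.HopfOrder q X act) (hq : q.Prime)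
    (hq2 : q ≠ 2) (hA : A.LiesOverPrime q) {σ : GQ} (hσI : σ ∈ A.inertiaSubgroupIn ℚ)
    {x₁ t : X} (ht : q • t = 0) (hσ : act σ x₁ = x₁ + t) (hfix : ∀ τ : GQ, act τ t = t)
    (hzero : ∀ τ : GQ, act τ 0 = 0) : t = 0 := by
  refine translation_eq_zero O hq hA ht fun f hf => ?_
  obtain ⟨n, a, b, hab⟩ := order_exists_sum O hf
  have hlt : A.valuation (f t - f 0) < 1 := by
    have h1 : f t - f 0 =
        ∑ i, (σ ((a i : X → Qb) x₁) - (a i : X → Qb) x₁) * (b i : X → Qb) (-x₁) := by
      rw [show f t = f ((x₁ + t) + -x₁) by congr 1; abel,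
        show f 0 = f (x₁ + -x₁) by rw [add_neg_cancel], hab, hab, ← Finset.sum_sub_distrib]
      refine Finset.sum_congr rfl fun i _ => ?_
      rw [← O.equivariant _ (a i).2 σ x₁, hσ]
      ring
    rw [h1]
    refine Valuation.map_sum_lt _ one_ne_zero fun i _ => ?_
    rw [map_mul]
    exact lt_of_le_of_lt (mul_le_of_le_one_right' (order_valuation_le_one O hq hA (b i).2 _))
      (inertia_valuation_sub_lt_one hσI
        ((A.valuation_le_one_iff _).1 (order_valuation_le_one O hq hA (a i).2 _)))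
  obtain ⟨r, hr⟩ : ∃ r : ℚ, algebraMap ℚ Qb r = f t - f 0 := by
    refine (InfiniteGalois.mem_range_algebraMap_iff_fixed (f t - f 0)).2 fun τ => ?_
    rw [map_sub, ← O.equivariant f hf, ← O.equivariant f hf, hfix, hzero]
  rw [← hr, eq_ratCast] at hlt ⊢
  rcases eq_or_ne r 0 with rfl | hr0
  · rw [Rat.cast_zero, map_zero, zero_pow (Nat.sub_ne_zero_of_lt hq.one_lt)]
    exact zero_lt_iff.2 ((map_ne_zero _).2 (Nat.cast_ne_zero.2 hq.ne_zero))
  rw [valuation_ratCast hq hA hr0] at hlt ⊢
  have hvq := valuation_natCast_lt_one hA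
  have hvq0 : 0 < A.valuation (q : Qb) :=
    zero_lt_iff.2 ((map_ne_zero _).2 (Nat.cast_ne_zero.2 hq.ne_zero))
  have hpos : 0 < padicValRat q r := by
    by_contra h
    exact absurd hlt (not_lt.2 (one_le_zpow_of_nonpos₀ hvq0 hvq.le (not_lt.1 h)))
  rw [← zpow_natCast (A.valuation (q : Qb) ^ padicValRat q r), ← zpow_mul]
  calc A.valuation (q : Qb) ^ (padicValRat q r * ((q - 1 : ℕ) : ℤ))
      ≤ A.valuation (q : Qb) ^ (2 : ℤ) := by
        refine zpow_le_zpow_right_of_le_one₀ hvq0 hvq.le ?_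
        have := hq.two_le
        have h2 : (2 : ℤ) ≤ ((q - 1 : ℕ) : ℤ) := by
          have : 3 ≤ q := by omega
          omega
        nlinarith
    _ < A.valuation (q : Qb) := by
        rw [zpow_two]; exact mul_lt_of_lt_one_left hvq0 hvq

end translation

section radical

variable {q : ℕ} {A : ValuationSubring Qb}

theorem valuation_one_sub_pow_le {ζ : Qb} (hζ : A.valuation ζ ≤ 1) (k : ℕ) :
    A.valuation (1 - ζ ^ k) ≤ A.valuation (1 - ζ) := by
  rw [Valuation.map_sub_swap _ 1 (ζ ^ k), Valuation.map_sub_swap _ 1 ζ, ← mul_geom_sum ζ k, map_mul]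
  exact mul_le_of_le_one_right' (Valuation.map_sum_le _ fun i _ => by
    rw [map_pow]; exact pow_le_one₀ zero_le hζ)

theorem valuation_rootOfUnity_eq_one {ζ : Qb} (hq : q ≠ 0) (hζ : ζ ^ q = 1) :
    A.valuation ζ = 1 := by
  refine (pow_eq_one_iff_left hq).1 ?_
  rw [← map_pow, hζ, map_one]

/-- `|1 - ζ|^(q-1) = |q|` for a primitive `q`-th root of unity. -/
theorem valuation_one_sub_pow_eq (hq : q.Prime) {ζ : Qb} (hζ : IsPrimitiveRoot ζ q) :
    A.valuation (1 - ζ) ^ (q - 1) = A.valuation (q : Qb) := by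
  classical
  have hv : A.valuation ζ = 1 := valuation_rootOfUnity_eq_one hq.ne_zero hζ.pow_eq_one
  haveI := Fact.mk hq
  haveI : NeZero q := ⟨hq.ne_zero⟩
  have h := Polynomial.eval_one_cyclotomic_prime (R := Qb) (p := q)
  rw [Polynomial.cyclotomic_eq_prod_X_sub_primitiveRoots hζ, Polynomial.eval_prod] at h
  simp only [Polynomial.eval_sub, Polynomial.eval_X, Polynomial.eval_C] at h
  rw [← h, map_prod, Finset.prod_congr rfl (g := fun _ => A.valuation (1 - ζ))]
  · rw [Finset.prod_const, hζ.card_primitiveRoots, Nat.totient_prime hq]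
  · intro μ hμ
    have hμ' := (mem_primitiveRoots hq.pos).1 hμ
    obtain ⟨i, -, rfl⟩ := hζ.eq_pow_of_pow_eq_one (ξ := μ) hμ'.pow_eq_one
    obtain ⟨j, -, hj⟩ := hμ'.eq_pow_of_pow_eq_one (ξ := ζ) hζ.pow_eq_one
    refine le_antisymm (valuation_one_sub_pow_le hv.le i) ?_
    conv_lhs => rw [← hj]
    exact valuation_one_sub_pow_le (by rw [map_pow, hv, one_pow]) j

/-- Galois moves the integers of `ℚ(π)`, `π^q` rational of valuation `|q|`, by less than
`|q|^(1/(q-1))`. -/
theorem valuation_moved_radical_lt (hq : q.Prime) (hA : A.LiesOverPrime q) {π : Qb} {c : ℚ}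
    (hπ : π ^ q = (c : Qb)) (hv : A.valuation π ^ q = A.valuation (q : Qb)) (σ : GQ) {y : Qb}
    (hy : y ∈ A) (hfix : ∀ τ : GQ, τ π = π → τ y = y) :
    A.valuation (σ y - y) ^ (q - 1) < A.valuation (q : Qb) := by
  classical
  have hvq := valuation_natCast_lt_one hA
  have hvq0 : 0 < A.valuation (q : Qb) :=
    zero_lt_iff.2 ((map_ne_zero _).2 (Nat.cast_ne_zero.2 hq.ne_zero))
  have hvπ0 : 0 < A.valuation π := by
    refine zero_lt_iff.2 fun h => hvq0.ne' ?_
    rw [← hv, h, zero_pow hq.ne_zero]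
  have hvπ1 : A.valuation π < 1 := (pow_lt_one_iff_of_nonneg zero_le hq.ne_zero).1 (hv ▸ hvq)
  have hπ0 : π ≠ 0 := fun h => hvπ0.ne' (by rw [h, map_zero])
  -- `y` is a polynomial in `π` of degree `< q`
  have hint : IsIntegral ℚ π := Algebra.IsIntegral.isIntegral π
  have hymem : y ∈ IntermediateField.adjoin ℚ {π} := by
    rw [← InfiniteGalois.fixedField_fixingSubgroup (IntermediateField.adjoin ℚ {π}),
      IntermediateField.mem_fixedField_iff]
    exact fun τ hτ => hfix τ ((IntermediateField.mem_fixingSubgroup_iff _ _).1 hτ π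
      (IntermediateField.mem_adjoin_simple_self ℚ π))
  rw [← IntermediateField.mem_toSubalgebra,
    IntermediateField.adjoin_simple_toSubalgebra_of_isAlgebraic hint.isAlgebraic,
    Algebra.adjoin_singleton_eq_range_aeval] at hymem
  obtain ⟨P, rfl⟩ := hymem
  set P' := P %ₘ (Polynomial.X ^ q - Polynomial.C c)
  have hmon : (Polynomial.X ^ q - Polynomial.C c).Monic :=
    Polynomial.monic_X_pow_sub_C c hq.ne_zero
  have hroot : Polynomial.aeval π (Polynomial.X ^ q - Polynomial.C c) = 0 := by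
    simp [hπ]
  have hP' : (Polynomial.aeval π).toRingHom P = Polynomial.aeval π P' :=
    (Polynomial.aeval_modByMonic_eq_self_of_root hroot).symm
  have hdeg : P'.natDegree < q := by
    have := Polynomial.natDegree_modByMonic_lt P hmon (by
      intro h
      have := congrArg Polynomial.natDegree h
      rw [Polynomial.natDegree_X_pow_sub_C, Polynomial.natDegree_one] at this
      exact hq.ne_zero this)
    rwa [Polynomial.natDegree_X_pow_sub_C] at this
  have hsum : Polynomial.aeval π P' = ∑ k ∈ Finset.range q, (P'.coeff k : Qb) * π ^ k := by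
    rw [Polynomial.aeval_eq_sum_range' hdeg]
    simp [Algebra.smul_def]
  change A.valuation (σ ((Polynomial.aeval π).toRingHom P) - (Polynomial.aeval π).toRingHom P)
    ^ (q - 1) < A.valuation (q : Qb)
  change (Polynomial.aeval π).toRingHom P ∈ A at hy
  rw [hP', hsum] at hy ⊢
  set s := (Finset.range q).filter fun k => P'.coeff k ≠ 0 with hs
  have hterm : ∀ k ∈ s, A.valuation ((P'.coeff k : Qb) * π ^ k) =
      A.valuation π ^ ((q : ℤ) * padicValRat q (P'.coeff k) + k) := by
    intro k hk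
    rw [map_mul, map_pow, valuation_ratCast hq hA (Finset.mem_filter.1 hk).2, ← hv,
      zpow_add₀ hvπ0.ne', zpow_mul, zpow_natCast, zpow_natCast]
  have hsum' : ∑ k ∈ Finset.range q, (P'.coeff k : Qb) * π ^ k =
      ∑ k ∈ s, (P'.coeff k : Qb) * π ^ k :=
    (Finset.sum_filter_of_ne (p := fun k => P'.coeff k ≠ 0)
      fun k _ h hk => h (by rw [hk, Rat.cast_zero, zero_mul])).symm
  rw [hsum'] at hy ⊢
  -- all the terms are integral
  have hle : ∀ k ∈ s, A.valuation ((P'.coeff k : Qb) * π ^ k) ≤ 1 := by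
    rcases s.eq_empty_or_nonempty with he | hne
    · simp [he]
    obtain ⟨k₀, hk₀, hmax⟩ := Finset.exists_max_image s
      (fun k => A.valuation ((P'.coeff k : Qb) * π ^ k)) hne
    have hinj : ∀ k ∈ s, k ≠ k₀ → A.valuation ((P'.coeff k : Qb) * π ^ k) ≠
        A.valuation ((P'.coeff k₀ : Qb) * π ^ k₀) := by
      intro k hk hne h
      rw [hterm k hk, hterm k₀ hk₀] at h
      have := (zpow_right_strictAnti₀ hvπ0 hvπ1).injective h
      have hk' : k < q := Finset.mem_range.1 (Finset.mem_filter.1 hk).1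
      have hk₀' : k₀ < q := Finset.mem_range.1 (Finset.mem_filter.1 hk₀).1
      apply hne
      have h2 := congrArg (fun z : ℤ => z % (q : ℤ)) this
      simp only [Int.mul_add_emod_self_left] at h2
      rw [Int.emod_eq_of_lt (by omega) (by omega), Int.emod_eq_of_lt (by omega) (by omega)] at h2
      exact_mod_cast h2
    have heq := Valuation.map_sum_eq_of_lt A.valuation hk₀
      (fun k hk => lt_of_le_of_ne (hmax k (Finset.mem_sdiff.1 hk).1)
        (hinj k (Finset.mem_sdiff.1 hk).1 (by simpa using (Finset.mem_sdiff.1 hk).2)))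
    intro k hk
    exact (hmax k hk).trans (heq ▸ (A.valuation_le_one_iff _).2 hy)
  have hcoeff : ∀ k ∈ s, A.valuation (P'.coeff k : Qb) ≤ 1 := by
    intro k hk
    have h1 := hle k hk
    rw [hterm k hk] at h1
    rw [valuation_ratCast hq hA (Finset.mem_filter.1 hk).2]
    by_contra hgt
    rw [not_le] at hgt
    have hneg : padicValRat q (P'.coeff k) < 0 := by
      by_contra h
      exact absurd hgt (not_lt.2 (zpow_le_one₀ hvq0 hvq.le (not_lt.1 h)))
    have hk' : k < q := Finset.mem_range.1 (Finset.mem_filter.1 hk).1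
    have hlt : (q : ℤ) * padicValRat q (P'.coeff k) + k < 0 := by
      have : (q : ℤ) * padicValRat q (P'.coeff k) ≤ -(q : ℤ) := by nlinarith
      omega
    exact absurd h1 (not_le.2 (one_lt_zpow_of_neg₀ hvπ0 hvπ1 hlt))
  rw [map_sum, ← Finset.sum_sub_distrib]
  refine valuation_sum_pow_lt _ _ (Nat.sub_ne_zero_of_lt hq.one_lt) hvq0 fun k hk => ?_
  rcases Nat.eq_zero_or_pos k with rfl | hkpos
  · simpa [zero_pow (Nat.sub_ne_zero_of_lt hq.one_lt)] using hvq0
  obtain ⟨ζ, hζq, hζ⟩ : ∃ ζ : Qb, ζ ^ q = 1 ∧ σ π = ζ * π := by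
    refine ⟨σ π / π, ?_, (div_mul_cancel₀ _ hπ0).symm⟩
    rw [div_pow, ← map_pow, hπ, map_ratCast, div_self]
    rw [← hπ]; exact pow_ne_zero _ hπ0
  have hrw : σ ((P'.coeff k : Qb) * π ^ k) - (P'.coeff k : Qb) * π ^ k =
      ((P'.coeff k : Qb) * (-(1 - ζ ^ k))) * π ^ k := by
    rw [map_mul, map_ratCast, map_pow, hζ, mul_pow]; ring
  rw [hrw, map_mul, map_mul, Valuation.map_neg, map_pow]
  have hvζ := valuation_rootOfUnity_eq_one (A := A) hq.ne_zero hζq
  have hbound : A.valuation (P'.coeff k : Qb) * A.valuation (1 - ζ ^ k) * A.valuation π ^ k ≤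
      A.valuation (1 - ζ) * A.valuation π := by
    refine mul_le_mul' ((mul_le_of_le_one_left' (hcoeff k hk)).trans
      (valuation_one_sub_pow_le hvζ.le k)) ?_
    calc A.valuation π ^ k ≤ A.valuation π ^ 1 := pow_le_pow_right_of_le_one' hvπ1.le hkpos
      _ = _ := pow_one _
  refine lt_of_le_of_lt (pow_le_pow_left₀ zero_le hbound _) ?_
  rcases eq_or_ne ζ 1 with rfl | hζ1
  · simpa [zero_pow (Nat.sub_ne_zero_of_lt hq.one_lt)] using hvq0
  have hprim : IsPrimitiveRoot ζ q := by
    rw [← orderOf_eq_prime (p := q) (hp := ⟨hq⟩) hζq hζ1]; exact IsPrimitiveRoot.orderOf ζ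
  rw [mul_pow, valuation_one_sub_pow_eq hq hprim]
  exact mul_lt_of_lt_one_right hvq0 (pow_lt_one₀ zero_le hvπ1 (Nat.sub_ne_zero_of_lt hq.one_lt))

variable {X : Type} [AddCommGroup X] {act : GQ → X → X}

/-- A point whose field of definition is inside `ℚ(α)`, `α^q = a` rational with `q ∤ v_q(a)`, is not
translated by a non-zero `q`-torsion point. -/
theorem translation_eq_zero_of_radical (O : FlatModel.HopfOrder q X act) (hq : q.Prime)
    (hA : A.LiesOverPrime q) {α : Qb} {a : ℚ} (ha : a ≠ 0) (hα : α ^ q = (a : Qb))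
    (hd : ¬ (q : ℤ) ∣ padicValRat q a) {σ : GQ} {x₁ t : X} (ht : q • t = 0)
    (hσ : act σ x₁ = x₁ + t) (hgen : ∀ τ : GQ, τ α = α → act τ x₁ = x₁) : t = 0 := by
  obtain ⟨u, w, huw⟩ : IsCoprime (padicValRat q a) (q : ℤ) :=
    ((Nat.prime_iff_prime_int.1 hq).coprime_iff_not_dvd.2 hd).symm
  have hq0 : (q : Qb) ≠ 0 := Nat.cast_ne_zero.2 hq.ne_zero
  have hα0 : α ≠ 0 := fun h => by
    rw [h, zero_pow hq.ne_zero] at hα
    exact ha (by exact_mod_cast hα.symm)
  set π : Qb := α ^ u * (q : Qb) ^ w with hπdef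
  have hπq : π ^ q = ((a ^ u * ((q : ℚ) ^ q) ^ w : ℚ) : Qb) := by
    push_cast
    rw [← hα, hπdef, mul_pow, ← zpow_natCast (α ^ u), ← zpow_natCast ((q : Qb) ^ w),
      ← zpow_natCast α, ← zpow_natCast (q : Qb), ← zpow_mul, ← zpow_mul, ← zpow_mul, ← zpow_mul,
      mul_comm u, mul_comm w]
  have hv : A.valuation π ^ q = A.valuation (q : Qb) := by
    rw [← map_pow, hπq]
    push_cast
    rw [map_mul, map_zpow₀, map_zpow₀, valuation_ratCast hq hA ha, map_pow, ← zpow_natCast,
      ← zpow_mul, ← zpow_mul, ← zpow_add₀ ((map_ne_zero _).2 hq0),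
      show padicValRat q a * u + (q : ℤ) * w = 1 by linarith [huw], zpow_one]
  have hαπ : α = π ^ padicValRat q a *
      ((a ^ w * ((q : ℚ) ^ (-(w * padicValRat q a))) : ℚ) : Qb) := by
    push_cast
    rw [← hα, hπdef, mul_zpow, ← zpow_natCast α, ← zpow_mul, ← zpow_mul, ← zpow_mul, zpow_neg,
      mul_mul_mul_comm, ← zpow_add₀ hα0, mul_inv_cancel₀ (zpow_ne_zero _ hq0), mul_one,
      show u * padicValRat q a + (q : ℤ) * w = 1 by linarith [huw], zpow_one]
  refine translation_eq_zero_of_moved O hq hA ht hσ fun y hy hfix => ?_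
  refine valuation_moved_radical_lt hq hA hπq hv σ hy fun τ hτ => hfix τ (hgen τ ?_)
  conv_lhs => rw [hαπ]
  rw [map_mul, map_zpow₀, hτ, map_ratCast]
  exact hαπ.symm

end radical

end Fermat.Agent.Mazur

end
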