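/-
Classification of the Selmer cocycles on a piece of order `q` (trivial or cyclotomic action):
Kummer theory over `ℚ`, Minkowski, and the exclusions coming from a flat model at `q`.
-/
import Fermat.Agent.Mazur.PieceFlat
import Fermat.Agent.Mazur.Defs
import Fermat.Agent.Reducible.Places
import Fermat.Agent.MW.WeakInertia
import Mathlib.GroupTheory.SpecificGroups.Cyclic

set_option autoImplicit false
set_option maxHeartbeats 400000

noncomputable section

open scoped Pointwise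

namespace Fermat.Agent.Mazur

local notation "Qb" => AlgebraicClosure ℚ
local notation "GQ" => (AlgebraicClosure ℚ ≃ₐ[ℚ] AlgebraicClosure ℚ)

section roots

variable {q : ℕ}

theorem inertia_fixes_rootOfUnity (hq : q.Prime) {ℓ : ℕ} (hℓ : ℓ.Prime) (hℓq : ℓ ≠ q)
    {A : ValuationSubring Qb} (hA : A.LiesOverPrime ℓ) {σ : GQ}
    (hσ : σ ∈ A.inertiaSubgroupIn ℚ) {μ : Qb} (hμ : μ ^ q = 1) : σ μ = μ := by
  by_contra hne
  have hμ0 : μ ≠ 0 := fun h => by rw [h, zero_pow hq.ne_zero] at hμ; exact zero_ne_one hμ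
  have hvμ : A.valuation μ = 1 := valuation_rootOfUnity_eq_one hq.ne_zero hμ
  have hz : (σ μ / μ) ^ q = 1 := by rw [div_pow, ← map_pow, hμ, map_one, div_one]
  have hz1 : σ μ / μ ≠ 1 := by rwa [Ne, div_eq_one_iff_eq hμ0]
  have hprim : IsPrimitiveRoot (σ μ / μ) q := by
    rw [← orderOf_eq_prime (p := q) (hp := ⟨hq⟩) hz hz1]; exact IsPrimitiveRoot.orderOf _
  have h1 : A.valuation (1 - σ μ / μ) < 1 := by
    rw [one_sub_div hμ0, map_div₀, hvμ, div_one, Valuation.map_sub_swap]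
    exact inertia_valuation_sub_lt_one hσ ((A.valuation_le_one_iff _).1 hvμ.le)
  have hvq : A.valuation (q : Qb) = 1 := by
    refine le_antisymm ((A.valuation_le_one_iff _).2 (natCast_mem A q)) (not_lt.1 fun h => ?_)
    rw [← ValuationSubring.mem_nonunits_iff, ← Int.cast_natCast,
      Galois.intCast_mem_nonunits_iff hℓ hA, Int.natCast_dvd_natCast] at h
    exact hℓq ((Nat.prime_dvd_prime_iff_eq hℓ hq).1 h)
  have h2 := valuation_one_sub_pow_eq (A := A) hq hprim
  rw [hvq] at h2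
  exact (pow_lt_one₀ zero_le h1 (Nat.sub_ne_zero_of_lt hq.one_lt)).ne h2

theorem conj_mem_inertia_smul {A : ValuationSubring Qb} {σ : GQ}
    (hσ : σ ∈ A.inertiaSubgroupIn ℚ) (g : GQ) :
    g * σ * g⁻¹ ∈ (g • A).inertiaSubgroupIn ℚ := by
  refine MW.mem_inertiaSubgroupIn_of_centre fun c => ?_
  rw [Galois.mem_centre, Galois.mem_smul_nonunits]
  have h1 : IsIntegral ℤ (g⁻¹ (c : Qb)) := c.2.map ((g⁻¹ : GQ).toAlgHom.restrictScalars ℤ)
  have h := inertia_valuation_sub_lt_one hσ (Galois.mem_valuationSubring_of_isIntegral A h1)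
  have e : g⁻¹ • (((g * σ * g⁻¹) • c - c : integralClosure ℤ Qb) : Qb) =
      σ (g⁻¹ (c : Qb)) - g⁻¹ (c : Qb) := by
    rw [AddSubgroupClass.coe_sub, integralClosure.coe_smul, AlgEquiv.smul_def, AlgEquiv.smul_def,
      map_sub, AlgEquiv.mul_apply, AlgEquiv.mul_apply]
    congr 1
    exact g.symm_apply_apply _
  rw [e]
  exact (ValuationSubring.mem_nonunits_iff A).2 h

theorem exists_actsOnRoots_prime (hq : q.Prime) (σ : GQ) : ∃ a : ℕ, ActsOnRoots q σ a := by
  have : NeZero q := ⟨hq.ne_zero⟩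
  obtain ⟨ζ, hζ⟩ := HasEnoughRootsOfUnity.exists_primitiveRoot Qb q
  obtain ⟨a, -, ha⟩ := hζ.eq_pow_of_pow_eq_one (ξ := σ ζ) (by rw [← map_pow, hζ.pow_eq_one, map_one])
  refine ⟨a, fun μ hμ => ?_⟩
  obtain ⟨i, -, rfl⟩ := hζ.eq_pow_of_pow_eq_one hμ
  rw [map_pow, ← ha, ← pow_mul, ← pow_mul, mul_comm]

end roots

section piece

variable {q : ℕ} {X : Type} [AddCommGroup X] [DistribMulAction GQ X] [Finite X]

theorem nsmul_eq_zero_of_card (hcard : Nat.card X = q) (x : X) : q • x = 0 :=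
  hcard ▸ card_nsmul_eq_zero'

/-- A cyclotomic piece embeds equivariantly in `μ_q`. -/
theorem exists_iota (hq : q.Prime) (hcard : Nat.card X = q)
    (hω : ∀ (σ : GQ) (a : ℕ), ActsOnRoots q σ a → ∀ x : X, σ • x = a • x) :
    ∃ ι : X →+ Additive Qbˣ, Function.Injective ι ∧
      (∀ (σ : GQ) (x : X), ι (σ • x) = unitsHom σ (ι x)) ∧
      (∀ μ : Qb, μ ^ q = 1 → ∃ x, (((ι x).toMul : Qbˣ) : Qb) = μ) := by
  have : Fact q.Prime := ⟨hq⟩
  have : NeZero q := ⟨hq.ne_zero⟩
  obtain ⟨ζ, hζ⟩ := HasEnoughRootsOfUnity.exists_primitiveRoot Qb q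
  set u : Qbˣ := hζ.isUnit hq.ne_zero |>.unit with hu
  have huv : (u : Qb) = ζ := rfl
  have hu' : IsPrimitiveRoot u q := IsPrimitiveRoot.coe_units_iff.1 (huv ▸ hζ)
  obtain ⟨e⟩ : Nonempty (X ≃+ ZMod q) :=
    ⟨(zmodAddCyclicAddEquiv (isAddCyclic_of_prime_card hcard)).symm.trans
      (ZMod.ringEquivCongr hcard).toAddEquiv⟩
  let j : ZMod q →+ Additive Qbˣ :=
    ZMod.lift q ⟨(zmultiplesHom (Additive Qbˣ)) (Additive.ofMul u), by
      rw [zmultiplesHom_apply, natCast_zsmul, ← ofMul_pow, hu'.pow_eq_one, ofMul_one]⟩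
  have hjval : ∀ n : ℕ, (((j n).toMul : Qbˣ) : Qb) = ζ ^ n := fun n => by
    have : j ((n : ℤ) : ZMod q) = (n : ℤ) • Additive.ofMul u := ZMod.lift_coe _ _ _
    rw [Int.cast_natCast, natCast_zsmul, ← ofMul_pow] at this
    rw [this, toMul_ofMul, Units.val_pow_eq_pow_val, huv]
  have hj : ∀ z : ZMod q, (((j z).toMul : Qbˣ) : Qb) = ζ ^ z.val := fun z => by
    conv_lhs => rw [← ZMod.natCast_zmod_val z]
    exact hjval _
  refine ⟨j.comp e.toAddMonoidHom, fun x y h => e.injective ?_, fun σ x => ?_, fun μ hμ => ?_⟩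
  · have h' := congrArg (fun z : Additive Qbˣ => ((z.toMul : Qbˣ) : Qb)) h
    simp only [AddMonoidHom.coe_comp, Function.comp_apply, AddEquiv.coe_toAddMonoidHom, hj] at h'
    exact ZMod.val_injective q (hζ.pow_inj (ZMod.val_lt _) (ZMod.val_lt _) h')
  · obtain ⟨a, ha⟩ := exists_actsOnRoots_prime hq σ
    apply Additive.toMul.injective
    apply Units.ext
    rw [hω σ a ha x, map_nsmul, toMul_nsmul, Units.val_pow_eq_pow_val]
    show _ = σ _
    rw [ha]
    simp only [AddMonoidHom.coe_comp, Function.comp_apply, AddEquiv.coe_toAddMonoidHom, hj]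
    rw [← pow_mul, mul_comm, pow_mul, hζ.pow_eq_one, one_pow]
  · obtain ⟨i, hi, rfl⟩ := hζ.eq_pow_of_pow_eq_one hμ
    refine ⟨e.symm (i : ZMod q), ?_⟩
    simp only [AddMonoidHom.coe_comp, Function.comp_apply, AddEquiv.coe_toAddMonoidHom,
      AddEquiv.apply_symm_apply, hjval]

theorem smul_eq_of_inertia_of_piece (hq : q.Prime) (hX : IsPiece X q) {ℓ : ℕ} (hℓ : ℓ.Prime)
    (hℓq : ℓ ≠ q) {A : ValuationSubring Qb} (hA : A.LiesOverPrime ℓ) {σ : GQ}
    (hσ : σ ∈ A.inertiaSubgroupIn ℚ) (x : X) : σ • x = x := by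
  rcases hX.2 with h | h
  · exact h σ x
  · rw [h σ 1 (fun μ hμ => by rw [pow_one]; exact inertia_fixes_rootOfUnity hq hℓ hℓq hA hσ hμ) x,
      one_nsmul]

/-- A cocycle on a piece which is a coboundary on inertia at one place over `p` vanishes on
inertia at every place over `p`. -/
theorem eq_zero_of_local_p {p : ℕ} (hp : p.Prime) (hq : q.Prime) (hpq : p ≠ q) (hX : IsPiece X q)
    {P : ValuationSubring Qb} (hP : P.LiesOverPrime p) {c : GQ → X} {m : X}
    (hc : ∀ σ τ : GQ, c (σ * τ) = c σ + σ • c τ)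
    (hloc : ∀ σ ∈ P.inertiaSubgroupIn ℚ, c σ = σ • m - m) {A : ValuationSubring Qb}
    (hA : A.LiesOverPrime p) {σ : GQ} (hσ : σ ∈ A.inertiaSubgroupIn ℚ) : c σ = 0 := by
  obtain ⟨g, hg⟩ := Galois.exists_smul_eq_of_liesOverPrime hp hA hP
  have hτ : g * σ * g⁻¹ ∈ P.inertiaSubgroupIn ℚ := hg ▸ conj_mem_inertia_smul hσ g
  have h0 : c (g * σ * g⁻¹) = 0 := by
    rw [hloc _ hτ, smul_eq_of_inertia_of_piece hq hX hp hpq hP hτ, sub_self]
  have h1 : c ((g * σ * g⁻¹) * g) = c (g * σ) := by rw [inv_mul_cancel_right]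
  rw [hc, h0, zero_add, hc g σ, smul_eq_of_inertia_of_piece hq hX hp hpq hP hτ] at h1
  have h2 : g • c σ = 0 := left_eq_add.1 h1
  exact (smul_eq_zero_iff_eq g).1 h2

/-- The kernel of a smooth cocycle with trivial action is open. -/
theorem exists_hom_of_trivial (htriv : ∀ (σ : GQ) (x : X), σ • x = x) {c : GQ → X}
    (hc : ∀ σ τ : GQ, c (σ * τ) = c σ + σ • c τ)
    (hsmooth : ∃ U : Subgroup GQ, IsOpen (U : Set GQ) ∧ ∀ σ : GQ, ∀ u ∈ U, c (σ * u) = c σ) :
    ∃ f : GQ →* Multiplicative X, IsOpen (f.ker : Set GQ) ∧ ∀ σ, (f σ).toAdd = c σ := by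
  have hc1 : c 1 = 0 := by
    have := hc 1 1
    rw [one_mul, one_smul] at this
    exact left_eq_add.1 this
  let f : GQ →* Multiplicative X :=
    { toFun := fun σ => Multiplicative.ofAdd (c σ)
      map_one' := by rw [hc1, ofAdd_zero]
      map_mul' := fun σ τ => by rw [hc, htriv, ofAdd_add] }
  obtain ⟨U, hU, hcU⟩ := hsmooth
  refine ⟨f, Subgroup.isOpen_mono (fun u hu => MonoidHom.mem_ker.2 ?_) hU, fun σ => rfl⟩
  show Multiplicative.ofAdd (c u) = 1
  rw [← one_mul u, hcU 1 u hu, hc1, ofAdd_zero]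

/-- The point `(0, 1)` of a Kummer extension is translated by `(c σ, 0)`. -/
theorem kummerAct_point {n : ℕ} (hn : 1 < n) (c : GQ → X) (σ : GQ) :
    kummerAct n c σ (0, 1) = ((0, 1) : X × ZMod n) + (c σ, 0) := by
  have : Fact (1 < n) := ⟨hn⟩
  simp [kummerAct, ZMod.val_one]

theorem kummerAct_fst_point (n : ℕ) (c : GQ → X) (σ : GQ) (x : X) :
    kummerAct n c σ (x, 0) = ((σ • x, 0) : X × ZMod n) := by
  simp [kummerAct]

/-- With trivial action and `q` odd, a Selmer cocycle vanishes. -/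
theorem selmer_eq_zero_of_trivial {p n : ℕ} (hp : p.Prime) (hq : q.Prime) (hq2 : q ≠ 2)
    (hpq : p ≠ q) (hn : 1 < n) (hX : IsPiece X q) (htriv : ∀ (σ : GQ) (x : X), σ • x = x)
    {P : ValuationSubring Qb} (hP : P.LiesOverPrime p) {c : GQ → X} {m m' : X}
    (h : IsSelmerTriple p q n P c m m') : c = 0 := by
  have : NeZero n := ⟨by omega⟩
  obtain ⟨f, hopen, hf⟩ := exists_hom_of_trivial htriv h.cocycle h.smooth
  obtain ⟨O⟩ := h.flat.exists_order
  have hall := Reducible.eq_one_of_unramified f hopen fun ℓ hℓ A hA σ hσ => by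
    rw [← toAdd_eq_zero, hf]
    rcases eq_or_ne ℓ q with rfl | hℓq
    · have ht : ℓ • ((c σ, 0) : X × ZMod n) = 0 := by
        rw [Prod.smul_mk, nsmul_eq_zero_of_card hX.1, smul_zero, Prod.mk_zero_zero]
      have := translation_eq_zero_of_rational O hℓ hq2 hA hσ ht (kummerAct_point hn c σ)
        (fun τ => by rw [kummerAct_fst_point, htriv]) (fun τ => by simp [kummerAct])
      exact congrArg Prod.fst this
    · rcases eq_or_ne ℓ p with rfl | hℓp
      · exact eq_zero_of_local_p hℓ hq hpq hX hP h.cocycle h.local_p hA hσ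
      · exact h.unramified ℓ hℓ hℓp hℓq A hA σ hσ
  funext σ
  rw [← hf, hall σ, toAdd_one, Pi.zero_apply]

/-- With values in `μ_q`, a Selmer cocycle is the Kummer cocycle of `± s ^ q`. -/
theorem exists_root_of_selmer {p n : ℕ} (hp : p.Prime) (hq : q.Prime) (hpq : p ≠ q) (hn : 1 < n)
    (hX : IsPiece X q) {ι : X →+ Additive Qbˣ} (hinj : Function.Injective ι)
    (heq : ∀ (σ : GQ) (x : X), ι (σ • x) = unitsHom σ (ι x))
    {P : ValuationSubring Qb} (hP : P.LiesOverPrime p) {c : GQ → X} {m m' : X}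
    (h : IsSelmerTriple p q n P c m m') :
    ∃ (r : Qbˣ) (s : ℚ), s ≠ 0 ∧ ((r : Qb) ^ q = (s : Qb) ^ q ∨ (r : Qb) ^ q = -(s : Qb) ^ q) ∧
      ∀ σ : GQ, σ (r : Qb) = (((ι (c σ)).toMul : Qbˣ) : Qb) * r := by
  have : NeZero n := ⟨by omega⟩
  set F : GQ → Qbˣ := fun σ => (ι (c σ)).toMul with hF
  obtain ⟨U, hU, hcU⟩ := h.smooth
  obtain ⟨r, hr⟩ := exists_apply_eq_mul_of_cocycle F (fun σ τ => by
      simp only [hF]
      rw [h.cocycle, map_add, heq, toMul_add, Units.val_mul]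
      rfl) U hU (fun σ u hu => by simp only [hF, hcU σ u hu])
  have hroot : ∀ σ, ((F σ : Qbˣ) : Qb) ^ q = 1 := fun σ => by
    rw [← Units.val_pow_eq_pow_val, hF]
    show (((ι (c σ)).toMul ^ q : Qbˣ) : Qb) = 1
    rw [← toMul_nsmul, ← map_nsmul, nsmul_eq_zero_of_card hX.1, map_zero, toMul_zero,
      Units.val_one]
  obtain ⟨a, ha⟩ : ∃ a : ℚ, algebraMap ℚ Qb a = (r : Qb) ^ q :=
    (InfiniteGalois.mem_range_algebraMap_iff_fixed _).2 fun τ => by
      rw [map_pow, hr, mul_pow, hroot, one_mul]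
  rw [eq_ratCast] at ha
  have ha0 : a ≠ 0 := fun h0 => by
    rw [h0, Rat.cast_zero] at ha
    exact r.ne_zero (eq_zero_of_pow_eq_zero ha.symm)
  have hfix : ∀ τ : GQ, τ (r : Qb) = r → c τ = 0 := fun τ hτ => by
    have h1 : ((F τ : Qbˣ) : Qb) = 1 := by
      rw [hr τ] at hτ
      exact (mul_eq_right₀ r.ne_zero).1 hτ
    refine hinj ?_
    rw [map_zero]
    exact Additive.toMul.injective (Units.ext h1)
  have hdvd : ∀ ℓ : ℕ, ℓ.Prime → (q : ℤ) ∣ padicValRat ℓ a := by
    intro ℓ hℓ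
    by_contra hd
    obtain ⟨A, hA⟩ := Galois.exists_liesOverPrime hℓ
    obtain ⟨σ, hσI, hσr⟩ := Mult.exists_inertia_apply_ne hℓ hA hq.ne_zero ha0 ha.symm hd
    refine hσr ?_
    suffices hc : c σ = 0 by
      rw [hr σ, hF]
      simp [hc]
    rcases eq_or_ne ℓ q with rfl | hℓq
    · obtain ⟨O⟩ := h.flat.exists_order
      have := translation_eq_zero_of_radical O hℓ hA ha0 ha.symm hd
        (t := ((c σ, 0) : X × ZMod n))
        (by rw [Prod.smul_mk, nsmul_eq_zero_of_card hX.1, smul_zero, Prod.mk_zero_zero])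
        (kummerAct_point hn c σ) (fun τ hτ => by
          rw [kummerAct_point hn c τ, hfix τ hτ, Prod.mk_zero_zero, add_zero])
      exact congrArg Prod.fst this
    · rcases eq_or_ne ℓ p with rfl | hℓp
      · exact eq_zero_of_local_p hℓ hq hpq hX hP h.cocycle h.local_p hA hσI
      · exact h.unramified ℓ hℓ hℓp hℓq A hA σ hσI
  obtain ⟨s, hs0, hs⟩ := exists_pow_eq_or_eq_neg ha0 hq.ne_zero hdvd
  refine ⟨r, s, hs0, ?_, hr⟩
  rcases hs with rfl | rfl
  · left; rw [← ha]; push_cast; rfl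
  · right; rw [← ha]; push_cast; rfl

theorem complexEmbedding_ratCast (s : ℚ) : complexEmbedding (s : Qb) = (s : ℂ) :=
  map_ratCast complexEmbedding s

/-- Complex conjugation moves every square root of a negative rational number. -/
theorem conj_ne_of_sq_neg {x : Qb} {s : ℚ} (hs : s ≠ 0) (hx : x ^ 2 = -(s : Qb) ^ 2) :
    complexConjugation x ≠ x := by
  intro h
  have h1 : starRingEnd ℂ (complexEmbedding x) = complexEmbedding x := by
    rw [← complexEmbedding_complexConjugation, h]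
  obtain ⟨t, ht⟩ := Complex.conj_eq_iff_real.1 h1
  have h2 := congrArg complexEmbedding hx
  rw [map_pow, map_neg, map_pow, ht, complexEmbedding_ratCast] at h2
  have h3 : t ^ 2 = -(s : ℝ) ^ 2 := by exact_mod_cast h2
  have : (0 : ℝ) < (s : ℝ) ^ 2 := by positivity
  nlinarith [sq_nonneg t]

/-- For `q = 2` a Selmer cocycle on a piece vanishes. -/
theorem selmer_eq_zero_of_two {p n : ℕ} (hp : p.Prime) (hpq : p ≠ 2) (hn : 1 < n)
    (hX : IsPiece X 2) {P : ValuationSubring Qb} (hP : P.LiesOverPrime p) {c : GQ → X} {m m' : X}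
    (h : IsSelmerTriple p 2 n P c m m') : c = 0 := by
  have htriv : ∀ (σ : GQ) (x : X), σ • x = x := by
    intro σ x
    rcases hX.2 with hh | hh
    · exact hh σ x
    · rw [hh σ 1 (fun μ hμ => ?_) x, one_nsmul]
      rw [pow_one]
      rcases sq_eq_one_iff.1 hμ with rfl | rfl <;> simp
  obtain ⟨ι, hinj, heq, -⟩ := exists_iota Nat.prime_two hX.1 fun σ a ha x => by
    rw [htriv]
    have h1 := ha (-1) (by norm_num)
    simp only [map_neg, map_one] at h1
    rcases Nat.even_or_odd a with he | ho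
    · rw [he.neg_one_pow] at h1; norm_num at h1
    · obtain ⟨k, rfl⟩ := ho
      rw [add_smul, mul_smul, nsmul_eq_zero_of_card hX.1, zero_add, one_nsmul]
  obtain ⟨r, s, hs0, hrs, hr⟩ := exists_root_of_selmer hp Nat.prime_two hpq hn hX hinj heq hP h
  have hcc : c complexConjugation = 0 := by rw [h.local_inf, htriv, sub_self]
  have hfixed : complexConjugation (r : Qb) = r := by
    rw [hr, hcc, map_zero, toMul_zero, Units.val_one, one_mul]
  rcases hrs with h2 | h2
  · funext σ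
    refine hinj ?_
    rw [Pi.zero_apply, map_zero]
    refine Additive.toMul.injective (Units.ext ?_)
    have hσ : σ (r : Qb) = r := by
      rcases sq_eq_sq_iff_eq_or_eq_neg.1 h2 with e | e <;> rw [e] <;> simp
    rw [hr σ] at hσ
    simpa using (mul_eq_right₀ r.ne_zero).1 hσ
  · exact absurd hfixed (conj_ne_of_sq_neg hs0 h2)

/-- On a cyclotomic piece, `q` odd, complex conjugation fixes only zero. -/
theorem eq_zero_of_conj_fixed_of_omega (hq : q.Prime) (hq2 : q ≠ 2) (hX : IsPiece X q)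
    (hω : ∀ (σ : GQ) (a : ℕ), ActsOnRoots q σ a → ∀ x : X, σ • x = a • x) {x : X}
    (hinf : complexConjugation • x = x) : x = 0 := by
  obtain ⟨ι, hinj, heq, -⟩ := exists_iota hq hX.1 hω
  set μ : Qb := (((ι (x)).toMul : Qbˣ) : Qb) with hμ
  have hμq : μ ^ q = 1 := by
    rw [hμ, ← Units.val_pow_eq_pow_val, ← toMul_nsmul, ← map_nsmul, nsmul_eq_zero_of_card hX.1,
      map_zero, toMul_zero, Units.val_one]
  have hfix : complexConjugation μ = μ := by
    have := congrArg (fun z => (((ι z).toMul : Qbˣ) : Qb)) hinf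
    simp only [heq] at this
    exact this
  have h1 : starRingEnd ℂ (complexEmbedding μ) = complexEmbedding μ := by
    rw [← complexEmbedding_complexConjugation, hfix]
  obtain ⟨t, ht⟩ := Complex.conj_eq_iff_real.1 h1
  have h2 : (t : ℂ) ^ q = 1 := by rw [← ht, ← map_pow, hμq, map_one]
  have h3 : t ^ q = 1 := by exact_mod_cast h2
  have h4 : t = 1 := (hq.odd_of_ne_two hq2).strictMono_pow.injective (by simpa using h3)
  refine hinj ?_
  rw [map_zero]
  refine Additive.toMul.injective (Units.ext ?_)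
  show μ = 1
  have h5 : complexEmbedding μ = complexEmbedding 1 := by rw [ht, h4, Complex.ofReal_one, map_one]
  exact complexEmbedding.toRingHom.injective h5

/-- For a cyclotomic piece and `q` odd a Selmer cocycle is a coboundary, and its archimedean
component is determined by it. -/
theorem selmer_eq_coboundary_of_omega {p n : ℕ} (hp : p.Prime) (hq : q.Prime) (hq2 : q ≠ 2)
    (hpq : p ≠ q) (hn : 1 < n) (hX : IsPiece X q)
    (hω : ∀ (σ : GQ) (a : ℕ), ActsOnRoots q σ a → ∀ x : X, σ • x = a • x)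
    {P : ValuationSubring Qb} (hP : P.LiesOverPrime p) {c : GQ → X} {m m' : X}
    (h : IsSelmerTriple p q n P c m m') : ∀ σ, c σ = σ • m' - m' := by
  obtain ⟨ι, hinj, heq, hsurj⟩ := exists_iota hq hX.1 hω
  obtain ⟨r, s, hs0, hrs, hr⟩ := exists_root_of_selmer hp hq hpq hn hX hinj heq hP h
  obtain ⟨s', hs', hrs'⟩ : ∃ s' : ℚ, s' ≠ 0 ∧ (r : Qb) ^ q = (s' : Qb) ^ q := by
    rcases hrs with h1 | h1
    · exact ⟨s, hs0, h1⟩
    · exact ⟨-s, neg_ne_zero.2 hs0, by rw [h1, Rat.cast_neg, (hq.odd_of_ne_two hq2).neg_pow]⟩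
  have hs'0 : (s' : Qb) ≠ 0 := Rat.cast_ne_zero.2 hs'
  obtain ⟨v, hv⟩ := hsurj ((r : Qb) / s') (by rw [div_pow, hrs', div_self (pow_ne_zero _ hs'0)])
  have hcob : ∀ σ, c σ = σ • v - v := by
    intro σ
    refine hinj (Additive.toMul.injective (Units.ext ?_))
    rw [map_sub, heq, toMul_sub, Units.val_div_eq_div_val]
    show _ = σ (((ι v).toMul : Qbˣ) : Qb) / _
    rw [hv, map_div₀, map_ratCast, hr, div_div_div_cancel_right₀ hs'0,
      mul_div_assoc, div_self r.ne_zero, mul_one]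
  have hinf : complexConjugation • (m' - v) = m' - v := by
    have := h.local_inf
    rw [hcob complexConjugation] at this
    rw [smul_sub]
    linear_combination (norm := abel) -(1 : ℤ) • this
  rw [sub_eq_zero.1 (eq_zero_of_conj_fixed_of_omega hq hq2 hX hω hinf)]
  exact hcob

end piece

end Fermat.Agent.Mazur

end
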