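/-
Mazur's Eisenstein descent: the two local-global facts on pieces of order `q`.
-/
import Fermat.Agent.Mazur.PieceKummer
import Mathlib.GroupTheory.Index

set_option autoImplicit false

noncomputable section

namespace Fermat.Agent.Mazur

local notation "ℚbar" => AlgebraicClosure ℚ
local notation "Γℚ" => AlgebraicClosure ℚ ≃ₐ[ℚ] AlgebraicClosure ℚ

/-- A finite flat model bounds ramification: if `σ` moves the point `x` by a point of order `q`,
some integral element fixed by the stabiliser of `x` is moved by a lot. -/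
theorem exists_large_sub {q : ℕ} (hq : q.Prime) {X : Type} [AddCommGroup X] [Finite X]
    {act : Γℚ → X → X} (hX : FlatModel.HasFlatModel q X act)
    {A : ValuationSubring ℚbar} (hA : A.LiesOverPrime q) (x : X) (σ : Γℚ)
    (hne : act σ x ≠ x) (hord : q • (act σ x - x) = 0) :
    ∃ a : ℚbar, a ∈ A ∧ (∀ τ : Γℚ, act τ x = x → τ a = a) ∧
      A.valuation ((q : ℕ) : ℚbar) ≤ A.valuation (σ a - a) ^ (q - 1) := by
  obtain ⟨O⟩ := hX.exists_order
  by_contra hcon
  push Not at hcon
  exact hne (sub_eq_zero.1 (translation_eq_zero_of_moved O hq hA hord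
    (add_sub_cancel x (act σ x)).symm hcon))

/-- The number of Selmer triples of a piece of order `q` is at most `q ^ 2`. -/
theorem natCard_selmerTriples_piece {p q r : ℕ} (hp : p.Prime) (hq : q.Prime) (hpq : p ≠ q)
    (hr : 1 ≤ r) {P : ValuationSubring ℚbar} (hP : P.LiesOverPrime p)
    {X : Type} [AddCommGroup X] [DistribMulAction Γℚ X] [Finite X] (hX : IsPiece X q) :
    (selmerTriples X p q (q ^ r) P).Finite ∧
      (selmerTriples X p q (q ^ r) P).ncard ≤ q ^ 2 := by
  have hn : 1 < q ^ r := Nat.one_lt_pow (by omega) hq.one_lt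
  -- the cocycle of a triple is determined by its archimedean component
  obtain ⟨g, hg⟩ : ∃ g : X → Γℚ → X,
      ∀ c m m', IsSelmerTriple p q (q ^ r) P c m m' → c = g m' := by
    rcases eq_or_ne q 2 with rfl | hq2
    · exact ⟨fun _ => 0, fun c m m' h => selmer_eq_zero_of_two hp hpq hn hX hP h⟩
    rcases hX.2 with htriv | hω
    · exact ⟨fun _ => 0, fun c m m' h =>
        selmer_eq_zero_of_trivial hp hq hq2 hpq hn hX htriv hP h⟩
    · exact ⟨fun m' σ => σ • m' - m', fun c m m' h =>
        funext (selmer_eq_coboundary_of_omega hp hq hq2 hpq hn hX hω hP h)⟩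
  have hsub : selmerTriples X p q (q ^ r) P ⊆
      Set.range fun z : X × X => (g z.2, z.1, z.2) := by
    rintro ⟨c, m, m'⟩ hz
    exact ⟨(m, m'), by rw [hg c m m' hz]⟩
  refine ⟨(Set.finite_range _).subset hsub, ?_⟩
  refine (Set.ncard_le_ncard hsub (Set.finite_range _)).trans (le_of_eq ?_)
  rw [Set.ncard_range_of_injective (fun a b h => congrArg Prod.snd h), Nat.card_prod, hX.1, sq]

end Fermat.Agent.Mazur

end
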