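/-
Mazur's Eisenstein descent: the number of Selmer triples of an Eisenstein module (left exactness +
pieces).
-/
import Fermat.Agent.Mazur.PieceMain
import Fermat.Agent.Mazur.PieceCount

set_option autoImplicit false

noncomputable section

namespace Fermat.Agent.Mazur

local notation "ℚbar" => AlgebraicClosure ℚ
local notation "Γℚ" => AlgebraicClosure ℚ ≃ₐ[ℚ] AlgebraicClosure ℚ

/-- An Eisenstein module killed by `q ^ r` has at most `#M ^ 2` Selmer triples. -/
theorem natCard_selmerTriples_le {p q r : ℕ} (hp : p.Prime) (hq : q.Prime) (hpq : p ≠ q)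
    (hr : 1 ≤ r) {P : ValuationSubring ℚbar} (hP : P.LiesOverPrime p)
    {M : Type} [AddCommGroup M] [DistribMulAction Γℚ M] [Finite M]
    (hkill : ∀ x : M, q ^ r • x = 0) (hM : IsEisensteinModule M q) :
    (selmerTriples M p q (q ^ r) P).Finite ∧
      (selmerTriples M p q (q ^ r) P).ncard ≤ Nat.card M ^ 2 := by
  haveI : NeZero (q ^ r) := ⟨pow_ne_zero _ hq.ne_zero⟩
  suffices key : ∀ (k : ℕ) (M : Type) (_ : AddCommGroup M) (_ : DistribMulAction Γℚ M)
      (_ : Finite M), Nat.card M ≤ k → IsEisensteinModule M q →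
      (selmerTriples M p q (q ^ r) P).Finite ∧
        (selmerTriples M p q (q ^ r) P).ncard ≤ Nat.card M ^ 2 from
    key _ M inferInstance inferInstance inferInstance le_rfl hM
  intro k
  induction k with
  | zero =>
    intro M _ _ _ hk
    exact absurd hk (Nat.not_le.2 Nat.card_pos)
  | succ k ih =>
    intro M _ _ _ hk hM
    by_cases htriv : (⊥ : AddSubgroup M) = ⊤
    · have hsub : ∀ z : M, z = 0 := fun z =>
        AddSubgroup.mem_bot.1 (htriv ▸ AddSubgroup.mem_top z)
      haveI : Subsingleton M := ⟨fun a b => by rw [hsub a, hsub b]⟩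
      haveI : Subsingleton ((Γℚ → M) × M × M) := inferInstance
      exact ⟨Set.toFinite _, (Set.ncard_le_one_of_subsingleton _).trans
        (Nat.one_le_pow _ _ Nat.card_pos)⟩
    obtain ⟨H, hHs, -, hidx, hact⟩ := hM ⊥ (fun σ x hx => by
      rw [AddSubgroup.mem_bot] at hx ⊢
      rw [hx, smul_zero]) htriv
    rw [AddSubgroup.relIndex_bot_left] at hidx
    letI := subAction H hHs
    letI := quotAction H hHs
    have hpiece : IsPiece H q := by
      refine ⟨hidx, ?_⟩
      rcases hact with ha | ha
      · left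
        intro σ x
        exact Subtype.ext (sub_eq_zero.1 (AddSubgroup.mem_bot.1 (ha σ x x.2)))
      · right
        intro σ a hσ x
        exact Subtype.ext (sub_eq_zero.1 (AddSubgroup.mem_bot.1 (ha σ a hσ x x.2)))
    obtain ⟨hf1, hc1⟩ := natCard_selmerTriples_piece (r := r) hp hq hpq hr hP hpiece
    have hcardM : Nat.card M = Nat.card (M ⧸ H) * Nat.card H :=
      AddSubgroup.card_eq_card_quotient_mul_card_addSubgroup H
    have hle : Nat.card (M ⧸ H) ≤ k := by
      have h2 : 1 < Nat.card H := by rw [hidx]; exact hq.one_lt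
      have h3 : 0 < Nat.card (M ⧸ H) := Nat.card_pos
      nlinarith
    obtain ⟨hf2, hc2⟩ := ih (M ⧸ H) inferInstance inferInstance inferInstance hle
      (isEisensteinModule_quot hM H hHs)
    obtain ⟨hf, hc⟩ := card_selmerTriples_le_mul (M := M) H.subtype (QuotientAddGroup.mk' H)
      Subtype.val_injective (fun σ x => rfl) (fun σ x => (quotSMul_mk H hHs σ x).symm)
      (QuotientAddGroup.mk'_surjective H)
      (by rw [QuotientAddGroup.ker_mk', AddSubgroup.range_subtype]) hf1 hf2
    refine ⟨hf, hc.trans ((Nat.mul_le_mul hc1 hc2).trans (le_of_eq ?_))⟩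
    rw [hcardM, hidx]
    ring

end Fermat.Agent.Mazur

end
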