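/-
Mazur's Eisenstein descent: the Cartier dual of a finite flat model.
-/
import Fermat.Agent.Mazur.DescentDual
import Fermat.Agent.Flat.HopfToolkit

set_option autoImplicit false

noncomputable section

namespace Fermat.Agent.Mazur

open FlatModel

local notation "ℚbar" => AlgebraicClosure ℚ
local notation "Γℚ" => AlgebraicClosure ℚ ≃ₐ[ℚ] AlgebraicClosure ℚ
local notation "R[" q "]" => GaloisRep.ratLocalizedAt q

variable {M : Type} [AddCommGroup M]

/-- A character as a function with values in `ℚ̄`. -/
def CartierDual.val (χ : CartierDual M) : M → ℚbar := fun x =>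
  ((Additive.toMul (χ.toHom x) : (ℚbar)ˣ) : ℚbar)

theorem CartierDual.val_zero (χ : CartierDual M) : χ.val 0 = 1 := by
  simp [CartierDual.val]

theorem CartierDual.val_map_add (χ : CartierDual M) (x y : M) :
    χ.val (x + y) = χ.val x * χ.val y := by
  simp [CartierDual.val]

theorem CartierDual.val_add (χ ψ : CartierDual M) : (χ + ψ).val = χ.val * ψ.val := by
  funext x
  show ((Additive.toMul (χ.toHom x + ψ.toHom x) : (ℚbar)ˣ) : ℚbar) = _
  simp [CartierDual.val]

theorem CartierDual.val_injective : Function.Injective (CartierDual.val (M := M)) :=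
  fun χ ψ h => CartierDual.ext fun x => by
    apply Additive.toMul.injective
    exact Units.ext (congrFun h x)

theorem CartierDual.val_smul [DistribMulAction Γℚ M] (σ : Γℚ) (χ : CartierDual M) (x : M) :
    (σ • χ).val x = σ (χ.val (σ⁻¹ • x)) := by
  show ((Additive.toMul ((σ • χ).toHom x) : (ℚbar)ˣ) : ℚbar) = _
  rw [CartierDual.smul_apply]
  rfl

variable {q : ℕ} [Fact q.Prime] [Finite M] [DistribMulAction Γℚ M]

omit [Finite M] in
/-- The value at the origin of an element of an order lies in the base ring. -/
theorem exists_algebraMap_eq_apply_zero (O : HopfOrder q M fun σ x => σ • x) (h : O.alg) :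
    ∃ r : R[q], algebraMap R[q] ℚbar r = (h : M → ℚbar) 0 := by
  have := ratLocalizedAt_isPrincipal q
  have := ratLocalizedAt_isFractionRing q
  have : IsScalarTower R[q] ℚ ℚbar := IsScalarTower.of_algebraMap_eq fun _ => rfl
  have hfin := O.finite
  obtain ⟨a, ha⟩ : (h : M → ℚbar) 0 ∈ Set.range (algebraMap ℚ ℚbar) := by
    rw [InfiniteGalois.mem_range_algebraMap_iff_fixed]
    intro σ
    have := O.equivariant h h.2 σ 0
    simpa using this.symm
  have hint : IsIntegral R[q] ((h : M → ℚbar) 0) :=
    IsIntegral.map ((Pi.evalAlgHom _ (fun _ : M => ℚbar) 0).comp O.alg.val)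
      (Algebra.IsIntegral.isIntegral (R := R[q]) h)
  rw [← ha, isIntegral_algebraMap_iff (algebraMap ℚ ℚbar).injective] at hint
  obtain ⟨r, hr⟩ := IsIntegrallyClosed.isIntegral_iff.mp hint
  exact ⟨r, by rw [← ha, ← hr]; exact (IsScalarTower.algebraMap_apply R[q] ℚ ℚbar r)⟩

/-- The Cartier dual of a finite flat model. -/
theorem hasFlatModel_cartierDual_aux (hM : HasFlatModel q M fun σ x => σ • x) :
    HasFlatModel q (CartierDual M) fun σ χ => σ • χ := by
  classical
  cases nonempty_fintype M
  have : IsScalarTower R[q] ℚ ℚbar := IsScalarTower.of_algebraMap_eq fun _ => rfl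
  obtain ⟨O⟩ := hM.exists_order
  obtain ⟨n, b, B, hB⟩ := exists_basis O.alg O.finite O.equivariant O.separates
  set f : Fin n → M → ℚbar := fun i => (b i : M → ℚbar) with hf
  -- coordinates of characters
  set c : Fin n → CartierDual M → ℚbar := fun i χ => B.repr χ.val i with hc
  have hrep : ∀ (χ : CartierDual M) x, χ.val x = ∑ i, c i χ * f i x := by
    intro χ x
    conv_lhs => rw [← B.sum_repr χ.val]
    simp only [Finset.sum_apply, Pi.smul_apply, smul_eq_mul, hB, hc, hf]
  have huniq : ∀ (χ : CartierDual M) (d : Fin n → ℚbar),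
      (∀ x, χ.val x = ∑ i, d i * f i x) → ∀ i, c i χ = d i := by
    intro χ d hd i
    have h : χ.val = ∑ j, d j • B j := by
      funext x
      rw [hd x, Finset.sum_apply]
      simp only [Pi.smul_apply, smul_eq_mul, hB, hf]
    show B.repr χ.val i = d i
    rw [h, B.repr_sum_self]
  have hmap : ∀ (r : R[q]) (g : O.alg) (x : M),
      ((r • g : O.alg) : M → ℚbar) x = algebraMap R[q] ℚbar r * (g : M → ℚbar) x := fun r g x => by
    rw [SetLike.val_smul, Pi.smul_apply, Algebra.smul_def]
  have hexp : ∀ (g : O.alg) (x : M),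
      (g : M → ℚbar) x = ∑ i, algebraMap R[q] ℚbar (b.repr g i) * f i x := by
    intro g x
    conv_lhs => rw [← b.sum_repr g]
    rw [AddSubmonoidClass.coe_finsetSum, Finset.sum_apply]
    exact Finset.sum_congr rfl fun i _ => hmap _ _ x
  -- the comultiplication constants
  have hμ : ∀ k, ∃ μ : Fin n → Fin n → R[q],
      ∀ x y, f k (x + y) = ∑ i, ∑ j, algebraMap R[q] ℚbar (μ i j) * (f i x * f j y) := by
    intro k
    obtain ⟨m, a, a', ha⟩ := exists_sum_of_mem_boxAlg (O.comul_mem _ (b k).2)
    refine ⟨fun i j => ∑ l, b.repr (a l) i * b.repr (a' l) j, fun x y => ?_⟩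
    rw [show f k (x + y) = ∑ l, (a l : M → ℚbar) x * (a' l : M → ℚbar) y from ha x y]
    simp only [map_sum, map_mul, Finset.sum_mul, hexp (a _) x, hexp (a' _) y, Finset.mul_sum]
    rw [Finset.sum_comm]
    conv_rhs => rw [Finset.sum_comm]
    refine Finset.sum_congr rfl fun i _ => ?_
    rw [Finset.sum_comm]
    refine Finset.sum_congr rfl fun j _ => ?_
    exact Finset.sum_congr rfl fun l _ => by ring
  choose μ hμ using hμ
  have hind : LinearIndependent ℚbar
      (fun (p : Fin n × Fin n) (z : M × M) => f p.1 z.1 * f p.2 z.2) := by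
    have hli : LinearIndependent ℚbar f := by
      have := B.linearIndependent
      rwa [show (⇑B : Fin n → M → ℚbar) = f from funext hB] at this
    exact linearIndependent_mul_pairs hli hli
  set S : Submodule R[q] (CartierDual M → ℚbar) := Submodule.span R[q] (Set.range c) with hS
  have hmem : ∀ d : Fin n → R[q], (fun χ => ∑ k, algebraMap R[q] ℚbar (d k) * c k χ) ∈ S := by
    intro d
    have h : (fun χ => ∑ k, algebraMap R[q] ℚbar (d k) * c k χ) = ∑ k, d k • c k := by
      funext χ
      rw [Finset.sum_apply]
      exact Finset.sum_congr rfl fun k _ => by rw [Pi.smul_apply, Algebra.smul_def]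
    rw [h]
    exact Submodule.sum_mem _ fun k _ => Submodule.smul_mem _ _ (Submodule.subset_span ⟨k, rfl⟩)
  have hone : (1 : CartierDual M → ℚbar) ∈ S := by
    choose e he using fun i => exists_algebraMap_eq_apply_zero O (b i)
    have h : (1 : CartierDual M → ℚbar) = fun χ => ∑ k, algebraMap R[q] ℚbar (e k) * c k χ := by
      funext χ
      have h0 := hrep χ 0
      rw [χ.val_zero] at h0
      rw [Pi.one_apply, h0]
      exact Finset.sum_congr rfl fun k _ => by rw [he k, mul_comm]
    rw [h]
    exact hmem e
  have hprod : ∀ i j, c i * c j ∈ S := by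
    intro i j
    have h : c i * c j = fun χ => ∑ k, algebraMap R[q] ℚbar (μ k i j) * c k χ := by
      funext χ
      have key : ∑ p : Fin n × Fin n,
          (c p.1 χ * c p.2 χ - ∑ k, algebraMap R[q] ℚbar (μ k p.1 p.2) * c k χ) •
            (fun z : M × M => f p.1 z.1 * f p.2 z.2) = 0 := by
        funext z
        rw [Finset.sum_apply, Fintype.sum_prod_type]
        simp only [Pi.smul_apply, smul_eq_mul, sub_mul, Finset.sum_sub_distrib, Pi.zero_apply,
          sub_eq_zero]
        have h1 := χ.val_map_add z.1 z.2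
        rw [hrep χ (z.1 + z.2), hrep χ z.1, hrep χ z.2, Finset.sum_mul_sum] at h1
        simp only [hμ, Finset.mul_sum] at h1
        simp only [Finset.sum_mul]
        rw [Finset.sum_comm] at h1
        calc ∑ i, ∑ j, c i χ * c j χ * (f i z.1 * f j z.2)
            = ∑ i, ∑ j, c i χ * f i z.1 * (c j χ * f j z.2) :=
              Finset.sum_congr rfl fun i _ => Finset.sum_congr rfl fun j _ => by ring
          _ = _ := h1.symm
          _ = _ := Finset.sum_congr rfl fun i _ => by
            rw [Finset.sum_comm]
            exact Finset.sum_congr rfl fun j _ => Finset.sum_congr rfl fun k _ => by ring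
      exact sub_eq_zero.mp (Fintype.linearIndependent_iff.mp hind _ key (i, j))
    rw [h]
    exact hmem fun k => μ k i j
  have hmul : ∀ u v, u ∈ S → v ∈ S → u * v ∈ S := by
    intro u v hu hv
    induction hu using Submodule.span_induction with
    | mem x hx =>
      induction hv using Submodule.span_induction with
      | mem y hy =>
        obtain ⟨i, rfl⟩ := hx
        obtain ⟨j, rfl⟩ := hy
        exact hprod i j
      | zero => rw [mul_zero]; exact S.zero_mem
      | add a d _ _ ha hd => rw [mul_add]; exact S.add_mem ha hd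
      | smul r a _ ha => rw [mul_smul_comm]; exact S.smul_mem r ha
    | zero => rw [zero_mul]; exact S.zero_mem
    | add a d _ _ ha hd => rw [add_mul]; exact S.add_mem ha hd
    | smul r a _ ha => rw [smul_mul_assoc]; exact S.smul_mem r ha
  refine HopfOrder.hasFlatModel ⟨S.toSubalgebra hone hmul, ?_, ?_, ?_, ?_⟩
  · exact Module.Finite.iff_fg.mpr (Submodule.fg_span (Set.finite_range c))
  · intro h hh σ χ
    rw [Submodule.mem_toSubalgebra] at hh
    induction hh using Submodule.span_induction with
    | mem x hx =>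
      obtain ⟨i, rfl⟩ := hx
      refine huniq (σ • χ) (fun j => σ (c j χ)) (fun x => ?_) i
      rw [CartierDual.val_smul, hrep χ, map_sum]
      refine Finset.sum_congr rfl fun j _ => ?_
      rw [map_mul]
      congr 1
      show σ (f j (σ⁻¹ • x)) = f j x
      rw [← O.equivariant _ (b j).2 σ (σ⁻¹ • x), smul_inv_smul]
    | zero => simp
    | add a d _ _ ha hd => simp [ha, hd]
    | smul r a _ ha =>
      simp only [Pi.smul_apply, Algebra.smul_def, ha, map_mul]
      rw [IsScalarTower.algebraMap_apply R[q] ℚ ℚbar r, AlgEquiv.commutes]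
  · intro χ ψ h
    refine CartierDual.val_injective (funext fun x => ?_)
    rw [hrep χ x, hrep ψ x]
    refine Finset.sum_congr rfl fun i _ => ?_
    rw [h (c i) (Submodule.mem_toSubalgebra.mpr (Submodule.subset_span ⟨i, rfl⟩))]
  · intro h hh
    rw [Submodule.mem_toSubalgebra] at hh
    induction hh using Submodule.span_induction with
    | mem x hx =>
      obtain ⟨k, rfl⟩ := hx
      refine mem_boxAlg_of_sum Finset.univ
        (fun p : Fin n × Fin n => ⟨b.repr (b p.1 * b p.2) k • c p.1,
          Submodule.mem_toSubalgebra.mpr (S.smul_mem _ (Submodule.subset_span ⟨p.1, rfl⟩))⟩)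
        (fun p => ⟨c p.2, Submodule.mem_toSubalgebra.mpr (Submodule.subset_span ⟨p.2, rfl⟩)⟩)
        fun χ ψ => ?_
      refine huniq (χ + ψ) (fun l => ∑ p : Fin n × Fin n,
        (b.repr (b p.1 * b p.2) l • c p.1) χ * c p.2 ψ) (fun x => ?_) k
      rw [CartierDual.val_add, Pi.mul_apply, hrep χ, hrep ψ, Finset.sum_mul_sum,
        ← Fintype.sum_prod_type']
      simp only [Finset.sum_mul]
      rw [Finset.sum_comm (s := (Finset.univ : Finset (Fin n)))]
      refine Finset.sum_congr rfl fun p _ => ?_
      have h1 := hexp (b p.1 * b p.2) x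
      rw [MulMemClass.coe_mul, Pi.mul_apply] at h1
      calc c p.1 χ * f p.1 x * (c p.2 ψ * f p.2 x)
          = c p.1 χ * c p.2 ψ * (f p.1 x * f p.2 x) := by ring
        _ = c p.1 χ * c p.2 ψ * ∑ i, algebraMap R[q] ℚbar (b.repr (b p.1 * b p.2) i) * f i x := by
          rw [← h1]
        _ = _ := by
          rw [Finset.mul_sum]
          exact Finset.sum_congr rfl fun i _ => by
            simp only [Pi.smul_apply, Algebra.smul_def]
            ring
    | zero => exact Subalgebra.zero_mem _
    | add a d _ _ ha hd => exact Subalgebra.add_mem _ ha hd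
    | smul r a _ ha => exact Subalgebra.smul_mem _ ha r

end Fermat.Agent.Mazur

end
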