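/-
Mazur's Eisenstein descent: the flat model at `q` of the Kummer extension of `J₀(p)[q^r]` by a
rational point.
-/
import Fermat.Agent.Mazur.Defs
import Fermat.Agent.Flat.JacobianTorsion
import Fermat.Agent.Flat.BModularSetting
import Fermat.Agent.MW.WeakReduction

set_option autoImplicit false

noncomputable section

namespace Fermat.Agent.Mazur

open ModularCurve

local notation "ℚbar" => AlgebraicClosure ℚ
local notation "Γℚ" => AlgebraicClosure ℚ ≃ₐ[ℚ] AlgebraicClosure ℚ

section Abstract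

variable {T : Type} [AddCommGroup T] [DistribMulAction Γℚ T] {n : ℕ} [NeZero n]

omit [DistribMulAction Γℚ T] in
theorem val_add_nsmul_of_kill (hkill : ∀ x : T, n • x = 0) (a b : ZMod n) (x : T) :
    (a + b).val • x = a.val • x + b.val • x := by
  rw [← add_nsmul, ZMod.val_add]
  conv_rhs => rw [← Nat.mod_add_div (a.val + b.val) n, add_nsmul, mul_comm, mul_nsmul', hkill,
    nsmul_zero, add_zero]

/-- The action on an extension by a cocycle, as an action by automorphisms. -/
@[reducible] def kummerDistribMulAction (hkill : ∀ x : T, n • x = 0) (c : Γℚ → T)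
    (hc : ∀ σ τ : Γℚ, c (σ * τ) = c σ + σ • c τ) : DistribMulAction Γℚ (T × ZMod n) where
  smul := kummerAct n c
  one_smul z := by
    have h := hc 1 1
    rw [one_mul, one_smul, left_eq_add] at h
    refine Prod.ext ?_ rfl
    show (1 : Γℚ) • z.1 + z.2.val • c 1 = z.1
    rw [h, nsmul_zero, one_smul, add_zero]
  mul_smul σ τ z := by
    refine Prod.ext ?_ rfl
    show (σ * τ) • z.1 + z.2.val • c (σ * τ) =
      σ • (τ • z.1 + z.2.val • c τ) + z.2.val • c σ
    rw [hc, mul_smul, smul_add σ (τ • z.1), nsmul_add, smul_comm σ z.2.val (c τ)]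
    abel
  smul_zero σ := by
    refine Prod.ext ?_ rfl
    show σ • (0 : T) + (0 : ZMod n).val • c σ = 0
    rw [smul_zero, ZMod.val_zero, zero_nsmul, add_zero]
  smul_add σ a b := by
    refine Prod.ext ?_ rfl
    show σ • (a.1 + b.1) + (a.2 + b.2).val • c σ =
      (σ • a.1 + a.2.val • c σ) + (σ • b.1 + b.2.val • c σ)
    rw [smul_add, val_add_nsmul_of_kill hkill]
    abel

end Abstract

/-- The Kummer extension of `J₀(p)[q^r]` by a rational point has a finite flat model at `q`. -/
theorem hasFlatModel_kummer_aux {p q : ℕ} [Fact p.Prime] [Fact q.Prime] (hqp : q ≠ p) (r : ℕ)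
    (z : JZero p) (hz : ∀ σ : Γℚ, σ • (q ^ r • z) = q ^ r • z) :
    FlatModel.HasFlatModel q ((torsSub p (q ^ r)).carrier × ZMod (q ^ r))
      (kummerAct (q ^ r) (kummerCocycle (q ^ r) z hz)) := by
  have hq : q.Prime := Fact.out
  have hqp' : ¬ q ∣ p := fun h => hqp ((Nat.prime_dvd_prime_iff_eq hq Fact.out).1 h)
  have : NeZero (q ^ r) := ⟨pow_ne_zero _ hq.ne_zero⟩
  obtain ⟨𝔖, h𝔖⟩ := Fermat.Agent.FlatModel.BModular.exists_setting (N := p) hqp'
  have : Finite (torsSub p (q ^ r)).carrier :=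
    ((MW.finite_nsmul_eq_zero p (pow_ne_zero r hq.ne_zero)).subset
      fun x hx => (mem_torsSub p).1 hx).to_subtype
  have hkill : ∀ x : (torsSub p (q ^ r)).carrier, q ^ r • x = 0 := fun x =>
    Subtype.ext ((AddSubgroup.coe_nsmul _ x _).trans ((mem_torsSub p).1 x.2))
  have hcoc : ∀ σ τ : Γℚ, kummerCocycle (q ^ r) z hz (σ * τ) =
      kummerCocycle (q ^ r) z hz σ + σ • kummerCocycle (q ^ r) z hz τ := fun σ τ => by
    refine Subtype.ext ?_
    show (σ * τ) • z - z = σ • z - z + σ • (τ • z - z)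
    rw [mul_smul, smul_sub]
    abel
  let _inst := kummerDistribMulAction hkill (kummerCocycle (q ^ r) z hz) hcoc
  refine FlatModel.JacModel.hasFlatModel_of_classes 𝔖 (Q := ZMod (q ^ r)) (fun x => x.2)
    (fun σ x => rfl) (fun s x x' h => congrArg (s.2 - ·) h)
    (fun x => (x.1 : JZero p) + x.2.val • z) (fun σ x => ?_) (fun x y h h' => ?_) fun s j => ?_
  · rw [DFunLike.congr_fun h𝔖 σ]
    show σ • (x.1 : JZero p) + ((x.2.val • kummerCocycle (q ^ r) z hz σ :
      (torsSub p (q ^ r)).carrier) : JZero p) + x.2.val • z = σ • ((x.1 : JZero p) + x.2.val • z)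
    rw [AddSubgroup.coe_nsmul]
    show σ • (x.1 : JZero p) + x.2.val • (σ • z - z) + x.2.val • z = _
    rw [smul_add, show σ • (x.2.val • z) = x.2.val • σ • z from
      map_nsmul (DistribSMul.toAddMonoidHom (JZero p) σ) _ z, nsmul_sub]
    abel
  · simp only [h] at h'
    exact Prod.ext (Subtype.ext (add_right_cancel h')) h
  · refine ⟨(s.1 : JZero p) + (s.2 - j).val • z + j.val • z, fun x hx => ?_⟩
    show ((s - x).1 : JZero p) + (s - x).2.val • z = _
    rw [Prod.fst_sub, Prod.snd_sub, hx, AddSubgroup.coe_sub]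
    abel

end Fermat.Agent.Mazur

end
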