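/-
Mazur's Eisenstein descent: local inputs at `p` and `q` and the dual flat model.
-/
import Fermat.Agent.Mazur.Defs
import Fermat.Agent.Mazur.EisenDual
import Fermat.Agent.Mazur.LocalKummer
import Fermat.Agent.Mazur.LocalToric
import Fermat.Agent.Galois.TameGenerator
import Fermat.Agent.Galois.Frobenius

set_option autoImplicit false

noncomputable section

namespace Fermat.Agent.Mazur

open ModularCurve

local notation "ℚbar" => AlgebraicClosure ℚ
local notation "Γℚ" => AlgebraicClosure ℚ ≃ₐ[ℚ] AlgebraicClosure ℚ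

/-- Tame inertia: if the image of inertia in a finite quotient has `q`-power exponent, it is
cyclic and a Frobenius conjugates a generator to its `p`-th power. -/
theorem exists_tame_generator {p q r : ℕ} (hp : p.Prime) (hq : q.Prime) (hpq : p ≠ q)
    {P : ValuationSubring ℚbar} (hP : P.LiesOverPrime p) (U : Subgroup Γℚ) [U.Normal]
    (hU : IsOpen (U : Set Γℚ)) (hI : ∀ σ ∈ P.inertiaSubgroupIn ℚ, σ ^ (q ^ r) ∈ U) :
    ∃ τ ∈ P.inertiaSubgroupIn ℚ,
      (∀ σ ∈ P.inertiaSubgroupIn ℚ, ∃ k : ℕ, (τ ^ k)⁻¹ * σ ∈ U) ∧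
      ∀ φ : Γℚ, P.IsFrobeniusAt φ p → (τ ^ p)⁻¹ * (φ * τ * φ⁻¹) ∈ U := by
  obtain ⟨τ, hτI, hτ⟩ := Galois.exists_generatesLayer hp hP
  obtain ⟨E, hE, hEU⟩ := (krullTopology_mem_nhds_one_iff ℚ ℚbar _).1 (hU.mem_nhds U.one_mem)
  have hf : ∃ E : IntermediateField ℚ ℚbar, FiniteDimensional ℚ E ∧
      ∀ g : Γℚ, (∀ x ∈ E, g x = x) → QuotientGroup.mk' U g = 1 :=
    ⟨E, hE, fun g hg => (QuotientGroup.eq_one_iff g).2
      (hEU ((IntermediateField.mem_fixingSubgroup_iff E g).2 hg))⟩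
  have hpI : ∀ g ∈ P.inertiaSubgroupIn ℚ, ∃ n : ℕ, QuotientGroup.mk' U g ^ q ^ n = 1 :=
    fun g hg => ⟨r, by rw [← map_pow]; exact (QuotientGroup.eq_one_iff _).2 (hI g hg)⟩
  refine ⟨τ, hτI, fun σ hσ => ?_, fun φ hφ => ?_⟩
  · obtain ⟨ψ, hψ⟩ := Galois.exists_isFrobeniusAt hp hP
    obtain ⟨-, hcyc, -⟩ := Galois.tame_relations hq hp hpq hP hτI hτ hψ (QuotientGroup.mk' U) hf hpI
    obtain ⟨n, hn⟩ := hpI τ hτI
    have hfin : IsOfFinOrder (QuotientGroup.mk' U τ) :=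
      isOfFinOrder_iff_pow_eq_one.2 ⟨q ^ n, pow_pos hq.pos n, hn⟩
    obtain ⟨k, hk⟩ := (Submonoid.mem_powers_iff _ _).1
      (hfin.mem_powers_iff_mem_zpowers.2 (hcyc σ hσ))
    refine ⟨k, QuotientGroup.eq.1 ?_⟩
    rw [← map_pow] at hk
    exact hk
  · obtain ⟨hconj, -, -⟩ := Galois.tame_relations hq hp hpq hP hτI hτ hφ (QuotientGroup.mk' U) hf hpI
    refine QuotientGroup.eq.1 ?_
    rw [← map_inv, ← map_mul, ← map_mul, ← map_pow] at hconj
    exact hconj.symm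

/-- The Cartier dual of a finite flat model. -/
theorem hasFlatModel_cartierDual {q : ℕ} [Fact q.Prime] {M : Type} [AddCommGroup M] [Finite M]
    [DistribMulAction Γℚ M]
    (hM : FlatModel.HasFlatModel q M fun σ x => σ • x) :
    FlatModel.HasFlatModel q (CartierDual M) fun σ χ => σ • χ :=
  hasFlatModel_cartierDual_aux hM

/-- The toric part of the torsion at `p`, from the gluing map. -/
theorem exists_toric {p : ℕ} [Fact p.Prime] {P : ValuationSubring ℚbar}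
    (hP : P.LiesOverPrime p) :
    ∃ f : ℕ, 0 < f ∧ ∀ n : ℕ, ¬ p ∣ n →
      ∃ G : AddSubgroup (JZero p), G ≤ (torsSub p n).carrier ∧
        (∀ σ ∈ P.inertiaSubgroupIn ℚ, ∀ x : JZero p, n • x = 0 → σ • x - x ∈ G) ∧
        (∀ σ ∈ P.inertiaSubgroupIn ℚ, ∀ g ∈ G, σ • g = g) ∧
        ∀ φ : Γℚ, P.IsFrobeniusAt φ p → ∀ g ∈ G, (φ ^ f) • g = (p ^ f) • g :=
  exists_toric_proof hP

/-- The Kummer extension of `J₀(p)[n]` by a rational point has a finite flat model. -/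
theorem hasFlatModel_kummer {p q : ℕ} [Fact p.Prime] [Fact q.Prime] (hqp : q ≠ p) (r : ℕ)
    (z : JZero p) (hz : ∀ σ : Γℚ, σ • (q ^ r • z) = q ^ r • z) :
    FlatModel.HasFlatModel q ((torsSub p (q ^ r)).carrier × ZMod (q ^ r))
      (kummerAct (q ^ r) (kummerCocycle (q ^ r) z hz)) :=
  hasFlatModel_kummer_aux hqp r z hz

end Fermat.Agent.Mazur

end
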