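/-
Mazur's Eisenstein descent: the bounds on an Eisenstein module given by the count of Selmer
triples, applied to
the module and to its Cartier dual.
-/
import Fermat.Agent.Mazur.CountMain
import Fermat.Agent.Mazur.DescentDual
import Fermat.Agent.Mazur.LocalMain
import Fermat.Agent.Mazur.BoundTriples
import Mathlib.GroupTheory.GroupAction.Defs

set_option autoImplicit false

noncomputable section

namespace Fermat.Agent.Mazur

local notation "ℚbar" => AlgebraicClosure ℚ
local notation "Γℚ" => AlgebraicClosure ℚ ≃ₐ[ℚ] AlgebraicClosure ℚ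

/-- A finite Galois module to which the count of Selmer triples applies. -/
structure IsSelmerModule (p q r : ℕ) (M : Type) [AddCommGroup M] [DistribMulAction Γℚ M] :
    Prop where
  kill : ∀ x : M, q ^ r • x = 0
  smooth : ∀ x : M, IsOpen (MulAction.stabilizer Γℚ x : Set Γℚ)
  unramified : ∀ ℓ : ℕ, ℓ.Prime → ℓ ≠ p → ℓ ≠ q → ∀ A : ValuationSubring ℚbar,
    A.LiesOverPrime ℓ → ∀ σ ∈ A.inertiaSubgroupIn ℚ, ∀ x : M, σ • x = x
  flat : FlatModel.HasFlatModel q M fun σ x => σ • x
  eisenstein : IsEisensteinModule M q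

variable {p q r : ℕ} {P : ValuationSubring (AlgebraicClosure ℚ)}
variable {M : Type} [AddCommGroup M] [DistribMulAction Γℚ M] [Finite M]

/-- The subgroup generated by the displacements of inertia at `P`. -/
def inertiaSpan (P : ValuationSubring ℚbar) (M : Type) [AddCommGroup M] [DistribMulAction Γℚ M] :
    AddSubgroup M :=
  AddSubgroup.closure {y | ∃ σ ∈ P.inertiaSubgroupIn ℚ, ∃ x : M, y = σ • x - x}

/-- The Cartier dual of a Selmer module is one. -/
theorem IsSelmerModule.cartierDual (hq : q.Prime) (hM : IsSelmerModule p q r M) :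
    IsSelmerModule p q r (CartierDual M) where
  kill χ := CartierDual.smul_toHom_eq_zero hM.kill χ
  smooth χ := CartierDual.isOpen_stabilizer hM.smooth χ
  unramified ℓ hℓ hlp hlq A hA σ hσ χ :=
    CartierDual.inertia_smul_eq hq hℓ hlq hM.kill hA hσ fun x => by
      rw [hM.unramified ℓ hℓ hlp hlq A hA σ⁻¹ (inv_mem hσ) x]
  flat := by
    haveI := Fact.mk hq
    exact hasFlatModel_cartierDual hM.flat
  eisenstein := hM.eisenstein.cartierDual hq

/-- Twisting a Selmer triple by a coboundary and by fixed points. -/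
theorem IsSelmerTriple.twist [NeZero (q ^ r)] (hM : IsSelmerModule p q r M) {c : Γℚ → M}
    {m m' : M} (h : IsSelmerTriple p q (q ^ r) P c m m') (x : M) {a b : M}
    (ha : ∀ σ ∈ P.inertiaSubgroupIn ℚ, σ • a = a) (hb : complexConjugation • b = b) :
    IsSelmerTriple p q (q ^ r) P (fun σ => c σ + (σ • x - x)) (m + x + a) (m' + x + b) where
  cocycle σ τ := by
    simp only [h.cocycle, smul_add, smul_sub, mul_smul]; abel
  smooth := by
    obtain ⟨U, hU, hUc⟩ := h.smooth
    refine ⟨U ⊓ MulAction.stabilizer Γℚ x, hU.inter (hM.smooth x), fun σ u hu => ?_⟩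
    rw [hUc σ u hu.1, mul_smul, show u • x = x from hu.2]
  unramified ℓ hℓ h1 h2 A hA σ hσ := by
    rw [h.unramified ℓ hℓ h1 h2 A hA σ hσ, hM.unramified ℓ hℓ h1 h2 A hA σ hσ x, sub_self,
      add_zero]
  flat := hasFlatModel_kummerAct_add_coboundary hM.kill h.flat x
  local_p σ hσ := by
    simp only [h.local_p σ hσ, smul_add, ha σ hσ]; abel
  local_inf := by
    simp only [h.local_inf, smul_add, hb]; abel

/-- The classes of a homomorphism to cocycles. -/
def classRange {G : Type*} [AddCommGroup G] (k : G →+ (Γℚ → M)) :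
    AddSubgroup ((Γℚ → M) ⧸ (displacement (M := M)).range) :=
  ((QuotientAddGroup.mk' (displacement (M := M)).range).comp k).range

/-- Distinct classes having triples give disjoint sets of twisted triples. -/
theorem natCard_classRange_mul_le (hp : p.Prime) (hq : q.Prime) (hpq : p ≠ q) (hr : 1 ≤ r)
    (hP : P.LiesOverPrime p) (hM : IsSelmerModule p q r M) {G : Type*} [AddCommGroup G]
    (k : G →+ (Γℚ → M)) (hk : ∀ g, ∃ m m' : M, IsSelmerTriple p q (q ^ r) P (k g) m m') :
    Finite (classRange k) ∧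
      Nat.card (classRange k) * (Nat.card (fixedOn M (P.inertiaSubgroupIn ℚ : Set Γℚ)) *
        Nat.card (fixedOn M {complexConjugation})) ≤
        Nat.card M * Nat.card (fixedOn M Set.univ) := by
  haveI : NeZero (q ^ r) := ⟨pow_ne_zero _ hq.ne_zero⟩
  obtain ⟨hfin, hcard⟩ := natCard_selmerTriples_le hp hq hpq hr hP hM.kill hM.eisenstein
  haveI := hfin.to_subtype
  have hrep : ∀ z : classRange k, ∃ g, ((k g : Γℚ → M) : (Γℚ → M) ⧸ (displacement).range) = z :=
    fun z => AddMonoidHom.mem_range.1 z.2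
  choose g hg using hrep
  choose m m' hmm using hk
  let Φ : classRange k × (M ⧸ fixedOn M Set.univ) ×
      fixedOn M (P.inertiaSubgroupIn ℚ : Set Γℚ) × fixedOn M {complexConjugation} →
      selmerTriples M p q (q ^ r) P := fun z =>
    ⟨(fun σ => k (g z.1) σ + (σ • Quotient.out z.2.1 - Quotient.out z.2.1),
      m (g z.1) + Quotient.out z.2.1 + z.2.2.1, m' (g z.1) + Quotient.out z.2.1 + z.2.2.2),
      IsSelmerTriple.twist hM (hmm _) _ (fun σ hσ => z.2.2.1.2 σ hσ) (z.2.2.2.2 _ rfl)⟩
  have hΦ : Function.Injective Φ := by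
    rintro ⟨z, y, a, b⟩ ⟨z', y', a', b'⟩ e
    obtain ⟨e1, e23⟩ := Prod.ext_iff.1 (congrArg Subtype.val e)
    obtain ⟨e2, e3⟩ := Prod.ext_iff.1 e23
    simp only [Φ] at e1 e2 e3
    have e1' : k (g z) + displacement (Quotient.out y) =
        k (g z') + displacement (Quotient.out y') := funext fun σ => congrFun e1 σ
    have hz : z = z' := by
      refine Subtype.ext ?_
      rw [← hg z, ← hg z', QuotientAddGroup.eq]
      refine AddMonoidHom.mem_range.2 ⟨Quotient.out y - Quotient.out y', ?_⟩
      rw [map_sub]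
      linear_combination (norm := abel) e1'
    subst hz
    have e4 := add_left_cancel e1'
    have hy : y = y' := by
      rw [← QuotientAddGroup.out_eq' y, ← QuotientAddGroup.out_eq' y', QuotientAddGroup.eq]
      refine fun σ _ => ?_
      have := congrFun e4 σ
      simp only [displacement_apply] at this
      rw [smul_add, smul_neg]
      linear_combination (norm := abel) -this
    subst hy
    have ha : a = a' := Subtype.ext (add_left_cancel e2)
    have hb : b = b' := Subtype.ext (add_left_cancel e3)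
    subst ha; subst hb; rfl
  haveI : Finite (classRange k × (M ⧸ fixedOn M Set.univ) ×
      fixedOn M (P.inertiaSubgroupIn ℚ : Set Γℚ) × fixedOn M {complexConjugation}) :=
    Finite.of_injective Φ hΦ
  refine ⟨Finite.prod_left ((M ⧸ fixedOn M Set.univ) ×
      fixedOn M (P.inertiaSubgroupIn ℚ : Set Γℚ) × fixedOn M {complexConjugation}), ?_⟩
  have h := (Nat.card_le_card_of_injective Φ hΦ).trans (Nat.card_coe_set_eq _ ▸ hcard)
  rw [Nat.card_prod, Nat.card_prod, Nat.card_prod] at h
  have hq0 := AddSubgroup.card_eq_card_quotient_mul_card_addSubgroup (fixedOn M Set.univ)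
  have h' := Nat.mul_le_mul_right (Nat.card (fixedOn M Set.univ)) h
  refine Nat.le_of_mul_le_mul_left ?_ (Nat.card_pos (α := M))
  calc Nat.card M * (Nat.card (classRange k) *
        (Nat.card (fixedOn M (P.inertiaSubgroupIn ℚ : Set Γℚ)) *
          Nat.card (fixedOn M {complexConjugation})))
      = Nat.card (classRange k) * (Nat.card (M ⧸ fixedOn M Set.univ) *
          (Nat.card (fixedOn M (P.inertiaSubgroupIn ℚ : Set Γℚ)) *
            Nat.card (fixedOn M {complexConjugation}))) * Nat.card (fixedOn M Set.univ) := by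
        rw [hq0]; ring
    _ ≤ Nat.card M ^ 2 * Nat.card (fixedOn M Set.univ) := h'
    _ = Nat.card M * (Nat.card M * Nat.card (fixedOn M Set.univ)) := by ring

/-- The triples of coboundaries. -/
theorem natCard_fixed_mul_le (hp : p.Prime) (hq : q.Prime) (hpq : p ≠ q) (hr : 1 ≤ r)
    (hP : P.LiesOverPrime p) (hM : IsSelmerModule p q r M) :
    Nat.card (fixedOn M (P.inertiaSubgroupIn ℚ : Set Γℚ)) *
      Nat.card (fixedOn M {complexConjugation}) ≤
      Nat.card M * Nat.card (fixedOn M Set.univ) := by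
  haveI : NeZero (q ^ r) := ⟨pow_ne_zero _ hq.ne_zero⟩
  obtain ⟨hfin, h⟩ := natCard_classRange_mul_le hp hq hpq hr hP hM (0 : PUnit.{1} →+ (Γℚ → M))
    fun g => ⟨0, 0, ⟨fun σ τ => by simp, ⟨⊤, by simp, fun σ u _ => rfl⟩,
      fun ℓ _ _ _ A _ σ _ => rfl, hasFlatModel_kummerAct_zero hM.flat, fun σ _ => by simp,
      by simp⟩⟩
  exact le_trans (Nat.le_mul_of_pos_left _ Nat.card_pos) h

/-- The bound from the Cartier dual. -/
theorem natCard_le_inertiaSpan_mul (hp : p.Prime) (hq : q.Prime) (hpq : p ≠ q) (hr : 1 ≤ r)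
    (hP : P.LiesOverPrime p) (hM : IsSelmerModule p q r M) :
    Nat.card M ≤ Nat.card (inertiaSpan P M) * Nat.card (fixedOn M {complexConjugation}) *
      Nat.card (fixedOn (CartierDual M) Set.univ) := by
  let T : AddSubgroup M := (AddMonoidHom.id M +
    DistribSMul.toAddMonoidHom M complexConjugation).range
  have hT : T ≤ fixedOn M {complexConjugation} := by
    rintro _ ⟨x, rfl⟩ σ rfl
    simp only [AddMonoidHom.add_apply, AddMonoidHom.id_apply, DistribSMul.toAddMonoidHom_apply,
      smul_add, ← mul_smul, complexConjugation_mul_self, one_smul]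
    abel
  have hS : annihilator (inertiaSpan P M) ≤
      fixedOn (CartierDual M) (P.inertiaSubgroupIn ℚ : Set Γℚ) := by
    intro χ hχ σ hσ
    refine CartierDual.inertia_smul_eq hq hp hpq hM.kill hP hσ fun x => ?_
    have := mem_annihilator.1 hχ (σ⁻¹ • x - x)
      (AddSubgroup.subset_closure ⟨σ⁻¹, inv_mem hσ, x, rfl⟩)
    rwa [map_sub, sub_eq_zero] at this
  have hTd : annihilator T ≤ fixedOn (CartierDual M) {complexConjugation} := by
    rintro χ hχ σ rfl
    refine CartierDual.ext fun x => ?_
    have h := mem_annihilator.1 hχ _ ⟨x, rfl⟩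
    simp only [AddMonoidHom.add_apply, AddMonoidHom.id_apply, DistribSMul.toAddMonoidHom_apply,
      map_add] at h
    rw [CartierDual.smul_apply, complexConjugation_inv, eq_neg_of_add_eq_zero_right h]
    refine Additive.toMul.injective (Units.ext ?_)
    show complexConjugation (((-χ.toHom x).toMul : (ℚbar)ˣ) : ℚbar) = (χ.toHom x).toMul
    rw [toMul_neg, Units.val_inv_eq_inv_val,
      complexConjugation_apply_root (pow_ne_zero r hq.ne_zero)
        (by rw [inv_pow, CartierDual.val_pow_eq_one hM.kill, inv_one]), inv_inv]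
  have h1 := natCard_fixed_mul_le hp hq hpq hr hP (hM.cartierDual hq)
  rw [natCard_cartierDual] at h1
  have h2 := Nat.mul_le_mul (AddSubgroup.card_le_of_le hS) (AddSubgroup.card_le_of_le hTd)
  have h3 := natCard_annihilator_mul (inertiaSpan P M)
  have h4 := natCard_annihilator_mul T
  have h5 := AddSubgroup.card_le_of_le hT
  refine Nat.le_of_mul_le_mul_left ?_ (Nat.card_pos (α := M))
  calc Nat.card M * Nat.card M
      = Nat.card (annihilator (inertiaSpan P M)) * Nat.card (annihilator T) *
          (Nat.card (inertiaSpan P M) * Nat.card T) := by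
        nth_rw 1 [← h3]
        rw [← h4]
        ring
    _ ≤ Nat.card M * Nat.card (fixedOn (CartierDual M) Set.univ) *
          (Nat.card (inertiaSpan P M) * Nat.card (fixedOn M {complexConjugation})) :=
        Nat.mul_le_mul (h2.trans h1) (Nat.mul_le_mul_left _ h5)
    _ = _ := by ring

/-- If inertia fixes its displacements, the points fixed by inertia exceed them by a bounded
factor only. -/
theorem factorial_smul_mem_inertiaSpan (hp : p.Prime) (hq : q.Prime) (hpq : p ≠ q) (hr : 1 ≤ r)
    (hP : P.LiesOverPrime p) (hM : IsSelmerModule p q r M)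
    (hS : ∀ σ ∈ P.inertiaSubgroupIn ℚ, ∀ y ∈ inertiaSpan P M, σ • y = y)
    {B : ℕ} (hB : Nat.card {x : M // ∀ σ : Γℚ, σ • x = x} *
      Nat.card {χ : CartierDual M // ∀ σ : Γℚ, σ • χ = χ} ≤ B)
    {x : M} (hx : ∀ σ ∈ P.inertiaSubgroupIn ℚ, σ • x = x) :
    B.factorial • x ∈ inertiaSpan P M := by
  rw [← natCard_fixedOn_univ, ← natCard_fixedOn_univ] at hB
  have hle : inertiaSpan P M ≤ fixedOn M (P.inertiaSubgroupIn ℚ : Set Γℚ) :=
    fun y hy σ hσ => hS σ hσ y hy
  have h1 := natCard_fixed_mul_le hp hq hpq hr hP hM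
  have h2 := natCard_le_inertiaSpan_mul hp hq hpq hr hP hM
  set S := inertiaSpan P M
  set F := fixedOn M (P.inertiaSubgroupIn ℚ : Set Γℚ)
  have h3 : Nat.card F ≤ Nat.card S * B := by
    refine Nat.le_of_mul_le_mul_right ?_ (Nat.card_pos (α := fixedOn M {complexConjugation}))
    calc Nat.card F * Nat.card (fixedOn M {complexConjugation})
        ≤ Nat.card M * Nat.card (fixedOn M Set.univ) := h1
      _ ≤ Nat.card S * Nat.card (fixedOn M {complexConjugation}) *
            Nat.card (fixedOn (CartierDual M) Set.univ) * Nat.card (fixedOn M Set.univ) :=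
          Nat.mul_le_mul_right _ h2
      _ = Nat.card S * (Nat.card (fixedOn M Set.univ) *
            Nat.card (fixedOn (CartierDual M) Set.univ)) *
            Nat.card (fixedOn M {complexConjugation}) := by ring
      _ ≤ _ := Nat.mul_le_mul_right _ (Nat.mul_le_mul_left _ hB)
  have h4 := AddSubgroup.relIndex_mul_relIndex ⊥ S F bot_le hle
  rw [AddSubgroup.relIndex_bot_left, AddSubgroup.relIndex_bot_left] at h4
  have h5 : S.relIndex F ≤ B :=
    Nat.le_of_mul_le_mul_left (h4.le.trans h3) Nat.card_pos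
  have h6 : 0 < S.relIndex F := Nat.pos_of_ne_zero fun h0 =>
    (Nat.card_pos (α := F)).ne' (by rw [← h4, h0, mul_zero])
  obtain ⟨d, hd⟩ := Nat.dvd_factorial h6 h5
  rw [hd, mul_comm, mul_nsmul']
  exact AddSubgroup.nsmul_mem _ (nsmul_mem_of_relIndex_eq hle rfl hx) d

/-- A group of classes all having Selmer triples is killed by the factorial of the bound. -/
theorem factorial_smul_isCoboundary (hp : p.Prime) (hq : q.Prime) (hpq : p ≠ q) (hr : 1 ≤ r)
    (hP : P.LiesOverPrime p) (hM : IsSelmerModule p q r M)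
    (hS : ∀ σ ∈ P.inertiaSubgroupIn ℚ, ∀ y ∈ inertiaSpan P M, σ • y = y)
    {B : ℕ} (hB : Nat.card {x : M // ∀ σ : Γℚ, σ • x = x} *
      Nat.card {χ : CartierDual M // ∀ σ : Γℚ, σ • χ = χ} ≤ B)
    {G : Type*} [AddCommGroup G] (k : G →+ (Γℚ → M))
    (hk : ∀ g, ∃ m m' : M, IsSelmerTriple p q (q ^ r) P (k g) m m') (g : G) :
    ∃ x : M, ∀ σ : Γℚ, B.factorial • k g σ = σ • x - x := by
  rw [← natCard_fixedOn_univ, ← natCard_fixedOn_univ] at hB
  obtain ⟨hfin, h1⟩ := natCard_classRange_mul_le hp hq hpq hr hP hM k hk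
  have h2 := natCard_le_inertiaSpan_mul hp hq hpq hr hP hM
  have hle : Nat.card (inertiaSpan P M) ≤
      Nat.card (fixedOn M (P.inertiaSubgroupIn ℚ : Set Γℚ)) :=
    AddSubgroup.card_le_of_le fun y hy σ hσ => hS σ hσ y hy
  have h3 : Nat.card (classRange k) ≤ B := by
    refine Nat.le_of_mul_le_mul_right ?_ (Nat.mul_pos
      (Nat.card_pos (α := fixedOn M (P.inertiaSubgroupIn ℚ : Set Γℚ)))
      (Nat.card_pos (α := fixedOn M {complexConjugation})))
    refine h1.trans ((Nat.mul_le_mul_right _ h2).trans ?_)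
    calc Nat.card (inertiaSpan P M) * Nat.card (fixedOn M {complexConjugation}) *
          Nat.card (fixedOn (CartierDual M) Set.univ) * Nat.card (fixedOn M Set.univ)
        ≤ Nat.card (fixedOn M (P.inertiaSubgroupIn ℚ : Set Γℚ)) *
          Nat.card (fixedOn M {complexConjugation}) *
          Nat.card (fixedOn (CartierDual M) Set.univ) * Nat.card (fixedOn M Set.univ) := by
          gcongr
      _ = Nat.card (fixedOn M Set.univ) * Nat.card (fixedOn (CartierDual M) Set.univ) *
          (Nat.card (fixedOn M (P.inertiaSubgroupIn ℚ : Set Γℚ)) *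
            Nat.card (fixedOn M {complexConjugation})) := by ring
      _ ≤ _ := Nat.mul_le_mul_right _ hB
  let z : classRange k := ⟨_, AddMonoidHom.mem_range.2 ⟨g, rfl⟩⟩
  obtain ⟨d, hd⟩ := Nat.dvd_factorial Nat.card_pos h3
  have h4 : B.factorial • z = 0 := by
    rw [hd, mul_nsmul, card_nsmul_eq_zero', nsmul_zero]
  have h5 : B.factorial • k g ∈ (displacement (M := M)).range :=
    (QuotientAddGroup.eq_zero_iff _).1 (congrArg Subtype.val h4)
  obtain ⟨x, hx⟩ := AddMonoidHom.mem_range.1 h5
  exact ⟨x, fun σ => (congrFun hx σ).symm⟩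

end Fermat.Agent.Mazur

end
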