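/-
Mazur's Eisenstein descent: the Kummer classes of rational points on inertia at `p`.
-/
import Fermat.Agent.Mazur.LocalMain
import Fermat.Agent.MW.WeakJZero

set_option autoImplicit false

noncomputable section

namespace Fermat.Agent.Mazur

open ModularCurve

local notation "ℚbar" => AlgebraicClosure ℚ
local notation "Γℚ" => AlgebraicClosure ℚ ≃ₐ[ℚ] AlgebraicClosure ℚ

section General

variable {J : Type*} [AddCommGroup J] [DistribMulAction Γℚ J]

theorem pow_smul_of_smul_sub {σ : Γℚ} {t w : J} (ht : σ • t = t + w) (hw : σ • w = w) (k : ℕ) :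
    σ ^ k • t = t + k • w := by
  induction k with
  | zero => simp
  | succ k ih =>
    rw [pow_succ', mul_smul, ih, smul_add, smul_comm σ k w, hw, ht, succ_nsmul]
    abel

theorem pow_smul_of_two_step {σ : Γℚ} {z a w : J} (hz : σ • z = z + a) (ha : σ • a = a + w)
    (hw : σ • w = w) (k : ℕ) : σ ^ k • z = z + k • a + k.choose 2 • w := by
  induction k with
  | zero => simp
  | succ k ih =>
    rw [pow_succ', mul_smul, ih, smul_add, smul_add, smul_comm σ k a,
      smul_comm σ (k.choose 2) w, hw, hz, ha, nsmul_add, succ_nsmul,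
      Nat.choose_succ_succ', Nat.choose_one_right, add_nsmul]
    abel

/-- If a power of `g` conjugates `τ` into `τ ^ P` on `z` and on the torsion, `g = P` on the
displacements, and those are fixed by `τ`, then `τ` moves `(P - 1) • (τ • z - z)` trivially. -/
theorem smul_sub_one_nsmul_eq {n P : ℕ} (hP : n.Coprime P) (hP1 : 1 ≤ P) {g τ : Γℚ} {z : J}
    (hz : ∀ σ : Γℚ, n • (σ • z - z) = 0)
    (hfix : ∀ x : J, n • x = 0 → τ • (τ • x - x) = τ • x - x)
    (hg : ∀ x : J, n • x = 0 → g • (τ • x - x) = P • (τ • x - x))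
    (hconj : ∀ x : J, x = z ∨ n • x = 0 → g • (τ • x) = τ ^ P • (g • x)) :
    τ • ((P - 1) • (τ • z - z)) = (P - 1) • (τ • z - z) := by
  have hn : ∀ (σ : Γℚ) (x : J), n • x = 0 → n • (σ • x) = 0 := fun σ x hx => by
    rw [← smul_comm σ n x, hx, smul_zero]
  set a := τ • z - z with ha
  have han : n • a = 0 := hz τ
  set w := τ • a - a with hw
  set e := g • z - z with he
  have hen : n • e = 0 := hz g
  set u := τ • e - e with hu
  have hτz : τ • z = z + a := by rw [ha]; abel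
  have hτa : τ • a = a + w := by rw [hw]; abel
  have hτe : τ • e = e + u := by rw [hu]; abel
  have hgz : g • z = z + e := by rw [he]; abel
  have hwτ : τ • w = w := hfix a han
  have huτ : τ • u = u := hfix e hen
  have hga : g • a = P • a + P.choose 2 • w + P • u := by
    have h := hconj z (Or.inl rfl)
    rw [hτz, smul_add, hgz, smul_add, pow_smul_of_two_step hτz hτa hwτ,
      pow_smul_of_smul_sub hτe huτ] at h
    have h' := sub_eq_zero.2 h
    rw [← sub_eq_zero]
    rw [← h']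
    abel
  have hτga : τ • (g • a) = g • a + P • w := by
    rw [hga, smul_add, smul_add, smul_comm τ P a, smul_comm τ (P.choose 2) w, smul_comm τ P u,
      hτa, hwτ, huτ, nsmul_add]
    abel
  have h2 : P • w = P • (P • w) := by
    have h := hconj a (Or.inr han)
    rw [hτa, smul_add, hg a han,
      pow_smul_of_smul_sub hτga (by rw [smul_comm τ P w, hwτ])] at h
    exact add_left_cancel h
  have hnw : n • w = 0 := by rw [hw, nsmul_sub, hn τ a han, han, sub_zero]
  have h3 : (P - 1) • w = 0 := by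
    have h4 : P • ((P - 1) • w) = 0 := by
      rw [← mul_nsmul', Nat.mul_sub, mul_one, sub_nsmul _ (Nat.le_mul_self P), mul_nsmul',
        ← sub_eq_add_neg, sub_eq_zero]
      exact h2.symm
    have h5 : n • ((P - 1) • w) = 0 := by
      rw [nsmul_left_comm, hnw, nsmul_zero]
    have h6 := Nat.gcd_eq_gcd_ab n P
    rw [hP] at h6
    have : ((1 : ℕ) : ℤ) • ((P - 1) • w) = 0 := by
      rw [h6, add_zsmul, mul_comm (n : ℤ), mul_comm (P : ℤ), mul_zsmul, mul_zsmul,
        natCast_zsmul, natCast_zsmul, h4, h5, zsmul_zero, zsmul_zero, add_zero]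
    simpa using this
  rw [smul_comm τ (P - 1) a, hτa, nsmul_add, h3, add_zero]

end General

variable {p : ℕ} [Fact p.Prime]

omit [Fact p.Prime] in
theorem galois_smul_comm_nsmul (σ : Γℚ) (n : ℕ) (x : JZero p) : σ • (n • x) = n • σ • x :=
  map_nsmul (DistribSMul.toAddMonoidHom (JZero p) σ) n x

omit [Fact p.Prime] in
theorem galois_smul_zero (σ : Γℚ) : σ • (0 : JZero p) = 0 :=
  map_zero (DistribSMul.toAddMonoidHom (JZero p) σ)

/-- The elements fixing `z` and the `n`-torsion. -/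
def kummerFixer (n : ℕ) (z : JZero p) : Subgroup Γℚ where
  carrier := {σ | σ • z = z ∧ ∀ t : JZero p, n • t = 0 → σ • t = t}
  one_mem' := ⟨one_smul _ _, fun t _ => one_smul _ t⟩
  mul_mem' := fun {a b} ha hb => ⟨by rw [mul_smul, hb.1, ha.1],
    fun t ht => by rw [mul_smul, hb.2 t ht, ha.2 t ht]⟩
  inv_mem' := fun {a} ha => ⟨by rw [inv_smul_eq_iff, ha.1],
    fun t ht => by rw [inv_smul_eq_iff, ha.2 t ht]⟩

theorem mem_kummerFixer {n : ℕ} {z : JZero p} {σ : Γℚ} :
    σ ∈ kummerFixer n z ↔ σ • z = z ∧ ∀ t : JZero p, n • t = 0 → σ • t = t := Iff.rfl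

theorem nsmul_smul_sub_eq_zero {n : ℕ} {z : JZero p} (hz : ∀ σ : Γℚ, σ • (n • z) = n • z)
    (σ : Γℚ) : n • (σ • z - z) = 0 := by
  rw [nsmul_sub, ← galois_smul_comm_nsmul σ n z, hz, sub_self]

theorem normal_kummerFixer {n : ℕ} {z : JZero p} (hz : ∀ σ : Γℚ, σ • (n • z) = n • z) :
    (kummerFixer n z).Normal := by
  refine ⟨fun u hu g => ?_⟩
  have ht : ∀ t : JZero p, n • t = 0 → g • u • g⁻¹ • t = t := fun t ht => by
    rw [hu.2 _ (by rw [← galois_smul_comm_nsmul g⁻¹ n t, ht, galois_smul_zero]), smul_inv_smul]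
  refine ⟨?_, fun t h => by rw [mul_smul, mul_smul]; exact ht t h⟩
  rw [mul_smul, mul_smul]
  have hd := nsmul_smul_sub_eq_zero hz g⁻¹
  have h : u • g⁻¹ • z = g⁻¹ • z := by
    conv_lhs => rw [← sub_add_cancel (g⁻¹ • z) z, smul_add, hu.2 _ hd, hu.1]
    rw [sub_add_cancel]
  rw [h, smul_inv_smul]

theorem isOpen_kummerFixer {n : ℕ} (hfin : Finite (torsSub p n).carrier) (z : JZero p) :
    IsOpen (kummerFixer n z : Set Γℚ) := by
  have h : (kummerFixer n z : Set Γℚ) =
      (MulAction.stabilizer Γℚ z : Set Γℚ) ∩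
        ⋂ t : (torsSub p n).carrier, (MulAction.stabilizer Γℚ (t : JZero p) : Set Γℚ) := by
    ext σ
    simp only [Set.mem_inter_iff, Set.mem_iInter, SetLike.mem_coe, MulAction.mem_stabilizer_iff,
      Subtype.forall, mem_torsSub]
    exact Iff.rfl
  rw [h]
  exact (MW.isOpen_stabilizer_jZero z).inter
    (isOpen_iInter_of_finite fun t => MW.isOpen_stabilizer_jZero _)

theorem smul_eq_of_mk_eq {n : ℕ} {z : JZero p} {a b : Γℚ} (h : a⁻¹ * b ∈ kummerFixer n z)
    {x : JZero p} (hx : x = z ∨ n • x = 0) : b • x = a • x := by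
  have h1 : (a⁻¹ * b) • x = x := by
    rcases hx with rfl | hx
    exacts [h.1, h.2 x hx]
  rwa [mul_smul, inv_smul_eq_iff] at h1

/-- On inertia at `p`, modulo the fixer of the root, everything is a power of `τ`, and `τ` moves
a bounded multiple of the root by an element fixed by inertia. -/
theorem exists_inertia_generator {q r : ℕ} (hq : q.Prime) (hqp : q ≠ p)
    (hfin : Finite (torsSub p (q ^ r)).carrier)
    {P : ValuationSubring ℚbar} (hP : P.LiesOverPrime p) {φ : Γℚ} (hφ : P.IsFrobeniusAt φ p)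
    {f : ℕ} {G : AddSubgroup (JZero p)}
    (hGsub : ∀ σ ∈ P.inertiaSubgroupIn ℚ, ∀ x : JZero p, q ^ r • x = 0 → σ • x - x ∈ G)
    (hGfix : ∀ σ ∈ P.inertiaSubgroupIn ℚ, ∀ g ∈ G, σ • g = g)
    (hGfrob : ∀ g ∈ G, (φ ^ f) • g = (p ^ f) • g)
    {z : JZero p} (hz : ∀ σ : Γℚ, σ • (q ^ r • z) = q ^ r • z) :
    ∃ τ ∈ P.inertiaSubgroupIn ℚ,
      (∀ σ ∈ P.inertiaSubgroupIn ℚ, ∃ k : ℕ, (τ ^ k)⁻¹ * σ ∈ kummerFixer (q ^ r) z) ∧
      ∀ σ ∈ P.inertiaSubgroupIn ℚ,
        σ • ((p ^ f - 1) • (τ • z - z)) = (p ^ f - 1) • (τ • z - z) := by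
  have hp : p.Prime := Fact.out
  haveI := normal_kummerFixer hz
  set U := kummerFixer (q ^ r) z with hU
  have hzero : ∀ x : JZero p, q ^ r • x = 0 → ∀ k, q ^ r ∣ k → k • x = 0 := by
    rintro x hx k ⟨c, rfl⟩
    rw [mul_nsmul, hx, nsmul_zero]
  have hexp : ∀ σ ∈ P.inertiaSubgroupIn ℚ, σ ^ q ^ (2 * r) ∈ U := by
    intro σ hσ
    have hst : ∀ t : JZero p, q ^ r • t = 0 → σ ^ q ^ (2 * r) • t = t := fun t ht => by
      rw [pow_smul_of_smul_sub (w := σ • t - t) (by abel) (hGfix σ hσ _ (hGsub σ hσ t ht)),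
        hzero _ (by rw [nsmul_sub, ← galois_smul_comm_nsmul σ (q ^ r) t, ht, galois_smul_zero, sub_zero]) _
          (pow_dvd_pow q (by omega)), add_zero]
    refine ⟨?_, hst⟩
    have han := nsmul_smul_sub_eq_zero hz σ
    have hwn : q ^ r • (σ • (σ • z - z) - (σ • z - z)) = 0 := by
      rw [nsmul_sub, ← galois_smul_comm_nsmul σ (q ^ r) (σ • z - z), han, galois_smul_zero, sub_zero]
    rw [pow_smul_of_two_step (a := σ • z - z) (w := σ • (σ • z - z) - (σ • z - z)) (by abel)
      (by abel) (hGfix σ hσ _ (hGsub σ hσ _ han)), hzero _ han _ (pow_dvd_pow q (by omega)),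
      hzero _ hwn _ ?_, add_zero, add_zero]
    rcases Nat.eq_zero_or_pos r with rfl | hr
    · simp
    rw [Nat.choose_two_right]
    refine Nat.dvd_div_of_mul_dvd ?_
    rcases hq.eq_two_or_odd' with rfl | hodd
    · refine Dvd.dvd.mul_right ?_ _
      rw [← pow_succ']
      exact pow_dvd_pow 2 (by omega)
    · rw [mul_comm 2]
      refine mul_dvd_mul (pow_dvd_pow q (by omega)) ?_
      exact (Nat.Odd.sub_odd hodd.pow odd_one).two_dvd
  obtain ⟨τ, hτ, hgen, hconj⟩ := exists_tame_generator (r := 2 * r) hp hq hqp.symm hP U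
    (isOpen_kummerFixer hfin z) hexp
  refine ⟨τ, hτ, hgen, ?_⟩
  set π := QuotientGroup.mk' U with hπ
  have hmk : ∀ a b : Γℚ, π a = π b → ∀ x : JZero p, x = z ∨ q ^ r • x = 0 → b • x = a • x := by
    intro a b h x hx
    exact smul_eq_of_mk_eq (QuotientGroup.eq.1 h) hx
  have h1 : π φ * π τ = π τ ^ p * π φ := by
    rw [← map_pow π, ← map_mul, ← map_mul]
    refine QuotientGroup.eq.2 ?_
    have := Subgroup.Normal.conj_mem inferInstance _ (hconj φ hφ) φ⁻¹
    rw [← Subgroup.inv_mem_iff]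
    convert this using 1
    group
  have hiter : ∀ i : ℕ, π φ ^ i * π τ = π τ ^ p ^ i * π φ ^ i := by
    intro i
    induction i with
    | zero => simp
    | succ i ih =>
      have h2 : π φ * π τ ^ p ^ i = π τ ^ p ^ (i + 1) * π φ := by
        have hs : SemiconjBy (π φ) (π τ) (π τ ^ p) := h1
        rw [pow_succ', pow_mul]
        exact hs.pow_right (p ^ i)
      rw [pow_succ' (π φ), mul_assoc, ih, ← mul_assoc, h2, mul_assoc]
  have hgconj : ∀ x : JZero p, x = z ∨ q ^ r • x = 0 →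
      φ ^ f • (τ • x) = τ ^ p ^ f • (φ ^ f • x) := by
    intro x hx
    rw [← mul_smul, ← mul_smul]
    refine hmk _ _ ?_ x hx
    rw [map_mul, map_mul, map_pow, map_pow]
    exact (hiter f).symm
  have hmain := smul_sub_one_nsmul_eq (n := q ^ r) (P := p ^ f) (g := φ ^ f) (τ := τ) (z := z)
    (Nat.Coprime.pow _ _ ((Nat.coprime_primes hq hp).2 hqp)) (Nat.one_le_pow _ _ hp.pos)
    (nsmul_smul_sub_eq_zero hz) (fun x hx => hGfix τ hτ _ (hGsub τ hτ x hx))
    (fun x hx => hGfrob _ (hGsub τ hτ x hx)) hgconj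
  intro σ hσ
  obtain ⟨k, hk⟩ := hgen σ hσ
  rw [smul_eq_of_mk_eq hk (Or.inr ?_)]
  · clear hk
    induction k with
    | zero => rw [pow_zero, one_smul]
    | succ k ih => rw [pow_succ, mul_smul, hmain, ih]
  · rw [nsmul_left_comm, nsmul_smul_sub_eq_zero hz τ, nsmul_zero]

end Fermat.Agent.Mazur

end
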