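import Fermat.Agent.Mazur.EisenAct
import Fermat.Agent.ES.SpecialMain
import Fermat.Agent.Datum.Roots

/-!
# The integer killing the Eisenstein parts of the torsion of `J₀(p)`
-/

set_option autoImplicit false

noncomputable section

open ModularCurve

namespace Fermat.Agent.Mazur

local notation "ℚbar" => AlgebraicClosure ℚ
local notation "Γℚ" => AlgebraicClosure ℚ ≃ₐ[ℚ] AlgebraicClosure ℚ

theorem eq_zero_of_nsmul_coprime {A : Type*} [AddCommGroup A] {a b : ℕ} (h : a.Coprime b) {x : A}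
    (ha : a • x = 0) (hb : b • x = 0) : x = 0 := by
  obtain ⟨u, v, huv⟩ := (Nat.isCoprime_iff_coprime.mpr h : IsCoprime (a : ℤ) (b : ℤ))
  rw [← one_zsmul x, ← huv, add_zsmul, mul_zsmul, mul_zsmul, natCast_zsmul, natCast_zsmul, ha, hb]
  simp

/-- A Frobenius at `ℓ` multiplies roots of unity of order prime to `ℓ` by `ℓ`. -/
theorem unitsHom_frobenius {A : ValuationSubring ℚbar} {ℓ n : ℕ} (hA : A.LiesOverPrime ℓ)
    {σ : Γℚ} (hσ : A.IsFrobeniusAt σ ℓ) (hln : ℓ.Coprime n) (hn : n ≠ 0)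
    {a : Additive (ℚbar)ˣ} (ha : n • a = 0) : unitsHom σ a = ℓ • a := by
  apply Additive.toMul.injective
  refine Units.ext ?_
  have h := congrArg Units.val (congrArg Additive.toMul ha)
  simp only [toMul_nsmul, Units.val_pow_eq_pow_val, toMul_zero, Units.val_one] at h
  show σ ((Additive.toMul a : (ℚbar)ˣ) : ℚbar) = _
  rw [Datum.frobenius_apply_root hA hσ hln hn h, toMul_nsmul, Units.val_pow_eq_pow_val]

variable {p : ℕ} [Fact p.Prime]

theorem not_dvd_of_notMem {S : Finset ℕ} (hpS : p ∈ S) {ℓ : ℕ} (hℓ : ℓ.Prime) (hℓS : ℓ ∉ S) :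
    ¬ ℓ ∣ p := fun h =>
  hℓS (by rwa [(Nat.prime_dvd_prime_iff_eq hℓ Fact.out).mp h])

theorem not_dvd_mul_of_notMem {q : ℕ} (hq : q.Prime) {S : Finset ℕ} (hpS : p ∈ S) (hqS : q ∈ S)
    {ℓ : ℕ} (hℓ : ℓ.Prime) (hℓS : ℓ ∉ S) : ¬ ℓ ∣ p * q := fun h =>
  (hℓ.dvd_mul.mp h).elim (not_dvd_of_notMem hpS hℓ hℓS)
    fun h' => hℓS (by rwa [(Nat.prime_dvd_prime_iff_eq hℓ hq).mp h'])

/-- Rational torsion of `q`-power order is Eisenstein away from `S`. -/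
theorem eisenstein_of_fixed {q : ℕ} (hq : q.Prime) {S : Finset ℕ} (hpS : p ∈ S) (hqS : q ∈ S)
    (r : ℕ) {x : JZero p} (hx : q ^ r • x = 0) (hfix : ∀ σ : Γℚ, σ • x = x)
    (ℓ : ℕ) (hℓ : ℓ.Prime) (hℓS : ℓ ∉ S) :
    heckeOperatorBar p ⟨ℓ, hℓ⟩ x = (1 + ℓ) • x := by
  obtain ⟨A, hA⟩ := Galois.exists_liesOverPrime hℓ
  obtain ⟨σ, hσ⟩ := Galois.exists_isFrobeniusAt hℓ hA
  have h := ES.frobenius_quadratic (p := q) hℓ (not_dvd_mul_of_notMem hq hpS hqS hℓ hℓS) hA hσ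
    ⟨r, hx⟩
  rw [hfix, hfix, sub_add_eq_add_sub, sub_eq_zero] at h
  rw [← h, add_nsmul, one_nsmul]

/-- The algebra behind `dual_eisenstein`. -/
theorem apply_eq_of_quadratic {A B : Type*} [AddCommGroup A] [AddCommGroup B] (f : A →+ B)
    (g : A → A) {ℓ m : ℕ} (hc : ℓ.Coprime m) (hg : ∀ y, f (g y) = ℓ • f y)
    (hm : ∀ y, m • f y = 0) {x y : A} (h : g (g x) - g y + ℓ • x = 0) :
    f y = (1 + ℓ) • f x := by
  have h1 : ℓ • (ℓ • f x - f y + f x) = 0 := by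
    have e := congrArg f h
    rw [map_add, map_sub, map_zero, map_nsmul, hg, hg, hg] at e
    rw [nsmul_add, nsmul_sub]
    exact e
  have h2 := eq_zero_of_nsmul_coprime hc h1 (by
    rw [nsmul_add, nsmul_sub, hm, hm, smul_comm, hm, smul_zero, sub_zero, add_zero])
  rw [sub_add_eq_add_sub, sub_eq_zero] at h2
  rw [← h2, add_nsmul, one_nsmul, add_comm]

/-- An equivariant character of a Hecke stable Galois submodule of the `q ^ r`-torsion is
Eisenstein away from `S`. -/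
theorem dual_eisenstein {q : ℕ} (hq : q.Prime) {S : Finset ℕ} (hpS : p ∈ S) (hqS : q ∈ S) (r : ℕ)
    (V : GalSub p) (hV : V.carrier ≤ (torsSub p (q ^ r)).carrier) (χ : CartierDual V.carrier)
    (hχ : ∀ σ : Γℚ, σ • χ = χ) (ℓ : ℕ) (hℓ : ℓ.Prime) (hℓS : ℓ ∉ S) (x : V.carrier)
    (hTx : heckeOperatorBar p ⟨ℓ, hℓ⟩ (x : JZero p) ∈ V.carrier) :
    χ.toHom ⟨_, hTx⟩ = (1 + ℓ) • χ.toHom x := by
  have heq : ∀ (σ : Γℚ) (y : V.carrier), χ.toHom (σ • y) = unitsHom σ (χ.toHom y) := fun σ y => by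
    conv_lhs => rw [← hχ σ]
    rw [CartierDual.smul_apply, inv_smul_smul]
  obtain ⟨A, hA⟩ := Galois.exists_liesOverPrime hℓ
  obtain ⟨σ, hσ⟩ := Galois.exists_isFrobeniusAt hℓ hA
  have hln : ℓ.Coprime (q ^ r) :=
    ((Nat.coprime_primes hℓ hq).mpr fun h => hℓS (h ▸ hqS)).pow_right r
  have hn : q ^ r ≠ 0 := pow_ne_zero r hq.ne_zero
  have hkill : ∀ y : V.carrier, q ^ r • χ.toHom y = 0 := fun y => by
    rw [← map_nsmul, show q ^ r • y = 0 from Subtype.ext ((mem_torsSub p).mp (hV y.2)), map_zero]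
  have hfrob : ∀ y : V.carrier, χ.toHom (σ • y) = ℓ • χ.toHom y := fun y => by
    rw [heq, unitsHom_frobenius hA hσ hln hn (hkill y)]
  have hES := ES.frobenius_quadratic (p := q) hℓ (not_dvd_mul_of_notMem hq hpS hqS hℓ hℓS) hA hσ
    (x := (x : JZero p)) ⟨r, (mem_torsSub p).mp (hV x.2)⟩
  have hV0 : σ • σ • x - σ • (⟨_, hTx⟩ : V.carrier) + ℓ • x = 0 := by
    have e := HeckeJ.heckeOperatorBar_galois_smul p ⟨ℓ, hℓ⟩ σ (x : JZero p)
    refine Subtype.ext ?_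
    show σ • σ • (x : JZero p) - σ • heckeOperatorBar p ⟨ℓ, hℓ⟩ (x : JZero p) +
      ℓ • (x : JZero p) = 0
    rw [← e]
    exact hES
  exact apply_eq_of_quadratic χ.toHom (fun y => σ • y) hln hfrob hkill hV0

/-- An element of the Eisenstein ideal kills every character that is Eisenstein. -/
theorem nsmul_apply_eq_zero {R A J B : Type*} [CommRing R] [AddCommGroup A] [AddCommGroup J]
    [AddCommGroup B] (φ : R →+* AddMonoid.End A) (i : A →+ J) (W : AddSubgroup J)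
    (hstab : ∀ t a, i a ∈ W → i (φ t a) ∈ W) (χ : W →+ B) {G : Set R}
    (hG : ∀ g ∈ G, ∃ (T : R) (k : ℕ), g = T - (k : R) ∧ ∀ a (ha : i a ∈ W)
      (hTa : i (φ T a) ∈ W), χ ⟨i (φ T a), hTa⟩ = k • χ ⟨i a, ha⟩)
    {N₀ : ℕ} (hN : (N₀ : R) ∈ Ideal.span G) (a : A) (ha : i a ∈ W) :
    N₀ • χ ⟨i a, ha⟩ = 0 := by
  let ι : W.comap i →+ W :=
    { toFun := fun y => ⟨i y, y.2⟩
      map_zero' := Subtype.ext (map_zero i)
      map_add' := fun u v => Subtype.ext (map_add i (u : A) (v : A)) }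
  have h := endHom_apply_eq_zero_of_mem_span φ (W.comap i) (fun t y hy => hstab t y hy)
    (χ.comp ι) ?_ hN ⟨a, ha⟩
  · rw [← h, ← map_nsmul]
    refine congrArg χ (Subtype.ext ?_)
    show N₀ • i a = i (φ (N₀ : R) a)
    rw [endHom_natCast_apply, map_nsmul]
  · intro g hg z
    obtain ⟨T, k, rfl, hT⟩ := hG g hg
    show χ ⟨i (φ (T - (k : R)) z), _⟩ = 0
    rw [← sub_eq_zero.mpr (hT z z.2 (hstab T z z.2)), ← map_nsmul, ← map_sub]
    refine congrArg χ (Subtype.ext ?_)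
    show i (φ (T - (k : R)) z) = i (φ T z) - k • i z
    rw [endHom_sub_natCast_apply, map_sub, map_nsmul]

theorem exists_eisenstein_annihilator' {q : ℕ} (hq : q.Prime) {S : Finset ℕ} (hpS : p ∈ S)
    (hqS : q ∈ S) :
    ∃ N₀ : ℕ, N₀ ≠ 0 ∧
      (∀ (r : ℕ) (x : JZero p), q ^ r • x = 0 → (∀ σ : Γℚ, σ • x = x) → N₀ • x = 0) ∧
      ∀ (r : ℕ) (V : GalSub p), V.carrier ≤ (torsSub p (q ^ r)).carrier →
        (∀ ℓ : Nat.Primes, (ℓ : ℕ) ∉ S → ∀ x ∈ V.carrier,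
          heckeOperatorBar p ℓ x ∈ V.carrier) →
        ∀ χ : CartierDual V.carrier, (∀ σ : Γℚ, σ • χ = χ) → N₀ • χ = 0 := by
  obtain ⟨N₀, hN₀, hmem⟩ := exists_natCast_mem_eisenstein p (S := (↑S : Set ℕ)) S.finite_toSet
  refine ⟨N₀, hN₀, fun r x hx hfix => ?_, fun r V hV hVT χ hχ => ?_⟩
  · have : NeZero (q ^ r) := ⟨pow_ne_zero r hq.ne_zero⟩
    exact nsmul_eq_zero_of_eisenstein (⟨x, Torsion.mem_jTorsion.mpr hx⟩ : Torsion.jTorsion p (q ^ r))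
      hmem fun ℓ hℓ _ hℓS => eisenstein_of_fixed hq hpS hqS r hx hfix ℓ hℓ (by simpa using hℓS)
  · have : NeZero (q ^ r) := ⟨pow_ne_zero r hq.ne_zero⟩
    refine CartierDual.ext fun x => ?_
    show N₀ • χ.toHom x = 0
    refine nsmul_apply_eq_zero (anemicRep p (↑S : Set ℕ) (q ^ r))
      (Torsion.jTorsion p (q ^ r)).subtype V.carrier
      (fun t a ha => anemicRep_apply_mem V.carrier hVT t a ha) χ.toHom ?_ hmem
      ⟨(x : JZero p), Torsion.mem_jTorsion.mpr ((mem_torsSub p).mp (hV x.2))⟩ x.2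
    rintro _ ⟨ℓ, hℓ, hℓN, hℓS, rfl⟩
    refine ⟨_, _, rfl, fun a ha hTa => ?_⟩
    have hTa' : heckeOperatorBar p ⟨ℓ, hℓ⟩ (a : JZero p) ∈ V.carrier :=
      hVT ⟨ℓ, hℓ⟩ (by simpa using hℓS) _ ha
    refine Eq.trans (congrArg χ.toHom (Subtype.ext (a2 := (⟨_, hTa'⟩ : V.carrier)) ?_))
      (dual_eisenstein hq hpS hqS r V hV χ hχ ℓ hℓ (by simpa using hℓS) ⟨_, ha⟩ hTa')
    exact anemicRep_T _ hℓ hℓN hℓS a

theorem finite_torsSub' (n : ℕ) [NeZero n] : Finite (torsSub p n).carrier :=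
  Finite.of_injective
    (fun x => (⟨(x : JZero p), Torsion.mem_jTorsion.mpr ((mem_torsSub p).mp x.2)⟩ :
      Torsion.jTorsion p n))
    fun _ _ h => Subtype.ext (congrArg (fun y : Torsion.jTorsion p n => (y : JZero p)) h)

end Fermat.Agent.Mazur
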