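import Mathlib

/-!
# Descent: from bounded Selmer images to a Hecke element killing the free part

* `exists_idem_mod`: in a commutative ring with finite quotient modulo `P ^ m`, a lift of the
  idempotent attached to a maximal ideal `𝔓 ∋ P`;
* `exists_notMem_smul_eq_zero`: if the `e`-parts of `M / P ^ m M` are bounded uniformly in `m`,
  some element outside `𝔓` kills the finite torsion-free module `M`.
-/

set_option autoImplicit false

namespace Fermat.Agent.Mazur

variable {T : Type*} [CommRing T]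

/-- A lift of the idempotent of `T / P ^ m` attached to the maximal ideal `𝔓 ∋ P`. -/
theorem exists_idem_mod (𝔓 : Ideal T) [𝔓.IsMaximal] {P : T} (hP : P ∈ 𝔓) {m : ℕ} (hm : m ≠ 0)
    [Finite (T ⧸ Ideal.span {P ^ m})] :
    ∃ e : T, e - 1 ∈ 𝔓 ∧ e * e - e ∈ Ideal.span {P ^ m} ∧
      (∀ x ∉ 𝔓, ∃ y, e * (x * y - 1) ∈ Ideal.span {P ^ m}) ∧
      ∀ x ∈ 𝔓, ∃ k : ℕ, e * x ^ k ∈ Ideal.span {P ^ m} := by
  classical
  set A := T ⧸ Ideal.span {P ^ m}
  set π := Ideal.Quotient.mk (Ideal.span {P ^ m})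
  have hsurj : Function.Surjective π := Ideal.Quotient.mk_surjective
  have hker : RingHom.ker π ≤ 𝔓 := by
    rw [Ideal.mk_ker, Ideal.span_le, Set.singleton_subset_iff]
    exact Ideal.pow_mem_of_mem _ hP m (Nat.pos_of_ne_zero hm)
  have hmem : ∀ x, π x ∈ 𝔓.map π ↔ x ∈ 𝔓 := fun x => by
    rw [Ideal.mem_map_iff_of_surjective π hsurj]
    refine ⟨fun ⟨y, hy, hxy⟩ => ?_, fun h => ⟨x, h, rfl⟩⟩
    have h1 : x - y ∈ 𝔓 := hker (by rw [RingHom.mem_ker, map_sub, hxy, sub_self])
    simpa using add_mem h1 hy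
  have hmax : (𝔓.map π).IsMaximal := by
    refine (Ideal.map_eq_top_or_isMaximal_of_surjective π hsurj ‹_›).resolve_left fun h => ?_
    exact Ideal.IsMaximal.ne_top ‹_› ((Ideal.eq_top_iff_one _).2
      ((hmem 1).1 (by rw [h]; trivial)))
  obtain ⟨k, hk⟩ := IsArtinianRing.isNilpotent_jacobson_bot (R := A)
  have : Fintype (MaximalSpectrum A) := Fintype.ofFinite _
  let 𝔪₀ : MaximalSpectrum A := ⟨𝔓.map π, hmax⟩
  let others : Ideal A := ∏ i ∈ Finset.univ.erase 𝔪₀, i.asIdeal ^ k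
  have hcop : 𝔪₀.asIdeal ^ k ⊔ others = ⊤ := by
    refine Ideal.sup_prod_eq_top fun i hi => ?_
    refine Ideal.pow_sup_pow_eq_top ?_
    exact Ideal.IsMaximal.coprime_of_ne hmax i.isMaximal
      (fun h => (Finset.mem_erase.1 hi).1 (MaximalSpectrum.ext h.symm))
  have hzero : 𝔪₀.asIdeal ^ k * others = ⊥ := by
    have h1 : (𝔪₀.asIdeal ^ k * others) = ∏ i : MaximalSpectrum A, i.asIdeal ^ k :=
      Finset.mul_prod_erase Finset.univ (fun i : MaximalSpectrum A => i.asIdeal ^ k)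
        (Finset.mem_univ _)
    rw [h1, Finset.prod_pow, eq_bot_iff, ← Submodule.zero_eq_bot, ← hk]
    refine Ideal.pow_right_mono ?_ k
    rw [Ideal.jacobson, le_sInf_iff]
    intro J hJ
    exact (Ideal.prod_le_inf).trans (Finset.inf_le (b := (⟨J, hJ.2⟩ : MaximalSpectrum A))
      (Finset.mem_univ _))
  obtain ⟨a, ha, b, hb, hab⟩ := Submodule.mem_sup.1 (hcop ▸ Submodule.mem_top (x := (1 : A)))
  obtain ⟨e, rfl⟩ := hsurj b
  have hkill : ∀ z ∈ 𝔪₀.asIdeal ^ k, π e * z = 0 := fun z hz => by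
    have := Ideal.mul_mem_mul hz hb
    rw [hzero, Ideal.mem_bot] at this
    rw [mul_comm]; exact this
  have hk0 : k ≠ 0 := by
    rintro rfl
    rw [pow_zero, Ideal.one_eq_top] at hk
    exact hmax.ne_top (eq_top_iff.2 (by rw [hk]; exact bot_le))
  refine ⟨e, ?_, ?_, fun x hx => ?_, fun x hx => ⟨k, ?_⟩⟩
  · rw [← hmem, map_sub, map_one]
    have : π e - 1 = -a := by rw [← hab]; ring
    rw [this]
    exact neg_mem (Ideal.pow_le_self hk0 ha)
  · rw [← Ideal.Quotient.eq_zero_iff_mem]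
    have := hkill a ha
    have h2 : π e * π e - π e = -(π e * a) := by
      have : a = 1 - π e := by rw [← hab]; ring
      rw [this]; ring
    rw [map_sub, map_mul]
    exact h2.trans (by rw [this, neg_zero])
  · have hxA : π x ∉ 𝔪₀.asIdeal := fun h => hx ((hmem x).1 h)
    obtain ⟨y, i, hi, hyi⟩ := Ideal.IsMaximal.exists_inv hmax hxA
    obtain ⟨w, hw⟩ := hsurj (∑ j ∈ Finset.range k, i ^ j)
    obtain ⟨y', rfl⟩ := hsurj y
    refine ⟨y' * w, ?_⟩
    rw [← Ideal.Quotient.eq_zero_iff_mem, map_mul, map_sub, map_mul, map_mul, map_one]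
    change π e * (π x * (π y' * π w) - 1) = 0
    have h1 : π x * (π y' * π w) - 1 = -i ^ k := by
      have : π x * π y' = 1 - i := by rw [← hyi]; ring
      rw [← mul_assoc, this, hw, mul_neg_geom_sum]
      ring
    rw [h1]
    exact hkill _ (neg_mem (Ideal.pow_mem_pow hi k))
  · rw [← Ideal.Quotient.eq_zero_iff_mem, map_mul, map_pow]
    exact hkill _ (Ideal.pow_mem_pow ((hmem x).2 hx) k)

/-- If an element `e` congruent to one modulo `𝔓` has bounded image in `M / P ^ m M`, then some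
element outside `𝔓` kills the finite torsion-free module `M`. -/
theorem exists_notMem_smul_eq_zero {M : Type*} [AddCommGroup M] [Module T M] [Module.Finite T M]
    (𝔓 : Ideal T) [𝔓.IsMaximal] {P : ℕ} (hP : (P : T) ∈ 𝔓)
    (htf : ∀ x : M, P • x = 0 → x = 0) {m : ℕ} {e : T} (he : e - 1 ∈ 𝔓)
    (F : Finset M) (hF : F.card < m + 1)
    (hbound : ∀ x : M, ∃ z ∈ F, ∃ w : M, e • x = z + P ^ m • w) :
    ∃ t ∉ 𝔓, ∀ x : M, t • x = 0 := by
  classical
  have hsub : ∀ x : M, e • x ∈ 𝔓 • (⊤ : Submodule T M) := by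
    intro x
    have hPM : ∀ w : M, P • w ∈ 𝔓 • (⊤ : Submodule T M) := fun w => by
      rw [← Nat.cast_smul_eq_nsmul T]
      exact Submodule.smul_mem_smul hP trivial
    choose z hz w hw using fun j : Fin (m + 1) => hbound (P ^ (j : ℕ) • x)
    obtain ⟨i, -, j, -, hij, hzij⟩ :=
      Finset.exists_ne_map_eq_of_card_lt_of_maps_to (s := Finset.univ) (t := F)
        (by simpa using hF) (f := z) (fun j _ => hz j)
    wlog hlt : (i : ℕ) < j generalizing i j
    · exact this j i hij.symm hzij.symm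
        (lt_of_le_of_ne (not_lt.1 hlt) fun h => hij (Fin.ext h.symm))
    have hi : (i : ℕ) < m := lt_of_lt_of_le hlt (Nat.lt_succ_iff.1 j.2)
    obtain ⟨d, hd⟩ : ∃ d, (j : ℕ) = i + (d + 1) := ⟨j - i - 1, by omega⟩
    obtain ⟨c, hc⟩ : ∃ c, m = i + (c + 1) := ⟨m - i - 1, by omega⟩
    have h1 := hw i
    have h2 := hw j
    rw [smul_comm e] at h1 h2
    have h3 : P ^ (i : ℕ) • (e • x - P ^ (d + 1) • e • x - P ^ (c + 1) • (w i - w j)) = 0 := by
      rw [smul_sub, smul_sub, smul_smul, smul_smul, ← pow_add, ← pow_add, ← hd, ← hc, h1, h2,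
        hzij, smul_sub]
      abel
    have h4 : ∀ (n : ℕ) (y : M), P ^ n • y = 0 → y = 0 := fun n => by
      induction n with
      | zero => intro y hy; simpa using hy
      | succ n ih => intro y hy; exact ih y (htf _ (by rwa [smul_smul, ← pow_succ']))
    have h5 := h4 _ _ h3
    rw [sub_eq_zero] at h5
    rw [sub_eq_iff_eq_add.1 h5, pow_succ', mul_smul, pow_succ', mul_smul]
    exact add_mem (hPM _) (hPM _)
  have htop : (⊤ : Submodule T M) ≤ 𝔓 • (⊤ : Submodule T M) := fun x _ => by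
    have h1 : (e - 1) • x ∈ 𝔓 • (⊤ : Submodule T M) := Submodule.smul_mem_smul he trivial
    have : x = e • x - (e - 1) • x := by rw [sub_smul, one_smul]; abel
    rw [this]
    exact sub_mem (hsub x) h1
  obtain ⟨r, hr, hr'⟩ := Submodule.exists_sub_one_mem_and_smul_eq_zero_of_fg_of_le_smul 𝔓
    (⊤ : Submodule T M) Module.Finite.fg_top htop
  refine ⟨r, fun h => ?_, fun x => hr' x trivial⟩
  exact Ideal.IsMaximal.ne_top ‹_› ((Ideal.eq_top_iff_one _).2 (by simpa using sub_mem h hr))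

end Fermat.Agent.Mazur
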