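import Mathlib

/-!
# Modules whose group action is residually `1 + ω`

If `(g - 1) (g - ω g)` acts nilpotently for every `g`, every simple constituent has order `q`
and trivial or `ω` action.
-/

set_option autoImplicit false

namespace Fermat.Agent.Mazur

variable {G A : Type*} [Group G] [AddCommGroup A]

theorem endPoly_apply {B : Type*} [AddCommGroup B] (u : AddMonoid.End B) (c : ℕ) (z : B) :
    ((u - 1) * (u - (c : AddMonoid.End B))) z = u (u z - c • z) - (u z - c • z) := by
  show u ((u - (c : AddMonoid.End B)) z) - (u - (c : AddMonoid.End B)) z = _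
  have h : (u - (c : AddMonoid.End B)) z = u z - c • z := by
    show u z - (c : AddMonoid.End B) z = _
    rw [AddMonoid.End.natCast_apply]
  rw [h]

/-- A simple module of this kind has order `q` and a scalar action by `1` or by `a`. -/
theorem scalar_of_simple [Finite A] [Nontrivial A] (ρ : G →* AddMonoid.End A) {q : ℕ}
    (hq : q.Prime) (a : G →* ZMod q) (hq0 : ∀ x : A, q • x = 0)
    (hsimple : ∀ B : AddSubgroup A, (∀ g, ∀ x ∈ B, ρ g x ∈ B) → B = ⊥ ∨ B = ⊤)
    (hnil : ∀ g, IsNilpotent ((ρ g - 1) * (ρ g - ((a g).val : AddMonoid.End A)))) :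
    Nat.card A = q ∧ ((∀ g x, ρ g x = x) ∨ ∀ g x, ρ g x = (a g).val • x) := by
  classical
  have : Fact q.Prime := ⟨hq⟩
  have hqE : (q : AddMonoid.End A) = 0 := DFunLike.ext _ _ fun x => by
    rw [AddMonoid.End.natCast_apply]; simpa using hq0 x
  have : Nontrivial (AddMonoid.End A) := by
    obtain ⟨x, hx⟩ := exists_ne (0 : A)
    exact ⟨⟨1, 0, fun h => hx (by simpa using DFunLike.congr_fun h x)⟩⟩
  have : CharP (AddMonoid.End A) q := (CharP.charP_iff_prime_eq_zero hq).2 hqE
  let k : Subgroup G := a.toHomUnits.ker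
  have hmem : ∀ g, g ∈ k ↔ a g = 1 := fun g => by
    simp only [k, MonoidHom.mem_ker, Units.ext_iff, MonoidHom.coe_toHomUnits, Units.val_one]
  -- the kernel of `a` acts unipotently
  have hpow : ∀ g ∈ k, ∃ j : ℕ, ρ g ^ q ^ j = 1 := by
    intro g hg
    obtain ⟨n, hn⟩ := hnil g
    rw [(hmem g).1 hg, ZMod.val_one, Nat.cast_one, ← pow_two, ← pow_mul] at hn
    refine ⟨2 * n, sub_eq_zero.1 ?_⟩
    have h1 := sub_pow_char_pow_of_commute (p := q) (n := 2 * n) (Commute.one_right (ρ g))
    rw [one_pow] at h1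
    rw [← h1]
    exact pow_eq_zero_of_le (Nat.lt_pow_self hq.one_lt).le hn
  let U : Subgroup (AddMonoid.End A)ˣ := ((ρ.toHomUnits).comp k.subtype).range
  have hU : IsPGroup q U := by
    rintro ⟨u, ⟨g, rfl⟩⟩
    obtain ⟨j, hj⟩ := hpow g g.2
    exact ⟨j, Subtype.ext (Units.ext (by simpa using hj))⟩
  obtain ⟨x₀, hx₀⟩ := exists_ne (0 : A)
  have hdvd : q ∣ Nat.card A := by
    rw [← addOrderOf_eq_prime (hq0 x₀) hx₀]; exact addOrderOf_dvd_natCard x₀
  obtain ⟨b, hb, hb0⟩ := hU.exists_fixed_point_of_prime_dvd_card_of_fixed_point A hdvd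
    (a := 0) (fun u => smul_zero u)
  have hk : ∀ g ∈ k, ρ g = 1 := by
    let F : AddSubgroup A :=
      { carrier := {x | ∀ g ∈ k, ρ g x = x}
        zero_mem' := fun g _ => map_zero _
        add_mem' := fun hx hy g hg => by rw [map_add, hx g hg, hy g hg]
        neg_mem' := fun hx g hg => by rw [map_neg, hx g hg] }
    rcases hsimple F fun g x hx k' hk' => by
      have h1 := hx (g⁻¹ * k' * g) ((MonoidHom.normal_ker _).conj_mem' _ hk' g)
      conv_rhs => rw [← h1]
      show (ρ k' * ρ g) x = (ρ g * ρ (g⁻¹ * k' * g)) x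
      rw [← map_mul, ← map_mul, ← mul_assoc, ← mul_assoc, mul_inv_cancel, one_mul] with h | h
    · exact absurd ((AddSubgroup.mem_bot).1 (h ▸ (fun g hg => hb ⟨_, ⟨⟨g, hg⟩, rfl⟩⟩ : b ∈ F)))
        (Ne.symm hb0)
    · intro g hg
      exact DFunLike.ext _ _ fun x => (h ▸ AddSubgroup.mem_top x : x ∈ F) g hg
  have hcomm : ∀ g h : G, Commute (ρ g) (ρ h) := fun g h => by
    have hc : g * h * g⁻¹ * h⁻¹ ∈ k := by
      rw [show g * h * g⁻¹ * h⁻¹ = g * h * (h * g)⁻¹ by group, MonoidHom.mem_ker, map_mul,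
        map_inv, map_mul, map_mul, mul_comm (a.toHomUnits g), mul_inv_cancel]
    calc ρ g * ρ h = ρ (g * h * g⁻¹ * h⁻¹) * (ρ h * ρ g) := by
          rw [← map_mul, ← map_mul, ← map_mul]; congr 1; group
      _ = ρ h * ρ g := by rw [hk _ hc, one_mul]
  have hone : ∀ g, ρ g = 1 ∨ ρ g = ((a g).val : AddMonoid.End A) := by
    intro g
    obtain ⟨n, hn⟩ := hnil g
    set c : AddMonoid.End A := ((a g).val : AddMonoid.End A) with hc
    have hgc : Commute (ρ g - 1) (ρ g - c) :=
      ((Commute.refl _).sub_left (Commute.one_left _)).sub_right (Nat.cast_commute _ _).symm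
    rw [hgc.mul_pow] at hn
    have hstab : ∀ d : AddMonoid.End A, (∀ h, Commute d (ρ h)) →
        d = 0 ∨ Function.Injective d := by
      intro d hd
      rcases hsimple (d : A →+ A).ker fun h x hx => by
        have h2 : d (ρ h x) = ρ h (d x) := DFunLike.congr_fun (hd h).eq x
        show d (ρ h x) = 0
        exact h2.trans (by rw [show d x = 0 from hx, map_zero]) with h | h
      · exact .inr ((AddMonoidHom.ker_eq_bot_iff _).1 h)
      · exact .inl (DFunLike.ext _ _ fun x => (h ▸ AddSubgroup.mem_top x : x ∈ (d : A →+ A).ker))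
    rcases hstab (ρ g - 1) fun h => (hcomm g h).sub_left (Commute.one_left _) with h1 | h1
    · exact .inl (sub_eq_zero.1 h1)
    rcases hstab (ρ g - c) fun h => (hcomm g h).sub_left (Nat.cast_commute _ _) with h2 | h2
    · exact .inr (sub_eq_zero.1 h2)
    exfalso
    refine one_ne_zero (α := AddMonoid.End A) (DFunLike.ext _ _ fun x => ?_)
    refine (h2.iterate n) ((h1.iterate n) ?_)
    simpa [← AddMonoid.End.coe_pow] using DFunLike.congr_fun hn x
  have hall : (∀ g, ρ g = 1) ∨ ∀ g, ρ g = ((a g).val : AddMonoid.End A) := by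
    by_contra hcon
    push Not at hcon
    obtain ⟨⟨g, hg⟩, h, hh⟩ := hcon
    have hga := (hone g).resolve_left hg
    have hh1 := (hone h).resolve_right hh
    have hgh : ρ (g * h) = ρ g := by rw [map_mul, hh1, mul_one]
    rcases hone (g * h) with h3 | h3
    · exact hg (hgh.symm.trans h3)
    · let ι := ZMod.castHom (dvd_refl q) (AddMonoid.End A)
      have hι : ∀ z : ZMod q, ι z = (z.val : AddMonoid.End A) := fun z => by
        rw [← map_natCast ι z.val, ZMod.natCast_zmod_val]
      have h4 : ι (a g * a h) = ι (a g) := by rw [← map_mul, hι, ← h3, hgh, hga, hι]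
      have h5 : a g * a h = a g := (ZMod.castHom_injective _) h4
      have h6 : a g ≠ 0 := fun h0 => by
        have h7 : a g * a g⁻¹ = 1 := by rw [← map_mul, mul_inv_cancel, map_one]
        rw [h0, zero_mul] at h7
        exact zero_ne_one h7
      exact hh (by rw [(mul_eq_left₀ h6).1 h5, ZMod.val_one, Nat.cast_one, hh1])
  refine ⟨?_, hall.imp (fun h g x => by rw [h g]; rfl)
    (fun h g x => by rw [h g, AddMonoid.End.natCast_apply])⟩
  rcases hsimple (AddSubgroup.zmultiples x₀) fun g x hx => by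
    rcases hone g with h | h <;> rw [h]
    · exact hx
    · rw [AddMonoid.End.natCast_apply]; exact AddSubgroup.nsmul_mem _ hx _ with h | h
  · exact absurd ((AddSubgroup.mem_bot).1 (h ▸ AddSubgroup.mem_zmultiples x₀)) hx₀
  · rw [← addOrderOf_eq_prime (hq0 x₀) hx₀, ← Nat.card_zmultiples x₀, h, AddSubgroup.card_top]

/-- The filtration step: above every proper stable subgroup there is one of index `q`, with
scalar action `1` or `a` on the quotient. -/
theorem exists_piece_above [Finite A] (ρ : G →* AddMonoid.End A) {q : ℕ} (hq : q.Prime)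
    (a : G →* ZMod q) {m : ℕ} (hqm : ∀ x : A, q ^ m • x = 0)
    (hnil : ∀ g, IsNilpotent ((ρ g - 1) * (ρ g - ((a g).val : AddMonoid.End A))))
    (M₁ : AddSubgroup A) (hM₁ : ∀ g, ∀ x ∈ M₁, ρ g x ∈ M₁) (htop : M₁ ≠ ⊤) :
    ∃ M₂ : AddSubgroup A, (∀ g, ∀ x ∈ M₂, ρ g x ∈ M₂) ∧ M₁ ≤ M₂ ∧ M₁.relIndex M₂ = q ∧
      ((∀ g, ∀ x ∈ M₂, ρ g x - x ∈ M₁) ∨ ∀ g, ∀ x ∈ M₂, ρ g x - (a g).val • x ∈ M₁) := by
  classical
  obtain ⟨M₂, ⟨hM₂, hlt⟩, hmin⟩ := (wellFounded_lt (α := AddSubgroup A)).has_min
    {B | (∀ g, ∀ x ∈ B, ρ g x ∈ B) ∧ M₁ < B}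
    ⟨⊤, fun g x _ => AddSubgroup.mem_top _, lt_of_le_of_ne le_top htop⟩
  refine ⟨M₂, hM₂, hlt.le, ?_⟩
  have hbetween : ∀ B : AddSubgroup A, (∀ g, ∀ x ∈ B, ρ g x ∈ B) → M₁ ≤ B → B ≤ M₂ →
      B = M₁ ∨ B = M₂ := by
    intro B hB h1 h2
    rcases h1.eq_or_lt with h | h
    · exact .inl h.symm
    · exact .inr (by_contra fun hne => hmin B ⟨hB, h⟩ (lt_of_le_of_ne h2 hne))
  have hq1 : ∀ x ∈ M₂, q • x ∈ M₁ := by
    let S : AddSubgroup A := M₁ ⊔ M₂.map (nsmulAddMonoidHom q)
    rcases hbetween S (fun g x hx => by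
        obtain ⟨u, hu, _, ⟨v, hv, rfl⟩, rfl⟩ := AddSubgroup.mem_sup.1 hx
        rw [map_add]
        refine AddSubgroup.add_mem_sup (hM₁ g u hu) ⟨ρ g v, hM₂ g v hv, ?_⟩
        exact (map_nsmul (ρ g) q v).symm) le_sup_left
      (sup_le hlt.le (by rintro _ ⟨v, hv, rfl⟩; exact M₂.nsmul_mem hv q)) with h | h
    · intro x hx
      exact h ▸ AddSubgroup.mem_sup_right ⟨x, hx, rfl⟩
    · exfalso
      have : ∀ (j : ℕ), ∀ x ∈ M₂, ∃ v ∈ M₂, x - q ^ j • v ∈ M₁ := by
        intro j
        induction j with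
        | zero => exact fun x hx => ⟨x, hx, by simp⟩
        | succ j ih =>
          intro x hx
          obtain ⟨v, hv, hxv⟩ := ih x hx
          obtain ⟨u, hu, _, ⟨w, hw, rfl⟩, rfl⟩ := AddSubgroup.mem_sup.1 (h.symm ▸ hv : v ∈ S)
          refine ⟨w, hw, ?_⟩
          have h2 := add_mem hxv (M₁.nsmul_mem hu (q ^ j))
          simp only [nsmulAddMonoidHom_apply, smul_add, smul_smul, ← pow_succ] at h2
          convert h2 using 1
          abel
      refine hlt.not_ge fun x hx => ?_
      obtain ⟨v, -, hv⟩ := this m x hx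
      simpa [hqm v] using hv
  let M₁' : AddSubgroup M₂ := M₁.addSubgroupOf M₂
  let res : G → AddMonoid.End M₂ := fun g =>
    ((ρ g : A →+ A).comp M₂.subtype).codRestrict M₂ fun x => hM₂ g x x.2
  have hres : ∀ (g : G) (x : M₂), (res g x : A) = ρ g x := fun g x => rfl
  let act : G → AddMonoid.End (M₂ ⧸ M₁') := fun g =>
    QuotientAddGroup.map M₁' M₁' (res g) fun x hx => hM₁ g x hx
  have hact : ∀ (g : G) (x : M₂), act g x = ((res g x : M₂) : M₂ ⧸ M₁') := fun g x =>
    QuotientAddGroup.map_mk M₁' M₁' _ _ x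
  let ρ' : G →* AddMonoid.End (M₂ ⧸ M₁') :=
    { toFun := act
      map_one' := DFunLike.ext _ _ fun z => by
        induction z using QuotientAddGroup.induction_on with
        | H x => rw [hact]; exact congrArg _ (Subtype.ext (by rw [hres, map_one]; rfl))
      map_mul' := fun g h => DFunLike.ext _ _ fun z => by
        induction z using QuotientAddGroup.induction_on with
        | H x =>
          rw [AddMonoid.End.coe_mul, Function.comp_apply, hact, hact, hact]
          exact congrArg _ (Subtype.ext (by rw [hres, hres, hres, map_mul]; rfl)) }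
  have : Nontrivial (M₂ ⧸ M₁') := by
    obtain ⟨x, hx2, hx1⟩ := SetLike.exists_of_lt hlt
    exact ⟨⟨((⟨x, hx2⟩ : M₂) : M₂ ⧸ M₁'), 0, fun h =>
      hx1 ((QuotientAddGroup.eq_zero_iff (⟨x, hx2⟩ : M₂)).1 h)⟩⟩
  obtain ⟨hcard, hcases⟩ := scalar_of_simple ρ' hq a (fun z => by
      induction z using QuotientAddGroup.induction_on with
      | H x =>
        rw [← QuotientAddGroup.mk_nsmul, QuotientAddGroup.eq_zero_iff]
        exact hq1 x x.2)
    (fun B hB => by
      let B' : AddSubgroup A := ((B.comap (QuotientAddGroup.mk' M₁')).map M₂.subtype)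
      have hB' : ∀ x : A, x ∈ B' ↔ ∃ hx : x ∈ M₂, ((⟨x, hx⟩ : M₂) : M₂ ⧸ M₁') ∈ B := fun x => by
        constructor
        · rintro ⟨y, hy, rfl⟩; exact ⟨y.2, hy⟩
        · rintro ⟨hx, hy⟩; exact ⟨⟨x, hx⟩, hy, rfl⟩
      rcases hbetween B' (fun g x hx => by
          obtain ⟨hx2, hx⟩ := (hB' x).1 hx
          refine (hB' _).2 ⟨hM₂ g x hx2, ?_⟩
          have h1 := hB g _ hx
          change act g _ ∈ B at h1
          rwa [hact] at h1)
        (fun x hx => (hB' x).2 ⟨hlt.le hx, by
          rw [(QuotientAddGroup.eq_zero_iff (⟨x, hlt.le hx⟩ : M₂)).2 hx]; exact B.zero_mem⟩)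
        (fun x hx => ((hB' x).1 hx).1) with h | h
      · refine .inl ((AddSubgroup.eq_bot_iff_forall _).2 fun z => ?_)
        induction z using QuotientAddGroup.induction_on with
        | H x =>
          intro hz
          exact (QuotientAddGroup.eq_zero_iff _).2 (h ▸ (hB' _).2 ⟨x.2, hz⟩ : (x : A) ∈ M₁)
      · refine .inr ((AddSubgroup.eq_top_iff' _).2 fun z => ?_)
        induction z using QuotientAddGroup.induction_on with
        | H x => exact ((hB' x).1 (h.symm ▸ x.2)).2)
    (fun g => by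
      obtain ⟨n, hn⟩ := hnil g
      refine ⟨n, DFunLike.ext _ _ fun z => ?_⟩
      induction z using QuotientAddGroup.induction_on with
      | H x =>
        have key : ∀ j : ℕ, ∃ hy : (((ρ g - 1) * (ρ g - ((a g).val : AddMonoid.End A))) ^ j) x ∈ M₂,
            (((ρ' g - 1) * (ρ' g - ((a g).val : AddMonoid.End (M₂ ⧸ M₁')))) ^ j) x
              = ((⟨_, hy⟩ : M₂) : M₂ ⧸ M₁') := by
          intro j
          induction j with
          | zero => exact ⟨x.2, rfl⟩
          | succ j ih =>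
            obtain ⟨hy, hj⟩ := ih
            set y := ((((ρ g - 1) * (ρ g - ((a g).val : AddMonoid.End A))) ^ j) x)
            have hy1 : ρ g y - (a g).val • y ∈ M₂ := sub_mem (hM₂ g y hy) (M₂.nsmul_mem hy _)
            have hstep : (((ρ g - 1) * (ρ g - ((a g).val : AddMonoid.End A))) ^ (j + 1)) x =
                ρ g (ρ g y - (a g).val • y) - (ρ g y - (a g).val • y) := by
              rw [pow_succ', AddMonoid.End.coe_mul, Function.comp_apply]
              exact endPoly_apply _ _ _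
            refine ⟨hstep ▸ sub_mem (hM₂ g _ hy1) hy1, ?_⟩
            rw [pow_succ', AddMonoid.End.coe_mul, Function.comp_apply, hj, endPoly_apply]
            change act g (act g _ - (a g).val • _) - (act g _ - (a g).val • _) = _
            rw [hact, ← QuotientAddGroup.mk_nsmul, ← QuotientAddGroup.mk_sub, hact,
              ← QuotientAddGroup.mk_sub]
            exact congrArg _ (Subtype.ext hstep.symm)
        obtain ⟨hy, hz⟩ := key n
        rw [hz]
        refine (QuotientAddGroup.eq_zero_iff _).2 ?_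
        change (((ρ g - 1) * (ρ g - ((a g).val : AddMonoid.End A))) ^ n) x ∈ M₁
        rw [hn]; exact M₁.zero_mem)
  refine ⟨?_, ?_⟩
  · rw [← hcard]; rfl
  · refine hcases.imp (fun h g x hx => ?_) (fun h g x hx => ?_)
    · have h1 := h g ((⟨x, hx⟩ : M₂) : M₂ ⧸ M₁')
      change act g _ = _ at h1
      rw [hact, eq_comm, QuotientAddGroup.eq_iff_sub_mem] at h1
      have := M₁.neg_mem h1
      simpa [M₁', AddSubgroup.mem_addSubgroupOf, hres] using this
    · have h1 := h g ((⟨x, hx⟩ : M₂) : M₂ ⧸ M₁')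
      change act g _ = _ at h1
      rw [hact, ← QuotientAddGroup.mk_nsmul, QuotientAddGroup.eq_iff_sub_mem] at h1
      simpa [M₁', AddSubgroup.mem_addSubgroupOf, hres] using h1

end Fermat.Agent.Mazur
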