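/-
Mazur's Eisenstein descent: the projector to the Eisenstein part of the `q`-power torsion of
`J₀(p)`.
-/
import Fermat.Agent.Mazur.Defs
import Fermat.Agent.Mazur.EisenPiece
import Fermat.Agent.Mazur.EisenAnnihilator
import Fermat.Agent.Mazur.DescentFinite
import Fermat.Agent.Torsion.Main
import Fermat.Agent.HeckeJ.Operator
import Fermat.Agent.ES.SpecialMain
import Fermat.Agent.MW.WeakStabilizer
import Fermat.Agent.GaloisAdic.PadicHom
import Fermat.Agent.Density.Main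
import Fermat.Agent.Datum.Roots

set_option autoImplicit false

noncomputable section

namespace Fermat.Agent.Mazur

open ModularCurve Polynomial

local notation "ℚbar" => AlgebraicClosure ℚ
local notation "Γℚ" => AlgebraicClosure ℚ ≃ₐ[ℚ] AlgebraicClosure ℚ

/-- The nilpotency of `(v - 1) (v - c)` for a power `v = u ^ k`, from that of `(u - 1) (u - ℓ)`
and of `q`, when `c ≡ ℓ ^ k` modulo `q`. -/
theorem isNilpotent_pow_poly {R : Type*} [Ring R] (u : R) {q ℓ c k : ℕ}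
    (hA : IsNilpotent ((u - 1) * (u - (ℓ : R)))) (hqR : IsNilpotent (q : R))
    (hc : (c : ZMod q) = (ℓ : ZMod q) ^ k) : IsNilpotent ((u ^ k - 1) * (u ^ k - (c : R))) := by
  obtain ⟨z, hz⟩ : (q : ℤ) ∣ (ℓ : ℤ) ^ k - c := by
    rw [← ZMod.intCast_zmod_eq_zero_iff_dvd]
    push_cast
    rw [hc, sub_self]
  let φ : ℤ[X] →+* R := (Polynomial.aeval u).toRingHom
  have hX : φ X = u := Polynomial.aeval_X u
  obtain ⟨Q, hQ⟩ : ((X - 1) * (X - (ℓ : ℤ[X]))) ∣ ((X ^ k - 1) * (X ^ k - (ℓ : ℤ[X]) ^ k)) :=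
    mul_dvd_mul (by simpa using sub_dvd_pow_sub_pow (X : ℤ[X]) 1 k) (sub_dvd_pow_sub_pow _ _ k)
  have key : (X ^ k - 1) * (X ^ k - (c : ℤ[X]))
      = (X - 1) * (X - (ℓ : ℤ[X])) * Q + (q : ℤ[X]) * ((X ^ k - 1) * (z : ℤ[X])) := by
    rw [← hQ]
    have hz' := congrArg (Int.cast : ℤ → ℤ[X]) hz
    push_cast at hz'
    linear_combination (X ^ k - 1 : ℤ[X]) * hz'
  have h1 : IsNilpotent (φ ((X - 1) * (X - (ℓ : ℤ[X])) * Q)) := by
    rw [map_mul]
    refine ((Commute.all _ Q).map φ).isNilpotent_mul_right ?_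
    simpa [hX] using hA
  have h2 : IsNilpotent (φ ((q : ℤ[X]) * ((X ^ k - 1) * (z : ℤ[X])))) := by
    rw [map_mul, map_natCast]
    exact (Nat.cast_commute q _).isNilpotent_mul_right hqR
  have h3 := ((Commute.all _ _).map φ).isNilpotent_add h1 h2
  rw [← map_add, ← key] at h3
  simpa [hX] using h3

theorem zsmul_eq_self_of_idem {A : Type*} [AddCommGroup A] {q r : ℕ} (hq : q.Prime) {a : ℤ}
    (h1 : (a : ZMod q) = 1) {x : A} (h : a • a • x = a • x) (hx : q ^ r • x = 0) : a • x = x := by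
  have : Fact q.Prime := ⟨hq⟩
  have hcop : IsCoprime a ((q : ℤ) ^ r) := by
    refine (((Nat.prime_iff_prime_int.1 hq).coprime_iff_not_dvd).2 ?_).symm.pow_right
    rw [← ZMod.intCast_zmod_eq_zero_iff_dvd, h1]
    exact one_ne_zero
  obtain ⟨u, w, huw⟩ := hcop
  have h4 : a • (a • x - x) = 0 := by rw [smul_sub, h, sub_self]
  have h6 : ((q : ℤ) ^ r) • (a • x - x) = 0 := by
    rw [← Nat.cast_pow, natCast_zsmul, smul_sub, smul_comm, hx, smul_zero, sub_zero]
  rw [← sub_eq_zero]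
  calc a • x - x = (u * a + w * (q : ℤ) ^ r) • (a • x - x) := by rw [huw, one_smul]
    _ = 0 := by rw [add_smul, mul_smul, mul_smul, h4, h6, smul_zero, smul_zero, add_zero]

variable {p : ℕ} [Fact p.Prime]

variable (p) in
/-- `T_ℓ - (1 + ℓ)`. -/
def eisensteinOp (ℓ : Nat.Primes) : AddMonoid.End (JZero p) :=
  HSub.hSub (α := AddMonoid.End (JZero p)) (heckeOperatorBar p ℓ).toAddMonoidHom
    ((1 + (ℓ : ℕ) : ℕ) : AddMonoid.End (JZero p))

theorem eisensteinOp_apply (ℓ : Nat.Primes) (x : JZero p) :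
    eisensteinOp p ℓ x = heckeOperatorBar p ℓ x - (1 + (ℓ : ℕ)) • x := by
  show heckeOperatorBar p ℓ x - ((1 + (ℓ : ℕ) : ℕ) : AddMonoid.End (JZero p)) x = _
  rw [AddMonoid.End.natCast_apply]

theorem eisensteinOp_mem {S : Finset ℕ} {ℓ : Nat.Primes} (hℓ : (ℓ : ℕ) ∉ S) :
    eisensteinOp p ℓ ∈ heckeAway p S :=
  sub_mem (Subring.subset_closure ⟨ℓ, hℓ, rfl⟩) (natCast_mem _ _)

/-- An element of `heckeAway` acts on all Eisenstein vectors by one integer. -/
theorem exists_eisenstein_scalar {S : Finset ℕ} {E : AddMonoid.End (JZero p)}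
    (hE : E ∈ heckeAway p S) :
    ∃ k : ℤ, ∀ x : JZero p, IsEisensteinVector p S x → E x = k • x := by
  induction hE using Subring.closure_induction with
  | mem t ht =>
    obtain ⟨ℓ, hℓ, rfl⟩ := ht
    refine ⟨((1 + (ℓ : ℕ) : ℕ) : ℤ), fun x hx => ?_⟩
    rw [natCast_zsmul]
    exact hx ℓ hℓ
  | zero => exact ⟨0, fun x _ => (zero_zsmul x).symm⟩
  | one => exact ⟨1, fun x _ => (one_zsmul x).symm⟩
  | add a b _ _ ha hb =>
    obtain ⟨k, hk⟩ := ha
    obtain ⟨j, hj⟩ := hb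
    exact ⟨k + j, fun x hx => by
      show a x + b x = _
      rw [hk x hx, hj x hx, add_zsmul]⟩
  | neg a _ ha =>
    obtain ⟨k, hk⟩ := ha
    exact ⟨-k, fun x hx => by
      show -a x = _
      rw [hk x hx, neg_zsmul]⟩
  | mul a b _ _ ha hb =>
    obtain ⟨k, hk⟩ := ha
    obtain ⟨j, hj⟩ := hb
    exact ⟨k * j, fun x hx => by
      show a (b x) = _
      rw [hj x hx, map_zsmul, hk x hx, ← mul_zsmul, mul_comm]⟩

/-- An idempotent of a commutative algebra of endomorphisms of a finite `q`-group, attached to a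
common eigenvector of order `q`. -/
theorem exists_idem_of_eigenvector {A : Type*} [AddCommGroup A] [Finite A]
    (R : Subring (AddMonoid.End A)) (hR : ∀ a ∈ R, ∀ b ∈ R, a * b = b * a) {q m : ℕ}
    (hq : q.Prime) (hm : m ≠ 0) (hqA : ∀ x : A, q ^ m • x = 0) (v : A) (hord : addOrderOf v = q)
    (heig : ∀ t ∈ R, ∃ k : ℤ, t v = k • v) :
    ∃ e ∈ R, e * e = e ∧ (∀ k : ℤ, e v = k • v → (k : ZMod q) = 1) ∧
      ∀ t ∈ R, t v = 0 → ∃ j : ℕ, t ^ j * e = 0 := by
  classical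
  have : Fact q.Prime := ⟨hq⟩
  let _ : CommRing R :=
    { R.toRing with mul_comm := fun a b => Subtype.ext (hR a a.2 b b.2) }
  have hex : ∀ t : R, ∃ k : ℤ, (t : AddMonoid.End A) v = k • v := fun t => heig t t.2
  choose k hk using hex
  have huniq : ∀ (t : R) (j : ℤ), (t : AddMonoid.End A) v = j • v → (k t : ZMod q) = j :=
    fun t j h => by
      rw [ZMod.intCast_eq_intCast_iff]
      have h2 := zsmul_eq_zsmul_iff_modEq.1 ((hk t).symm.trans h)
      rwa [hord] at h2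
  let χ : R →+* ZMod q :=
    { toFun := fun t => (k t : ZMod q)
      map_one' := (huniq 1 1 (one_smul ℤ v).symm).trans Int.cast_one
      map_mul' := fun a b => (huniq (a * b) (k a * k b) (by
          show (a : AddMonoid.End A) ((b : AddMonoid.End A) v) = _
          rw [hk b, map_zsmul, hk a, smul_smul, mul_comm])).trans (Int.cast_mul _ _)
      map_zero' := (huniq 0 0 (zero_smul ℤ v).symm).trans Int.cast_zero
      map_add' := fun a b => (huniq (a + b) (k a + k b) (by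
          show (a : AddMonoid.End A) v + (b : AddMonoid.End A) v = _
          rw [hk a, hk b, add_smul])).trans (Int.cast_add _ _) }
  have hmax : (RingHom.ker χ).IsMaximal :=
    RingHom.ker_isMaximal_of_surjective χ (ZMod.ringHom_surjective χ)
  have hP : (q : R) ∈ RingHom.ker χ := by
    rw [RingHom.mem_ker, map_natCast, ZMod.natCast_self]
  have hPm : Ideal.span {(q : R) ^ m} = ⊥ := by
    rw [Ideal.span_singleton_eq_bot]
    refine Subtype.ext (DFunLike.ext _ _ fun x => ?_)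
    rw [← Nat.cast_pow]
    show ((q ^ m : ℕ) : AddMonoid.End A) x = 0
    rw [AddMonoid.End.natCast_apply]
    exact hqA x
  have : Finite (AddMonoid.End A) :=
    Finite.of_injective (fun f => (f : A → A)) DFunLike.coe_injective
  have : Finite (R ⧸ Ideal.span {(q : R) ^ m}) :=
    Finite.of_surjective _ Ideal.Quotient.mk_surjective
  obtain ⟨e, he1, he2, -, he3⟩ := exists_idem_mod (RingHom.ker χ) hP hm
  simp only [hPm, Ideal.mem_bot, sub_eq_zero] at he2 he3
  refine ⟨e, e.2, congrArg Subtype.val he2, fun j hj => ?_, fun t ht htv => ?_⟩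
  · rw [RingHom.mem_ker, map_sub, map_one, sub_eq_zero] at he1
    exact (huniq e j hj).symm.trans he1
  · have htker : (⟨t, ht⟩ : R) ∈ RingHom.ker χ := by
      rw [RingHom.mem_ker]
      exact (huniq ⟨t, ht⟩ 0 (htv.trans (zero_smul ℤ v).symm)).trans Int.cast_zero
    obtain ⟨j, hj⟩ := he3 _ htker
    refine ⟨j, ?_⟩
    rw [mul_comm] at hj
    exact congrArg Subtype.val hj

/-- The elements of `heckeAway` commute on torsion points. -/
theorem heckeAway_comm_torsion {S : Finset ℕ} {E F : AddMonoid.End (JZero p)}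
    (hE : E ∈ heckeAway p S) (hF : F ∈ heckeAway p S) (n : ℕ) [NeZero n] {x : JZero p}
    (hx : n • x = 0) : E (F x) = F (E x) := by
  induction hE using Subring.closure_induction generalizing x with
  | mem t ht =>
    obtain ⟨ℓ, -, rfl⟩ := ht
    induction hF using Subring.closure_induction generalizing x with
    | mem u hu =>
      obtain ⟨ℓ', -, rfl⟩ := hu
      exact Torsion.heckeOperatorBar_comm_torsion p n ℓ ℓ' hx
    | zero => exact map_zero _
    | one => rfl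
    | add a b _ _ ha hb => exact (map_add _ _ _).trans (congrArg₂ (· + ·) (ha hx) (hb hx))
    | neg a _ ha => exact (map_neg _ _).trans (congrArg Neg.neg (ha hx))
    | mul a b _ _ ha hb =>
      exact (ha (x := b x) (by rw [← map_nsmul, hx, map_zero])).trans (congrArg a (hb hx))
  | zero => exact (map_zero F).symm
  | one => rfl
  | add a b _ _ ha hb => exact (congrArg₂ (· + ·) (ha hx) (hb hx)).trans (map_add F _ _).symm
  | neg a _ ha => exact (congrArg Neg.neg (ha hx)).trans (map_neg F _).symm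
  | mul a b _ _ ha hb =>
    exact (congrArg a (hb hx)).trans (ha (x := b x) (by rw [← map_nsmul, hx, map_zero]))

omit [Fact p.Prime] in
/-- An idempotent of a ring of endomorphisms commuting on torsion, attached to an eigenvector. -/
theorem exists_idem_torsion {J : Type*} [AddCommGroup J] (H : Subring (AddMonoid.End J)) {q : ℕ}
    (hq : q.Prime) (r : ℕ) [Finite (nsmulAddMonoidHom (q ^ (r + 1)) : J →+ J).ker]
    (hcomm : ∀ a ∈ H, ∀ b ∈ H, ∀ x : J, q ^ (r + 1) • x = 0 → a (b x) = b (a x)) (P : J → Prop)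
    (hscal : ∀ a ∈ H, ∃ k : ℤ, ∀ x, P x → a x = k • x) {x₀ : J} (hx₀ : x₀ ≠ 0)
    (hqx₀ : q • x₀ = 0) (hev : P x₀) :
    ∃ E ∈ H, (∀ x : J, q ^ r • x = 0 → E (E x) = E x) ∧
      (∀ x : J, q ^ r • x = 0 → P x → E x = x) ∧
      ∀ t ∈ H, (∀ x : J, q ^ r • x = 0 → t (E x) = E (t x)) ∧
        (t x₀ = 0 → ∃ j : ℕ, ∀ x : J, q ^ r • x = 0 → (t ^ j) (E x) = 0) := by
  have : Fact q.Prime := ⟨hq⟩
  let K := (nsmulAddMonoidHom (q ^ (r + 1)) : J →+ J).ker
  have hK : ∀ x : J, x ∈ K ↔ q ^ (r + 1) • x = 0 := fun x => AddMonoidHom.mem_ker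
  let res : AddMonoid.End J →+* AddMonoid.End K :=
    { toFun := fun φ => ((φ : J →+ J).comp K.subtype).codRestrict _ fun x => (hK _).2 (by
        show q ^ (r + 1) • (φ : J →+ J) (x : J) = 0
        rw [← map_nsmul, (hK _).1 x.2, map_zero])
      map_one' := DFunLike.ext _ _ fun _ => Subtype.ext rfl
      map_mul' := fun _ _ => DFunLike.ext _ _ fun _ => Subtype.ext rfl
      map_zero' := DFunLike.ext _ _ fun _ => Subtype.ext rfl
      map_add' := fun _ _ => DFunLike.ext _ _ fun _ => Subtype.ext rfl }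
  have hrn : ∀ x : J, q ^ r • x = 0 → q ^ (r + 1) • x = 0 := fun x hx => by
    rw [pow_succ', mul_nsmul', hx, smul_zero]
  let v : K := ⟨x₀, (hK _).2 (by rw [pow_succ, mul_nsmul', hqx₀, smul_zero])⟩
  obtain ⟨e, heR, he1, he2, he3⟩ := exists_idem_of_eigenvector (H.map res)
    (by
      rintro _ ⟨a, ha, rfl⟩ _ ⟨b, hb, rfl⟩
      exact DFunLike.ext _ _ fun w => Subtype.ext (hcomm a ha b hb _ ((hK _).1 w.2)))
    hq (Nat.succ_ne_zero r) (fun w => Subtype.ext ((hK _).1 w.2)) v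
    (addOrderOf_eq_prime (Subtype.ext hqx₀) fun h => hx₀ (congrArg Subtype.val h))
    (by
      rintro _ ⟨a, ha, rfl⟩
      obtain ⟨k, hk⟩ := hscal a ha
      exact ⟨k, Subtype.ext (hk x₀ hev)⟩)
  obtain ⟨E, hE, rfl⟩ := heR
  have hidem : ∀ x : J, q ^ r • x = 0 → E (E x) = E x := fun x hx => by
    have h1 := DFunLike.congr_fun he1 (⟨x, (hK _).2 (hrn x hx)⟩ : K)
    exact congrArg Subtype.val h1
  refine ⟨E, hE, hidem, fun x hx hxE => ?_,
    fun t ht => ⟨fun x hx => hcomm t ht E hE x (hrn x hx), fun htx => ?_⟩⟩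
  · obtain ⟨a, ha⟩ := hscal E hE
    have h1 : (a : ZMod q) = 1 := he2 a (Subtype.ext (ha x₀ hev))
    have h5 := hidem x hx
    rw [ha x hxE, map_zsmul, ha x hxE] at h5
    rw [ha x hxE]
    exact zsmul_eq_self_of_idem hq h1 h5 hx
  · obtain ⟨j, hj⟩ := he3 _ ⟨t, ht, rfl⟩ (Subtype.ext htx)
    refine ⟨j, fun x hx => ?_⟩
    rw [← map_pow] at hj
    have h1 := DFunLike.congr_fun hj (⟨x, (hK _).2 (hrn x hx)⟩ : K)
    exact congrArg Subtype.val h1

/-- An Eisenstein idempotent of `heckeAway` on the `q ^ r`-torsion. -/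
theorem exists_eisenstein_idem {q : ℕ} (hq : q.Prime) {S : Finset ℕ} {x₀ : JZero p} (hx₀ : x₀ ≠ 0)
    (hqx₀ : q • x₀ = 0) (hev : IsEisensteinVector p S x₀) (r : ℕ) :
    ∃ E ∈ heckeAway p S,
      (∀ x : JZero p, q ^ r • x = 0 → E (E x) = E x) ∧
      (∀ x : JZero p, q ^ r • x = 0 → IsEisensteinVector p S x → E x = x) ∧
      ∀ t ∈ heckeAway p S,
        (∀ x : JZero p, q ^ r • x = 0 → t (E x) = E (t x)) ∧
        (t x₀ = 0 → ∃ j : ℕ, ∀ x : JZero p, q ^ r • x = 0 → (t ^ j) (E x) = 0) := by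
  have : NeZero (q ^ (r + 1)) := ⟨pow_ne_zero _ hq.ne_zero⟩
  have : Finite (nsmulAddMonoidHom (q ^ (r + 1)) : JZero p →+ JZero p).ker :=
    finite_torsSub' (q ^ (r + 1))
  exact exists_idem_torsion (heckeAway p S) hq r
    (fun a ha b hb x hx => heckeAway_comm_torsion ha hb _ hx) (IsEisensteinVector p S)
    (fun a ha => exists_eisenstein_scalar ha) hx₀ hqx₀ hev

/-- Each finite set of points of `J₀(p)` is fixed by the automorphisms fixing some number
field. -/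
theorem exists_level_fixing {ι : Type*} [Finite ι] (f : ι → JZero p) :
    ∃ L : IntermediateField ℚ ℚbar, FiniteDimensional ℚ L ∧
      ∀ σ : Γℚ, (∀ y ∈ L, σ y = y) → ∀ i, σ • f i = f i := by
  have h : ∀ i, ∃ L : IntermediateField ℚ ℚbar, FiniteDimensional ℚ L ∧
      ∀ σ : Γℚ, (∀ y ∈ L, σ y = y) → σ • f i = f i := fun i => by
    obtain ⟨L, hL, hLx⟩ := (krullTopology_mem_nhds_one_iff ℚ ℚbar _).1
      ((MW.isOpen_stabilizer_jZero (f i)).mem_nhds (one_mem _))
    exact ⟨L, hL, fun σ hσ => MulAction.mem_stabilizer_iff.1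
      (hLx ((IntermediateField.mem_fixingSubgroup_iff L σ).2 hσ))⟩
  choose L hL hfix using h
  exact ⟨⨆ i, L i, IntermediateField.finiteDimensional_iSup_of_finite,
    fun σ hσ i => hfix i σ fun y hy => hσ y (le_iSup L i hy)⟩

theorem quad_rearrange {J : Type*} [AddCommGroup J] (f : J →+ J) {ℓ : ℕ} (x t : J)
    (h : f (f x) - t + ℓ • x = 0) :
    f (f x - ℓ • x) - (f x - ℓ • x) = t - (1 + ℓ) • f x := by
  rw [map_sub, map_nsmul, add_nsmul, one_nsmul, ← sub_eq_zero]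
  refine Eq.trans ?_ h
  abel

theorem isNilpotent_natCast_end {A : Type*} [AddCommGroup A] {q r : ℕ}
    (h : ∀ x : A, q ^ r • x = 0) : IsNilpotent (q : AddMonoid.End A) :=
  ⟨r, DFunLike.ext _ _ fun x => by
    rw [← Nat.cast_pow, AddMonoid.End.natCast_apply]
    exact h x⟩

theorem isNilpotent_restrict {J A : Type*} [AddCommGroup J] [AddCommGroup A] (i : A →+ J)
    (hi : Function.Injective i) (f : AddMonoid.End J) (g : AddMonoid.End A)
    (h : ∀ x, i (g x) = f (i x)) {j : ℕ} (hj : ∀ x, (f ^ j) (i x) = 0) : IsNilpotent g := by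
  have key : ∀ k x, i ((g ^ k) x) = (f ^ k) (i x) := by
    intro k
    induction k with
    | zero => exact fun x => rfl
    | succ k ih =>
      intro x
      rw [pow_succ', pow_succ', AddMonoid.End.coe_mul, AddMonoid.End.coe_mul,
        Function.comp_apply, Function.comp_apply, h, ih]
  exact ⟨j, DFunLike.ext _ _ fun x => hi (((key j x).trans (hj x)).trans (map_zero i).symm)⟩

/-- A finite Galois module of `q`-power order on which every Frobenius `τ` at `ℓ ∉ S` satisfies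
`(τ - 1) (τ - ℓ) = T τ` with `T` nilpotent has all constituents `ℤ/q` or `μ_q`. -/
theorem isEisensteinModule_of_frobenius {A : Type} [AddCommGroup A] [DistribMulAction Γℚ A]
    [Finite A] {q : ℕ} (hq : q.Prime) {r : ℕ} (hA : ∀ x : A, q ^ r • x = 0) {S : Finset ℕ}
    (hqS : q ∈ S) {L₁ : IntermediateField ℚ ℚbar} (hL₁ : FiniteDimensional ℚ L₁)
    (hfix : ∀ σ : Γℚ, (∀ y ∈ L₁, σ y = y) → ∀ x : A, σ • x = x)
    (hfrob : ∀ ℓ : ℕ, ℓ.Prime → ℓ ∉ S → ∀ (P : ValuationSubring ℚbar) (τ : Γℚ),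
      P.LiesOverPrime ℓ → P.IsFrobeniusAt τ ℓ → ∃ T : AddMonoid.End A, IsNilpotent T ∧
        (∀ x, T (τ • x) = τ • T x) ∧
        ∀ x, τ • (τ • x - ℓ • x) - (τ • x - ℓ • x) = T (τ • x)) :
    IsEisensteinModule A q := by
  classical
  have : Fact q.Prime := ⟨hq⟩
  let ρ := DistribMulAction.toAddMonoidEnd Γℚ A
  have hdvd : q ∣ q ^ 1 := dvd_pow_self q one_ne_zero
  let a : Γℚ →* ZMod q :=
    ((ZMod.castHom hdvd (ZMod q)).comp
      (PadicInt.toZModPow 1 : ℤ_[q] →+* ZMod (q ^ 1))).toMonoidHom.comp (GaloisAdic.padicCyclo q)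
  have ha : ∀ (σ : Γℚ) (c : ℕ), ActsOnRoots q σ c → a σ = c := fun σ c h => by
    show ZMod.castHom hdvd (ZMod q) (PadicInt.toZModPow 1 (GaloisAdic.padicCyclo q σ)) = _
    rw [GaloisAdic.toZModPow_padicCyclo_eq q (m := c) σ fun t ht => h t (by rwa [pow_one] at ht),
      map_natCast]
  obtain ⟨L₂, hL₂, hcyc⟩ := GaloisAdic.padicCyclo_continuous q 1
  have hρ : ∀ σ, IsNilpotent ((ρ σ - 1) * (ρ σ - ((a σ).val : AddMonoid.End A))) := by
    intro σ
    obtain ⟨ℓ, hℓ, hℓS, P, hP, τ, hτ, ⟨k, hk⟩, -⟩ :=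
      Density.exists_frobenius_pow σ (L₁ ⊔ L₂) S
    have hne : ∀ y ∈ L₁ ⊔ L₂, ((τ ^ k)⁻¹ * σ) y = y := fun y hy => by
      rw [AlgEquiv.mul_apply, hk y hy, ← AlgEquiv.mul_apply, inv_mul_cancel, AlgEquiv.one_apply]
    have hρσ : ρ σ = ρ τ ^ k := by
      rw [← map_pow]
      refine DFunLike.ext _ _ fun x => ?_
      show σ • x = (τ ^ k) • x
      have h1 := hfix _ (fun y hy => hne y ((le_sup_left : L₁ ≤ L₁ ⊔ L₂) hy)) x
      conv_lhs => rw [← mul_inv_cancel_left (τ ^ k) σ]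
      rw [mul_smul, h1]
    have haσ : a σ = (ℓ : ZMod q) ^ k := by
      have h1 : a ((τ ^ k)⁻¹ * σ) = 1 := by
        show ZMod.castHom hdvd (ZMod q) (PadicInt.toZModPow 1 (GaloisAdic.padicCyclo q _)) = _
        rw [hcyc _ fun y hy => hne y ((le_sup_right : L₂ ≤ L₁ ⊔ L₂) hy), map_one]
      have h2 : a σ = a (τ ^ k) * a ((τ ^ k)⁻¹ * σ) := by
        rw [← map_mul, mul_inv_cancel_left]
      rw [h2, h1, mul_one, map_pow, ha τ ℓ fun μ hμ => Datum.frobenius_apply_root hP hτ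
        ((Nat.coprime_primes hℓ hq).2 fun h => hℓS (h ▸ hqS)) hq.ne_zero hμ]
    obtain ⟨T, hTnil, hTτ, hquad⟩ := hfrob ℓ hℓ hℓS P τ hP hτ
    have hquad' : (ρ τ - 1) * (ρ τ - (ℓ : AddMonoid.End A)) = T * ρ τ :=
      DFunLike.ext _ _ fun x => (endPoly_apply (ρ τ) ℓ x).trans (hquad x)
    rw [hρσ]
    refine isNilpotent_pow_poly (ρ τ) (ℓ := ℓ) ?_ (isNilpotent_natCast_end hA)
      (by rw [ZMod.natCast_zmod_val, haσ])
    rw [hquad']
    exact (show Commute T (ρ τ) from DFunLike.ext _ _ hTτ).isNilpotent_mul_right hTnil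
  intro M₁ hM₁ htop
  obtain ⟨M₂, h2, hle, hidx, hcases⟩ := exists_piece_above ρ hq a hA hρ M₁ hM₁ htop
  refine ⟨M₂, h2, hle, hidx, hcases.imp id fun h σ c hc x hx => ?_⟩
  have hqx : q • x ∈ M₁ := by
    have h3 := AddSubgroup.nsmul_index_mem (M₁.addSubgroupOf M₂) (⟨x, hx⟩ : M₂)
    rw [show (M₁.addSubgroupOf M₂).index = q from hidx] at h3
    exact h3
  have h4 : (a σ).val = c % q := by rw [ha σ c hc, ZMod.val_natCast]
  have h5 := sub_mem (h σ x hx) (M₁.nsmul_mem hqx (c / q))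
  convert h5 using 1
  show σ • x - c • x = σ • x - (a σ).val • x - (c / q) • q • x
  rw [h4, ← mul_nsmul', sub_sub, ← add_nsmul, mul_comm (c / q), Nat.mod_add_div]

/-- A Hecke-stable Galois submodule of `q`-power torsion on which every `T_ℓ - 1 - ℓ` is
nilpotent has all constituents `ℤ/q` or `μ_q`. -/
theorem isEisensteinModule_of_nilpotent {q : ℕ} (hq : q.Prime) {S : Finset ℕ} (hpS : p ∈ S)
    (hqS : q ∈ S) {r : ℕ} (W : GalSub p) [Finite W.carrier]
    (hW : ∀ x ∈ W.carrier, q ^ r • x = 0)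
    (hT : ∀ ℓ : Nat.Primes, (ℓ : ℕ) ∉ S → ∀ x ∈ W.carrier,
      heckeOperatorBar p ℓ x ∈ W.carrier)
    (hnil : ∀ ℓ : Nat.Primes, (ℓ : ℕ) ∉ S → ∃ j : ℕ, ∀ x ∈ W.carrier,
      ((eisensteinOp p ℓ) ^ j) x = 0) :
    IsEisensteinModule W.carrier q := by
  obtain ⟨L₁, hL₁, hfix⟩ := exists_level_fixing fun x : W.carrier => (x : JZero p)
  refine isEisensteinModule_of_frobenius hq
    (fun x => Subtype.ext (hW x x.2)) hqS hL₁
    (fun σ hσ x => Subtype.ext (hfix σ hσ x)) fun ℓ hℓ hℓS P τ hP hτ => ?_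
  have hℓpq : ¬ ℓ ∣ p * q := not_dvd_mul_of_notMem hq hpS hqS hℓ hℓS
  let L : Nat.Primes := ⟨ℓ, hℓ⟩
  have hLS : (L : ℕ) ∉ S := hℓS
  have hop : ∀ y : JZero p, eisensteinOp p L y = heckeOperatorBar p L y - (1 + ℓ) • y :=
    eisensteinOp_apply L
  have hmem : ∀ x : W.carrier, eisensteinOp p L x ∈ W.carrier := fun x =>
    (hop x).symm ▸ sub_mem (hT L hLS x x.2) (W.carrier.nsmul_mem x.2 _)
  obtain ⟨T, hT'⟩ : ∃ T : AddMonoid.End W.carrier,
      ∀ x, (T x : JZero p) = eisensteinOp p L x :=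
    ⟨((eisensteinOp p L : JZero p →+ JZero p).comp W.carrier.subtype).codRestrict _ hmem,
      fun _ => rfl⟩
  obtain ⟨j, hj⟩ := hnil L hLS
  refine ⟨T, isNilpotent_restrict W.carrier.subtype Subtype.val_injective _ T hT'
    (fun x => hj x x.2), fun x => Subtype.ext ?_, fun x => Subtype.ext ?_⟩
  · exact (hT' (τ • x)).trans (((heckeAway_galois_smul (eisensteinOp_mem hLS) τ _).symm).trans
      (congrArg (τ • ·) (hT' x).symm))
  · refine Eq.trans ?_ ((hT' (τ • x)).trans (hop _)).symm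
    exact quad_rearrange (DistribSMul.toAddMonoidHom (JZero p) τ) (ℓ := ℓ) (x : JZero p) _
      (ES.frobenius_quadratic hℓ hℓpq hP hτ ⟨r, hW x x.2⟩)

/-- The Eisenstein projector with all its properties. -/
theorem exists_eisenstein_projector {q : ℕ} (hq : q.Prime) {S : Finset ℕ} (hpS : p ∈ S)
    (hqS : q ∈ S) {x₀ : JZero p} (hx₀ : x₀ ≠ 0) (hqx₀ : q • x₀ = 0)
    (hev : IsEisensteinVector p S x₀) (r : ℕ) :
    ∃ (E : AddMonoid.End (JZero p)) (hE : ∀ (σ : Γℚ) (x : JZero p), σ • E x = E (σ • x)),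
      E ∈ heckeAway p S ∧
      (∀ x : JZero p, q ^ r • x = 0 → E (E x) = E x) ∧
      (∀ x : JZero p, q ^ r • x = 0 → IsEisensteinVector p S x → E x = x) ∧
      IsEisensteinModule (eisPart (q ^ r) E hE).carrier q ∧
      ∀ ℓ : Nat.Primes, (ℓ : ℕ) ∉ S → ∀ x ∈ (eisPart (q ^ r) E hE).carrier,
        heckeOperatorBar p ℓ x ∈ (eisPart (q ^ r) E hE).carrier := by
  obtain ⟨E, hEmem, hidem, hfix, hl⟩ := exists_eisenstein_idem hq hx₀ hqx₀ hev r
  have hE := heckeAway_galois_smul hEmem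
  have hmemW : ∀ x ∈ (eisPart (q ^ r) E hE).carrier, ∃ y, q ^ r • y = 0 ∧ E y = x := by
    rintro _ ⟨y, hy, rfl⟩
    exact ⟨y, (mem_torsSub p).1 hy, rfl⟩
  have hW : ∀ x ∈ (eisPart (q ^ r) E hE).carrier, q ^ r • x = 0 := fun x hx => by
    obtain ⟨y, hy, rfl⟩ := hmemW x hx
    rw [← map_nsmul, hy, map_zero]
  have hT : ∀ ℓ : Nat.Primes, (ℓ : ℕ) ∉ S → ∀ x ∈ (eisPart (q ^ r) E hE).carrier,
      heckeOperatorBar p ℓ x ∈ (eisPart (q ^ r) E hE).carrier := fun ℓ hℓ x hx => by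
    obtain ⟨y, hy, rfl⟩ := hmemW x hx
    refine ⟨heckeOperatorBar p ℓ y, (mem_torsSub p).2 (by rw [← map_nsmul, hy, map_zero]), ?_⟩
    exact ((hl _ (Subring.subset_closure ⟨ℓ, hℓ, rfl⟩)).1 y hy).symm
  have : NeZero (q ^ r) := ⟨pow_ne_zero _ hq.ne_zero⟩
  have := finite_torsSub' (p := p) (q ^ r)
  have : Finite (eisPart (q ^ r) E hE).carrier :=
    Finite.of_injective (fun x => (⟨x.1, (mem_torsSub p).2 (hW x x.2)⟩ : (torsSub p (q ^ r)).carrier))
      fun _ _ h => Subtype.ext (congrArg (fun y : (torsSub p (q ^ r)).carrier => (y : JZero p)) h)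
  refine ⟨E, hE, hEmem, hidem, hfix,
    isEisensteinModule_of_nilpotent hq hpS hqS _ hW hT fun ℓ hℓ => ?_, hT⟩
  obtain ⟨j, hj⟩ := (hl _ (eisensteinOp_mem hℓ)).2
    (by rw [eisensteinOp_apply, hev ℓ hℓ, sub_self])
  refine ⟨j, fun x hx => ?_⟩
  obtain ⟨y, hy, rfl⟩ := hmemW x hx
  exact hj y hy

end Fermat.Agent.Mazur

end
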