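/-
Mazur's Eisenstein descent: the Eisenstein part of the torsion of `J₀(p)`.
-/
import Fermat.Agent.Mazur.Defs
import Fermat.Agent.Mazur.EisenAnnihilator
import Fermat.Agent.Mazur.EisenProjector

set_option autoImplicit false

noncomputable section

namespace Fermat.Agent.Mazur

open ModularCurve

local notation "ℚbar" => AlgebraicClosure ℚ
local notation "Γℚ" => AlgebraicClosure ℚ ≃ₐ[ℚ] AlgebraicClosure ℚ

variable {p : ℕ} [Fact p.Prime]

/-- The Hecke operators commute with the Galois group. -/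
theorem smul_comm_heckeAway {S : Finset ℕ} {E : AddMonoid.End (JZero p)}
    (hE : E ∈ heckeAway p S) (σ : Γℚ) (x : JZero p) : σ • E x = E (σ • x) :=
  heckeAway_galois_smul hE σ x

/-- The projector to the Eisenstein part at a prime `q` carrying an Eisenstein vector. -/
theorem exists_projector {q : ℕ} (hq : q.Prime) (hqp : q ≠ p) {S : Finset ℕ} (hpS : p ∈ S)
    (hqS : q ∈ S) {x₀ : JZero p} (hx₀ : x₀ ≠ 0) (hqx₀ : q • x₀ = 0)
    (hev : IsEisensteinVector p S x₀) (r : ℕ) :
    ∃ (E : AddMonoid.End (JZero p)) (hE : ∀ (σ : Γℚ) (x : JZero p), σ • E x = E (σ • x)),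
      E ∈ heckeAway p S ∧
      (∀ x : JZero p, q ^ r • x = 0 → E (E x) = E x) ∧
      (∀ x : JZero p, q ^ r • x = 0 → IsEisensteinVector p S x → E x = x) ∧
      IsEisensteinModule (eisPart (q ^ r) E hE).carrier q ∧
      ∀ ℓ : Nat.Primes, (ℓ : ℕ) ∉ S → ∀ x ∈ (eisPart (q ^ r) E hE).carrier,
        heckeOperatorBar p ℓ x ∈ (eisPart (q ^ r) E hE).carrier :=
  exists_eisenstein_projector hq hpS hqS hx₀ hqx₀ hev r

/-- A single integer kills all rational torsion of `q`-power order and all equivariant characters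
of Hecke-stable Galois submodules of the `q`-power torsion. -/
theorem exists_eisenstein_annihilator {q : ℕ} (hq : q.Prime) (hqp : q ≠ p) {S : Finset ℕ}
    (hpS : p ∈ S) (hqS : q ∈ S) :
    ∃ N₀ : ℕ, N₀ ≠ 0 ∧
      (∀ (r : ℕ) (x : JZero p), q ^ r • x = 0 → (∀ σ : Γℚ, σ • x = x) → N₀ • x = 0) ∧
      ∀ (r : ℕ) (V : GalSub p), V.carrier ≤ (torsSub p (q ^ r)).carrier →
        (∀ ℓ : Nat.Primes, (ℓ : ℕ) ∉ S → ∀ x ∈ V.carrier,
          heckeOperatorBar p ℓ x ∈ V.carrier) →
        ∀ χ : CartierDual V.carrier, (∀ σ : Γℚ, σ • χ = χ) → N₀ • χ = 0 :=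
  exists_eisenstein_annihilator' hq hpS hqS

/-- The torsion of `J₀(p)` is finite, and its order bounded by a power of the exponent. -/
theorem finite_torsSub (n : ℕ) [NeZero n] : Finite (torsSub p n).carrier :=
  finite_torsSub' n

end Fermat.Agent.Mazur

end
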