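/-
Mazur's Eisenstein descent: the descent theorem for the Eisenstein part of `J₀(p)`.
-/
import Fermat.Agent.Mazur.DescentBound
import Fermat.Agent.Mazur.DescentInertia
import Fermat.Agent.Galois.Frobenius
import Fermat.Agent.Mazur.EisenMain
import Fermat.Agent.Mazur.LocalMain

set_option autoImplicit false

noncomputable section

namespace Fermat.Agent.Mazur

open ModularCurve

local notation "ℚbar" => AlgebraicClosure ℚ
local notation "Γℚ" => AlgebraicClosure ℚ ≃ₐ[ℚ] AlgebraicClosure ℚ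

theorem natCard_subtype_le_of_imp {α : Type*} {P Q : α → Prop} (h : ∀ a, P a → Q a)
    [Finite {a // Q a}] : Nat.card {a // P a} ≤ Nat.card {a // Q a} :=
  Nat.card_le_card_of_injective (Subtype.map id h) (Subtype.map_injective h Function.injective_id)

/-- `x ↦ τ • x - x`. -/
def displacementAt (τ : Γℚ) (M : Type) [AddCommGroup M] [DistribMulAction Γℚ M] : M →+ M :=
  DistribSMul.toAddMonoidHom M τ - AddMonoidHom.id M

theorem displacementAt_apply (τ : Γℚ) {M : Type} [AddCommGroup M] [DistribMulAction Γℚ M] (x : M) :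
    displacementAt τ M x = τ • x - x := rfl

section Abstract

variable {T M : Type} [AddCommGroup T] [DistribMulAction Γℚ T] [AddCommGroup M]
  [DistribMulAction Γℚ M] (π : T →+ M)

/-- `C` times the image of a family of cochains. -/
def classHom (C : ℕ) {Z : Type} [AddCommGroup Z] (K : Z →+ (Γℚ → T)) : Z →+ (Γℚ → M) :=
  (AddMonoidHom.compLeft π Γℚ).comp (C • K)

omit [DistribMulAction Γℚ T] [DistribMulAction Γℚ M] in
theorem classHom_apply (C : ℕ) {Z : Type} [AddCommGroup Z] (K : Z →+ (Γℚ → T)) (z : Z) (σ : Γℚ) :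
    classHom π C K z σ = C • π (K z σ) := by
  show π ((C • K) z σ) = _
  rw [AddMonoidHom.nsmul_apply, Pi.smul_apply, map_nsmul]

theorem hasFlatModel_push [Finite T] {q n : ℕ} [NeZero n] (hπ : ∀ (σ : Γℚ) t, π (σ • t) = σ • π t)
    (hsurj : Function.Surjective π) {c : Γℚ → T} {d : Γℚ → M} (hcd : ∀ σ, π (c σ) = d σ)
    (h : FlatModel.HasFlatModel q (T × ZMod n) (kummerAct n c)) :
    FlatModel.HasFlatModel q (M × ZMod n) (kummerAct n d) := by
  refine h.of_surjective (π.prodMap (AddMonoidHom.id (ZMod n)))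
    (Prod.map_surjective.2 ⟨hsurj, Function.surjective_id⟩) fun σ m => ?_
  refine Prod.ext ?_ rfl
  show π (σ • m.1 + m.2.val • c σ) = σ • π m.1 + m.2.val • d σ
  rw [map_add, map_nsmul, hπ, hcd]

/-- A cocycle whose restriction to inertia comes from a generator has a Selmer triple after
multiplication. -/
theorem exists_triple_of_generator [Finite M] {p q r B e : ℕ} {P : ValuationSubring ℚbar}
    (hp : p.Prime) (hq : q.Prime) (hpq : p ≠ q) (hr : 1 ≤ r) (hP : P.LiesOverPrime p)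
    (hM : IsSelmerModule p q r M)
    (hS : ∀ σ ∈ P.inertiaSubgroupIn ℚ, ∀ v ∈ inertiaSpan P M, σ • v = v)
    (hB : Nat.card {x : M // ∀ σ : Γℚ, σ • x = x} *
      Nat.card {χ : CartierDual M // ∀ σ : Γℚ, σ • χ = χ} ≤ B)
    {c : Γℚ → M} (hc : ∀ σ σ', c (σ * σ') = c σ + σ • c σ')
    (hsm : ∃ U : Subgroup Γℚ, IsOpen (U : Set Γℚ) ∧ ∀ σ : Γℚ, ∀ u ∈ U, c (σ * u) = c σ)
    (hunr : ∀ ℓ : ℕ, ℓ.Prime → ℓ ≠ p → ℓ ≠ q → ∀ A : ValuationSubring ℚbar,
      A.LiesOverPrime ℓ → ∀ σ ∈ A.inertiaSubgroupIn ℚ, c σ = c 1)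
    {τ : Γℚ} (hτ : τ ∈ P.inertiaSubgroupIn ℚ)
    (hgen : ∀ σ ∈ P.inertiaSubgroupIn ℚ, ∃ i : ℕ, c σ = c (τ ^ i) ∧ ∀ x : M, σ • x = τ ^ i • x)
    (he : ∀ σ ∈ P.inertiaSubgroupIn ℚ, σ • (e • c τ) = e • c τ)
    (hflat : FlatModel.HasFlatModel q (M × ZMod (q ^ r))
      (kummerAct (q ^ r) fun σ => (2 * (B.factorial * e)) • c σ)) :
    ∃ m m', IsSelmerTriple p q (q ^ r) P (fun σ => (2 * (B.factorial * e)) • c σ) m m' := by
  have h1 : c 1 = 0 := by
    have h := hc 1 1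
    rwa [one_mul, one_smul, left_eq_add] at h
  have hle : inertiaSpan P M ≤ (displacementAt τ M).range := by
    rw [inertiaSpan, AddSubgroup.closure_le]
    rintro _ ⟨σ, hσ, x, rfl⟩
    obtain ⟨i, -, hi⟩ := hgen σ hσ
    refine AddMonoidHom.mem_range.2 ⟨i • x, ?_⟩
    rw [displacementAt_apply, hi,
      pow_smul_of_smul_sub (w := τ • x - x) (by abel)
        (hS τ hτ _ (AddSubgroup.subset_closure ⟨τ, hτ, x, rfl⟩)), smul_comm τ i x, nsmul_sub]
    abel
  obtain ⟨m₀, hm₀⟩ := AddMonoidHom.mem_range.1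
    (hle (factorial_smul_mem_inertiaSpan hp hq hpq hr hP hM hS hB he))
  rw [displacementAt_apply] at hm₀
  have hC : ∀ x : M, (2 * (B.factorial * e)) • x = 2 • B.factorial • e • x := fun x => by
    rw [mul_nsmul', mul_nsmul']
  refine ⟨2 • m₀, -((B.factorial * e) • c complexConjugation),
    fun σ σ' => by simp only [hc, nsmul_add, smul_comm σ],
    hsm.imp fun U hU => ⟨hU.1, fun σ u hu => by simp only [hU.2 σ u hu]⟩,
    fun ℓ hℓ h h' A hA σ hσ => by simp only [hunr ℓ hℓ h h' A hA σ hσ, h1, nsmul_zero],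
    hflat, fun σ hσ => ?_, ?_⟩
  · obtain ⟨i, hi, hix⟩ := hgen σ hσ
    simp only [hi, hix]
    clear hi hix
    induction i with
    | zero => simp [h1]
    | succ i ih =>
      rw [pow_succ', hc, nsmul_add, ← smul_comm τ, ih, hC, ← hm₀, nsmul_sub, smul_sub,
        ← mul_smul, smul_comm τ 2 m₀]
      abel
  · have hh := hc complexConjugation complexConjugation
    rw [complexConjugation_mul_self, h1] at hh
    rw [smul_neg, smul_comm complexConjugation _ (c complexConjugation),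
      eq_neg_of_add_eq_zero_right hh.symm, neg_nsmul, neg_neg, sub_neg_eq_add,
      show 2 * (B.factorial * e) = 2 * (B.factorial * e) from rfl, mul_nsmul', two_nsmul]

theorem descend_abstract {J : Type} [AddCommGroup J] [DistribMulAction Γℚ J] (ι : M →+ J)
    (hι : ∀ (σ : Γℚ) (x : M), ι (σ • x) = σ • ι x) {c : Γℚ → M} {w : J}
    (hw : ∀ σ, ι (c σ) = σ • w - w) {N : ℕ} {x : M} (hx : ∀ σ, N • c σ = σ • x - x) (σ : Γℚ) :
    σ • (N • w - ι x) = N • w - ι x := by
  have h := congrArg ι (hx σ)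
  rw [map_nsmul, hw, map_sub, hι, nsmul_sub] at h
  rw [smul_sub, smul_comm σ N w]
  linear_combination (norm := abel) h

end Abstract

variable {p : ℕ} [Fact p.Prime]

omit [Fact p.Prime] in
theorem natCard_dual_killed_le {M : Type} [AddCommGroup M] [Finite M] (N₀ : ℕ) :
    Nat.card {χ : CartierDual M // N₀ • χ = 0} ≤ Nat.card {x : M // N₀ • x = 0} := by
  set H : AddSubgroup M := (nsmulAddMonoidHom N₀ : M →+ M).range with hH
  have h1 : Nat.card {χ : CartierDual M // N₀ • χ = 0} ≤ Nat.card (annihilator H) := by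
    refine Nat.card_le_card_of_injective (fun χ => ⟨χ.1, mem_annihilator.2 ?_⟩)
      fun a b h => Subtype.ext (congrArg Subtype.val h :)
    rintro _ ⟨x, rfl⟩
    rw [nsmulAddMonoidHom_apply, map_nsmul]
    have h := congrArg (CartierDual.evalHom x) χ.2
    rwa [map_nsmul, map_zero] at h
  refine h1.trans (le_of_eq ?_)
  have h2 := natCard_annihilator_mul H
  have h3 := (nsmulAddMonoidHom N₀ : M →+ M).ker.card_eq_card_quotient_mul_card_addSubgroup
  rw [Nat.card_congr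
    (QuotientAddGroup.quotientKerEquivRange (nsmulAddMonoidHom N₀ : M →+ M)).toEquiv] at h3
  have h4 : Nat.card (annihilator H) = Nat.card (nsmulAddMonoidHom N₀ : M →+ M).ker := by
    refine Nat.eq_of_mul_eq_mul_right (Nat.card_pos (α := H)) ?_
    rw [h2, h3, mul_comm, hH]
  rw [h4]
  exact Nat.card_congr (Equiv.subtypeEquivRight fun x => by
    rw [AddMonoidHom.mem_ker, nsmulAddMonoidHom_apply])

omit [Fact p.Prime] in
theorem natCard_fixed_mul_dual_le {M : Type} [AddCommGroup M] [DistribMulAction Γℚ M] [Finite M]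
    {N₀ B₀ : ℕ} (h : ∀ x : M, (∀ σ : Γℚ, σ • x = x) → N₀ • x = 0)
    (h' : ∀ χ : CartierDual M, (∀ σ : Γℚ, σ • χ = χ) → N₀ • χ = 0)
    (hle : Nat.card {x : M // N₀ • x = 0} ≤ B₀) :
    Nat.card {x : M // ∀ σ : Γℚ, σ • x = x} *
      Nat.card {χ : CartierDual M // ∀ σ : Γℚ, σ • χ = χ} ≤ B₀ * B₀ :=
  Nat.mul_le_mul ((natCard_subtype_le_of_imp h).trans hle)
    (((natCard_subtype_le_of_imp h').trans (natCard_dual_killed_le N₀)).trans hle)

section EisPart

variable {n : ℕ} {E : AddMonoid.End (JZero p)}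
  (hE : ∀ (σ : Γℚ) (x : JZero p), σ • E x = E (σ • x))

/-- `E` from the torsion onto its image. -/
def eisHom (n : ℕ) : (torsSub p n).carrier →+ (eisPart n E hE).carrier :=
  ((E : JZero p →+ JZero p).comp (torsSub p n).carrier.subtype).codRestrict _ fun t =>
    AddSubgroup.mem_map_of_mem _ t.2

@[simp] theorem coe_eisHom (t : (torsSub p n).carrier) :
    (eisHom hE n t : JZero p) = E (t : JZero p) := rfl

theorem eisHom_surjective : Function.Surjective (eisHom hE n) := fun x => by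
  obtain ⟨t, ht, htx⟩ := x.2
  exact ⟨⟨t, ht⟩, Subtype.ext htx⟩

theorem eisHom_smul (σ : Γℚ) (t : (torsSub p n).carrier) :
    eisHom hE n (σ • t) = σ • eisHom hE n t :=
  Subtype.ext (by rw [coe_eisHom, GalSub.coe_smul, GalSub.coe_smul, coe_eisHom, hE])

theorem nsmul_eisPart_eq_zero (x : (eisPart n E hE).carrier) : n • (x : JZero p) = 0 := by
  obtain ⟨t, ht, htx⟩ := x.2
  rw [← htx]
  exact (map_nsmul (E : JZero p →+ JZero p) n t).symm.trans (by rw [(mem_torsSub p).1 ht, map_zero])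

theorem isSelmerModule_eisPart {q : ℕ} (hq : q.Prime) (hqp : q ≠ p) (r : ℕ)
    (hEis : IsEisensteinModule (eisPart (q ^ r) E hE).carrier q) :
    IsSelmerModule p q r (eisPart (q ^ r) E hE).carrier where
  kill x := Subtype.ext (by
    rw [AddSubgroup.coe_nsmul, nsmul_eisPart_eq_zero, AddSubgroup.coe_zero])
  smooth x := by
    refine Subgroup.isOpen_mono (H₁ := MulAction.stabilizer Γℚ (x : JZero p))
      (fun σ hσ => Subtype.ext (by rw [GalSub.coe_smul]; exact hσ))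
      (MW.isOpen_stabilizer_jZero _)
  unramified ℓ hℓ hlp hlq A hA σ hσ x := Subtype.ext (by
    rw [GalSub.coe_smul]
    have := Fact.mk hℓ
    refine MW.smul_eq_self_of_nsmul_fixed (n := q ^ r) (fun h => hlp ?_) (fun h => hlq ?_) hA hσ _ ?_
    · exact (Nat.prime_dvd_prime_iff_eq hℓ Fact.out).1 h
    · exact (Nat.prime_dvd_prime_iff_eq hℓ hq).1 (hℓ.dvd_of_dvd_pow h)
    · rw [nsmul_eisPart_eq_zero]; exact zero_mem _)
  flat := by
    have := Fact.mk hq
    have : NeZero (q ^ r) := ⟨pow_ne_zero _ hq.ne_zero⟩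
    have := finite_torsSub (p := p) (q ^ r)
    have hz : ∀ σ : Γℚ, σ • (q ^ r • (0 : JZero p)) = q ^ r • 0 := fun σ => by
      rw [nsmul_zero, galois_smul_zero]
    refine (hasFlatModel_kummer hqp r 0 hz).of_surjective
      ((eisHom hE (q ^ r)).comp (AddMonoidHom.fst _ _))
      (fun x => (eisHom_surjective hE x).imp' (fun t => (t, 0)) fun _ h => h) fun σ m => ?_
    have h0 : kummerCocycle (q ^ r) 0 hz σ = 0 :=
      Subtype.ext (by simp [kummerCocycle, galois_smul_zero])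
    simp [kummerAct, h0, eisHom_smul]
  eisenstein := hEis

end EisPart

/-- The points whose `n`-th multiple is rational. -/
def rootGroup (p n : ℕ) [Fact p.Prime] : AddSubgroup (JZero p) where
  carrier := {z | ∀ σ : Γℚ, σ • (n • z) = n • z}
  zero_mem' σ := by rw [nsmul_zero, galois_smul_zero]
  add_mem' {a b} ha hb σ := by rw [nsmul_add, smul_add, ha σ, hb σ]
  neg_mem' {a} ha σ := by rw [neg_nsmul, smul_neg, ha σ]

/-- The Kummer cocycles, as a homomorphism. -/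
def kummerMap (n : ℕ) : rootGroup p n →+ (Γℚ → (torsSub p n).carrier) where
  toFun z := kummerCocycle n (z : JZero p) z.2
  map_zero' := funext fun σ => Subtype.ext (by simp [kummerCocycle, galois_smul_zero])
  map_add' a b := funext fun σ => Subtype.ext (by
    simp only [kummerCocycle, Pi.add_apply, AddSubgroup.coe_add, smul_add]; abel)

@[simp] theorem coe_kummerMap {n : ℕ} (z : rootGroup p n) (σ : Γℚ) :
    (kummerMap n z σ : JZero p) = σ • (z : JZero p) - z := rfl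

section Triple

variable {n : ℕ} {E : AddMonoid.End (JZero p)}
  (hE : ∀ (σ : Γℚ) (x : JZero p), σ • E x = E (σ • x))

theorem coe_eisHom_kummerMap (z : rootGroup p n) (σ : Γℚ) :
    (eisHom hE n (kummerMap n z σ) : JZero p) = σ • E (z : JZero p) - E (z : JZero p) := by
  rw [coe_eisHom, coe_kummerMap, hE]
  exact map_sub (E : JZero p →+ JZero p) _ _

theorem kummerMap_congr (z : rootGroup p n) {σ σ' : Γℚ}
    (h : σ • (z : JZero p) = σ' • (z : JZero p)) : kummerMap n z σ = kummerMap n z σ' :=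
  Subtype.ext (by rw [coe_kummerMap, coe_kummerMap, h])

theorem kummerMap_mul (z : rootGroup p n) (σ σ' : Γℚ) :
    kummerMap n z (σ * σ') = kummerMap n z σ + σ • kummerMap n z σ' :=
  Subtype.ext (by
    rw [AddSubgroup.coe_add, GalSub.coe_smul, coe_kummerMap, coe_kummerMap, coe_kummerMap,
      mul_smul, smul_sub]
    abel)

theorem eisHom_kummerMap_mul (z : rootGroup p n) (σ σ' : Γℚ) :
    eisHom hE n (kummerMap n z (σ * σ')) =
      eisHom hE n (kummerMap n z σ) + σ • eisHom hE n (kummerMap n z σ') := by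
  exact ((congrArg (eisHom hE n) (kummerMap_mul z σ σ')).trans (map_add _ _ _)).trans
    (congrArg (eisHom hE n (kummerMap n z σ) + ·) (eisHom_smul hE σ _))

theorem exists_triple_eisKummer {q r B f : ℕ} (hq : q.Prime) (hqp : q ≠ p) (hr : 1 ≤ r)
    {P : ValuationSubring ℚbar} (hP : P.LiesOverPrime p) {φ : Γℚ} (hφ : P.IsFrobeniusAt φ p)
    {G : AddSubgroup (JZero p)}
    (hGsub : ∀ σ ∈ P.inertiaSubgroupIn ℚ, ∀ x : JZero p, q ^ r • x = 0 → σ • x - x ∈ G)
    (hGfix : ∀ σ ∈ P.inertiaSubgroupIn ℚ, ∀ g ∈ G, σ • g = g)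
    (hGfrob : ∀ g ∈ G, (φ ^ f) • g = (p ^ f) • g)
    [Finite (eisPart (q ^ r) E hE).carrier]
    (hM : IsSelmerModule p q r (eisPart (q ^ r) E hE).carrier)
    (hS : ∀ σ ∈ P.inertiaSubgroupIn ℚ, ∀ v ∈ inertiaSpan P (eisPart (q ^ r) E hE).carrier,
      σ • v = v)
    (hB : Nat.card {x : (eisPart (q ^ r) E hE).carrier // ∀ σ : Γℚ, σ • x = x} *
      Nat.card {χ : CartierDual (eisPart (q ^ r) E hE).carrier // ∀ σ : Γℚ, σ • χ = χ} ≤ B)
    (z : rootGroup p (q ^ r)) :
    ∃ m m', IsSelmerTriple p q (q ^ r) P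
      (classHom (eisHom hE (q ^ r)) (2 * (B.factorial * (p ^ f - 1))) (kummerMap (q ^ r)) z)
      m m' := by
  have hp : p.Prime := Fact.out
  have := Fact.mk hq
  have : NeZero (q ^ r) := ⟨pow_ne_zero _ hq.ne_zero⟩
  have := finite_torsSub (p := p) (q ^ r)
  obtain ⟨τ, hτ, hgen, hfixed⟩ :=
    exists_inertia_generator hq hqp (finite_torsSub (q ^ r)) hP hφ hGsub hGfix hGfrob z.2
  rw [show classHom (eisHom hE (q ^ r)) (2 * (B.factorial * (p ^ f - 1))) (kummerMap (q ^ r)) z =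
      fun σ => (2 * (B.factorial * (p ^ f - 1))) • eisHom hE (q ^ r) (kummerMap (q ^ r) z σ)
    from funext (classHom_apply _ _ _ z)]
  refine exists_triple_of_generator hp hq hqp.symm hr hP hM hS hB
    (c := fun σ => eisHom hE (q ^ r) (kummerMap (q ^ r) z σ)) (eisHom_kummerMap_mul hE z)
    ⟨MulAction.stabilizer Γℚ (z : JZero p), MW.isOpen_stabilizer_jZero _,
      fun σ u hu => congrArg (eisHom hE (q ^ r)) (kummerMap_congr z ?_)⟩ ?_ hτ ?_ ?_ ?_
  · rw [mul_smul, show u • (z : JZero p) = z from hu]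
  · intro ℓ hℓ hlp hlq A hA σ hσ
    have := Fact.mk hℓ
    refine congrArg (eisHom hE (q ^ r)) (kummerMap_congr z ?_)
    rw [one_smul]
    exact MW.smul_eq_self_of_nsmul_fixed
      (fun h => hlp ((Nat.prime_dvd_prime_iff_eq hℓ hp).1 h))
      (fun h => hlq ((Nat.prime_dvd_prime_iff_eq hℓ hq).1 (hℓ.dvd_of_dvd_pow h))) hA hσ _
      (fun σ => z.2 σ)
  · intro σ hσ
    obtain ⟨i, hi⟩ := hgen σ hσ
    exact ⟨i, congrArg (eisHom hE (q ^ r))
        (kummerMap_congr z (smul_eq_of_mk_eq hi (Or.inl rfl))),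
      fun x => Subtype.ext (smul_eq_of_mk_eq hi (Or.inr (nsmul_eisPart_eq_zero hE x)))⟩
  · intro σ hσ
    have h : σ • ((p ^ f - 1) • kummerMap (q ^ r) z τ) = (p ^ f - 1) • kummerMap (q ^ r) z τ :=
      Subtype.ext (hfixed σ hσ)
    exact ((congrArg (σ • ·) (map_nsmul (eisHom hE (q ^ r)) _ _)).symm.trans
      ((eisHom_smul hE σ _).symm.trans (congrArg (eisHom hE (q ^ r)) h))).trans
      (map_nsmul (eisHom hE (q ^ r)) _ _)
  · refine hasFlatModel_push (eisHom hE (q ^ r)) (eisHom_smul hE) (eisHom_surjective hE)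
      (fun σ => ?_) (hasFlatModel_kummer hqp r
        (((2 * (B.factorial * (p ^ f - 1))) • z : rootGroup p (q ^ r)) : JZero p)
        ((2 * (B.factorial * (p ^ f - 1))) • z).2)
    exact (congrArg (fun g => eisHom hE (q ^ r) (g σ))
      (map_nsmul (kummerMap (q ^ r)) (2 * (B.factorial * (p ^ f - 1))) z)).trans
      (map_nsmul (eisHom hE (q ^ r)) _ (kummerMap (q ^ r) z σ))

end Triple

theorem isSelmer_bounds {q r N₀ B₀ : ℕ} (hkill : ∀ x : JZero p, q ^ r • x = 0 →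
      (∀ σ : Γℚ, σ • x = x) → N₀ • x = 0)
    (hcard : Nat.card (torsSub p N₀).carrier ≤ B₀) [Finite (torsSub p N₀).carrier]
    {E : AddMonoid.End (JZero p)} (hE : ∀ (σ : Γℚ) (x : JZero p), σ • E x = E (σ • x))
    [Finite (eisPart (q ^ r) E hE).carrier]
    (hdual : ∀ χ : CartierDual (eisPart (q ^ r) E hE).carrier,
      (∀ σ : Γℚ, σ • χ = χ) → N₀ • χ = 0) :
    Nat.card {x : (eisPart (q ^ r) E hE).carrier // ∀ σ : Γℚ, σ • x = x} *
      Nat.card {χ : CartierDual (eisPart (q ^ r) E hE).carrier // ∀ σ : Γℚ, σ • χ = χ} ≤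
      B₀ * B₀ :=
  natCard_fixed_mul_dual_le (M := (eisPart (q ^ r) E hE).carrier) (N₀ := N₀) (B₀ := B₀)
    (fun x hx => Subtype.ext
      (hkill x (nsmul_eisPart_eq_zero hE x) fun σ => congrArg Subtype.val (hx σ)))
    hdual
    ((Nat.card_le_card_of_injective
      (fun x : {x : (eisPart (q ^ r) E hE).carrier // N₀ • x = 0} =>
        (⟨(x.1 : JZero p), (mem_torsSub p).2 (congrArg Subtype.val x.2 :)⟩ :
          (torsSub p N₀).carrier))
      fun a b h => Subtype.ext (Subtype.ext (congrArg Subtype.val h :))).trans hcard)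

/-- One step of the descent. -/
theorem exists_descent_step {q r f B : ℕ} (hq : q.Prime) (hqp : q ≠ p) (hr : 1 ≤ r)
    {P : ValuationSubring ℚbar} (hP : P.LiesOverPrime p) {φ : Γℚ} (hφ : P.IsFrobeniusAt φ p)
    {G : AddSubgroup (JZero p)}
    (hGsub : ∀ σ ∈ P.inertiaSubgroupIn ℚ, ∀ x : JZero p, q ^ r • x = 0 → σ • x - x ∈ G)
    (hGfix : ∀ σ ∈ P.inertiaSubgroupIn ℚ, ∀ g ∈ G, σ • g = g)
    (hGfrob : ∀ g ∈ G, (φ ^ f) • g = (p ^ f) • g)
    {E : AddMonoid.End (JZero p)} (hE : ∀ (σ : Γℚ) (x : JZero p), σ • E x = E (σ • x))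
    [Finite (eisPart (q ^ r) E hE).carrier]
    (hEis : IsEisensteinModule (eisPart (q ^ r) E hE).carrier q)
    (hB : Nat.card {x : (eisPart (q ^ r) E hE).carrier // ∀ σ : Γℚ, σ • x = x} *
      Nat.card {χ : CartierDual (eisPart (q ^ r) E hE).carrier // ∀ σ : Γℚ, σ • χ = χ} ≤ B)
    {C : ℕ} (hC : C = B.factorial * (2 * (B.factorial * (p ^ f - 1))))
    (y : JZero p) (hy : ∀ σ : Γℚ, σ • y = y) :
    ∃ Y : JZero p, (∀ σ : Γℚ, σ • Y = Y) ∧ E (C • y) = q ^ r • Y := by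
  have hp : p.Prime := Fact.out
  have hM := isSelmerModule_eisPart hE hq hqp r hEis
  have hspan : inertiaSpan P (eisPart (q ^ r) E hE).carrier ≤
      G.comap (eisPart (q ^ r) E hE).carrier.subtype := by
    rw [inertiaSpan, AddSubgroup.closure_le]
    rintro _ ⟨σ, hσ, x, rfl⟩
    exact hGsub σ hσ x (nsmul_eisPart_eq_zero hE x)
  have hS : ∀ σ ∈ P.inertiaSubgroupIn ℚ, ∀ v ∈ inertiaSpan P (eisPart (q ^ r) E hE).carrier,
      σ • v = v := fun σ hσ v hv => Subtype.ext (hGfix σ hσ _ (hspan hv))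
  obtain ⟨z, hz⟩ := MW.exists_nsmul_eq_jZero p (pow_ne_zero r hq.ne_zero) y
  obtain ⟨x, hx⟩ := factorial_smul_isCoboundary (M := (eisPart (q ^ r) E hE).carrier) (B := B)
    hp hq hqp.symm hr hP hM hS hB
    (G := rootGroup p (q ^ r))
    (classHom (eisHom hE (q ^ r)) (2 * (B.factorial * (p ^ f - 1))) (kummerMap (q ^ r)))
    (exists_triple_eisKummer hE hq hqp hr hP hφ hGsub hGfix hGfrob hM hS hB)
    ⟨z, fun σ => by rw [hz, hy]⟩
  refine ⟨C • E z - (eisPart (q ^ r) E hE).carrier.subtype x,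
    descend_abstract (eisPart (q ^ r) E hE).carrier.subtype (fun σ x => rfl)
      (c := fun σ => eisHom hE (q ^ r)
        (kummerMap (q ^ r) (⟨z, fun σ => by rw [hz, hy]⟩ : rootGroup p (q ^ r)) σ))
      (w := E z)
      (fun σ => coe_eisHom_kummerMap hE (⟨z, fun σ => by rw [hz, hy]⟩ : rootGroup p (q ^ r)) σ)
      fun σ => ?_, ?_⟩
  · rw [hC, mul_nsmul', ← classHom_apply]
    exact hx σ
  · rw [nsmul_sub, AddSubgroup.coe_subtype, nsmul_eisPart_eq_zero hE x, sub_zero, ← hz]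
    show (E : JZero p →+ JZero p) (C • q ^ r • z) = q ^ r • C • (E : JZero p →+ JZero p) z
    rw [map_nsmul, map_nsmul, nsmul_left_comm]

/-- The descent theorem: the Eisenstein part of `J₀(p)(ℚ)` is torsion, uniformly. -/
theorem exists_descent_bound {q : ℕ} (hq : q.Prime) (hqp : q ≠ p)
    {S : Finset ℕ} (hpS : p ∈ S) (hqS : q ∈ S) {x₀ : JZero p} (hx₀ : x₀ ≠ 0)
    (hqx₀ : q • x₀ = 0) (hev : IsEisensteinVector p S x₀) :
    ∃ C : ℕ, C ≠ 0 ∧ ∀ r : ℕ, ∃ E ∈ heckeAway p S,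
      (∀ (σ : Γℚ) (x : JZero p), σ • E x = E (σ • x)) ∧
      (∀ x : JZero p, q ^ r • x = 0 → IsEisensteinVector p S x → E x = x) ∧
      ∀ y : JZero p, (∀ σ : Γℚ, σ • y = y) →
        ∃ Y : JZero p, (∀ σ : Γℚ, σ • Y = Y) ∧ E (C • y) = q ^ r • Y := by
  have hp : p.Prime := Fact.out
  obtain ⟨P, hP⟩ := Galois.exists_liesOverPrime hp
  obtain ⟨φ, hφ⟩ := Galois.exists_isFrobeniusAt hp hP
  obtain ⟨f, hf, htoric⟩ := exists_toric hP
  obtain ⟨N₀, hN₀, hkill, hdual⟩ := exists_eisenstein_annihilator hq hqp hpS hqS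
  have : NeZero N₀ := ⟨hN₀⟩
  have := finite_torsSub (p := p) N₀
  obtain ⟨B₀, hB₀⟩ : ∃ b, Nat.card (torsSub p N₀).carrier ≤ b := ⟨_, le_rfl⟩
  obtain ⟨C, hC⟩ : ∃ C, C = (B₀ * B₀).factorial * (2 * ((B₀ * B₀).factorial * (p ^ f - 1))) :=
    ⟨_, rfl⟩
  refine ⟨C, hC ▸ mul_ne_zero (Nat.factorial_ne_zero _) (mul_ne_zero two_ne_zero
    (mul_ne_zero (Nat.factorial_ne_zero _) (Nat.sub_ne_zero_of_lt (Nat.one_lt_pow hf.ne' hp.one_lt)))),
    fun r => ?_⟩
  obtain ⟨E, hE, hEmem, -, hEfix, hEis, hEstab⟩ :=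
    exists_projector hq hqp hpS hqS hx₀ hqx₀ hev r
  refine ⟨E, hEmem, hE, hEfix, fun y hy => ?_⟩
  rcases Nat.eq_zero_or_pos r with rfl | hr
  · exact ⟨E (C • y), fun σ => by rw [hE, galois_smul_comm_nsmul, hy],
      by rw [pow_zero, one_smul]⟩
  have : NeZero (q ^ r) := ⟨pow_ne_zero _ hq.ne_zero⟩
  have := finite_torsSub (p := p) (q ^ r)
  have : Finite (eisPart (q ^ r) E hE).carrier :=
    Finite.of_surjective _ (eisHom_surjective hE)
  obtain ⟨G, -, hGsub, hGfix, hGfrob⟩ := htoric (q ^ r) fun h =>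
    hqp ((Nat.prime_dvd_prime_iff_eq hp hq).1 (hp.dvd_of_dvd_pow h)).symm
  exact exists_descent_step hq hqp hr hP hφ hGsub hGfix (hGfrob φ hφ) hE hEis
    (isSelmer_bounds (hkill r) hB₀ hE (hdual r _
      (fun x hx => (mem_torsSub p).2 (nsmul_eisPart_eq_zero hE ⟨x, hx⟩)) hEstab))
    hC y hy

end Fermat.Agent.Mazur

end
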