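/-
Velu's invariants of the quotient of a curve by a cyclic subgroup, as functions of a generator.
-/
import Fermat.Agent.Small13.VarChange
import Fermat.Prelude.Def_FLTPrelim_GaloisRep
import Fermat.Agent.Galois.QbarInstances
import Mathlib.FieldTheory.Galois.Infinite

set_option autoImplicit false

noncomputable section

namespace Fermat.Agent.Mazur.ModuliVelu

open WeierstrassCurve
open scoped WeierstrassCurve.Affine

/-- Velu's weight four summand `6 x ^ 2 + b₂ x + b₄`. -/
def veluT {F : Type*} [CommRing F] (V : WeierstrassCurve F) (x : F) : F :=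
  6 * x ^ 2 + V.b₂ * x + V.b₄

/-- Velu's weight six summand. -/
def veluV {F : Type*} [CommRing F] (V : WeierstrassCurve F) (x y : F) : F :=
  12 * (2 * y + V.a₁ * x + V.a₃) ^ 2 + (12 * x + V.b₂) * veluT V x

theorem map_veluT {F G : Type*} [CommRing F] [CommRing G] (f : F →+* G) (V : WeierstrassCurve F)
    (x : F) : veluT (V.map f) (f x) = f (veluT V x) := by
  simp [veluT, map_b₂, map_b₄, map_add, map_mul, map_pow, map_ofNat]

theorem map_veluV {F G : Type*} [CommRing F] [CommRing G] (f : F →+* G) (V : WeierstrassCurve F)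
    (x y : F) : veluV (V.map f) (f x) (f y) = f (veluV V x y) := by
  simp [veluV, map_veluT, map_b₂, map_add, map_mul, map_pow, map_ofNat]

theorem veluT_vc {F : Type*} [Field F] (V : WeierstrassCurve F) (C : VariableChange F) (x : F) :
    veluT V (Small13.vcX C x) = (C.u : F) ^ 4 * veluT (C • V) x := by
  simp only [veluT, Small13.vcX, variableChange_b₂, variableChange_b₄,
    Units.val_inv_eq_inv_val]
  have hu : (C.u : F) ≠ 0 := C.u.ne_zero
  field_simp
  ring

theorem veluV_vc {F : Type*} [Field F] (V : WeierstrassCurve F) (C : VariableChange F) (x y : F) :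
    veluV V (Small13.vcX C x) (Small13.vcY C x y) = (C.u : F) ^ 6 * veluV (C • V) x y := by
  rw [veluV, veluV, veluT_vc]
  simp only [veluT, Small13.vcX, Small13.vcY, variableChange_b₂, variableChange_b₄,
    variableChange_a₁, variableChange_a₃, Units.val_inv_eq_inv_val]
  have hu : (C.u : F) ≠ 0 := C.u.ne_zero
  field_simp
  ring

variable {F : Type*} [Field F] {V : WeierstrassCurve F}

/-- `veluT` of a point, `0` at the origin. -/
def ptT : V.toAffine.Point → F
  | .zero => 0
  | .some x _ _ => veluT V x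

/-- `veluV` of a point, `0` at the origin. -/
def ptV : V.toAffine.Point → F
  | .zero => 0
  | .some x y _ => veluV V x y

@[simp] theorem ptT_some {x y : F} (h : V.toAffine.Nonsingular x y) :
    ptT (.some x y h) = veluT V x := rfl

@[simp] theorem ptV_some {x y : F} (h : V.toAffine.Nonsingular x y) :
    ptV (.some x y h) = veluV V x y := rfl

variable [DecidableEq F]

/-- Velu's `c₄` of the quotient by the subgroup generated by `P`, of order `p`. -/
def quotC4 (P : V.toAffine.Point) (p : ℕ) : F :=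
  V.c₄ + 120 * ∑ i ∈ Finset.Ico 1 p, ptT (i • P)

/-- Velu's `c₆` of the quotient. -/
def quotC6 (P : V.toAffine.Point) (p : ℕ) : F :=
  V.c₆ + 252 * ∑ i ∈ Finset.Ico 1 p, ptV (i • P)

/-- Summing over another generator. -/
theorem sum_nsmul_generator {M A : Type*} [AddMonoid M] [AddCommMonoid A] {p m : ℕ} (hp : p.Prime)
    (hm : ¬ p ∣ m) (P : M) (hP : p • P = 0) (f : M → A) :
    ∑ i ∈ Finset.Ico 1 p, f (i • (m • P)) = ∑ i ∈ Finset.Ico 1 p, f (i • P) := by
  have hmod : ∀ n : ℕ, (n % p) • P = n • P := fun n => by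
    conv_rhs => rw [← Nat.mod_add_div n p, add_nsmul, mul_nsmul, hP, nsmul_zero, add_zero]
  have hinj : Set.InjOn (fun i => i * m % p) (Finset.Ico 1 p : Finset ℕ) := by
    intro a ha b hb h
    simp only [Finset.coe_Ico, Set.mem_Ico] at ha hb
    have h2 : a ≡ b [MOD p] :=
      Nat.ModEq.cancel_right_of_coprime ((Nat.Prime.coprime_iff_not_dvd hp).2 hm) h
    exact h2.eq_of_lt_of_lt ha.2 hb.2
  have hmaps : ∀ i ∈ Finset.Ico 1 p, i * m % p ∈ Finset.Ico 1 p := by
    intro i hi
    rw [Finset.mem_Ico] at hi ⊢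
    refine ⟨Nat.one_le_iff_ne_zero.2 fun h => ?_, Nat.mod_lt _ hp.pos⟩
    rcases hp.dvd_mul.1 (Nat.dvd_of_mod_eq_zero h) with h1 | h1
    · exact absurd (Nat.le_of_dvd (by omega) h1) (by omega)
    · exact hm h1
  refine Finset.sum_bij (fun i _ => i * m % p) hmaps (fun a ha b hb h => hinj ha hb h) ?_ ?_
  · intro b hb
    have := Finset.surj_on_of_inj_on_of_card_le (fun i _ => i * m % p) hmaps
      (fun a b ha hb h => hinj ha hb h) le_rfl b hb
    obtain ⟨a, ha, hab⟩ := this
    exact ⟨a, ha, hab.symm⟩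
  · intro i _
    rw [← mul_nsmul', hmod]

theorem quotC4_generator {p m : ℕ} (hp : p.Prime) (hm : ¬ p ∣ m) (P : V.toAffine.Point)
    (hP : p • P = 0) : quotC4 (m • P) p = quotC4 P p := by
  rw [quotC4, quotC4, sum_nsmul_generator hp hm P hP ptT]

theorem quotC6_generator {p m : ℕ} (hp : p.Prime) (hm : ¬ p ∣ m) (P : V.toAffine.Point)
    (hP : p • P = 0) : quotC6 (m • P) p = quotC6 P p := by
  rw [quotC6, quotC6, sum_nsmul_generator hp hm P hP ptV]

section functoriality

variable {R S : Type*} [CommRing R] [CommRing S] {W' : Affine R} [Algebra R S] [Algebra R F]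
  [Algebra S F] [IsScalarTower R S F] {G : Type*} [Field G] [DecidableEq G] [Algebra R G]
  [Algebra S G] [IsScalarTower R S G] (f : F →ₐ[S] G)

omit [DecidableEq F] [DecidableEq G] in
theorem baseChange_map : (W'⁄F : WeierstrassCurve F).map (f : F →+* G) = (W'⁄G) := by
  exact WeierstrassCurve.map_baseChange W' f

theorem ptT_map (P : (W'⁄F).Point) : ptT (V := (W'⁄G)) (Affine.Point.map f P) = f (ptT P) := by
  rcases P with _ | ⟨x, y, h⟩
  · exact (map_zero f).symm
  · rw [Affine.Point.map_some]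
    show veluT _ _ = f (veluT _ _)
    rw [← baseChange_map f]
    exact map_veluT (f : F →+* G) _ x

theorem ptV_map (P : (W'⁄F).Point) : ptV (V := (W'⁄G)) (Affine.Point.map f P) = f (ptV P) := by
  rcases P with _ | ⟨x, y, h⟩
  · exact (map_zero f).symm
  · rw [Affine.Point.map_some]
    show veluV _ _ _ = f (veluV _ _ _)
    rw [← baseChange_map f]
    exact map_veluV (f : F →+* G) _ x y

theorem quotC4_map (P : (W'⁄F).Point) (p : ℕ) :
    quotC4 (V := (W'⁄G)) (Affine.Point.map f P) p = f (quotC4 P p) := by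
  simp only [quotC4, map_add, map_mul, map_sum, map_ofNat]
  congr 1
  · rw [← baseChange_map f, WeierstrassCurve.map_c₄]; rfl
  · congr 1
    exact Finset.sum_congr rfl fun i _ => by rw [← map_nsmul, ptT_map]

theorem quotC6_map (P : (W'⁄F).Point) (p : ℕ) :
    quotC6 (V := (W'⁄G)) (Affine.Point.map f P) p = f (quotC6 P p) := by
  simp only [quotC6, map_add, map_mul, map_sum, map_ofNat]
  congr 1
  · rw [← baseChange_map f, WeierstrassCurve.map_c₆]; rfl
  · congr 1
    exact Finset.sum_congr rfl fun i _ => by rw [← map_nsmul, ptV_map]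

end functoriality

/-- Velu's invariants of a rational point are rational. -/
theorem exists_rat_quot (W : WeierstrassCurve ℚ)
    (Q : (W⁄(AlgebraicClosure ℚ)).Point)
    (hQ : ∀ σ : AlgebraicClosure ℚ ≃ₐ[ℚ] AlgebraicClosure ℚ, σ • Q = Q) (p : ℕ) :
    ∃ a b : ℚ, quotC4 Q p = (a : AlgebraicClosure ℚ) ∧ quotC6 Q p = (b : AlgebraicClosure ℚ) := by
  have key : ∀ z : AlgebraicClosure ℚ, (∀ σ : AlgebraicClosure ℚ ≃ₐ[ℚ] AlgebraicClosure ℚ, σ z = z) →
      ∃ r : ℚ, z = (r : AlgebraicClosure ℚ) := by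
    intro z hz
    obtain ⟨r, hr⟩ := (InfiniteGalois.mem_range_algebraMap_iff_fixed z).2 hz
    exact ⟨r, by rw [← hr, eq_ratCast]⟩
  obtain ⟨a, ha⟩ := key (quotC4 Q p) fun σ => by
    have h := quotC4_map σ.toAlgHom Q p
    rw [← Affine.Point.algEquiv_smul_def, hQ σ] at h
    exact h.symm
  obtain ⟨b, hb⟩ := key (quotC6 Q p) fun σ => by
    have h := quotC6_map σ.toAlgHom Q p
    rw [← Affine.Point.algEquiv_smul_def, hQ σ] at h
    exact h.symm
  exact ⟨a, b, ha, hb⟩

end Fermat.Agent.Mazur.ModuliVelu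

end
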