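/-
The invariants of the quotient by a point of order `p` at a multiplicative place.
-/
import Fermat.Agent.Mazur.ModuliVelu
import Fermat.Agent.Mazur.ModuliJ
import Fermat.Agent.Tate.Main

set_option autoImplicit false

noncomputable section

namespace Fermat.Agent.Mazur

open WeierstrassCurve Fermat.Agent.Tate ModuliVelu
open scoped WeierstrassCurve.Affine

local notation "Qbar" => AlgebraicClosure ℚ

theorem quotC4_congrPoints {F : Type*} [Field F] [DecidableEq F] {V V' : WeierstrassCurve F}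
    (h : V = V') (P : V.toAffine.Point) (p : ℕ) :
    quotC4 (congrPoints h P) p = quotC4 P p := by
  subst h; rfl

theorem quotC6_congrPoints {F : Type*} [Field F] [DecidableEq F] {V V' : WeierstrassCurve F}
    (h : V = V') (P : V.toAffine.Point) (p : ℕ) :
    quotC6 (congrPoints h P) p = quotC6 P p := by
  subst h; rfl

variable {K : Type} [NormedField K] [IsUltrametricDist K] [CompleteSpace K] [CharZero K]
variable [DecidableEq K]
variable {W : WeierstrassCurve ℤ} {A : ValuationSubring Qbar} {q : ℕ} {F : PlaceField A q K}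

omit [IsUltrametricDist K] [CompleteSpace K] in
theorem jOf_quot_pointMap (F : PlaceField A q K) (Q : QbarPoint W) (p : ℕ) :
    jOf (quotC4 (F.pointMap W Q) p) (quotC6 (F.pointMap W Q) p) =
      F.j (jOf (quotC4 Q p) (quotC6 Q p)) := by
  rw [map_jOf, PlaceField.pointMap, AddMonoidHom.comp_apply, quotC4_congrPoints,
    quotC6_congrPoints, quotC4_map, quotC6_map]
  rfl

variable (N : Normalisation W F)

theorem ptT_unif {v : Kˣ} (h1 : qReduce N.norm_qT_lt v ≠ 1) :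
    ptT (N.unif (Additive.ofMul v)) =
      (N.C.u : K) ^ 4 * tateT (N.qT : K) (qReduce N.norm_qT_lt v) := by
  rw [N.unif_some h1, ptT_some, Normalisation.px, veluT_vc, N.smul_eq,
    tateT_eq N.norm_qT_lt (qReduce_inAnn _ v) h1]
  simp [veluT, WeierstrassCurve.b₂, WeierstrassCurve.b₄]

theorem ptV_unif {v : Kˣ} (h1 : qReduce N.norm_qT_lt v ≠ 1) :
    ptV (N.unif (Additive.ofMul v)) =
      (N.C.u : K) ^ 6 * tateV (N.qT : K) (qReduce N.norm_qT_lt v) := by
  rw [N.unif_some h1, ptV_some, Normalisation.px, Normalisation.py, veluV_vc, N.smul_eq,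
    tateV_eq N.norm_qT_lt (qReduce_inAnn _ v) h1, tateT_eq N.norm_qT_lt (qReduce_inAnn _ v) h1]
  simp [veluV, veluT, WeierstrassCurve.b₂, WeierstrassCurve.b₄]
  ring

omit [DecidableEq K] in
theorem curve_c₄ : (Normalisation.curve W K).c₄ =
    (N.C.u : K) ^ 4 * (1 + 240 * lam 3 N.norm_qT_lt) := by
  have h := congrArg WeierstrassCurve.c₄ N.smul_eq
  rw [variableChange_c₄, tateCurve,
    show (tateCurveSeries.map (intEval N.norm_qT_lt)).c₄ = _ from WeierstrassCurve.map_c₄ _ _,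
    intEval_c₄,
    Units.val_inv_eq_inv_val] at h
  rw [← h, inv_pow, mul_inv_cancel_left₀ (pow_ne_zero 4 N.C.u.ne_zero)]

omit [DecidableEq K] in
theorem curve_c₆ : (Normalisation.curve W K).c₆ =
    (N.C.u : K) ^ 6 * (-1 + 504 * lam 5 N.norm_qT_lt) := by
  have h := congrArg WeierstrassCurve.c₆ N.smul_eq
  rw [variableChange_c₆, tateCurve,
    show (tateCurveSeries.map (intEval N.norm_qT_lt)).c₆ = _ from WeierstrassCurve.map_c₆ _ _,
    intEval_c₆,
    Units.val_inv_eq_inv_val] at h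
  rw [← h, inv_pow, mul_inv_cancel_left₀ (pow_ne_zero 6 N.C.u.ne_zero)]

/-- Velu's invariants in terms of a parameter whose powers below `p` are reduced. -/
theorem quot_unif {v : Kˣ} {p : ℕ}
    (hred : ∀ i ∈ Finset.Ico 1 p, qReduce N.norm_qT_lt (v ^ i) = v ^ i ∧ v ^ i ≠ 1) :
    quotC4 (N.unif (Additive.ofMul v)) p = (N.C.u : K) ^ 4 * (1 + 240 * lam 3 N.norm_qT_lt +
      120 * ∑ i ∈ Finset.Ico 1 p, tateT (N.qT : K) (v ^ i)) ∧
    quotC6 (N.unif (Additive.ofMul v)) p = (N.C.u : K) ^ 6 * (-1 + 504 * lam 5 N.norm_qT_lt +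
      252 * ∑ i ∈ Finset.Ico 1 p, tateV (N.qT : K) (v ^ i)) := by
  have hsmul : ∀ i : ℕ, i • N.unif (Additive.ofMul v) = N.unif (Additive.ofMul (v ^ i)) :=
    fun i => by rw [ofMul_pow, map_nsmul]
  constructor
  · have hs : ∀ i ∈ Finset.Ico 1 p, ptT (i • N.unif (Additive.ofMul v)) =
        (N.C.u : K) ^ 4 * tateT (N.qT : K) (v ^ i) := fun i hi => by
      rw [hsmul, ptT_unif N (by rw [(hred i hi).1]; exact (hred i hi).2), (hred i hi).1]
    rw [quotC4, curve_c₄ N, Finset.sum_congr rfl hs, ← Finset.mul_sum]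
    ring
  · have hs : ∀ i ∈ Finset.Ico 1 p, ptV (i • N.unif (Additive.ofMul v)) =
        (N.C.u : K) ^ 6 * tateV (N.qT : K) (v ^ i) := fun i hi => by
      rw [hsmul, ptV_unif N (by rw [(hred i hi).1]; exact (hred i hi).2), (hred i hi).1]
    rw [quotC6, curve_c₆ N, Finset.sum_congr rfl hs, ← Finset.mul_sum]
    ring

theorem unif_qReduce (v : Kˣ) :
    N.unif (Additive.ofMul (qReduce N.norm_qT_lt v)) = N.unif (Additive.ofMul v) := by
  rw [qReduce, ofMul_mul, map_add,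
    (N.unif_eq_zero_iff _).2 ⟨qIndex N.norm_qT_lt v, rfl⟩, add_zero]

/-- The two shapes of the quotient. -/
theorem quot_shape {p : ℕ} (hp : p.Prime) {v : Kˣ}
    (hvp : p • N.unif (Additive.ofMul v) = 0) (hv0 : N.unif (Additive.ofMul v) ≠ 0) :
    (‖(qReduce N.norm_qT_lt v : K)‖ = 1 ∧ ∃ h : ‖(N.qT : K) ^ p‖ < 1,
      jOf (quotC4 (N.unif (Additive.ofMul v)) p) (quotC6 (N.unif (Additive.ofMul v)) p) = jT h) ∨
    (‖(qReduce N.norm_qT_lt v : K)‖ ≠ 1 ∧ ∃ (s : Kˣ) (h : ‖(s : K)‖ < 1), s ^ p = N.qT ∧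
      jOf (quotC4 (N.unif (Additive.ofMul v)) p) (quotC6 (N.unif (Additive.ofMul v)) p) = jT h) := by
  set a := qReduce N.norm_qT_lt v with ha
  rw [← unif_qReduce, ← ha] at hvp hv0 ⊢
  obtain ⟨ha1, ha2⟩ : ‖(N.qT : K)‖ < ‖(a : K)‖ ∧ ‖(a : K)‖ ≤ 1 := qReduce_spec _ v
  rw [← map_nsmul, ← ofMul_pow] at hvp
  obtain ⟨k, hk⟩ := (N.unif_eq_zero_iff _).1 hvp
  have hane : a ≠ 1 := fun h => hv0 (by rw [h, ofMul_one, map_zero])
  have hu0 : (N.C.u : K) ≠ 0 := N.C.u.ne_zero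
  have hq0 : 0 < ‖(N.qT : K)‖ := norm_pos_iff.2 N.qT.ne_zero
  have hq1 := N.norm_qT_lt
  have hkn : ‖(a : K)‖ ^ p = ‖(N.qT : K)‖ ^ k := by
    rw [← norm_pow, ← norm_zpow, ← Units.val_pow_eq_pow_val, hk, Units.val_zpow_eq_zpow_val]
  have hk0 : 0 ≤ k := by
    by_contra h
    have h1 : (1 : ℝ) < ‖(N.qT : K)‖ ^ k := one_lt_zpow_of_neg₀ hq0 hq1 (by omega)
    exact absurd (hkn ▸ h1) (not_lt.2 (pow_le_one₀ (norm_nonneg _) ha2))
  have hkp : k < p := by
    by_contra h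
    have h1 : ‖(N.qT : K)‖ ^ k ≤ ‖(N.qT : K)‖ ^ p := by
      rw [← zpow_natCast ‖(N.qT : K)‖ p]
      exact zpow_le_zpow_right_of_le_one₀ hq0 hq1.le (by omega)
    exact absurd (hkn ▸ h1) (not_le.2 (pow_lt_pow_left₀ ha1 (norm_nonneg _) hp.ne_zero))
  lift k to ℕ using hk0
  rw [zpow_natCast] at hk hkn
  have hred : ∀ w : Kˣ, ‖(N.qT : K)‖ < ‖(w : K)‖ → ‖(w : K)‖ ≤ 1 →
      qReduce N.norm_qT_lt w = w := fun w hw hw' =>
    qReduce_eq _ (k := 0) (by rw [zpow_zero, mul_one]) hw hw'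
  rcases Nat.eq_zero_or_pos k with rfl | hkpos
  · -- the subgroup `μ_p`
    left
    rw [pow_zero] at hk hkn
    have hna : ‖(a : K)‖ = 1 := (pow_eq_one_iff_of_nonneg (norm_nonneg _) hp.ne_zero).1 hkn
    have hqp : ‖(N.qT : K) ^ p‖ < 1 := by
      rw [norm_pow]; exact pow_lt_one₀ (norm_nonneg _) hq1 hp.ne_zero
    refine ⟨hna, hqp, ?_⟩
    have : Fact p.Prime := ⟨hp⟩
    have hζ : IsPrimitiveRoot (a : K) p := by
      rw [IsPrimitiveRoot.coe_units_iff, ← orderOf_eq_prime hk hane]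
      exact IsPrimitiveRoot.orderOf a
    have hai : ∀ i ∈ Finset.Ico 1 p, qReduce N.norm_qT_lt (a ^ i) = a ^ i ∧ a ^ i ≠ 1 := by
      intro i hi
      rw [Finset.mem_Ico] at hi
      refine ⟨hred _ ?_ ?_, fun h => ?_⟩
      · rw [Units.val_pow_eq_pow_val, norm_pow, hna, one_pow]; exact hq1
      · rw [Units.val_pow_eq_pow_val, norm_pow, hna, one_pow]
      · exact hζ.pow_ne_one_of_pos_of_lt (by omega) hi.2
          (by rw [← Units.val_pow_eq_pow_val, h, Units.val_one])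
    obtain ⟨e4, e6⟩ := quot_unif N hai
    rw [e4, e6, sum_tateT_roots hp.ne_zero hq1 hqp hζ, sum_tateV_roots hp.ne_zero hq1 hqp hζ,
      ← intEval_c₄ hqp, ← intEval_c₆ hqp, ← mul_assoc, ← mul_assoc, ← mul_pow, ← mul_pow,
      jOf_scale (mul_ne_zero hu0 (Nat.cast_ne_zero.2 hp.ne_zero)), jOf_intEval]
  · -- a `p`-th root of the parameter
    right
    have : Fact p.Prime := ⟨hp⟩
    have hk' : (k : ZMod p) ≠ 0 := by
      rw [ne_eq, ZMod.natCast_eq_zero_iff]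
      exact fun h => absurd (Nat.le_of_dvd hkpos h) (by omega)
    obtain ⟨m, n, hm, hmn⟩ : ∃ m n : ℕ, ¬ p ∣ m ∧ m * k = 1 + n * p := by
      refine ⟨((k : ZMod p)⁻¹).val, ((k : ZMod p)⁻¹).val * k / p, fun h => ?_, ?_⟩
      · rw [← ZMod.natCast_eq_zero_iff, ZMod.natCast_zmod_val] at h
        exact inv_ne_zero hk' h
      · have h1 : ((((k : ZMod p)⁻¹).val * k : ℕ) : ZMod p) = ((1 : ℕ) : ZMod p) := by
          rw [Nat.cast_mul, ZMod.natCast_zmod_val, inv_mul_cancel₀ hk', Nat.cast_one]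
        rw [ZMod.natCast_eq_natCast_iff', Nat.mod_eq_of_lt hp.one_lt] at h1
        have h2 := Nat.mod_add_div (((k : ZMod p)⁻¹).val * k) p
        rw [h1] at h2
        rw [mul_comm (_ / p) p]
        exact h2.symm
    have hna : ‖(a : K)‖ ≠ 1 := fun h => by
      rw [h, one_pow] at hkn
      exact absurd hkn (pow_lt_one₀ (norm_nonneg _) hq1 hkpos.ne').ne'
    set s : Kˣ := a ^ m * (N.qT ^ n)⁻¹ with hs
    have hsp : s ^ p = N.qT := by
      rw [hs, mul_pow, inv_pow, ← pow_mul, ← pow_mul, mul_comm m, pow_mul, hk, ← pow_mul,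
        mul_comm k, hmn, pow_add, pow_one, mul_inv_cancel_right]
    have hsn : ‖(s : K)‖ ^ p = ‖(N.qT : K)‖ := by
      rw [← norm_pow, ← Units.val_pow_eq_pow_val, hsp]
    have hs1 : ‖(s : K)‖ < 1 := by
      by_contra h
      exact absurd hsn ((lt_of_lt_of_le hq1 (one_le_pow₀ (not_lt.1 h))).ne')
    have hs0 : 0 < ‖(s : K)‖ := norm_pos_iff.2 s.ne_zero
    have hgen : N.unif (Additive.ofMul s) = m • N.unif (Additive.ofMul a) := by
      rw [hs, ofMul_mul, ofMul_pow, map_add, map_nsmul,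
        (N.unif_eq_zero_iff (N.qT ^ n)⁻¹).2 ⟨-(n : ℤ), by rw [zpow_neg, zpow_natCast]⟩, add_zero]
    have hsi : ∀ i ∈ Finset.Ico 1 p, qReduce N.norm_qT_lt (s ^ i) = s ^ i ∧ s ^ i ≠ 1 := by
      intro i hi
      rw [Finset.mem_Ico] at hi
      have e : ‖((s ^ i : Kˣ) : K)‖ = ‖(s : K)‖ ^ i := by
        rw [Units.val_pow_eq_pow_val, norm_pow]
      refine ⟨hred _ ?_ ?_, fun h => ?_⟩
      · rw [e, ← hsn]; exact pow_lt_pow_right_of_lt_one₀ hs0 hs1 hi.2
      · rw [e]; exact pow_le_one₀ hs0.le hs1.le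
      · rw [h, Units.val_one, norm_one] at e
        exact absurd e.symm (pow_lt_one₀ hs0.le hs1 (by omega)).ne
    refine ⟨hna, s, hs1, hsp, ?_⟩
    have hord : p • N.unif (Additive.ofMul a) = 0 := by rw [← map_nsmul, ← ofMul_pow]; exact hvp
    obtain ⟨e4, e6⟩ := quot_unif N hsi
    obtain ⟨E4, E6⟩ := sum_tate_root hp.ne_zero hsp hs1 hq1
    rw [← quotC4_generator hp hm _ hord, ← quotC6_generator hp hm _ hord, ← hgen, e4, e6, E4, E6,
      ← intEval_c₄ hs1, ← intEval_c₆ hs1, jOf_scale hu0, jOf_intEval]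

omit [DecidableEq K] in
/-- The invariant of the curve itself. -/
theorem jOf_curve (N : Normalisation W F) :
    jOf ((W.c₄ : ℤ) : K) ((W.c₆ : ℤ) : K) = jT N.norm_qT_lt := by
  have e4 : ((W.c₄ : ℤ) : K) = (Normalisation.curve W K).c₄ := by
    rw [WeierstrassCurve.map_c₄]; rfl
  have e6 : ((W.c₆ : ℤ) : K) = (Normalisation.curve W K).c₆ := by
    rw [WeierstrassCurve.map_c₆]; rfl
  rw [e4, e6, curve_c₄ N, curve_c₆ N, ← intEval_c₄, ← intEval_c₆, jOf_scale N.C.u.ne_zero,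
    jOf_intEval]

end Fermat.Agent.Mazur

end
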