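/-
The rational point of `X₀(p)` defined by a rational point of order `p`, with its behaviour at the
multiplicative primes.
-/
import Fermat.Agent.Mazur.ModuliLocal
import Fermat.Agent.Mazur.Defs

set_option autoImplicit false

noncomputable section

namespace Fermat.Agent.Mazur

open WeierstrassCurve ModularCurve Fermat.Agent.Tate ModuliVelu
open scoped WeierstrassCurve.Affine

local notation "ℚbar" => AlgebraicClosure ℚ
local notation "Γℚ" => AlgebraicClosure ℚ ≃ₐ[ℚ] AlgebraicClosure ℚ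

theorem padicValRat_pair {q : ℕ} {K : Type} [NormedField K] [IsUltrametricDist K] [CharZero K]
    {A : ValuationSubring ℚbar} (F : PlaceField A q K) (hq : q.Prime) {J : ℚ} {e : ℤ}
    (h : ‖(J : K)‖ = ‖(q : K)‖ ^ e) : padicValRat q J = e := by
  have hq0 : 0 < ‖(q : K)‖ := norm_pos_iff.2 (Nat.cast_ne_zero.2 hq.ne_zero)
  have hJ : J ≠ 0 := by
    rintro rfl
    rw [Rat.cast_zero, norm_zero] at h
    exact (zpow_pos hq0 e).ne h
  exact zpow_right_injective₀ hq0 F.norm_q_lt_one.ne ((F.norm_ratCast_eq_zpow hq hJ).symm.trans h)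

/-- At a multiplicative prime the two invariants form a zero of the modular equation, with the
valuations prescribed by the component of the point. -/
theorem modularPair_local {p : ℕ} [Fact p.Prime] (W : WeierstrassCurve ℤ) (hΔ : W.Δ ≠ 0)
    (Q : QbarPoint W) (hQord : addOrderOf Q = p) {a b : ℚ}
    (ha : quotC4 Q p = (a : ℚbar)) (hb : quotC6 Q p = (b : ℚbar))
    {ℓ : ℕ} (hℓ : ℓ.Prime) (hdvd : (ℓ : ℤ) ∣ W.Δ) (hc₄ : ¬ (ℓ : ℤ) ∣ W.c₄)
    {A : ValuationSubring ℚbar} (hA : A.LiesOverPrime ℓ) :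
    let J₁ := jOf a b
    let J₂ := jOf (W.c₄ : ℚ) (W.c₆ : ℚ)
    IsModularPair p J₁ J₂ ∧
      (¬ W.InZeroComponentAt A Q →
        padicValRat ℓ J₁ < 0 ∧ padicValRat ℓ J₂ = p * padicValRat ℓ J₁) ∧
      (W.InZeroComponentAt A Q →
        padicValRat ℓ J₂ < 0 ∧ padicValRat ℓ J₁ = p * padicValRat ℓ J₂) := by
  classical
  intro J₁ J₂
  have hp : p.Prime := Fact.out
  obtain ⟨K, _, _, _, _, ⟨F⟩⟩ := exists_placeField hℓ hA
  obtain ⟨N⟩ := exists_normalisation W hℓ hΔ hdvd hc₄ F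
  obtain ⟨T⟩ := exists_tateParam N hℓ hp.ne_zero
  have hpQ : p • Q = 0 := by
    have h := addOrderOf_nsmul_eq_zero Q
    rwa [hQord] at h
  obtain ⟨i, j, hij⟩ := T.exists_pointMap_eq_unif hΔ hp.ne_zero (P := Q) (by
    rw [natCast_zsmul]; exact hpQ)
  set v := T.param i j
  have hvp : p • N.unif (Additive.ofMul v) = 0 := by rw [← hij, ← map_nsmul, hpQ, map_zero]
  have hv0 : N.unif (Additive.ofMul v) ≠ 0 := fun h => by
    rw [← hij] at h
    have h0 : Q = 0 := F.pointMap_injective W (h.trans (map_zero _).symm)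
    rw [h0, addOrderOf_zero] at hQord
    exact hp.one_lt.ne hQord
  have hJ1 : jOf (quotC4 (N.unif (Additive.ofMul v)) p) (quotC6 (N.unif (Additive.ofMul v)) p) =
      (J₁ : K) := by
    rw [← hij, jOf_quot_pointMap, ha, hb]
    show _ = Rat.castHom K (jOf a b)
    rw [map_jOf, map_jOf, map_ratCast, map_ratCast]
    rfl
  have hJ2 : jT N.norm_qT_lt = (J₂ : K) := by
    rw [← jOf_curve N]
    show _ = Rat.castHom K (jOf (W.c₄ : ℚ) (W.c₆ : ℚ))
    rw [map_jOf, map_intCast, map_intCast]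
  have hin : W.InZeroComponentAt A Q ↔ ‖(qReduce N.norm_qT_lt v : K)‖ = 1 :=
    N.inZeroComponentAt_iff hij
  have hΦ : (∀ data : ModularPolynomialData p, data.Φ.eval₂
      (Polynomial.eval₂RingHom (Int.castRingHom K) (J₁ : K)) (J₂ : K) = 0) →
      IsModularPair p J₁ J₂ := fun h data => by
    refine (map_eq_zero_iff (Rat.castHom K) Rat.cast_injective).1 ?_
    rw [Polynomial.hom_eval₂]
    refine Eq.trans ?_ (h data)
    congr 1
    exact Polynomial.ringHom_ext (fun n => by simp) (by simp)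
  set n := padicValInt ℓ W.Δ
  have hn : 0 < n := by
    have : Fact ℓ.Prime := ⟨hℓ⟩
    have h := (padicValInt_dvd_iff (p := ℓ) 1 W.Δ).1 (by rwa [pow_one])
    exact h.resolve_left hΔ
  have e2 : padicValRat ℓ J₂ = -(n : ℤ) := padicValRat_pair F hℓ (by
    rw [← hJ2, norm_jT _ N.qT.ne_zero, N.norm_qT, zpow_neg, zpow_natCast])
  rcases quot_shape N hp hvp hv0 with ⟨hna, hqp, hval⟩ | ⟨hna, s, hs, hsp, hval⟩
  · rw [hJ1] at hval
    have e1 : padicValRat ℓ J₁ = -((p * n : ℕ) : ℤ) := padicValRat_pair F hℓ (by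
      rw [hval, norm_jT _ (pow_ne_zero p N.qT.ne_zero), norm_pow, N.norm_qT, zpow_neg,
        zpow_natCast, ← pow_mul, mul_comm n p])
    refine ⟨hΦ fun data => ?_, fun h => absurd (hin.2 hna) h, fun _ => ⟨by omega, ?_⟩⟩
    · rw [← hJ2, hval]
      exact (eval_Φ_jT data N.norm_qT_lt N.qT.ne_zero hqp).2
    · rw [e1, e2]; push_cast; ring
  · rw [hJ1] at hval
    have hsp' : (N.qT : K) = (s : K) ^ p := by rw [← hsp, Units.val_pow_eq_pow_val]
    have hspn : ‖(s : K) ^ p‖ < 1 := by rw [← hsp']; exact N.norm_qT_lt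
    have hJ1n : ‖(J₁ : K)‖ ^ p = ‖(ℓ : K)‖ ^ (-(n : ℤ)) := by
      rw [hval, norm_jT _ s.ne_zero, inv_pow, ← norm_pow, ← hsp', N.norm_qT, zpow_neg,
        zpow_natCast]
    have hJ1n' : ‖((J₁ ^ p : ℚ) : K)‖ = ‖(ℓ : K)‖ ^ (-(n : ℤ)) := by
      rw [Rat.cast_pow, norm_pow, hJ1n]
    have e1 := padicValRat_pair F hℓ hJ1n'
    have : Fact ℓ.Prime := ⟨hℓ⟩
    rw [padicValRat.pow] at e1
    refine ⟨hΦ fun data => ?_, fun _ => ⟨?_, ?_⟩, fun h => absurd (hin.1 h) hna⟩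
    · have h := (eval_Φ_jT data hs s.ne_zero hspn).1
      rw [← hJ2, hval]
      convert h using 2
      simp only [hsp']
    · have hpos : (0 : ℤ) < p := by exact_mod_cast hp.pos
      nlinarith
    · rw [e1, e2]

/-- The rational point of `X₀(p)`. -/
theorem exists_modularPair_aux {p : ℕ} [Fact p.Prime] (W : WeierstrassCurve ℤ) (hΔ : W.Δ ≠ 0)
    (Q : QbarPoint W) (hQfix : ∀ σ : Γℚ, σ • Q = Q) (hQord : addOrderOf Q = p)
    (hmul : ∃ ℓ : ℕ, ℓ.Prime ∧ ℓ ≠ p ∧ (ℓ : ℤ) ∣ W.Δ ∧ ¬ (ℓ : ℤ) ∣ W.c₄) :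
    ∃ J₁ J₂ : ℚ, IsModularPair p J₁ J₂ ∧
      ∀ ℓ : ℕ, ℓ.Prime → ℓ ≠ p → (ℓ : ℤ) ∣ W.Δ → ¬ (ℓ : ℤ) ∣ W.c₄ →
        ∀ A : ValuationSubring ℚbar, A.LiesOverPrime ℓ →
          (¬ W.InZeroComponentAt A Q →
            padicValRat ℓ J₁ < 0 ∧ padicValRat ℓ J₂ = p * padicValRat ℓ J₁) ∧
          (W.InZeroComponentAt A Q →
            padicValRat ℓ J₂ < 0 ∧ padicValRat ℓ J₁ = p * padicValRat ℓ J₂) := by
  classical
  obtain ⟨a, b, ha, hb⟩ := exists_rat_quot (W.map (Int.castRingHom ℚ)) Q hQfix p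
  refine ⟨jOf a b, jOf (W.c₄ : ℚ) (W.c₆ : ℚ), ?_, fun ℓ hℓ _ h1 h2 A hA =>
    (modularPair_local W hΔ Q hQord ha hb hℓ h1 h2 hA).2⟩
  obtain ⟨ℓ, hℓ, -, h1, h2⟩ := hmul
  obtain ⟨A, hA⟩ := Galois.exists_liesOverPrime hℓ
  exact (modularPair_local W hΔ Q hQord ha hb hℓ h1 h2 hA).1

end Fermat.Agent.Mazur

end
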