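/-
Mazur's Eisenstein descent: `X₀(p)` has positive genus for `p ∉ {2, 3, 5, 7, 13}`.
-/
import Fermat.Agent.Torsion.Main
import Fermat.Agent.S27.Main
import Fermat.Agent.Igusa.JacobianGood
import Fermat.Agent.Curve.BasicModular

set_option autoImplicit false
set_option synthInstance.maxHeartbeats 400000

noncomputable section

open AlgebraicCurve ModularCurve

namespace Fermat.Agent.Mazur

theorem natCard_roots_le {R : Type*} [Field R] (b c : R) :
    Nat.card {x : R // x ^ 2 + b * x + c = 0} ≤ 2 := by
  classical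
  set P : Polynomial R := Polynomial.X ^ 2 + Polynomial.C b * Polynomial.X + Polynomial.C c with hP
  have hdeg : P.natDegree = 2 := by rw [hP]; compute_degree!
  have hne : P ≠ 0 := fun h => by simp [h] at hdeg
  refine (Nat.card_le_card_of_injective (fun x : {x : R // x ^ 2 + b * x + c = 0} =>
    (⟨x.1, Multiset.mem_toFinset.2 ((Polynomial.mem_roots hne).2 (by
      simpa [hP] using x.2))⟩ : P.roots.toFinset)) (fun x y h => Subtype.ext (by simpa using h))).trans ?_
  rw [Nat.card_eq_fintype_card, Fintype.card_coe]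
  exact (Multiset.toFinset_card_le _).trans ((Polynomial.card_roots' P).trans hdeg.le)

theorem genusFormula_pos {p : ℕ} [Fact p.Prime] (hp : p ∉ ({2, 3, 5, 7, 13} : Finset ℕ)) :
    0 < genusFormula p := by
  have hpp : p.Prime := Fact.out
  have hψ : dedekindPsi p = p + 1 := by simpa using Gamma0.dedekindPsi_prime_pow hpp 0
  have hc : cuspCount p = 2 := by
    rw [cuspCount, hpp.divisors, Finset.sum_pair hpp.one_lt.ne]
    simp [Nat.div_self hpp.pos]
  have h2 : nuTwo p ≤ 2 := by
    have := natCard_roots_le (R := ZMod p) 0 1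
    simpa [nuTwo] using this
  have h3 : nuThree p ≤ 2 := by
    have := natCard_roots_le (R := ZMod p) 1 1
    simpa [nuThree] using this
  simp only [Finset.mem_insert, Finset.mem_singleton, not_or] at hp
  have h2' : (nuTwo p : ℚ) ≤ 2 := by exact_mod_cast h2
  have h3' : (nuThree p : ℚ) ≤ 2 := by exact_mod_cast h3
  rw [genusFormula, hψ, hc]
  rcases eq_or_ne p 11 with rfl | h11
  · have e2 : nuTwo 11 = 0 := by rw [nuTwo, Nat.card_eq_fintype_card]; decide
    have e3 : nuThree 11 = 0 := by rw [nuThree, Nat.card_eq_fintype_card]; decide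
    rw [e2, e3]
    norm_num
  · have hbig : 17 ≤ p := by
      by_contra h
      push Not at h
      interval_cases p <;> simp_all (config := { decide := true })
    have : (17 : ℚ) ≤ (p : ℚ) := by exact_mod_cast hbig
    push_cast
    linarith

theorem genusFF_bar_ne_zero {p : ℕ} [Fact p.Prime] (hp : p ∉ ({2, 3, 5, 7, 13} : Finset ℕ)) :
    genusFF (AlgebraicClosure ℚ) (modularFunctionFieldBar p) ≠ 0 := by
  obtain ⟨g, hg, hcard⟩ := Torsion.exists_natCard_jTorsion p
  have hgpos : 0 < g := by
    have h := genusFormula_pos hp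
    rw [← hg] at h
    exact_mod_cast h
  intro h0
  have h1 := S27.natCard_torsion_pow (AlgebraicClosure ℚ) (modularFunctionFieldBar p) 2 1
  rw [h0, mul_zero, zero_mul, pow_zero, pow_one] at h1
  have h2 := hcard 2 two_ne_zero
  change Nat.card (Pic0.torsion (AlgebraicClosure ℚ) (modularFunctionFieldBar p) 2) = _ at h2
  rw [h1] at h2
  exact (Nat.one_lt_two_pow (by omega)).ne h2

/-- The special fibre at `k ≠ p` has positive genus. -/
theorem genusFF_special_ne_zero {p k : ℕ} [Fact p.Prime] [Fact k.Prime] (hkp : ¬ k ∣ p)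
    {A : ValuationSubring (AlgebraicClosure ℚ)} (hA : A.LiesOverPrime k)
    (hp : p ∉ ({2, 3, 5, 7, 13} : Finset ℕ)) :
    genusFF (IsLocalRing.ResidueField A)
      (modularFunctionFieldFullC (IsLocalRing.ResidueField A) p) ≠ 0 := by
  rw [(Igusa.x0GoodReduction hkp hA).genus_eq]
  exact genusFF_bar_ne_zero hp

end Fermat.Agent.Mazur

end
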