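/-
Mazur's Eisenstein descent: the cusps `∞`, `0` and the points near them under reduction at a prime
`k ≠ p`.
-/
import Fermat.Agent.Mazur.PointModular
import Fermat.Agent.Mazur.PointGenus
import Fermat.Agent.Genus.Differential

set_option autoImplicit false
set_option synthInstance.maxHeartbeats 400000

noncomputable section

open AlgebraicCurve ModularCurve IntermediateField

namespace Fermat.Agent.Mazur

local notation "ℚbar" => AlgebraicClosure ℚ

section Place

variable {K F : Type*} [Field K] [Field F] [Algebra K F]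

/-- A function has at most one value at a place. -/
theorem value_unique (P : Place K F) {f : F} {c c' : K} (hc : 0 < P.ord (f - algebraMap K F c))
    (hc' : 0 < P.ord (f - algebraMap K F c')) : c = c' := by
  by_contra hne
  have h0 : (f - algebraMap K F c) + -(f - algebraMap K F c') = algebraMap K F (c' - c) := by
    rw [map_sub]; ring
  have h1 : algebraMap K F (c' - c) ≠ 0 := by
    rw [Ne, map_eq_zero_iff _ (algebraMap K F).injective, sub_eq_zero]
    exact Ne.symm hne
  have h2 := Curve.le_ord_add P (f := f - algebraMap K F c) (g := -(f - algebraMap K F c')) 1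
    (by rwa [h0]) (fun _ => hc) (fun _ => by rw [Curve.ord_neg]; exact hc')
  rw [h0, Curve.ord_algebraMap] at h2
  omega

theorem ord_sub_nonneg (P : Place K F) {f g : F} (hf : 0 ≤ P.ord f) (hg : 0 ≤ P.ord g) :
    0 ≤ P.ord (f - g) := by
  rcases eq_or_ne (f - g) 0 with h | h
  · rw [h]; simp
  rw [sub_eq_add_neg] at h ⊢
  exact Curve.le_ord_add P 0 h (fun _ => hf) fun _ => by rwa [Curve.ord_neg]

theorem ord_mul_nonneg (P : Place K F) {f g : F} (hf : 0 ≤ P.ord f) (hg : 0 ≤ P.ord g) :
    0 ≤ P.ord (f * g) := by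
  rcases eq_or_ne f 0 with rfl | hf0
  · simp
  rcases eq_or_ne g 0 with rfl | hg0
  · simp
  rw [P.ord_mul hf0 hg0]
  omega

end Place

section Reduce

variable {p : ℕ} [Fact p.Prime] {A : ValuationSubring ℚbar}

theorem bar_eq_fullC (p : ℕ) : modularFunctionFieldBar p = modularFunctionFieldFullC ℚbar p :=
  Curve.laurentBaseChange_full_eq_fullC ℚbar p

/-- `j` on the generic fibre. -/
abbrev jB (p : ℕ) [Fact p.Prime] : modularFunctionFieldBar p := jEl (bar_eq_fullC p)

/-- `j'` on the generic fibre. -/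
abbrev jpB (p : ℕ) [Fact p.Prime] : modularFunctionFieldBar p := jpEl (bar_eq_fullC p)

/-- `∞` on the generic fibre. -/
abbrev infB (p : ℕ) [Fact p.Prime] : Place ℚbar (modularFunctionFieldBar p) :=
  cuspInf (bar_eq_fullC p)

variable (A) (p) in
/-- `j` on the special fibre. -/
abbrev jS : modularFunctionFieldFullC (IsLocalRing.ResidueField A) p :=
  jEl (F := modularFunctionFieldFullC (IsLocalRing.ResidueField A) p) rfl

variable (A) (p) in
/-- `j'` on the special fibre. -/
abbrev jpS : modularFunctionFieldFullC (IsLocalRing.ResidueField A) p :=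
  jpEl (F := modularFunctionFieldFullC (IsLocalRing.ResidueField A) p) rfl

variable (A) (p) in
/-- `∞` on the special fibre. -/
abbrev infS : Place (IsLocalRing.ResidueField A)
    (modularFunctionFieldFullC (IsLocalRing.ResidueField A) p) :=
  cuspInf (F := modularFunctionFieldFullC (IsLocalRing.ResidueField A) p) rfl

variable (A) (p) in
/-- A function with an integral expansion, with its reduction. -/
def Reduces (f : modularFunctionFieldBar p)
    (fk : modularFunctionFieldFullC (IsLocalRing.ResidueField A) p) : Prop :=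
  ∃ y : LaurentSeries A, coeffMap A.subtype y = (f : LaurentSeries ℚbar) ∧
    coeffMap (IsLocalRing.residue A) y = (fk : LaurentSeries (IsLocalRing.ResidueField A))

theorem Reduces.const (a : A) :
    Reduces p A (algebraMap ℚbar _ (a : ℚbar))
      (algebraMap (IsLocalRing.ResidueField A) _ (IsLocalRing.residue A a)) := by
  refine ⟨HahnSeries.single 0 a, ?_, ?_⟩
  · rw [coeffMap_single]
    exact (algebraMap_laurentSeries_eq_single ℚbar _).symm
  · rw [coeffMap_single]
    exact (algebraMap_laurentSeries_eq_single (IsLocalRing.ResidueField A) _).symm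

theorem Reduces.one : Reduces p A 1 1 := ⟨1, by simp, by simp⟩

theorem Reduces.sub {f g : modularFunctionFieldBar p}
    {fk gk : modularFunctionFieldFullC (IsLocalRing.ResidueField A) p} :
    Reduces p A f fk → Reduces p A g gk → Reduces p A (f - g) (fk - gk) := by
  rintro ⟨y, h1, h2⟩ ⟨z, h3, h4⟩
  exact ⟨y - z, by simp [h1, h3], by simp [h2, h4]⟩

theorem Reduces.mul {f g : modularFunctionFieldBar p}
    {fk gk : modularFunctionFieldFullC (IsLocalRing.ResidueField A) p} :
    Reduces p A f fk → Reduces p A g gk → Reduces p A (f * g) (fk * gk) := by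
  rintro ⟨y, h1, h2⟩ ⟨z, h3, h4⟩
  exact ⟨y * z, by simp [h1, h3], by simp [h2, h4]⟩

theorem isUnit_jqModC' (R : Type*) [CommRing R] : IsUnit (jqModC R) := by
  rw [jqModC]
  refine IsUnit.mul (IsUnit.of_mul_eq_one (HahnSeries.single (1 : ℤ) (1 : R)) ?_)
    (IsUnit.map _ ?_)
  · simp
  · rw [PowerSeries.isUnit_iff_constantCoeff, ← PowerSeries.coeff_zero_eq_constantCoeff_apply,
      PowerSeries.coeff_map, PowerSeries.coeff_zero_eq_constantCoeff_apply, constantCoeff_jNum]
    simp

theorem reduces_jB : Reduces p A (jB p) (jS p A) :=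
  ⟨jqModC A, coeffMap_jqModC A.subtype, coeffMap_jqModC (IsLocalRing.residue A)⟩

theorem reduces_jpB : Reduces p A (jpB p) (jpS p A) :=
  ⟨jqNModC A p, coeffMap_jqNModC A.subtype p, coeffMap_jqNModC (IsLocalRing.residue A) p⟩

theorem coe_inv_of_mul {S T : Type*} [CommRing S] [Field T] (φ : S →+* T) (u : Sˣ) :
    φ ↑u⁻¹ = (φ u)⁻¹ :=
  eq_inv_of_mul_eq_one_left (by rw [← map_mul, Units.inv_mul, map_one])

theorem reduces_inv_jB : Reduces p A (jB p)⁻¹ (jS p A)⁻¹ := by
  obtain ⟨u, hu⟩ := isUnit_jqModC' A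
  refine ⟨↑u⁻¹, ?_, ?_⟩
  · rw [coe_inv_of_mul, hu, coeffMap_jqModC, IntermediateField.coe_inv, coe_jEl]
  · rw [coe_inv_of_mul, hu, coeffMap_jqModC, IntermediateField.coe_inv, coe_jEl]

variable (A) (p) in
/-- A reduction map of places. -/
abbrev PlaceRed : Type _ :=
  Place ℚbar (modularFunctionFieldBar p) →
    Place (IsLocalRing.ResidueField A) (modularFunctionFieldFullC (IsLocalRing.ResidueField A) p)

variable {r : PlaceRed p A}
  (hr : IsPlaceReductionModL A p r) {f : modularFunctionFieldBar p}
  {fk : modularFunctionFieldFullC (IsLocalRing.ResidueField A) p}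

include hr

/-- The order of the reduction is the sum of the orders at the places above. -/
theorem exists_fiber (hf : Reduces p A f fk) (hfk : fk ≠ 0)
    (Q : Place (IsLocalRing.ResidueField A)
      (modularFunctionFieldFullC (IsLocalRing.ResidueField A) p)) :
    ∃ T : Finset (Place ℚbar (modularFunctionFieldBar p)),
      (∀ P, P ∈ T ↔ r P = Q ∧ P.ord f ≠ 0) ∧ ∑ P ∈ T, P.ord f = Q.ord fk := by
  classical
  obtain ⟨y, hy1, hy2⟩ := hf
  have hmem : coeffMap A.subtype y ∈ modularFunctionFieldBar p := hy1 ▸ f.2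
  have hmemk : coeffMap (IsLocalRing.residue A) y ∈
      modularFunctionFieldFullC (IsLocalRing.ResidueField A) p := hy2 ▸ fk.2
  have hne : coeffMap (IsLocalRing.residue A) y ≠ 0 := fun h =>
    hfk (Subtype.ext (hy2.symm.trans h))
  have hf0 : f ≠ 0 := by
    rintro rfl
    refine hne ?_
    have : y = 0 := by
      ext n
      have := congrArg (fun s => HahnSeries.coeff s n) hy1
      simpa using this
    rw [this, map_zero]
  obtain ⟨D, hD, -⟩ := HasPrincipalDivisors.exists_divisor (K := ℚbar) f hf0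
  have h := hr.2 y hmem hmemk hne D (fun P => by rw [hD]; congr 1; exact Subtype.ext hy1.symm) Q
  rw [show (⟨_, hmemk⟩ : modularFunctionFieldFullC (IsLocalRing.ResidueField A) p) = fk from
    Subtype.ext hy2] at h
  refine ⟨D.support.filter (fun P => r P = Q), fun P => ?_, ?_⟩
  · rw [Finset.mem_filter, Finsupp.mem_support_iff, hD, and_comm]
  · rw [← h, Finsupp.mapDomain, Finsupp.sum_apply, Finsupp.sum, Finset.sum_filter]
    refine Finset.sum_congr rfl fun P _ => ?_
    rw [Finsupp.single_apply, hD]

theorem sum_eq_ord (hf : Reduces p A f fk) (hfk : fk ≠ 0)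
    {Q : Place (IsLocalRing.ResidueField A)
      (modularFunctionFieldFullC (IsLocalRing.ResidueField A) p)}
    (S : Finset (Place ℚbar (modularFunctionFieldBar p))) (hS : ∀ P ∈ S, r P = Q)
    (hout : ∀ P, r P = Q → P ∉ S → P.ord f = 0) :
    ∑ P ∈ S, P.ord f = Q.ord fk := by
  classical
  obtain ⟨T, hT, hsum⟩ := exists_fiber hr hf hfk Q
  rw [← hsum]
  refine (Finset.sum_subset (fun P hP => ?_) fun P hPS hPT => ?_).symm
  · by_contra h
    exact ((hT P).1 hP).2 (hout P ((hT P).1 hP).1 h)
  · by_contra h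
    exact hPT ((hT P).2 ⟨hS P hPS, h⟩)

theorem sum_le_ord (hf : Reduces p A f fk) (hfk : fk ≠ 0)
    {Q : Place (IsLocalRing.ResidueField A)
      (modularFunctionFieldFullC (IsLocalRing.ResidueField A) p)}
    (S : Finset (Place ℚbar (modularFunctionFieldBar p))) (hS : ∀ P ∈ S, r P = Q)
    (hout : ∀ P, r P = Q → P ∉ S → 0 ≤ P.ord f) :
    ∑ P ∈ S, P.ord f ≤ Q.ord fk := by
  classical
  obtain ⟨T, hT, hsum⟩ := exists_fiber hr hf hfk Q
  rw [← sum_eq_ord hr hf hfk (Q := Q) (S ∪ T) (fun P hP => ?_) fun P hPQ hP => ?_]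
  · exact Finset.sum_le_sum_of_subset_of_nonneg Finset.subset_union_left fun P hP hPS =>
      hout P ((hT P).1 ((Finset.mem_union.1 hP).resolve_left hPS)).1 hPS
  · exact (Finset.mem_union.1 hP).elim (hS P) fun h => ((hT P).1 h).1
  · by_contra h
    exact hP (Finset.mem_union_right _ ((hT P).2 ⟨hPQ, h⟩))

end Reduce

end Fermat.Agent.Mazur

end
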