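/-
Mazur's Eisenstein descent: values of functions at a place, and the ratio `j' / j ^ p`.
-/
import Fermat.Agent.Mazur.PointReduce

set_option autoImplicit false

noncomputable section

open AlgebraicCurve ModularCurve IntermediateField

namespace Fermat.Agent.Mazur

variable {K F : Type*} [Field K] [Field F] [Algebra K F]

/-- Constants in the ring of a place. -/
def placeConst (P : Place K F) : K →+* P.toValuationSubring :=
  (algebraMap K F).codRestrict P.toValuationSubring.toSubring P.algebraMap_mem'

@[simp] theorem coe_placeConst (P : Place K F) (c : K) :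
    ((placeConst P c : P.toValuationSubring) : F) = algebraMap K F c := rfl

theorem residue_sub_eq_zero_iff (P : Place K F) {x : P.toValuationSubring} (hx : (x : F) ≠ 0) :
    IsLocalRing.residue P.toValuationSubring x = 0 ↔ 0 < P.ord (x : F) := by
  rw [IsLocalRing.residue_eq_zero_iff, IsLocalRing.mem_maximalIdeal, mem_nonunits_iff]
  constructor
  · intro h
    have h0 := Curve.ord_nonneg_of_mem P x.2
    rcases h0.lt_or_eq with h1 | h1
    · exact h1
    · refine absurd (IsUnit.of_mul_eq_one (⟨(x : F)⁻¹,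
        Curve.mem_of_ord_nonneg P (by rw [P.ord_inv]; omega)⟩ : P.toValuationSubring)
        (Subtype.ext (mul_inv_cancel₀ hx))) h
  · rintro h ⟨u, rfl⟩
    rw [P.ord_coe_unit] at h
    exact lt_irrefl _ h

theorem residue_eq_const (P : Place K F) (x : P.toValuationSubring) {c : K}
    (h : 0 < P.ord ((x : F) - algebraMap K F c)) :
    IsLocalRing.residue P.toValuationSubring x =
      IsLocalRing.residue P.toValuationSubring (placeConst P c) := by
  have hne : ((x - placeConst P c : P.toValuationSubring) : F) ≠ 0 := by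
    intro h0
    simp only [AddSubgroupClass.coe_sub, coe_placeConst] at h0
    rw [h0] at h
    simp at h
  rw [← sub_eq_zero, ← map_sub, residue_sub_eq_zero_iff P hne]
  simpa using h

theorem ord_nonneg_of_value (P : Place K F) {f : F} {c : K}
    (h : 0 < P.ord (f - algebraMap K F c)) : 0 ≤ P.ord f := by
  have h0 : f = (f - algebraMap K F c) + algebraMap K F c := by ring
  rcases eq_or_ne f 0 with rfl | hf
  · simp
  rw [h0] at hf ⊢
  exact Curve.le_ord_add P 0 hf (fun _ => h.le) fun _ => (Curve.ord_algebraMap P c).ge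

/-- Values satisfy the relations between the functions. -/
theorem eval₂_value (P : Place K F) {x y : F} {cx cy : K}
    (hx : 0 < P.ord (x - algebraMap K F cx)) (hy : 0 < P.ord (y - algebraMap K F cy))
    {Φ : Polynomial (Polynomial ℤ)}
    (h0 : Φ.eval₂ (Polynomial.eval₂RingHom (Int.castRingHom F) x) y = 0) :
    Φ.eval₂ (Polynomial.eval₂RingHom (Int.castRingHom K) cx) cy = 0 := by
  set xo : P.toValuationSubring := ⟨x, Curve.mem_of_ord_nonneg P (ord_nonneg_of_value P hx)⟩
  set yo : P.toValuationSubring := ⟨y, Curve.mem_of_ord_nonneg P (ord_nonneg_of_value P hy)⟩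
  have h1 : Φ.eval₂ (Polynomial.eval₂RingHom (Int.castRingHom _) xo) yo = 0 := by
    apply Subtype.val_injective
    show P.toValuationSubring.subtype _ = P.toValuationSubring.subtype 0
    rw [Polynomial.hom_eval₂, map_zero]
    refine Eq.trans ?_ h0
    congr 1
    refine Polynomial.ringHom_ext' (Subsingleton.elim _ _) ?_
    simp [xo]
  set ρ := IsLocalRing.residue P.toValuationSubring
  have hcomp : ∀ z : P.toValuationSubring,
      ρ.comp (Polynomial.eval₂RingHom (Int.castRingHom _) z) =
        Polynomial.eval₂RingHom (Int.castRingHom _) (ρ z) := fun z =>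
    Polynomial.ringHom_ext' (Subsingleton.elim _ _) (by simp)
  have h2 := congrArg ρ h1
  rw [Polynomial.hom_eval₂, map_zero, hcomp, residue_eq_const P xo hx, residue_eq_const P yo hy,
    ← hcomp, ← Polynomial.hom_eval₂] at h2
  have h3 : ρ.comp (placeConst P) (Φ.eval₂ (Polynomial.eval₂RingHom (Int.castRingHom K) cx) cy)
      = 0 := by
    refine Eq.trans ?_ h2
    rw [Polynomial.hom_eval₂, Polynomial.hom_eval₂]
    refine congrArg (fun g => Φ.eval₂ g (ρ (placeConst P cy))) ?_
    exact Polynomial.ringHom_ext' (Subsingleton.elim _ _) (by simp)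
  exact (ρ.comp (placeConst P)).injective (by rw [h3, map_zero])

/-- The value of `y / x ^ n`. -/
theorem value_ratio (P : Place K F) {x y : F} {cx cy : K} (n : ℕ)
    (hx : 0 < P.ord (x - algebraMap K F cx)) (hy : 0 < P.ord (y - algebraMap K F cy))
    (hcx : cx ≠ 0) (hne : y * x⁻¹ ^ n ≠ algebraMap K F (cy / cx ^ n)) :
    0 < P.ord (y * x⁻¹ ^ n - algebraMap K F (cy / cx ^ n)) := by
  set ρ := IsLocalRing.residue P.toValuationSubring
  have hx0 : P.ord x = 0 := by
    have h0 := ord_nonneg_of_value P hx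
    by_contra h
    have hxne : x ≠ 0 := fun e => by simp [e] at h
    exact hcx (value_unique P (c' := 0) hx (by simpa using lt_of_le_of_ne h0 (Ne.symm h)))
  set xo : P.toValuationSubring := ⟨x, Curve.mem_of_ord_nonneg P hx0.ge⟩
  set yo : P.toValuationSubring := ⟨y, Curve.mem_of_ord_nonneg P (ord_nonneg_of_value P hy)⟩
  set xi : P.toValuationSubring := ⟨x⁻¹, Curve.mem_of_ord_nonneg P (by rw [P.ord_inv]; omega)⟩
  have hd : ((yo * xi ^ n - placeConst P (cy / cx ^ n) : P.toValuationSubring) : F) =
      y * x⁻¹ ^ n - algebraMap K F (cy / cx ^ n) := rfl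
  rw [← hd, ← residue_sub_eq_zero_iff P (by rw [hd, sub_ne_zero]; exact hne)]
  have hxne : x ≠ 0 := fun e => by
    rw [e, zero_sub, Curve.ord_neg, Curve.ord_algebraMap] at hx
    exact lt_irrefl _ hx
  have hxi : ρ xi * ρ xo = 1 := by
    rw [← map_mul, show xi * xo = 1 from Subtype.ext (inv_mul_cancel₀ hxne), map_one]
  rw [residue_eq_const P xo hx] at hxi
  rw [map_sub, map_mul, map_pow, residue_eq_const P yo hy,
    show ρ xi = (ρ (placeConst P cx))⁻¹ from eq_inv_of_mul_eq_one_left hxi]
  have hinv : ρ (placeConst P (cx ^ n)⁻¹) = (ρ (placeConst P cx))⁻¹ ^ n := by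
    have h := map_inv₀ (ρ.comp (placeConst P)) (cx ^ n)
    rw [RingHom.comp_apply, RingHom.comp_apply] at h
    rw [h, map_pow, map_pow, inv_pow]
  rw [div_eq_mul_inv, map_mul, map_mul, hinv, sub_self]

section Ratio

variable {p : ℕ} [Fact p.Prime] {E : IntermediateField K (LaurentSeries K)}
  (hE : E = modularFunctionFieldFullC K p)

/-- `j' / j ^ p`. -/
def ratioEl : E := jpEl hE * (jEl hE)⁻¹ ^ p

theorem jEl_ne_zero : jEl hE ≠ 0 := fun h => jqModC_ne K (congrArg Subtype.val h)

theorem jpEl_ne_zero : jpEl hE ≠ 0 := fun h => by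
  have := order_jqNModC_eq (K := K) p
  rw [show jqNModC K p = 0 from congrArg Subtype.val h, HahnSeries.order_zero] at this
  have := (Fact.out : p.Prime).pos
  omega

theorem ord_ratioEl (P : Place K E) :
    P.ord (ratioEl hE) = P.ord (jpEl hE) - p * P.ord (jEl hE) := by
  rw [ratioEl, P.ord_mul (jpEl_ne_zero hE) (pow_ne_zero _ (inv_ne_zero (jEl_ne_zero hE))),
    Curve.ord_pow, P.ord_inv]
  ring

theorem ord_inf_ratioEl_sub_one (hne : ratioEl hE ≠ 1) :
    0 < (cuspInf hE).ord (ratioEl hE - 1) := by
  rw [cuspInf_ord]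
  have h0 : (ratioEl hE : LaurentSeries K).order = 0 := by
    rw [← cuspInf_ord hE, ord_ratioEl, cuspInf_ord_jEl, cuspInf_ord_jpEl]; ring
  have hlj : (jqModC K).leadingCoeff = 1 := by
    rw [HahnSeries.leadingCoeff_eq, Igusa.Fibre.order_jqModC, coeff_jqModC_neg_one]
  have hljp : (jqNModC K p).leadingCoeff = 1 := by
    rw [HahnSeries.leadingCoeff_eq, order_jqNModC_eq, jqNModC,
      show (-(p : ℤ)) = (p : ℤ) * (-1) by ring, qExpand_coeff_mul, coeff_jqModC_neg_one]
  have hl : (ratioEl hE : LaurentSeries K).leadingCoeff = 1 := by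
    have h1 : (ratioEl hE : LaurentSeries K) * jqModC K ^ p = jqNModC K p := by
      have h2 : ratioEl hE * jEl hE ^ p = jpEl hE := by
        rw [ratioEl, inv_pow, mul_assoc, inv_mul_cancel₀ (pow_ne_zero _ (jEl_ne_zero hE)),
          mul_one]
      simpa using congrArg Subtype.val h2
    have h3 : ∀ m : ℕ, (jqModC K ^ m).leadingCoeff = 1 := fun m => by
      induction m with
      | zero => simp
      | succ n ih => simp [pow_succ, HahnSeries.leadingCoeff_mul, ih, hlj]
    have h4 := congrArg HahnSeries.leadingCoeff h1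
    rwa [HahnSeries.leadingCoeff_mul, h3 p, mul_one, hljp] at h4
  rw [HahnSeries.leadingCoeff_eq, h0] at hl
  have hne' : ((ratioEl hE - 1 : E) : LaurentSeries K) ≠ 0 := fun h =>
    hne (sub_eq_zero.1 (Subtype.ext h))
  by_contra hle
  refine hne' (HahnSeries.coeff_order_eq_zero.1 ?_)
  rcases (not_lt.1 hle).lt_or_eq with h | h
  · simp only [AddSubgroupClass.coe_sub, OneMemClass.coe_one] at h ⊢
    rw [HahnSeries.coeff_sub, HahnSeries.coeff_eq_zero_of_lt_order (h0.symm ▸ h),
      HahnSeries.coeff_one, if_neg h.ne, sub_zero]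
  · simp only [AddSubgroupClass.coe_sub, OneMemClass.coe_one] at h ⊢
    rw [h, HahnSeries.coeff_sub, hl, HahnSeries.coeff_one, if_pos rfl, sub_self]

end Ratio

end Fermat.Agent.Mazur

end
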