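/-
Mazur's Eisenstein descent: the reduction of the cusps and of the points with non-integral `j` at a
prime `k ≠ p`.
-/
import Fermat.Agent.Mazur.PointValue

set_option autoImplicit false
set_option synthInstance.maxHeartbeats 400000

noncomputable section

open AlgebraicCurve ModularCurve IntermediateField

namespace Fermat.Agent.Mazur

local notation "ℚbar" => AlgebraicClosure ℚ

/-- `Z` is the cusp `0`: the second pole of `j`, `j'`. -/
structure IsCuspZero {K : Type*} [Field K] {p : ℕ} [Fact p.Prime]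
    {F : IntermediateField K (LaurentSeries K)} (hF : F = modularFunctionFieldFullC K p)
    (Z : Place K F) : Prop where
  ne : Z ≠ cuspInf hF
  ord_j : Z.ord (jEl hF) = -(p : ℤ)
  ord_jp : Z.ord (jpEl hF) = -1
  eq_of_pole : ∀ P : Place K F, P.ord (jEl hF) < 0 ∨ P.ord (jpEl hF) < 0 → P = cuspInf hF ∨ P = Z

theorem exists_isCuspZero_bar {p : ℕ} [Fact p.Prime] (hp : p ∉ ({2, 3, 5, 7, 13} : Finset ℕ)) :
    ∃ Z, IsCuspZero (bar_eq_fullC p) Z :=
  (exists_cuspZero (bar_eq_fullC p) (genusFF_bar_ne_zero hp)).imp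
    fun _ h => ⟨h.1, h.2.1, h.2.2.1, h.2.2.2⟩

theorem exists_isCuspZero_special {p k : ℕ} [Fact p.Prime] [Fact k.Prime] (hkp : ¬ k ∣ p)
    {A : ValuationSubring ℚbar} (hA : A.LiesOverPrime k)
    (hp : p ∉ ({2, 3, 5, 7, 13} : Finset ℕ)) :
    ∃ Z, IsCuspZero (F := modularFunctionFieldFullC (IsLocalRing.ResidueField A) p) rfl Z := by
  have := Igusa.isAlgClosed_residueField hkp hA
  exact (exists_cuspZero (K := IsLocalRing.ResidueField A) rfl
    (genusFF_special_ne_zero hkp hA hp)).imp fun _ h => ⟨h.1, h.2.1, h.2.2.1, h.2.2.2⟩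

theorem residue_mul_zero {A : ValuationSubring ℚbar} {J : ℚbar} (hJ : J ∉ A) :
    ∃ a : A, (a : ℚbar) = J⁻¹ ∧ IsLocalRing.residue A a = 0 := by
  have hm : J⁻¹ ∈ A := (A.mem_or_inv_mem J).resolve_left hJ
  refine ⟨⟨J⁻¹, hm⟩, rfl, ?_⟩
  rw [IsLocalRing.residue_eq_zero_iff, IsLocalRing.mem_maximalIdeal, mem_nonunits_iff]
  rintro ⟨u, hu⟩
  apply hJ
  have h1 : ((↑u⁻¹ : A) : ℚbar) * J⁻¹ = 1 := by
    have := congrArg Subtype.val (Units.inv_mul u)
    rwa [hu] at this
  have hJ0 : J ≠ 0 := fun h => hJ (h ▸ A.zero_mem)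
  rw [mul_inv_eq_one₀ hJ0] at h1
  rw [← h1]
  exact Subtype.coe_prop _

theorem Reduces.one_sub_const_mul {p : ℕ} [Fact p.Prime] {A : ValuationSubring ℚbar}
    {f : modularFunctionFieldBar p}
    {fk : modularFunctionFieldFullC (IsLocalRing.ResidueField A) p} (hred : Reduces p A f fk)
    {a : A} (ha0 : IsLocalRing.residue A a = 0) :
    Reduces p A (1 - algebraMap ℚbar _ (a : ℚbar) * f) 1 := by
  obtain ⟨y, h1, h2⟩ := hred
  refine ⟨1 - HahnSeries.single 0 a * y, ?_, ?_⟩
  · rw [map_sub, map_one, map_mul, coeffMap_single, h1, ← algebraMap_laurentSeries_eq_single]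
    rfl
  · rw [map_sub, map_one, map_mul, coeffMap_single, ha0, map_zero, zero_mul, sub_zero]
    rfl

variable {p : ℕ} [Fact p.Prime] {A : ValuationSubring ℚbar} {r : PlaceRed p A}
  (hr : IsPlaceReductionModL A p r)
  {Z : Place ℚbar (modularFunctionFieldBar p)} (hZ : IsCuspZero (bar_eq_fullC p) Z)
  {Zk : Place (IsLocalRing.ResidueField A)
    (modularFunctionFieldFullC (IsLocalRing.ResidueField A) p)}
  (hZk : IsCuspZero rfl Zk)

include hr hZ hZk

theorem exists_pole_above {f : modularFunctionFieldBar p}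
    {fk : modularFunctionFieldFullC (IsLocalRing.ResidueField A) p} (hf : Reduces p A f fk)
    {Q : Place (IsLocalRing.ResidueField A)
      (modularFunctionFieldFullC (IsLocalRing.ResidueField A) p)} (hQ : Q.ord fk < 0) :
    ∃ P, r P = Q ∧ P.ord f < 0 := by
  by_contra h
  push Not at h
  have h1 := sum_le_ord hr hf (fun e => by simp [e] at hQ) (Q := Q) ∅ (by simp)
    (fun P hP _ => h P hP)
  rw [Finset.sum_empty] at h1
  omega

theorem r_cusps : r (infB p) = infS p A ∧ r Z = Zk := by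
  have hp2 := (Fact.out : p.Prime).two_le
  have hjk : ∀ Q, Q.ord (jS p A) < 0 → r (infB p) = Q ∨ r Z = Q := fun Q hQ => by
    obtain ⟨P, hP, hP'⟩ := exists_pole_above hr hZ hZk reduces_jB hQ
    rcases hZ.eq_of_pole P (Or.inl hP') with rfl | rfl
    · exact Or.inl hP
    · exact Or.inr hP
  have h1 := hjk (infS p A) (by rw [cuspInf_ord_jEl]; omega)
  have h2 := hjk Zk (by rw [hZk.ord_j]; omega)
  have hne := hZk.ne
  rcases h1 with h1 | h1
  · rcases h2 with h2 | h2
    · exact absurd (h2.symm.trans h1) hne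
    · exact ⟨h1, h2⟩
  · rcases h2 with h2 | h2
    · exfalso
      have h3 := sum_le_ord hr (reduces_jpB (A := A)) (jpEl_ne_zero _) (Q := infS p A) {Z}
        (fun P hP => by rwa [Finset.mem_singleton.1 hP]) fun P hP hPZ => by
          by_contra hneg
          rcases hZ.eq_of_pole P (Or.inr (not_le.1 hneg)) with rfl | rfl
          · exact hne (h2.symm.trans hP)
          · exact hPZ (Finset.mem_singleton_self _)
      rw [Finset.sum_singleton, hZ.ord_jp, cuspInf_ord_jpEl] at h3
      omega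
    · exact absurd (h2.symm.trans h1) hne

theorem eq_inf_of_pole {P : Place ℚbar (modularFunctionFieldBar p)}
    (hPQ : r P = infS p A) (h : P.ord (jB p) < 0 ∨ P.ord (jpB p) < 0) : P = infB p :=
  (hZ.eq_of_pole P h).resolve_right fun e =>
    hZk.ne ((r_cusps hr hZ hZk).2.symm.trans (e ▸ hPQ))

theorem eq_zero_of_pole {P : Place ℚbar (modularFunctionFieldBar p)}
    (hPQ : r P = Zk) (h : P.ord (jB p) < 0 ∨ P.ord (jpB p) < 0) : P = Z :=
  (hZ.eq_of_pole P h).resolve_left fun e =>
    hZk.ne (hPQ.symm.trans (e ▸ (r_cusps hr hZ hZk).1))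

/-- Only the cusps reduce to cusps among the zeros and poles of `j`, `j'`. -/
theorem ord_eq_zero_near {P : Place ℚbar (modularFunctionFieldBar p)}
    (hPQ : r P = infS p A ∨ r P = Zk) (h1 : P ≠ infB p) (h2 : P ≠ Z) :
    P.ord (jB p) = 0 ∧ P.ord (jpB p) = 0 := by
  classical
  obtain ⟨hi, hz⟩ := r_cusps hr hZ hZk
  have key : ∀ (f : modularFunctionFieldBar p)
      (fk : modularFunctionFieldFullC (IsLocalRing.ResidueField A) p), Reduces p A f fk → fk ≠ 0 →
      (∀ P, P.ord f < 0 → P = infB p ∨ P = Z) →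
      (infB p).ord f = (infS p A).ord fk → Z.ord f = Zk.ord fk → P.ord f = 0 := by
    intro f fk hf hfk hpoles e1 e2
    by_contra hne
    have hPpos : 0 ≤ P.ord f := by
      by_contra h
      rcases hpoles P (not_le.1 h) with h | h <;> contradiction
    rcases hPQ with hQ | hQ
    · have h3 := sum_le_ord hr hf hfk (Q := infS p A) {infB p, P}
        (by simp [hi, hQ]) fun R hR hRS => by
          by_contra h
          rcases hpoles R (not_le.1 h) with rfl | rfl
          · exact hRS (Finset.mem_insert_self _ _)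
          · exact hZk.ne (hz.symm.trans hR)
      rw [Finset.sum_pair (Ne.symm h1), e1] at h3
      omega
    · have h3 := sum_le_ord hr hf hfk (Q := Zk) {Z, P} (by simp [hz, hQ]) fun R hR hRS => by
          by_contra h
          rcases hpoles R (not_le.1 h) with rfl | rfl
          · exact hZk.ne (hR.symm.trans hi)
          · exact hRS (Finset.mem_insert_self _ _)
      rw [Finset.sum_pair (Ne.symm h2), e2] at h3
      omega
  exact ⟨key _ _ reduces_jB (jEl_ne_zero _) (fun R h => hZ.eq_of_pole R (Or.inl h))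
    (by rw [cuspInf_ord_jEl, cuspInf_ord_jEl]) (by rw [hZ.ord_j, hZk.ord_j]),
    key _ _ reduces_jpB (jpEl_ne_zero _) (fun R h => hZ.eq_of_pole R (Or.inr h))
    (by rw [cuspInf_ord_jpEl, cuspInf_ord_jpEl]) (by rw [hZ.ord_jp, hZk.ord_jp])⟩

theorem ord_ratio_nonneg_near {P : Place ℚbar (modularFunctionFieldBar p)}
    (hPQ : r P = infS p A ∨ r P = Zk) : 0 ≤ P.ord (ratioEl (bar_eq_fullC p)) := by
  have hp2 := (Fact.out : p.Prime).two_le
  rw [ord_ratioEl]
  rcases eq_or_ne P (infB p) with rfl | h1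
  · rw [cuspInf_ord_jEl, cuspInf_ord_jpEl]; omega
  rcases eq_or_ne P Z with rfl | h2
  · rw [hZ.ord_j, hZ.ord_jp]; nlinarith
  obtain ⟨h3, h4⟩ := ord_eq_zero_near hr hZ hZk hPQ h1 h2
  simp only [jB, jpB] at h3 h4
  rw [h3, h4]; simp

/-- `j - J` and `1 - j / J`. -/
def scaledEl (p : ℕ) [Fact p.Prime] (J : ℚbar) : modularFunctionFieldBar p :=
  1 - algebraMap ℚbar _ J⁻¹ * jB p

omit hr hZ hZk in
theorem scaledEl_eq {J : ℚbar} (hJ : J ≠ 0) :
    scaledEl p J = algebraMap ℚbar _ (-J⁻¹) * (jB p - algebraMap ℚbar _ J) := by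
  have h : algebraMap ℚbar (modularFunctionFieldBar p) J⁻¹ * algebraMap ℚbar _ J = 1 := by
    rw [← map_mul, inv_mul_cancel₀ hJ, map_one]
  rw [scaledEl, map_neg]
  linear_combination (-1 : modularFunctionFieldBar p) * h

omit hr hZ hZk in
theorem ord_scaledEl {J : ℚbar} (hJ : J ≠ 0) (P : Place ℚbar (modularFunctionFieldBar p)) :
    P.ord (scaledEl p J) = P.ord (jB p - algebraMap ℚbar _ J) := by
  rw [scaledEl_eq hJ, Igusa.ord_algebraMap_mul P (neg_ne_zero.2 (inv_ne_zero hJ))]
  exact sub_ne_zero.2 fun h => transcendental_jEl (bar_eq_fullC p) (by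
    rw [show jEl (bar_eq_fullC p) = _ from h]; exact isAlgebraic_algebraMap J)

omit hr hZ hZk in
theorem reduces_scaledEl {J : ℚbar} (hJ : J ∉ A) : Reduces p A (scaledEl p J) 1 := by
  obtain ⟨a, ha, ha0⟩ := residue_mul_zero hJ
  rw [scaledEl, ← ha]
  exact (reduces_jB (p := p) (A := A)).one_sub_const_mul ha0

omit hr hZ hZk in
theorem ord_sub_const_of_pole {J : ℚbar} {P : Place ℚbar (modularFunctionFieldBar p)}
    (h : P.ord (jB p) < 0) : P.ord (jB p - algebraMap ℚbar _ J) = P.ord (jB p) := by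
  rw [sub_eq_add_neg]
  refine Curve.ord_add_eq_left P (fun e => by simp [e] at h) fun _ => ?_
  rw [Curve.ord_neg, Curve.ord_algebraMap]
  exact h

omit hr hZ hZk in
theorem ne_cusp_of_value (hZ : IsCuspZero (bar_eq_fullC p) Z) {J : ℚbar}
    {P : Place ℚbar (modularFunctionFieldBar p)} (h : 0 < P.ord (jB p - algebraMap ℚbar _ J)) :
    P ≠ infB p ∧ P ≠ Z := by
  have := ord_nonneg_of_value P h
  constructor <;> rintro rfl
  · rw [cuspInf_ord_jEl] at this; omega
  · have h' := hZ.ord_j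
    have := (Fact.out : p.Prime).two_le
    simp only [jB] at *
    omega

omit hZk in
/-- A point with non-integral `j` reduces to a cusp. -/
theorem near_cusp_of_value (hZk : IsCuspZero rfl Zk) {J : ℚbar} (hJ : J ∉ A)
    {P : Place ℚbar (modularFunctionFieldBar p)} (h : 0 < P.ord (jB p - algebraMap ℚbar _ J)) :
    r P = infS p A ∨ r P = Zk := by
  obtain ⟨hi, hz⟩ := r_cusps hr hZ hZk
  have hJ0 : J ≠ 0 := fun e => hJ (e ▸ A.zero_mem)
  by_contra hne
  push Not at hne
  have h1 := sum_le_ord hr (reduces_scaledEl (p := p) hJ) one_ne_zero (Q := r P) {P}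
    (by simp) fun R hR _ => by
      rw [ord_scaledEl hJ0]
      refine ord_sub_nonneg R ?_ (Curve.ord_algebraMap R J).ge
      by_contra hneg
      rcases hZ.eq_of_pole R (Or.inl (not_le.1 hneg)) with rfl | rfl
      · exact hne.1 (hR.symm.trans hi)
      · exact hne.2 (hR.symm.trans hz)
  rw [Finset.sum_singleton, Place.ord_one, ord_scaledEl hJ0] at h1
  omega

/-- At most one point with a given non-integral `j` reduces to `∞`. -/
theorem unique_near_inf {J : ℚbar} (hJ : J ∉ A) {P P' : Place ℚbar (modularFunctionFieldBar p)}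
    (hP : r P = infS p A) (hP' : r P' = infS p A)
    (h : 0 < P.ord (jB p - algebraMap ℚbar _ J))
    (h' : 0 < P'.ord (jB p - algebraMap ℚbar _ J)) : P = P' := by
  classical
  obtain ⟨hi, hz⟩ := r_cusps hr hZ hZk
  have hJ0 : J ≠ 0 := fun e => hJ (e ▸ A.zero_mem)
  obtain ⟨n1, -⟩ := ne_cusp_of_value hZ h
  obtain ⟨n1', -⟩ := ne_cusp_of_value hZ h'
  by_contra hne
  have h1 := sum_le_ord hr (reduces_scaledEl (p := p) hJ) one_ne_zero (Q := infS p A)
    {infB p, P, P'} (by simp [hi, hP, hP']) fun R hR hRS => by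
      rw [ord_scaledEl hJ0]
      refine ord_sub_nonneg R ?_ (Curve.ord_algebraMap R J).ge
      by_contra hneg
      exact hRS (eq_inf_of_pole hr hZ hZk hR (Or.inl (not_le.1 hneg)) ▸
        Finset.mem_insert_self _ _)
  rw [Finset.sum_insert (by simp [Ne.symm n1, Ne.symm n1']), Finset.sum_pair hne, Place.ord_one,
    ord_scaledEl hJ0, ord_scaledEl hJ0, ord_scaledEl hJ0,
    ord_sub_const_of_pole (by rw [cuspInf_ord_jEl]; omega), cuspInf_ord_jEl] at h1
  omega

/-- A point with the given non-integral `j` reduces to `∞`. -/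
theorem exists_near_inf {J : ℚbar} (hJ : J ∉ A) :
    ∃ P, r P = infS p A ∧ 0 < P.ord (jB p - algebraMap ℚbar _ J) := by
  classical
  obtain ⟨hi, hz⟩ := r_cusps hr hZ hZk
  have hJ0 : J ≠ 0 := fun e => hJ (e ▸ A.zero_mem)
  by_contra hne
  push Not at hne
  have h1 := sum_eq_ord hr (reduces_scaledEl (p := p) hJ) one_ne_zero (Q := infS p A)
    {infB p} (by simp [hi]) fun R hR hRS => by
      rw [ord_scaledEl hJ0]
      refine le_antisymm (hne R hR) (ord_sub_nonneg R ?_ (Curve.ord_algebraMap R J).ge)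
      by_contra hneg
      exact hRS (Finset.mem_singleton.2 (eq_inf_of_pole hr hZ hZk hR (Or.inl (not_le.1 hneg))))
  rw [Finset.sum_singleton, Place.ord_one, ord_scaledEl hJ0,
    ord_sub_const_of_pole (by rw [cuspInf_ord_jEl]; omega), cuspInf_ord_jEl] at h1
  omega

omit hZ hZk in
set_option maxHeartbeats 1000000 in
/-- A value at a point all of whose neighbours are regular is integral and reduces. -/
theorem value_reduces {f : modularFunctionFieldBar p}
    {fk : modularFunctionFieldFullC (IsLocalRing.ResidueField A) p} (hred : Reduces p A f fk)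
    (hnc : ∀ c : ℚbar, f ≠ algebraMap ℚbar _ c)
    (hnck : ∀ c : IsLocalRing.ResidueField A, fk ≠ algebraMap _ _ c)
    {P : Place ℚbar (modularFunctionFieldBar p)}
    (hout : ∀ R, r R = r P → 0 ≤ R.ord f) {c : ℚbar}
    (hval : 0 < P.ord (f - algebraMap ℚbar _ c)) :
    ∃ h : c ∈ A, 0 < (r P).ord (fk - algebraMap _ _ (IsLocalRing.residue A ⟨c, h⟩)) := by
  have hnn : ∀ R, r R = r P → 0 ≤ R.ord (f - algebraMap ℚbar _ c) := fun R hR =>
    ord_sub_nonneg R (hout R hR) (Curve.ord_algebraMap R c).ge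
  have hcA : c ∈ A := by
    by_contra hcA
    obtain ⟨a, ha, ha0⟩ := residue_mul_zero hcA
    have hc0 : c ≠ 0 := fun e => hcA (e ▸ A.zero_mem)
    have h1 : Reduces p A (1 - algebraMap ℚbar _ c⁻¹ * f) 1 := by
      rw [← ha]; exact hred.one_sub_const_mul ha0
    have e : (1 : modularFunctionFieldBar p) - algebraMap ℚbar _ c⁻¹ * f =
        algebraMap ℚbar _ (-c⁻¹) * (f - algebraMap ℚbar _ c) := by
      have h : algebraMap ℚbar (modularFunctionFieldBar p) c⁻¹ * algebraMap ℚbar _ c = 1 := by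
        rw [← map_mul, inv_mul_cancel₀ hc0, map_one]
      rw [map_neg]
      linear_combination (-1 : modularFunctionFieldBar p) * h
    have he : ∀ R : Place ℚbar (modularFunctionFieldBar p),
        R.ord (1 - algebraMap ℚbar _ c⁻¹ * f) = R.ord (f - algebraMap ℚbar _ c) := fun R => by
      rw [e, Igusa.ord_algebraMap_mul R (neg_ne_zero.2 (inv_ne_zero hc0))
        (sub_ne_zero.2 (hnc c))]
    have hge : ∀ R, r R = r P → R ∉ ({P} : Finset (Place ℚbar (modularFunctionFieldBar p))) →
        0 ≤ R.ord (1 - algebraMap ℚbar _ c⁻¹ * f) := fun R hR _ => by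
      rw [he R]; exact hnn R hR
    have h2 := sum_le_ord hr h1 one_ne_zero (Q := r P) {P}
      (fun R hR => by rw [Finset.mem_singleton.1 hR]) hge
    have h3 : (r P).ord (1 : modularFunctionFieldFullC (IsLocalRing.ResidueField A) p) = 0 :=
      (r P).ord_one
    rw [Finset.sum_singleton] at h2
    have h4 := he P
    omega
  refine ⟨hcA, hval.trans_le ?_⟩
  have h2 := sum_le_ord hr (hred.sub (Reduces.const ⟨c, hcA⟩)) (sub_ne_zero.2 (hnck _))
    (Q := r P) {P} (by simp) fun R hR _ => hnn R hR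
  rwa [Finset.sum_singleton] at h2

omit hr hZ hZk in
theorem reduces_ratioEl : Reduces p A (ratioEl (bar_eq_fullC p))
    (ratioEl (E := modularFunctionFieldFullC (IsLocalRing.ResidueField A) p) rfl) := by
  have hpow : ∀ n : ℕ, Reduces p A ((jB p)⁻¹ ^ n) ((jS p A)⁻¹ ^ n) := fun n => by
    induction n with
    | zero => simpa using Reduces.one
    | succ n ih => simpa [pow_succ] using ih.mul reduces_inv_jB
  exact reduces_jpB.mul (hpow p)

omit hr hZ hZk in
theorem ratioEl_ne_const {K : Type*} [Field K] {F : IntermediateField K (LaurentSeries K)}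
    {hF : F = modularFunctionFieldFullC K p} {W : Place K F} (hW : IsCuspZero hF W) (c : K) :
    ratioEl hF ≠ algebraMap K F c ∧ 0 < W.ord (ratioEl hF) := by
  have hp2 := (Fact.out : p.Prime).two_le
  have h : 0 < W.ord (ratioEl hF) := by rw [ord_ratioEl, hW.ord_j, hW.ord_jp]; nlinarith
  refine ⟨fun e => ?_, h⟩
  rw [e, Curve.ord_algebraMap] at h
  exact lt_irrefl _ h

/-- Near a cusp, the value of `j' / j ^ p` is integral and reduces to the value at the cusp. -/
theorem value_ratio_near {P : Place ℚbar (modularFunctionFieldBar p)} {J y : ℚbar}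
    (hPQ : r P = infS p A ∨ r P = Zk)
    (hj : 0 < P.ord (jB p - algebraMap ℚbar _ J))
    (hy : 0 < P.ord (jpB p - algebraMap ℚbar _ y)) (hJ0 : J ≠ 0) :
    ∃ h : y / J ^ p ∈ A,
      (r P = infS p A → IsLocalRing.residue A ⟨_, h⟩ = 1) ∧
      (r P = Zk → IsLocalRing.residue A ⟨_, h⟩ = 0) := by
  obtain ⟨h, h2⟩ := value_reduces hr reduces_ratioEl (fun c => (ratioEl_ne_const hZ c).1)
    (fun c => (ratioEl_ne_const hZk c).1)
    (fun R hR => ord_ratio_nonneg_near hr hZ hZk (hR ▸ hPQ))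
    (value_ratio P p hj hy hJ0 (ratioEl_ne_const hZ _).1)
  refine ⟨h, fun hQ => ?_, fun hQ => ?_⟩
  · rw [hQ] at h2
    refine value_unique (infS p A) h2 ?_
    rw [map_one]
    exact ord_inf_ratioEl_sub_one _ fun e =>
      (ratioEl_ne_const hZk 1).1 (e.trans (map_one _).symm)
  · rw [hQ] at h2
    refine value_unique Zk h2 ?_
    rw [map_zero, sub_zero]
    exact (ratioEl_ne_const hZk 0).2

end Fermat.Agent.Mazur

end
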