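/-
Mazur's Eisenstein descent: the rational point of `X₀(p)` attached to a rational zero of the
modular polynomial.
-/
import Fermat.Agent.Mazur.PointNear
import Fermat.Agent.Mazur.Defs
import Fermat.Agent.Mazur.DescentKummer
import Fermat.Prelude.Def_ModularCurve_ArithmeticGalois

set_option autoImplicit false
set_option synthInstance.maxHeartbeats 400000

noncomputable section

open AlgebraicCurve ModularCurve IntermediateField

namespace Fermat.Agent.Mazur

local notation "ℚbar" => AlgebraicClosure ℚ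
local notation "Γℚ" => AlgebraicClosure ℚ ≃ₐ[ℚ] AlgebraicClosure ℚ

section Valuation

variable {q : ℕ} [hq : Fact q.Prime] {A : ValuationSubring ℚbar} (hA : A.LiesOverPrime q)

include hA

theorem notMem_of_padicValRat_neg {J : ℚ} (h : padicValRat q J < 0) : (J : ℚbar) ∉ A := by
  have hJ : J ≠ 0 := fun e => by simp [e] at h
  rw [← A.valuation_le_one_iff, valuation_ratCast hq.out hA hJ, not_le]
  exact one_lt_zpow_of_neg₀
    (zero_lt_iff.2 ((map_ne_zero _).2 (Nat.cast_ne_zero.2 hq.out.ne_zero)))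
    (valuation_natCast_lt_one hA) h

theorem valuation_eq_pow_of_padicValRat {J J' : ℚ} (hJ : J ≠ 0) (hJ' : J' ≠ 0) {n : ℕ}
    (h : padicValRat q J' = n * padicValRat q J) :
    A.valuation (J' : ℚbar) = A.valuation (J : ℚbar) ^ n := by
  rw [valuation_ratCast hq.out hA hJ, valuation_ratCast hq.out hA hJ', h, ← zpow_natCast,
    ← zpow_mul, mul_comm]

omit hA in
theorem valuation_intCast_le_one (A : ValuationSubring ℚbar) (n : ℤ) :
    A.valuation (n : ℚbar) ≤ 1 :=
  (A.valuation_le_one_iff _).2 (intCast_mem A n)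

end Valuation

variable {p : ℕ} [Fact p.Prime]

/-- `(J₁, J₂)` are the values of `(j, j')` at `P`. -/
def HasValues (P : Place ℚbar (modularFunctionFieldBar p)) (J₁ J₂ : ℚ) : Prop :=
  0 < P.ord (jB p - algebraMap ℚbar _ (J₁ : ℚbar)) ∧
    0 < P.ord (jpB p - algebraMap ℚbar _ (J₂ : ℚbar))

theorem eval₂_of_isModularPair {J₁ J₂ : ℚ} (hΦ : IsModularPair p J₁ J₂)
    (data : ModularPolynomialData p) :
    data.Φ.eval₂ (Polynomial.eval₂RingHom (Int.castRingHom ℚbar) (J₁ : ℚbar)) (J₂ : ℚbar) = 0 := by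
  have h := congrArg (algebraMap ℚ ℚbar) (hΦ data)
  rw [Polynomial.hom_eval₂, map_zero, eq_ratCast] at h
  refine Eq.trans ?_ h
  congr 1
  exact Polynomial.ringHom_ext' (Subsingleton.elim _ _) (by simp)

section

variable {A : ValuationSubring ℚbar} {r : PlaceRed p A} (hr : IsPlaceReductionModL A p r)
  {Z : Place ℚbar (modularFunctionFieldBar p)} (hZ : IsCuspZero (bar_eq_fullC p) Z)
  {Zk : Place (IsLocalRing.ResidueField A)
    (modularFunctionFieldFullC (IsLocalRing.ResidueField A) p)}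
  (hZk : IsCuspZero rfl Zk)

include hr hZ hZk

/-- The point with values `(J₁, J₂)` reducing to `∞`. -/
theorem exists_hasValues {J₁ J₂ : ℚ} (hΦ : IsModularPair p J₁ J₂) (hJ : (J₁ : ℚbar) ∉ A)
    (hv : A.valuation (J₂ : ℚbar) = A.valuation (J₁ : ℚbar) ^ p) :
    ∃ P, r P = infS p A ∧ HasValues P J₁ J₂ := by
  obtain ⟨P, hP, hj⟩ := exists_near_inf hr hZ hZk hJ
  have hp2 := (Fact.out : p.Prime).two_le
  obtain ⟨data⟩ := ModFun.nonempty_modularPolynomialData p
  obtain ⟨n1, n2⟩ := ne_cusp_of_value hZ hj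
  obtain ⟨-, hjp0⟩ := ord_eq_zero_near hr hZ hZk (Or.inl hP) n1 n2
  have hnc : ∀ c : ℚbar, jpB p ≠ algebraMap ℚbar _ c := fun c h => by
    have h' := hZ.ord_jp
    change Z.ord (jpB p) = -1 at h'
    rw [h, Curve.ord_algebraMap] at h'
    omega
  obtain ⟨y, hy⟩ := Genus.exists_ord_sub_pos P hjp0.ge hnc
  have hJ0 : (J₁ : ℚbar) ≠ 0 := fun e => hJ (e ▸ A.zero_mem)
  obtain ⟨hmem, hone, -⟩ := value_ratio_near hr hZ hZk (Or.inl hP) hj hy hJ0
  have hvy : A.valuation y = A.valuation (J₁ : ℚbar) ^ p := by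
    have hu : IsUnit (⟨_, hmem⟩ : A) := by
      rw [← IsLocalRing.notMem_maximalIdeal, ← IsLocalRing.residue_eq_zero_iff, hone hP]
      exact one_ne_zero
    have h1 : A.valuation (y / (J₁ : ℚbar) ^ p) = 1 := (A.valuation_eq_one_iff ⟨_, hmem⟩).1 hu
    rwa [map_div₀, map_pow,
      div_eq_one_iff_eq (pow_ne_zero _ ((map_ne_zero _).2 hJ0))] at h1
  have h1J : 1 < A.valuation (J₁ : ℚbar) := not_le.1 (mt (A.valuation_le_one_iff _).1 hJ)
  have hy2 : y = (J₂ : ℚbar) :=
    (phiShape data).eq_of_val_eq hp2 A.valuation (valuation_intCast_le_one A)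
      (eval₂_value P hj hy (eval₂_jEl (bar_eq_fullC p) data))
      (eval₂_of_isModularPair hΦ data) h1J hvy hv
  exact ⟨P, hP, hj, hy2 ▸ hy⟩

/-- A point with `v (j') = v (j) ^ p` large reduces to `∞`. -/
theorem eq_inf_of_hasValues {P : Place ℚbar (modularFunctionFieldBar p)} {J₁ J₂ : ℚ}
    (hP : HasValues P J₁ J₂) (hJ : (J₁ : ℚbar) ∉ A)
    (hv : A.valuation (J₂ : ℚbar) = A.valuation (J₁ : ℚbar) ^ p) : r P = infS p A := by
  have hJ0 : (J₁ : ℚbar) ≠ 0 := fun e => hJ (e ▸ A.zero_mem)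
  have hnear := near_cusp_of_value hr hZ hZk hJ hP.1
  refine hnear.resolve_right fun hQ => ?_
  obtain ⟨hmem, -, hzero⟩ := value_ratio_near hr hZ hZk hnear hP.1 hP.2 hJ0
  have h1 : A.valuation ((J₂ : ℚbar) / (J₁ : ℚbar) ^ p) = 1 := by
    rw [map_div₀, map_pow, hv, div_self (pow_ne_zero _ ((map_ne_zero _).2 hJ0))]
  have h2 := hzero hQ
  rw [IsLocalRing.residue_eq_zero_iff, IsLocalRing.mem_maximalIdeal, mem_nonunits_iff,
    A.valuation_eq_one_iff] at h2
  exact h2 h1

/-- A point with `v (j) = v (j') ^ p` large reduces to `0`. -/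
theorem eq_zero_of_hasValues {P : Place ℚbar (modularFunctionFieldBar p)} {J₁ J₂ : ℚ}
    (hP : HasValues P J₁ J₂) (hJ : (J₂ : ℚbar) ∉ A)
    (hv : A.valuation (J₁ : ℚbar) = A.valuation (J₂ : ℚbar) ^ p) : r P = Zk := by
  have hp2 := (Fact.out : p.Prime).two_le
  have hv2 : 1 < A.valuation (J₂ : ℚbar) := not_le.1 (mt (A.valuation_le_one_iff _).1 hJ)
  have hJ1 : (J₁ : ℚbar) ∉ A := by
    rw [← A.valuation_le_one_iff, hv, not_le]
    exact one_lt_pow₀ hv2 (by omega)
  have hJ0 : (J₁ : ℚbar) ≠ 0 := fun e => hJ1 (e ▸ A.zero_mem)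
  have hnear := near_cusp_of_value hr hZ hZk hJ1 hP.1
  refine hnear.resolve_left fun hQ => ?_
  obtain ⟨hmem, hone, -⟩ := value_ratio_near hr hZ hZk hnear hP.1 hP.2 hJ0
  have hu : IsUnit (⟨_, hmem⟩ : A) := by
    rw [← IsLocalRing.notMem_maximalIdeal, ← IsLocalRing.residue_eq_zero_iff, hone hQ]
    exact one_ne_zero
  have h1 : A.valuation ((J₂ : ℚbar) / (J₁ : ℚbar) ^ p) = 1 :=
    (A.valuation_eq_one_iff ⟨_, hmem⟩).1 hu
  rw [map_div₀, map_pow, hv, ← pow_mul,
    div_eq_one_iff_eq (pow_ne_zero _ (ne_of_gt (lt_trans zero_lt_one hv2)))] at h1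
  have h2 : A.valuation (J₂ : ℚbar) ^ 1 < A.valuation (J₂ : ℚbar) ^ (p * p) :=
    pow_lt_pow_right₀ hv2 (by nlinarith)
  rw [pow_one, ← h1] at h2
  exact lt_irrefl _ h2

end

section Galois

/-- The arithmetic action of `σ` on `X₀(p)`. -/
abbrev galAut (p : ℕ) (σ : Γℚ) : SemilinearAut ℚbar (modularFunctionFieldBar p) :=
  arithmeticGalois (modularFunctionFieldFull p) σ

theorem galAut_smul_jB (σ : Γℚ) : galAut p σ • jB p = jB p :=
  Subtype.ext (by rw [coe_arithmeticGalois_smul]; exact coeffMap_jqModC _)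

theorem galAut_smul_jpB (σ : Γℚ) : galAut p σ • jpB p = jpB p :=
  Subtype.ext (by rw [coe_arithmeticGalois_smul]; exact coeffMap_jqNModC _ p)

theorem galAut_smul_ratCast (σ : Γℚ) (J : ℚ) :
    galAut p σ • algebraMap ℚbar (modularFunctionFieldBar p) (J : ℚbar) =
      algebraMap ℚbar _ (J : ℚbar) := by
  rw [SemilinearAut.smul_algebraMap, baseAut_arithmeticGalois]
  congr 1
  exact map_ratCast σ J

theorem ord_galAut_smul {f : modularFunctionFieldBar p} (σ : Γℚ) (hf : galAut p σ • f = f)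
    (P : Place ℚbar (modularFunctionFieldBar p)) : (galAut p σ • P).ord f = P.ord f := by
  conv_lhs => rw [← hf]
  exact SemilinearAut.ord_smul _ _ _

theorem HasValues.smul {P : Place ℚbar (modularFunctionFieldBar p)} {J₁ J₂ : ℚ}
    (h : HasValues P J₁ J₂) (σ : Γℚ) : HasValues (galAut p σ • P) J₁ J₂ := by
  constructor <;> rw [ord_galAut_smul σ]
  · exact h.1
  · rw [smul_sub, galAut_smul_jB, galAut_smul_ratCast]
  · exact h.2
  · rw [smul_sub, galAut_smul_jpB, galAut_smul_ratCast]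

variable {Z : Place ℚbar (modularFunctionFieldBar p)} (hZ : IsCuspZero (bar_eq_fullC p) Z)

include hZ

theorem galAut_smul_infB (σ : Γℚ) : galAut p σ • infB p = infB p := by
  have h : (galAut p σ • infB p).ord (jB p) = -1 := by
    rw [ord_galAut_smul σ (galAut_smul_jB σ)]; exact cuspInf_ord_jEl _
  refine (hZ.eq_of_pole _ (Or.inl (by simp only [jB] at h ⊢; omega))).resolve_right fun e => ?_
  rw [e, hZ.ord_j] at h
  have := (Fact.out : p.Prime).two_le
  omega

theorem galAut_smul_zero (σ : Γℚ) : galAut p σ • Z = Z := by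
  have h : (galAut p σ • Z).ord (jB p) = -(p : ℤ) := by
    rw [ord_galAut_smul σ (galAut_smul_jB σ)]; exact hZ.ord_j
  have := (Fact.out : p.Prime).two_le
  refine (hZ.eq_of_pole _ (Or.inl (by simp only [jB] at h ⊢; omega))).resolve_left fun e => ?_
  rw [e, cuspInf_ord_jEl] at h
  omega

end Galois

end Fermat.Agent.Mazur

end
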