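/-
Mazur's Eisenstein descent: the divisor of the modular unit is `(p - 1) ((∞) - (0))`.
-/
import Fermat.Agent.Mazur.PointUnit
import Fermat.Agent.Mazur.PointNear

set_option autoImplicit false
set_option synthInstance.maxHeartbeats 400000

noncomputable section

open AlgebraicCurve ModularCurve IntermediateField

namespace Fermat.Agent.Mazur

local notation "ℚbar" => AlgebraicClosure ℚ

section Integral

variable {K F : Type*} [Field K] [Field F] [Algebra K F]

/-- An element integral over `K[x]` is regular wherever `x` is. -/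
theorem ord_nonneg_of_relation (P : Place K F) {x w : F} (hx : 0 ≤ P.ord x) {n : ℕ}
    {b : ℕ → Polynomial K}
    (h : w ^ n + ∑ i ∈ Finset.range n, Polynomial.aeval x (b i) * w ^ i = 0) : 0 ≤ P.ord w := by
  by_contra hw
  have hv : 1 < P.adicValuation w := (one_lt_adicValuation_iff P).2 (not_le.1 hw)
  have hvx : P.adicValuation x ≤ 1 :=
    not_lt.1 fun h' => not_lt.2 hx ((one_lt_adicValuation_iff P).1 h')
  have hb : ∀ q : Polynomial K, P.adicValuation (Polynomial.aeval x q) ≤ 1 := fun q => by
    rw [Polynomial.aeval_eq_sum_range]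
    refine P.adicValuation.map_sum_le fun l _ => ?_
    rw [Algebra.smul_def, map_mul, map_pow]
    exact mul_le_one' (P.adicValuation_algebraMap_le_one _) (pow_le_one' hvx _)
  rcases n with _ | m
  · simp at h
  have hle : P.adicValuation (w ^ (m + 1)) ≤ P.adicValuation w ^ m := by
    rw [eq_neg_of_add_eq_zero_left h, Valuation.map_neg]
    refine P.adicValuation.map_sum_le fun i hi => ?_
    rw [map_mul, map_pow]
    exact (mul_le_of_le_one_left' (hb _)).trans
      (pow_le_pow_right₀ hv.le (Nat.lt_succ_iff.1 (Finset.mem_range.1 hi)))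
  rw [map_pow] at hle
  exact absurd hle (not_le.2 (pow_lt_pow_right₀ hv (Nat.lt_succ_self m)))

end Integral

variable {p : ℕ} [Fact p.Prime]

variable (p) in
/-- The unit `Δ (p τ) / Δ (τ)` on `X₀(p)`. -/
def unitEl : modularFunctionFieldBar p :=
  ⟨unitS p ℚbar, by rw [bar_eq_fullC p]; exact (unitS_spec p).1⟩

theorem unitEl_ne_zero : unitEl p ≠ 0 := fun h => by
  have h1 := unitS_mul_unitInvS p ℚbar
  rw [show unitS p ℚbar = 0 from congrArg Subtype.val h, zero_mul] at h1
  exact zero_ne_one h1

theorem coe_unitEl_inv :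
    (((unitEl p)⁻¹ : modularFunctionFieldBar p) : LaurentSeries ℚbar) = unitInvS p ℚbar := by
  rw [IntermediateField.coe_inv]
  exact inv_eq_of_mul_eq_one_right (unitS_mul_unitInvS p ℚbar)

theorem relation_lift {w : modularFunctionFieldBar p} {n : ℕ} {b : ℕ → Polynomial ℚbar}
    (h : (w : LaurentSeries ℚbar) ^ n + ∑ i ∈ Finset.range n,
      Polynomial.aeval (jqModC ℚbar) (b i) * (w : LaurentSeries ℚbar) ^ i = 0) :
    w ^ n + ∑ i ∈ Finset.range n, Polynomial.aeval (jB p) (b i) * w ^ i = 0 := by
  apply (modularFunctionFieldBar p).val.injective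
  rw [map_add, map_pow, map_sum, map_zero, ← h]
  congr 1
  refine Finset.sum_congr rfl fun i _ => ?_
  rw [map_mul, map_pow]
  exact congrArg (· * _)
    (Polynomial.aeval_algHom_apply (modularFunctionFieldBar p).val (jB p) (b i)).symm

theorem ord_unitEl_eq_zero {P : Place ℚbar (modularFunctionFieldBar p)}
    (hP : 0 ≤ P.ord (jB p)) : P.ord (unitEl p) = 0 := by
  obtain ⟨-, ⟨n, b, h⟩, n', b', h'⟩ := unitS_spec p
  have h1 := ord_nonneg_of_relation P hP (relation_lift (w := unitEl p) h)
  have h2 := ord_nonneg_of_relation P hP (relation_lift (w := (unitEl p)⁻¹) (by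
    rw [coe_unitEl_inv]; exact h'))
  rw [P.ord_inv] at h2
  omega

theorem ord_inf_unitEl : (infB p).ord (unitEl p) = (p : ℤ) - 1 := by
  rw [cuspInf_ord]
  exact order_unitS p ℚbar

variable {Z : Place ℚbar (modularFunctionFieldBar p)} (hZ : IsCuspZero (bar_eq_fullC p) Z)

include hZ

/-- The divisor `(∞) - (0)` times `p - 1` is principal. -/
theorem isPrincipal_cusps :
    ((p - 1 : ℕ) : ℤ) • (Finsupp.single Z (1 : ℤ) - Finsupp.single (infB p) 1) ∈
      Divisor.principal (K := ℚbar) (F := modularFunctionFieldBar p) := by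
  classical
  obtain ⟨D, hD, hdeg⟩ := HasPrincipalDivisors.exists_divisor (K := ℚbar) _ (unitEl_ne_zero (p := p))
  have hsupp : D = Finsupp.single (infB p) ((p : ℤ) - 1) + Finsupp.single Z (Z.ord (unitEl p)) := by
    ext P
    rw [Finsupp.add_apply, Finsupp.single_apply, Finsupp.single_apply, hD]
    rcases eq_or_ne P (infB p) with rfl | h1
    · rw [if_pos rfl, if_neg hZ.ne, add_zero, ord_inf_unitEl]
    rcases eq_or_ne P Z with rfl | h2
    · rw [if_neg (Ne.symm h1), if_pos rfl, zero_add]
    rw [if_neg (Ne.symm h1), if_neg (Ne.symm h2), add_zero]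
    refine ord_unitEl_eq_zero (not_lt.1 fun h => ?_)
    rcases hZ.eq_of_pole P (Or.inl h) with h | h <;> contradiction
  rw [hsupp, map_add, Divisor.degree_single, Divisor.degree_single,
    IsCurveOver.deg_eq_one_of_isAlgClosed, IsCurveOver.deg_eq_one_of_isAlgClosed, Nat.cast_one,
    mul_one, mul_one] at hdeg
  have hord : Z.ord (unitEl p) = -((p : ℤ) - 1) := by omega
  have hp1 := (Fact.out : p.Prime).one_le
  rw [hord] at hsupp
  have hneg : ((p - 1 : ℕ) : ℤ) • (Finsupp.single Z (1 : ℤ) - Finsupp.single (infB p) 1) = -D := by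
    rw [hsupp]
    ext P
    simp [Finsupp.single_apply, Nat.cast_sub hp1]
    split_ifs <;> ring
  rw [hneg]
  exact neg_mem ⟨unitEl p, unitEl_ne_zero, hD⟩

end Fermat.Agent.Mazur

end
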