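/-
Mazur's Eisenstein descent: the classes `y = (x') - (∞)` and `c = (0) - (∞)` in `J₀(p)`.
-/
import Fermat.Agent.Mazur.PointRational
import Fermat.Agent.Mazur.PointTorsion
import Fermat.Agent.Galois.Frobenius
import Fermat.Prelude.Def_ModularCurve_ReductionModL

set_option autoImplicit false
set_option synthInstance.maxHeartbeats 400000

noncomputable section

open AlgebraicCurve ModularCurve IntermediateField

namespace Fermat.Agent.Mazur

local notation "ℚbar" => AlgebraicClosure ℚ
local notation "Γℚ" => AlgebraicClosure ℚ ≃ₐ[ℚ] AlgebraicClosure ℚ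

variable {p : ℕ} [Fact p.Prime]

variable (p) in
/-- The divisor `(P) - (∞)`. -/
def subInf (P : Place ℚbar (modularFunctionFieldBar p)) :
    Divisor.degZero (K := ℚbar) (F := modularFunctionFieldBar p) :=
  ⟨Finsupp.single P 1 - Finsupp.single (infB p) 1, by
    rw [Divisor.mem_degZero, map_sub, Divisor.degree_single, Divisor.degree_single,
      IsCurveOver.deg_eq_one_of_isAlgClosed, IsCurveOver.deg_eq_one_of_isAlgClosed, sub_self]⟩

@[simp] theorem coe_subInf (P : Place ℚbar (modularFunctionFieldBar p)) :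
    (subInf p P : Divisor ℚbar (modularFunctionFieldBar p)) =
      Finsupp.single P 1 - Finsupp.single (infB p) 1 := rfl

theorem galois_smul_subInf {Z : Place ℚbar (modularFunctionFieldBar p)}
    (hZ : IsCuspZero (bar_eq_fullC p) Z) {P : Place ℚbar (modularFunctionFieldBar p)} (σ : Γℚ)
    (hP : galAut p σ • P = P) :
    σ • (Pic0.mk (subInf p P) : JZero p) = Pic0.mk (subInf p P) := by
  rw [galois_smul_pic0_def, SemilinearAut.pic0_smul_mk]
  refine congrArg Pic0.mk (Subtype.ext ?_)
  rw [SemilinearAut.coe_degZeroSMulHom, coe_subInf, smul_sub, SemilinearAut.smul_single,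
    SemilinearAut.smul_single, hP, galAut_smul_infB hZ]

variable {k : ℕ} [Fact k.Prime]

theorem ne_dvd_of_ne (hkp : k ≠ p) : ¬ k ∣ p :=
  fun h => hkp ((Nat.prime_dvd_prime_iff_eq (Fact.out : k.Prime) Fact.out).1 h)

/-- In positive genus two distinct places are not linearly equivalent. -/
theorem single_sub_single_notMem_principal {K F : Type*} [Field K] [IsAlgClosed K] [Field F]
    [Algebra K F] [Curve.IsFunctionFieldOne K F] [IsCurveOver K F] (hg : genusFF K F ≠ 0)
    {P Q : Place K F} (hne : P ≠ Q) :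
    Finsupp.single P (1 : ℤ) - Finsupp.single Q 1 ∉ Divisor.principal (K := K) (F := F) := by
  classical
  rintro ⟨g, hg0, hgD⟩
  have hQg : Q.ord g = -1 := by
    have h := hgD Q
    rw [Finsupp.sub_apply, Finsupp.single_apply, Finsupp.single_apply, if_neg hne,
      if_pos rfl] at h
    omega
  have ht : Transcendental K g := Curve.transcendental_of_ord_ne_zero Q (by omega)
  refine hg (genusFF_eq_zero_of_finrank_one ht ?_)
  have hpole : Curve.poleDivisor K g = Finsupp.single Q (1 : ℤ) := by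
    ext R
    have h := hgD R
    rw [Finsupp.sub_apply, Finsupp.single_apply, Finsupp.single_apply] at h
    rw [Curve.poleDivisor_apply, Finsupp.single_apply]
    split_ifs at h ⊢ <;> first | omega | (subst_vars; contradiction)
  have hdeg := Curve.degree_poleDivisor ht
  rw [hpole, Divisor.degree_single, IsCurveOver.deg_eq_one_of_isAlgClosed] at hdeg
  omega

set_option maxHeartbeats 2000000 in
/-- Reduction of the two kinds of classes. -/
theorem reduction_subInf (hp : p ∉ ({2, 3, 5, 7, 13} : Finset ℕ)) (hkp : k ≠ p)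
    {A : ValuationSubring ℚbar} (hA : A.LiesOverPrime k)
    {Z : Place ℚbar (modularFunctionFieldBar p)} (hZ : IsCuspZero (bar_eq_fullC p) Z)
    {P : Place ℚbar (modularFunctionFieldBar p)} {J₁ J₂ : ℚ} (hP : HasValues P J₁ J₂) :
    (padicValRat k J₁ < 0 ∧ padicValRat k J₂ = p * padicValRat k J₁ →
      reductionModL A p (Pic0.mk (subInf p P)) = 0) ∧
    (padicValRat k J₂ < 0 ∧ padicValRat k J₁ = p * padicValRat k J₂ →
      reductionModL A p (Pic0.mk (subInf p P)) = reductionModL A p (Pic0.mk (subInf p Z)) ∧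
        reductionModL A p (Pic0.mk (subInf p Z)) ≠ 0) := by
  have hkp' := ne_dvd_of_ne (p := p) hkp
  haveI := Igusa.isAlgClosed_residueField hkp' hA
  have h := Igusa.reductionInputsModL hkp' hA
  have hr := isPlaceReductionModL_placeReductionModL h
  obtain ⟨Zk, hZk⟩ := exists_isCuspZero_special hkp' hA hp
  obtain ⟨hi, hz⟩ := r_cusps hr hZ hZk
  have hp0 : (0 : ℤ) < p := by exact_mod_cast (Fact.out : p.Prime).pos
  constructor
  · rintro ⟨hneg, heq⟩
    have hJ1 : J₁ ≠ 0 := fun e => by simp [e] at hneg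
    have hJ2 : J₂ ≠ 0 := fun e => by
      rw [e, padicValRat.zero] at heq
      nlinarith
    have hQ := eq_inf_of_hasValues hr hZ hZk hP (notMem_of_padicValRat_neg hA hneg)
      (valuation_eq_pow_of_padicValRat hA hJ1 hJ2 heq)
    rw [reductionModL_mk h]
    refine (QuotientAddGroup.eq_zero_iff _).2 ?_
    rw [AddSubgroup.mem_addSubgroupOf, coe_reductionDegZeroAlong, coe_subInf,
      Finsupp.mapDomain_sub, Finsupp.mapDomain_single, Finsupp.mapDomain_single, hQ, hi, sub_self]
    exact zero_mem _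
  · rintro ⟨hneg, heq⟩
    have hJ2 : J₂ ≠ 0 := fun e => by simp [e] at hneg
    have hJ1 : J₁ ≠ 0 := fun e => by
      rw [e, padicValRat.zero] at heq
      nlinarith
    have hQ := eq_zero_of_hasValues hr hZ hZk hP (notMem_of_padicValRat_neg hA hneg)
      (valuation_eq_pow_of_padicValRat hA hJ2 hJ1 heq)
    rw [reductionModL_mk h, reductionModL_mk h]
    refine ⟨congrArg Pic0.mk (Subtype.ext ?_), fun h0 => ?_⟩
    · simp only [coe_reductionDegZeroAlong, coe_subInf, Finsupp.mapDomain_sub,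
        Finsupp.mapDomain_single, hQ, hz]
    · have h1 := (QuotientAddGroup.eq_zero_iff _).1 h0
      rw [AddSubgroup.mem_addSubgroupOf, coe_reductionDegZeroAlong, coe_subInf,
        Finsupp.mapDomain_sub, Finsupp.mapDomain_single, Finsupp.mapDomain_single, hz, hi] at h1
      exact single_sub_single_notMem_principal (genusFF_special_ne_zero hkp' hA hp) hZk.ne h1

/-- The classes `y = (x') - (∞)` and `c = (0) - (∞)`. -/
theorem exists_classes_aux (hp : p ∉ ({2, 3, 5, 7, 13} : Finset ℕ))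
    {J₁ J₂ : ℚ} (hΦ : IsModularPair p J₁ J₂)
    (h2 : padicValRat 2 J₁ < 0 ∧ padicValRat 2 J₂ = p * padicValRat 2 J₁)
    (h3 : padicValRat 3 J₁ < 0 ∧ padicValRat 3 J₂ = p * padicValRat 3 J₁)
    {ℓ : ℕ} [Fact ℓ.Prime] (hℓp : ℓ ≠ p)
    (hℓ : padicValRat ℓ J₂ < 0 ∧ padicValRat ℓ J₁ = p * padicValRat ℓ J₂) :
    ∃ y c : JZero p, (∀ σ : Γℚ, σ • y = y) ∧ (∀ σ : Γℚ, σ • c = c) ∧
      (∃ N : ℕ, ¬ p ∣ N ∧ N • c = 0) ∧
      (∀ A : ValuationSubring ℚbar, A.LiesOverPrime 2 → reductionModL A p y = 0) ∧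
      (∀ A : ValuationSubring ℚbar, A.LiesOverPrime 3 → reductionModL A p y = 0) ∧
      ∀ A : ValuationSubring ℚbar, A.LiesOverPrime ℓ →
        reductionModL A p y = reductionModL A p c ∧ reductionModL A p c ≠ 0 := by
  have hp2 : 2 ≠ p := fun e => hp (by simp [← e])
  have hp3 : 3 ≠ p := fun e => hp (by simp [← e])
  haveI : Fact (Nat.Prime 3) := ⟨Nat.prime_three⟩
  obtain ⟨Z, hZ⟩ := exists_isCuspZero_bar hp
  obtain ⟨A, hA⟩ := Galois.exists_liesOverPrime Nat.prime_two
  have hkp' := ne_dvd_of_ne (p := p) hp2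
  have h := Igusa.reductionInputsModL hkp' hA
  have hr := isPlaceReductionModL_placeReductionModL h
  obtain ⟨Zk, hZk⟩ := exists_isCuspZero_special hkp' hA hp
  have hp0 : (0 : ℤ) < p := by exact_mod_cast (Fact.out : p.Prime).pos
  have hJ1 : J₁ ≠ 0 := fun e => by simp [e] at h2
  have hJ2 : J₂ ≠ 0 := fun e => by
    have h' := h2.2
    rw [e, padicValRat.zero] at h'
    nlinarith [h2.1]
  have hmem := notMem_of_padicValRat_neg hA h2.1
  have hv := valuation_eq_pow_of_padicValRat hA hJ1 hJ2 h2.2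
  obtain ⟨P, hPr, hP⟩ := exists_hasValues hr hZ hZk hΦ hmem hv
  have hPfix : ∀ σ : Γℚ, galAut p σ • P = P := fun σ =>
    unique_near_inf hr hZ hZk hmem (eq_inf_of_hasValues hr hZ hZk (hP.smul σ) hmem hv) hPr
      (hP.smul σ).1 hP.1
  refine ⟨Pic0.mk (subInf p P), Pic0.mk (subInf p Z), fun σ => galois_smul_subInf hZ σ (hPfix σ),
    fun σ => galois_smul_subInf hZ σ (galAut_smul_zero hZ σ), ⟨p - 1, ?_, ?_⟩,
    fun B hB => (reduction_subInf hp hp2 hB hZ hP).1 h2,
    fun B hB => (reduction_subInf hp hp3 hB hZ hP).1 h3,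
    fun B hB => (reduction_subInf hp hℓp hB hZ hP).2 hℓ⟩
  · have := (Fact.out : p.Prime).two_le
    exact Nat.not_dvd_of_pos_of_lt (by omega) (by omega)
  · show ((p - 1) • (Pic0.mk (subInf p Z)) : JZero p) = 0
    rw [show (p - 1) • (Pic0.mk (subInf p Z) : JZero p) = Pic0.mk ((p - 1) • subInf p Z) from
      (QuotientAddGroup.mk_nsmul _ _ _).symm]
    refine (QuotientAddGroup.eq_zero_iff _).2 ?_
    rw [AddSubgroup.mem_addSubgroupOf, AddSubgroupClass.coe_nsmul, coe_subInf, ← natCast_zsmul]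
    exact isPrincipal_cusps hZ

end Fermat.Agent.Mazur

end
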