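/-
Mazur's Eisenstein descent: the rational point of `X₀(p)` and the classes it defines.
-/
import Fermat.Agent.Mazur.Defs
import Fermat.Agent.Mazur.PointClasses
import Fermat.Agent.Mazur.ModuliPair
import Fermat.Agent.ES.SpecialStable
import Fermat.Agent.ES.SpecialFinite
import Fermat.Prelude.Def_EllipticCurve_ZeroComponentAt
import Fermat.Prelude.Def_ModularCurve_ReductionModL
import Mathlib.NumberTheory.Padics.PadicVal.Basic

set_option autoImplicit false

noncomputable section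

namespace Fermat.Agent.Mazur

open ModularCurve
open scoped WeierstrassCurve.Affine

local notation "ℚbar" => AlgebraicClosure ℚ
local notation "Γℚ" => AlgebraicClosure ℚ ≃ₐ[ℚ] AlgebraicClosure ℚ

/-- A rational point of order `p` gives a rational zero `(J₁, J₂) = (j (E/C), j (E))` of the
modular polynomial; at a multiplicative prime its valuations tell whether the point lies in the
identity component. -/
theorem exists_modularPair {p : ℕ} [Fact p.Prime] (W : WeierstrassCurve ℤ)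
    (hΔ : W.Δ ≠ 0)
    (Q : ((W.map (Int.castRingHom ℚ))⁄ℚbar).Point) (hQfix : ∀ σ : Γℚ, σ • Q = Q)
    (hQord : addOrderOf Q = p)
    (hmul : ∃ ℓ : ℕ, ℓ.Prime ∧ ℓ ≠ p ∧ (ℓ : ℤ) ∣ W.Δ ∧ ¬ (ℓ : ℤ) ∣ W.c₄) :
    ∃ J₁ J₂ : ℚ, IsModularPair p J₁ J₂ ∧
      ∀ ℓ : ℕ, ℓ.Prime → ℓ ≠ p → (ℓ : ℤ) ∣ W.Δ → ¬ (ℓ : ℤ) ∣ W.c₄ →
        ∀ A : ValuationSubring ℚbar, A.LiesOverPrime ℓ →
          (¬ W.InZeroComponentAt A Q →
            padicValRat ℓ J₁ < 0 ∧ padicValRat ℓ J₂ = p * padicValRat ℓ J₁) ∧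
          (W.InZeroComponentAt A Q →
            padicValRat ℓ J₂ < 0 ∧ padicValRat ℓ J₁ = p * padicValRat ℓ J₂) := by
  exact exists_modularPair_aux W hΔ Q hQfix hQord hmul

/-- The classes `y = (x') - (∞)` and `c = (0) - (∞)`. -/
theorem exists_classes {p : ℕ} [Fact p.Prime] (hp : p ∉ ({2, 3, 5, 7, 13} : Finset ℕ))
    {J₁ J₂ : ℚ} (hΦ : IsModularPair p J₁ J₂)
    (h2 : padicValRat 2 J₁ < 0 ∧ padicValRat 2 J₂ = p * padicValRat 2 J₁)
    (h3 : padicValRat 3 J₁ < 0 ∧ padicValRat 3 J₂ = p * padicValRat 3 J₁)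
    {ℓ : ℕ} [Fact ℓ.Prime] (hℓp : ℓ ≠ p)
    (hℓ : padicValRat ℓ J₂ < 0 ∧ padicValRat ℓ J₁ = p * padicValRat ℓ J₂) :
    ∃ y c : JZero p, (∀ σ : Γℚ, σ • y = y) ∧ (∀ σ : Γℚ, σ • c = c) ∧
      (∃ N : ℕ, ¬ p ∣ N ∧ N • c = 0) ∧
      (∀ A : ValuationSubring ℚbar, A.LiesOverPrime 2 → reductionModL A p y = 0) ∧
      (∀ A : ValuationSubring ℚbar, A.LiesOverPrime 3 → reductionModL A p y = 0) ∧
      ∀ A : ValuationSubring ℚbar, A.LiesOverPrime ℓ →
        reductionModL A p y = reductionModL A p c ∧ reductionModL A p c ≠ 0 :=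
  exists_classes_aux hp hΦ h2 h3 hℓp hℓ

/-- The kernel of reduction is stable under the Hecke operators at good primes. -/
theorem reductionModL_hecke_eq_zero {p k : ℕ} [Fact p.Prime] [Fact k.Prime] (hkp : k ≠ p)
    {A : ValuationSubring ℚbar} (hA : A.LiesOverPrime k) (j : Nat.Primes)
    (hjp : (j : ℕ) ≠ p) (hjk : (j : ℕ) ≠ k) {x : JZero p} (hx : reductionModL A p x = 0) :
    reductionModL A p (heckeOperatorBar p j x) = 0 :=
  ES.reductionModL_hecke_eq_zero_of_eq_zero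
    (fun h => hkp ((Nat.prime_dvd_prime_iff_eq Fact.out Fact.out).mp h)) hA j
    (fun h => hjp ((Nat.prime_dvd_prime_iff_eq j.2 Fact.out).mp h)) hx

/-- Rational points reduce into a finite set. -/
theorem finite_reductionModL_fixed {p k : ℕ} [Fact p.Prime] [Fact k.Prime] (hkp : k ≠ p)
    {A : ValuationSubring ℚbar} (hA : A.LiesOverPrime k) :
    (reductionModL A p '' {x : JZero p | ∀ σ : Γℚ, σ • x = x}).Finite :=
  ES.finite_reduction_fixed
    (fun h => hkp ((Nat.prime_dvd_prime_iff_eq Fact.out Fact.out).mp h)) hA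

end Fermat.Agent.Mazur

end
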