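/-
Mazur's Eisenstein descent: Mazur's step, in terms of a rational point of `X₀(p)`.

Let `y = (x') - (∞)` and `c = (0) - (∞)`, so that `red₂ y = red₃ y = 0` and
`red_ℓ y = red_ℓ c ≠ 0`, and let `q` be a prime dividing the order of `red_ℓ c`. The descent
theorem makes the Eisenstein part of `y` infinitely `q`-divisible up to a bounded torsion error;
the error is killed by reduction at one of `2`, `3`, and at `ℓ` this makes the `q`-part of
`red_ℓ c` infinitely divisible in a finite group, hence zero.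
-/
import Fermat.Agent.Mazur.Descent
import Fermat.Agent.Mazur.PointMain
import Fermat.Agent.ES.SpecialMain
import Fermat.Agent.Galois.Frobenius

set_option autoImplicit false

noncomputable section

namespace Fermat.Agent.Mazur

open ModularCurve

local notation "ℚbar" => AlgebraicClosure ℚ
local notation "Γℚ" => AlgebraicClosure ℚ ≃ₐ[ℚ] AlgebraicClosure ℚ

/-- An element killed by two coprime numbers is zero. -/
theorem eq_zero_of_coprime_nsmul {G : Type*} [AddCommGroup G] {a b : ℕ} (hab : Nat.Coprime a b)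
    {x : G} (ha : a • x = 0) (hb : b • x = 0) : x = 0 := by
  rw [← AddMonoid.addOrderOf_eq_one_iff]
  exact Nat.eq_one_of_dvd_coprimes hab (addOrderOf_dvd_of_nsmul_eq_zero ha)
    (addOrderOf_dvd_of_nsmul_eq_zero hb)

/-- In a group killed by `q ^ w * u`, `q ∤ u`, a `q ^ d`-multiple, `d ≥ w`, has order prime
to `q`. -/
theorem pow_nsmul_eq_zero_of_torsion {G : Type*} [AddCommGroup G] {q w u v d : ℕ} (hq : q.Prime)
    (hu : ¬ q ∣ u) (hwd : w ≤ d) {z : G} (hz : (q ^ w * u) • z = 0)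
    (hv : q ^ v • (q ^ d • z) = 0) : q ^ d • z = 0 := by
  refine eq_zero_of_coprime_nsmul (((hq.coprime_iff_not_dvd).mpr hu).pow_left v) hv ?_
  rw [← mul_nsmul', show u * q ^ d = q ^ (d - w) * (q ^ w * u) by
    rw [← mul_assoc, ← pow_add, Nat.sub_add_cancel hwd, mul_comm], mul_nsmul', hz, nsmul_zero]

/-- The Hecke algebra away from `S` preserves the kernel of reduction at a good prime in `S`. -/
theorem reductionModL_heckeAway_eq_zero {p k : ℕ} [Fact p.Prime] [Fact k.Prime] (hkp : k ≠ p)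
    {A : ValuationSubring ℚbar} (hA : A.LiesOverPrime k) {S : Finset ℕ} (hpS : p ∈ S)
    (hkS : k ∈ S) {E : AddMonoid.End (JZero p)} (hE : E ∈ heckeAway p S) :
    ∀ x : JZero p, reductionModL A p x = 0 → reductionModL A p (E x) = 0 := by
  induction hE using Subring.closure_induction with
  | mem E hE =>
    obtain ⟨j, hj, rfl⟩ := hE
    intro x hx
    exact reductionModL_hecke_eq_zero hkp hA j (fun h => hj (by rw [h]; exact hpS))
      (fun h => hj (by rw [h]; exact hkS)) hx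
  | zero => exact fun x _ => map_zero (reductionModL A p)
  | one => exact fun x hx => hx
  | add E F _ _ hE hF =>
    intro x hx
    show reductionModL A p (E x + F x) = 0
    rw [map_add, hE x hx, hF x hx, add_zero]
  | neg E _ hE =>
    intro x hx
    show reductionModL A p (- E x) = 0
    rw [map_neg, hE x hx, neg_zero]
  | mul E F _ _ hE hF => exact fun x hx => hE _ (hF x hx)

/-- The rational points reduce into a group killed by some `q ^ w * u`, `q ∤ u`. -/
theorem exists_exponent_reductionModL_fixed {p k : ℕ} [Fact p.Prime] [Fact k.Prime] (hkp : k ≠ p)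
    {A : ValuationSubring ℚbar} (hA : A.LiesOverPrime k) {q : ℕ} (hq : q.Prime) :
    ∃ w u : ℕ, ¬ q ∣ u ∧ ∀ x : JZero p, (∀ σ : Γℚ, σ • x = x) →
      (q ^ w * u) • reductionModL A p x = 0 := by
  let R := (FixedPoints.addSubgroup Γℚ (JZero p)).map (reductionModL A p)
  have : Finite R := (finite_reductionModL_fixed hkp hA).to_subtype
  obtain ⟨w, u, hu, hcard⟩ := Nat.exists_eq_pow_mul_and_not_dvd (Nat.card_pos (α := R)).ne' q hq.ne_one
  refine ⟨w, u, hu, fun x hx => ?_⟩
  rw [← hcard]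
  exact congrArg Subtype.val (card_nsmul_eq_zero' (x := (⟨_, x, hx, rfl⟩ : R)))

/-- A rational point of `q`-power order is an Eisenstein vector. -/
theorem isEisensteinVector_of_fixed {p q : ℕ} [Fact p.Prime] {S : Finset ℕ} (hpS : p ∈ S)
    (hqS : q ∈ S) (hq : q.Prime) {x : JZero p} (hx : ∀ σ : Γℚ, σ • x = x)
    (hxq : ∃ n : ℕ, q ^ n • x = 0) : IsEisensteinVector p S x := by
  rintro ⟨j, hj⟩ hjS
  obtain ⟨A, hA⟩ := Galois.exists_liesOverPrime hj
  obtain ⟨σ, hσ⟩ := Galois.exists_isFrobeniusAt hj hA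
  have hjpq : ¬ j ∣ p * q := fun h => by
    rcases hj.dvd_mul.mp h with h | h
    · exact hjS (show j ∈ S from (Nat.prime_dvd_prime_iff_eq hj (Fact.out : p.Prime)).mp h ▸ hpS)
    · exact hjS (show j ∈ S from (Nat.prime_dvd_prime_iff_eq hj hq).mp h ▸ hqS)
  have h := ES.frobenius_quadratic hj hjpq hA hσ hxq
  rw [hx σ, hx σ] at h
  rw [add_nsmul, one_nsmul]
  rw [sub_add_eq_add_sub, sub_eq_zero] at h
  exact h.symm

set_option maxHeartbeats 800000 in
/-- No rational point of `X₀(p)`, `p ∉ {2, 3, 5, 7, 13}`, reduces to `∞` at `2` and `3` and to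
`0` at another prime `ℓ ≠ p`. -/
theorem key {p : ℕ} [Fact p.Prime] (hp : p ∉ ({2, 3, 5, 7, 13} : Finset ℕ))
    {J₁ J₂ : ℚ} (hΦ : IsModularPair p J₁ J₂)
    (h2 : padicValRat 2 J₁ < 0 ∧ padicValRat 2 J₂ = p * padicValRat 2 J₁)
    (h3 : padicValRat 3 J₁ < 0 ∧ padicValRat 3 J₂ = p * padicValRat 3 J₁)
    {ℓ : ℕ} (hℓ : ℓ.Prime) (hℓp : ℓ ≠ p)
    (hℓv : padicValRat ℓ J₂ < 0 ∧ padicValRat ℓ J₁ = p * padicValRat ℓ J₂) : False := by
  have : Fact ℓ.Prime := ⟨hℓ⟩
  obtain ⟨y, c, hy, hc, ⟨N, hpN, hNc⟩, hy2, hy3, hyℓ⟩ := exists_classes hp hΦ h2 h3 hℓp hℓv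
  obtain ⟨B, hB⟩ := Galois.exists_liesOverPrime hℓ
  obtain ⟨hBy, hBc⟩ := hyℓ B hB
  have hN : N ≠ 0 := by rintro rfl; exact hpN (dvd_zero p)
  have hcN : addOrderOf c ∣ N := addOrderOf_dvd_of_nsmul_eq_zero hNc
  obtain ⟨q, hq, hqc⟩ : ∃ q : ℕ, q.Prime ∧ q ∣ addOrderOf (reductionModL B p c) :=
    Nat.exists_prime_and_dvd (mt AddMonoid.addOrderOf_eq_one_iff.mp hBc)
  have hqp : q ≠ p := fun h =>
    hpN (h ▸ (hqc.trans (addOrderOf_map_dvd (reductionModL B p) c)).trans hcN)
  obtain ⟨e, a, ha, hea⟩ := Nat.exists_eq_pow_mul_and_not_dvd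
    (n := addOrderOf c) (fun h => hN (by simpa [h] using hcN)) q hq.ne_one
  have hc' : ∀ σ : Γℚ, σ • (a • c) = a • c := fun σ => by rw [ES.galois_smul_nsmul, hc]
  have hy' : ∀ σ : Γℚ, σ • (a • y) = a • y := fun σ => by rw [ES.galois_smul_nsmul, hy]
  have hc'q : q ^ e • (a • c) = 0 := by
    rw [← mul_nsmul', ← hea, addOrderOf_nsmul_eq_zero]
  have hBc' : reductionModL B p (a • c) ≠ 0 := fun h => by
    rw [map_nsmul] at h
    exact ha (hqc.trans (addOrderOf_dvd_of_nsmul_eq_zero h))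
  have hc'0 : a • c ≠ 0 := fun h => hBc' (by rw [h, map_zero])
  -- the Eisenstein vector of order `q`
  obtain ⟨m, hm, hm'⟩ : ∃ m : ℕ, q ^ m • (a • c) ≠ 0 ∧ q ^ (m + 1) • (a • c) = 0 := by
    classical
    have hex : ∃ n : ℕ, q ^ n • (a • c) = 0 := ⟨e, hc'q⟩
    have h0 : Nat.find hex ≠ 0 := fun h => by
      have := Nat.find_spec hex
      rw [h, pow_zero, one_nsmul] at this
      exact hc'0 this
    refine ⟨Nat.find hex - 1, Nat.find_min hex (by omega), ?_⟩
    rw [Nat.sub_add_cancel (by omega)]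
    exact Nat.find_spec hex
  let S : Finset ℕ := {p, q, 2, 3, ℓ}
  have hpS : p ∈ S := by simp [S]
  have hqS : q ∈ S := by simp [S]
  have hev' : IsEisensteinVector p S (a • c) :=
    isEisensteinVector_of_fixed hpS hqS hq hc' ⟨e, hc'q⟩
  have hev : IsEisensteinVector p S (q ^ m • (a • c)) := fun j hj => by
    rw [map_nsmul, hev' j hj, nsmul_left_comm]
  have hqx : q • (q ^ m • (a • c)) = 0 := by rwa [← mul_nsmul', ← pow_succ']
  obtain ⟨C, hC, hdesc⟩ := exists_descent_bound hq hqp hpS hqS hm hqx hev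
  obtain ⟨v, u, hu, rfl⟩ := Nat.exists_eq_pow_mul_and_not_dvd hC q hq.ne_one
  -- a prime among `2`, `3`, other than `q`
  obtain ⟨k, hk, hkq, hkp, hkS, hky⟩ : ∃ k : ℕ, k.Prime ∧ k ≠ q ∧ k ≠ p ∧ k ∈ S ∧
      ∀ A : ValuationSubring ℚbar, A.LiesOverPrime k → reductionModL A p y = 0 := by
    by_cases h : q = 2
    · exact ⟨3, Nat.prime_three, by omega, fun h => hp (by simp [← h]), by simp [S], hy3⟩
    · exact ⟨2, Nat.prime_two, Ne.symm h, fun h => hp (by simp [← h]), by simp [S], hy2⟩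
  have : Fact k.Prime := ⟨hk⟩
  obtain ⟨A, hA⟩ := Galois.exists_liesOverPrime hk
  obtain ⟨w₁, u₁, hu₁, hR₁⟩ := exists_exponent_reductionModL_fixed (p := p) hkp hA hq
  obtain ⟨w₂, u₂, hu₂, hR₂⟩ := exists_exponent_reductionModL_fixed (p := p) hℓp hB hq
  obtain ⟨E, hES, _, hEfix, hEdesc⟩ := hdesc (v + (w₁ + w₂ + e))
  obtain ⟨Y, hY, hEY⟩ := hEdesc (a • y) hy'
  have hEc : E (a • c) = a • c := hEfix _
    (by rw [show v + (w₁ + w₂ + e) = (v + w₁ + w₂) + e by ring, pow_add, mul_nsmul', hc'q,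
      nsmul_zero]) hev'
  set t : JZero p := u • E (a • y) - q ^ (w₁ + w₂ + e) • Y with ht
  have htq : q ^ v • t = 0 := by
    rw [ht, nsmul_sub, ← mul_nsmul', ← mul_nsmul', ← map_nsmul E (q ^ v * u), hEY, ← pow_add,
      sub_self]
  -- at `k` the error term dies
  have hAy : reductionModL A p (E (a • y)) = 0 :=
    reductionModL_heckeAway_eq_zero hkp hA hpS hkS hES _
      (by rw [map_nsmul (reductionModL A p) a, hky A hA, nsmul_zero])
  have hAt : reductionModL A p t = -(q ^ (w₁ + w₂ + e) • reductionModL A p Y) := by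
    rw [ht, map_sub (reductionModL A p), map_nsmul (reductionModL A p) u,
      map_nsmul (reductionModL A p) (q ^ (w₁ + w₂ + e)), hAy, nsmul_zero, zero_sub]
  have hAt0 : reductionModL A p t = 0 := by
    rw [hAt, neg_eq_zero]
    refine pow_nsmul_eq_zero_of_torsion (v := v) hq hu₁ (by omega) (hR₁ Y hY) ?_
    rw [← neg_eq_zero, ← neg_nsmul, ← hAt, ← map_nsmul (reductionModL A p), htq, map_zero]
  have ht0 : t = 0 := ES.eq_zero_of_reduction_of_pow hk
    (fun h => (hk.dvd_mul.mp h).elim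
      (fun h => hkp ((Nat.prime_dvd_prime_iff_eq hk (Fact.out : p.Prime)).mp h))
      (fun h => hkq ((Nat.prime_dvd_prime_iff_eq hk hq).mp h))) hA ⟨v, htq⟩ hAt0
  -- at `ℓ` this makes `red (a • c)` divisible
  have hBy' : reductionModL B p (E (a • y)) = reductionModL B p (a • c) := by
    have h := reductionModL_heckeAway_eq_zero hℓp hB hpS (by simp [S]) hES (a • y - a • c)
      (by rw [map_sub (reductionModL B p), map_nsmul (reductionModL B p) a y,
        map_nsmul (reductionModL B p) a c, hBy, sub_self])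
    rwa [map_sub E, map_sub (reductionModL B p), hEc, sub_eq_zero] at h
  have hBt : u • reductionModL B p (a • c) = q ^ (w₁ + w₂ + e) • reductionModL B p Y := by
    rw [← sub_eq_zero, ← hBy', ← map_nsmul (reductionModL B p) u,
      ← map_nsmul (reductionModL B p) (q ^ (w₁ + w₂ + e)), ← map_sub (reductionModL B p), ← ht,
      ht0, map_zero]
  have hBq : q ^ e • reductionModL B p (a • c) = 0 := by rw [← map_nsmul (reductionModL B p), hc'q, map_zero]
  have hz := pow_nsmul_eq_zero_of_torsion (v := e) (d := w₁ + w₂ + e) hq hu₂ (by omega) (hR₂ Y hY)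
    (by rw [← hBt, nsmul_left_comm, hBq, nsmul_zero])
  exact hBc' (eq_zero_of_coprime_nsmul (((hq.coprime_iff_not_dvd).mpr hu).pow_left e) hBq
    (hBt.trans hz))

end Fermat.Agent.Mazur

end
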