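/-
Mazur's Eisenstein descent: the statement of S15.
-/
import Fermat.Agent.Mazur.Key

set_option autoImplicit false

noncomputable section

namespace Fermat.Agent.Mazur

open ModularCurve
open scoped WeierstrassCurve.Affine

local notation "ℚbar" => AlgebraicClosure ℚ
local notation "Γℚ" => AlgebraicClosure ℚ ≃ₐ[ℚ] AlgebraicClosure ℚ

/-- A rational point of order `p ∉ {2, 3, 5, 7, 13}` outside the identity component at `2` and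
`3` lies outside it at every multiplicative prime `ℓ ≠ p`. -/
theorem not_inZeroComponentAt_of_two_three {p : ℕ} (hp : p.Prime)
    (hp' : p ∉ ({2, 3, 5, 7, 13} : Finset ℕ)) (W : WeierstrassCurve ℤ) (hΔ : W.Δ ≠ 0)
    (Q : ((W.map (Int.castRingHom ℚ))⁄ℚbar).Point)
    (hQfix : ∀ σ : Γℚ, σ • Q = Q) (hQord : addOrderOf Q = p)
    (h2Δ : (2 : ℤ) ∣ W.Δ) (h2c₄ : ¬ (2 : ℤ) ∣ W.c₄)
    (h2 : ∀ A : ValuationSubring ℚbar, A.LiesOverPrime 2 → ¬ W.InZeroComponentAt A Q)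
    (h3Δ : (3 : ℤ) ∣ W.Δ) (h3c₄ : ¬ (3 : ℤ) ∣ W.c₄)
    (h3 : ∀ A : ValuationSubring ℚbar, A.LiesOverPrime 3 → ¬ W.InZeroComponentAt A Q)
    {ℓ : ℕ} (hℓ : ℓ.Prime) (hℓp : ℓ ≠ p) (hℓΔ : (ℓ : ℤ) ∣ W.Δ) (hℓc₄ : ¬ (ℓ : ℤ) ∣ W.c₄)
    (A : ValuationSubring ℚbar) (hA : A.LiesOverPrime ℓ) :
    ¬ W.InZeroComponentAt A Q := by
  have : Fact p.Prime := ⟨hp⟩
  have hp2 : 2 ≠ p := fun h => hp' (by simp [← h])
  have hp3 : 3 ≠ p := fun h => hp' (by simp [← h])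
  intro hin
  obtain ⟨J₁, J₂, hΦ, hJ⟩ := exists_modularPair W hΔ Q hQfix hQord
    ⟨2, Nat.prime_two, hp2, h2Δ, h2c₄⟩
  obtain ⟨A₂, hA₂⟩ := Galois.exists_liesOverPrime Nat.prime_two
  obtain ⟨A₃, hA₃⟩ := Galois.exists_liesOverPrime Nat.prime_three
  exact key hp' hΦ ((hJ 2 Nat.prime_two hp2 h2Δ h2c₄ A₂ hA₂).1 (h2 A₂ hA₂))
    ((hJ 3 Nat.prime_three hp3 h3Δ h3c₄ A₃ hA₃).1 (h3 A₃ hA₃)) hℓ hℓp
    ((hJ ℓ hℓ hℓp hℓΔ hℓc₄ A hA).2 hin)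

end Fermat.Agent.Mazur

end
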