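/-
Definitions for the deduction of S12 (no cofixed line for `p ≥ 17`) from Mazur's step three (S15)
and the vanishing of admissible extensions (S14).
-/
import Fermat.Prelude.Def_EllipticCurve_ZeroComponentAt
import Fermat.Prelude.Def_FLTPrelim_Ramification
import Fermat.Prelude.Def_FLTPrelim_Modularity
import Fermat.Agent.ECRed.Good

set_option autoImplicit false

open scoped WeierstrassCurve.Affine

namespace Fermat.Agent.Mazur

local notation "Q̄" => AlgebraicClosure ℚ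

/-- The model is semistable at every prime different from `p` (nothing is asked at `p`). -/
structure SemistableAway (W : WeierstrassCurve ℤ) (p : ℕ) : Prop where
  Δ_ne_zero : W.Δ ≠ 0
  not_dvd_c₄ : ∀ ℓ : ℕ, ℓ.Prime → ℓ ≠ p → (ℓ : ℤ) ∣ W.Δ → ¬ (ℓ : ℤ) ∣ W.c₄

/-- The conclusion of Mazur's step three (S15) for the prime `p`. -/
def StepThree (p : ℕ) : Prop :=
  ∀ (W : WeierstrassCurve ℤ), W.Δ ≠ 0 → ∀ Q : ECRed.QbarPoint W,
    (∀ σ : Q̄ ≃ₐ[ℚ] Q̄, σ • Q = Q) → addOrderOf Q = p →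
    (2 : ℤ) ∣ W.Δ → ¬ (2 : ℤ) ∣ W.c₄ →
    (∀ A : ValuationSubring Q̄, A.LiesOverPrime 2 → ¬ W.InZeroComponentAt A Q) →
    (3 : ℤ) ∣ W.Δ → ¬ (3 : ℤ) ∣ W.c₄ →
    (∀ A : ValuationSubring Q̄, A.LiesOverPrime 3 → ¬ W.InZeroComponentAt A Q) →
    ∀ ℓ : ℕ, ℓ.Prime → ℓ ≠ p → (ℓ : ℤ) ∣ W.Δ → ¬ (ℓ : ℤ) ∣ W.c₄ →
    ∀ A : ValuationSubring Q̄, A.LiesOverPrime ℓ → ¬ W.InZeroComponentAt A Q

/-- A quotient of `W` by `C` with an integral model semistable away from `p`. -/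
structure QuotientModel (W : WeierstrassCurve ℤ) (p : ℕ)
    (C : AddSubgroup (ECRed.QbarPoint W)) where
  /-- the integral model of the quotient -/
  curve : WeierstrassCurve ℤ
  semistableAway : SemistableAway curve p
  /-- the quotient map on `ℚ̄`-points -/
  toHom : ECRed.QbarPoint W →+ ECRed.QbarPoint curve
  surjective : Function.Surjective toHom
  ker_eq : toHom.ker = C
  map_smul : ∀ (σ : Q̄ ≃ₐ[ℚ] Q̄) (P : ECRed.QbarPoint W), toHom (σ • P) = σ • toHom P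

end Fermat.Agent.Mazur
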