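/-
A curve semistable away from `p` with a rational point of order `p`, seen away from `p`.
-/
import Fermat.Agent.Mazur.TwelveDefs
import Fermat.Agent.Mult.Main
import Fermat.Agent.ECRed.Frobenius
import Fermat.Agent.Reducible.Main
import Fermat.Agent.EC.Torsion

set_option autoImplicit false
set_option maxHeartbeats 400000

open WeierstrassCurve
open scoped WeierstrassCurve.Affine Fermat.Agent.Galois

noncomputable section

namespace Fermat.Agent.Mazur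

open ECRed

variable {W : WeierstrassCurve ℤ} {p ℓ : ℕ} {Q : QbarPoint W}

theorem smul_zsmul_point (σ : Q̄ ≃ₐ[ℚ] Q̄) (c : ℤ) (P : QbarPoint W) : σ • (c • P) = c • (σ • P) :=
  (DistribSMul.toAddMonoidHom (QbarPoint W) σ).map_zsmul c P

/-- A multiple of a point of order `p` vanishing forces divisibility. -/
theorem dvd_of_zsmul_eq_zero (hQ : addOrderOf Q = p) {c : ℤ} (h : c • Q = 0) : (p : ℤ) ∣ c :=
  hQ ▸ (addOrderOf_dvd_iff_zsmul_eq_zero).2 h

/-- At `2` and `3` the reduction is bad when `p ≥ 17`. -/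
theorem dvd_Δ_of_small (hp : p.Prime) (hp17 : 17 ≤ p) (hfix : ∀ σ : Q̄ ≃ₐ[ℚ] Q̄, σ • Q = Q)
    (hQ : addOrderOf Q = p) (hℓ : ℓ.Prime) (hℓ3 : ℓ ≤ 3) : (ℓ : ℤ) ∣ W.Δ := by
  by_contra hg
  obtain ⟨A, σ, hA, hσ⟩ := Galois.exists_valuationSubring_isFrobeniusAt hℓ
  have hP : (p ^ 1) • Q = 0 := by rw [pow_one, ← hQ]; exact addOrderOf_nsmul_eq_zero Q
  have h := frobenius_relation hℓ hA hg hσ hp (by omega) (k := 1) hP
  rw [hfix, hfix] at h
  have h' : (1 - W.apOfModel ℓ + (ℓ : ℤ)) • Q = 0 := by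
    rw [add_zsmul, sub_zsmul, one_zsmul]; exact h
  have hd := dvd_of_zsmul_eq_zero hQ h'
  have ha := apOfModel_sq_le (W := W) hℓ hg
  have h1 : W.apOfModel ℓ ≤ 3 := by nlinarith
  have h2 : -3 ≤ W.apOfModel ℓ := by nlinarith
  have hl2 := hℓ.two_le
  by_cases h0 : 1 - W.apOfModel ℓ + (ℓ : ℤ) = 0
  · have h12 : ℓ = 2 := by omega
    subst h12
    rw [show W.apOfModel 2 = 3 by push_cast at h0; omega] at ha
    norm_num at ha
  · have := Int.le_of_dvd (abs_pos.2 h0) ((dvd_abs _ _).2 hd)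
    have h3 : |1 - W.apOfModel ℓ + (ℓ : ℤ)| ≤ 7 := abs_le.2 ⟨by omega, by omega⟩
    omega

/-- At `2` and `3` the point avoids the identity component. -/
theorem not_inZeroComponentAt_of_small (hW : SemistableAway W p) (hp : p.Prime) (hp17 : 17 ≤ p)
    (hfix : ∀ σ : Q̄ ≃ₐ[ℚ] Q̄, σ • Q = Q) (hQ : addOrderOf Q = p) (hℓ : ℓ.Prime) (hℓ3 : ℓ ≤ 3)
    {A : ValuationSubring Q̄} (hA : A.LiesOverPrime ℓ) : ¬ W.InZeroComponentAt A Q := by
  intro hz
  have hd := dvd_Δ_of_small hp hp17 hfix hQ hℓ hℓ3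
  have h : Mult.IsMultPlace W ℓ A :=
    ⟨hℓ, hW.Δ_ne_zero, hd, hW.not_dvd_c₄ ℓ hℓ (by omega) hd, hA⟩
  let x : Mult.Tors W p := ⟨Q, (Submodule.mem_torsionBy_iff _ _).2 (by
    show (p : ℤ) • Q = 0
    rw [natCast_zsmul, ← hQ]; exact addOrderOf_nsmul_eq_zero Q)⟩
  have hx := (Mult.mem_tateLine_iff h hp.ne_zero x).2 hz
  obtain ⟨σ, hσ⟩ := Galois.exists_isFrobeniusAt hℓ hA
  have he := congrArg Subtype.val (Mult.smul_tateLine h hp.ne_zero
    hσ.mem_decompositionSubgroup (a := ℓ)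
    (fun μ hμ => Reducible.frobenius_apply_rootOfUnity hℓ hA hσ hp (by omega) hμ) hx)
  have he' : (Mult.tateSign W A σ * (ℓ : ℤ) - 1) • Q = 0 := by
    have : σ • Q = (Mult.tateSign W A σ * (ℓ : ℤ)) • Q := he
    rw [hfix] at this
    rw [sub_zsmul, one_zsmul, ← this]; exact sub_self Q
  have hdd := dvd_of_zsmul_eq_zero hQ he'
  have hl2 := hℓ.two_le
  rcases Mult.tateSign_eq_one_or_neg_one W A σ with hs | hs <;> rw [hs] at hdd
  · have := Int.le_of_dvd (by omega) hdd; omega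
  · have := Int.le_of_dvd (by omega) (dvd_neg.2 hdd); omega

/-- Mazur's step three: the point avoids the identity component away from `p`. -/
theorem not_inZeroComponentAt (h15 : StepThree p) (hW : SemistableAway W p) (hp : p.Prime)
    (hp17 : 17 ≤ p) (hfix : ∀ σ : Q̄ ≃ₐ[ℚ] Q̄, σ • Q = Q) (hQ : addOrderOf Q = p)
    (hℓ : ℓ.Prime) (hℓp : ℓ ≠ p) (hd : (ℓ : ℤ) ∣ W.Δ)
    {A : ValuationSubring Q̄} (hA : A.LiesOverPrime ℓ) : ¬ W.InZeroComponentAt A Q := by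
  have h2 := dvd_Δ_of_small hp hp17 hfix hQ Nat.prime_two (by norm_num)
  have h3 := dvd_Δ_of_small hp hp17 hfix hQ Nat.prime_three le_rfl
  exact h15 W hW.Δ_ne_zero Q hfix hQ h2 (hW.not_dvd_c₄ 2 Nat.prime_two (by omega) h2)
    (fun B hB => not_inZeroComponentAt_of_small hW hp hp17 hfix hQ Nat.prime_two (by norm_num) hB)
    h3 (hW.not_dvd_c₄ 3 Nat.prime_three (by omega) h3)
    (fun B hB => not_inZeroComponentAt_of_small hW hp hp17 hfix hQ Nat.prime_three le_rfl hB)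
    ℓ hℓ hℓp hd (hW.not_dvd_c₄ ℓ hℓ hℓp hd) A hA

/-- Away from `p` inertia fixes the `p`-torsion. -/
theorem smul_eq_self_away (h15 : StepThree p) (hW : SemistableAway W p) (hp : p.Prime)
    (hp17 : 17 ≤ p) (hfix : ∀ σ : Q̄ ≃ₐ[ℚ] Q̄, σ • Q = Q) (hQ : addOrderOf Q = p)
    (hℓ : ℓ.Prime) (hℓp : ℓ ≠ p) {A : ValuationSubring Q̄} (hA : A.LiesOverPrime ℓ)
    {σ : Q̄ ≃ₐ[ℚ] Q̄} (hσ : σ ∈ A.inertiaSubgroupIn ℚ) (x : Mult.Tors W p) : σ • x = x := by
  haveI : Fact p.Prime := ⟨hp⟩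
  have hndvd : ¬ ℓ ∣ p := fun h => hℓp ((Nat.prime_dvd_prime_iff_eq hℓ hp).1 h)
  by_cases hd : (ℓ : ℤ) ∣ W.Δ
  · have h : Mult.IsMultPlace W ℓ A := ⟨hℓ, hW.Δ_ne_zero, hd, hW.not_dvd_c₄ ℓ hℓ hℓp hd, hA⟩
    let q : Mult.Tors W p := ⟨Q, (Submodule.mem_torsionBy_iff _ _).2 (by
      show (p : ℤ) • Q = 0
      rw [natCast_zsmul, ← hQ]; exact addOrderOf_nsmul_eq_zero Q)⟩
    have hq : q ∉ Mult.tateLine W A p := fun hm =>
      not_inZeroComponentAt h15 hW hp hp17 hfix hQ hℓ hℓp hd hA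
        ((Mult.mem_tateLine_iff h hp.ne_zero q).1 hm)
    obtain ⟨a, b, hab⟩ := Mult.exists_eq_comb (h.basis hp.ne_zero) q
    have hb : ¬ (p : ℤ) ∣ b := fun hb => hq (by
      rw [hab]; exact (Mult.comb_mem_tateLine_iff _ a b).2 hb)
    have hfix₁ := Mult.inertia_smul_tors₁ h hp.ne_zero hndvd hσ
    have hfixb : σ • (b • Mult.tors₂ (h.basis hp.ne_zero)) =
        b • Mult.tors₂ (h.basis hp.ne_zero) := by
      have hqfix : σ • q = q := Subtype.ext (hfix σ)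
      rw [hab, smul_add, Mult.smul_zsmul_tors, hfix₁, add_right_inj] at hqfix
      exact hqfix
    obtain ⟨c, e, hx⟩ := Mult.exists_eq_comb (h.basis hp.ne_zero) x
    obtain ⟨u, v, huv⟩ := (Prime.coprime_iff_not_dvd (Nat.prime_iff_prime_int.1 hp)).2 hb
    have he : Mult.tors₂ (h.basis hp.ne_zero) =
        v • (b • Mult.tors₂ (h.basis hp.ne_zero)) := by
      conv_lhs => rw [← one_zsmul (Mult.tors₂ _), ← huv, add_smul, mul_smul, mul_smul,
        Mult.zsmul_eq_zero_of_dvd (Mult.tors₂ (h.basis hp.ne_zero)) dvd_rfl, smul_zero, zero_add]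
    rw [hx, smul_add, Mult.smul_zsmul_tors, hfix₁, Mult.smul_zsmul_tors, he,
      Mult.smul_zsmul_tors, hfixb]
  · refine Subtype.ext (ECRed.smul_eq_self_of_mem_inertia hℓ hA hd hndvd hσ ?_)
    rw [← natCast_zsmul]
    exact (Submodule.mem_torsionBy_iff _ _).1 x.2

end Fermat.Agent.Mazur
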