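/-
At a semistable prime `p`: the local line in the `p^m`-torsion, and counting in small groups.
-/
import Fermat.Agent.Mazur.TwelveDefs
import Fermat.Agent.Mult.Main
import Fermat.Agent.AtP.Main

set_option autoImplicit false
set_option maxHeartbeats 400000

open WeierstrassCurve
open scoped WeierstrassCurve.Affine Fermat.Agent.Galois

noncomputable section

namespace Fermat.Agent.Mazur

open ECRed

section group

variable {M : Type*} [AddCommGroup M]

/-- A finite group killed by `p^m` with at most `p` elements killed by `p` has at most `p^m`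
elements. -/
theorem card_le_pow (p : ℕ) :
    ∀ (m : ℕ) (S : AddSubgroup M) [Finite S], (∀ x ∈ S, p ^ m • x = 0) →
      Nat.card {x : S // p • (x : M) = 0} ≤ p → Nat.card S ≤ p ^ m
  | 0, S, _, h, _ => by
    have : S = ⊥ := (AddSubgroup.eq_bot_iff_forall S).2 fun x hx => by
      simpa using h x hx
    subst this
    simp
  | m + 1, S, _, h, hp => by
    let f : S →+ M := (nsmulAddMonoidHom p).comp S.subtype
    have hker : Nat.card f.ker ≤ p := by
      refine le_of_eq_of_le (Nat.card_congr ?_) hp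
      exact Equiv.subtypeEquivRight fun x => Iff.rfl
    have hrange_le : f.range ≤ S := by
      rintro _ ⟨x, rfl⟩; exact nsmul_mem x.2 p
    haveI : Finite f.range := Finite.of_injective _ (AddSubgroup.inclusion_injective hrange_le)
    have hrp : Nat.card {x : f.range // p • (x : M) = 0} ≤ p := by
      refine le_trans (Nat.card_le_card_of_injective
        (fun x => (⟨AddSubgroup.inclusion hrange_le x.1, x.2⟩ : {x : S // p • (x : M) = 0}))
        fun x y e => ?_) hp
      exact Subtype.ext (AddSubgroup.inclusion_injective hrange_le (congrArg Subtype.val e))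
    have hih := card_le_pow p m f.range (by
      rintro _ ⟨x, rfl⟩
      show p ^ m • (p • (x : M)) = 0
      rw [← mul_nsmul', ← pow_succ]; exact h x x.2) hrp
    calc Nat.card S = Nat.card (S ⧸ f.ker) * Nat.card f.ker :=
          AddSubgroup.card_eq_card_quotient_mul_card_addSubgroup f.ker
      _ = Nat.card f.range * Nat.card f.ker := by
          rw [Nat.card_congr (QuotientAddGroup.quotientKerEquivRange f).toEquiv]
      _ ≤ p ^ m * p := Nat.mul_le_mul hih hker
      _ = p ^ (m + 1) := (pow_succ p m).symm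

/-- Such a group of order `p^m` has an element of order `p^m`. -/
theorem exists_generator {p m : ℕ} (hp : p.Prime) (hm : m ≠ 0) (S : AddSubgroup M) [Finite S]
    (hcard : Nat.card S = p ^ m) (hS : Nat.card {x : S // p • (x : M) = 0} ≤ p) :
    ∃ x ∈ S, addOrderOf x = p ^ m := by
  haveI : Fact p.Prime := ⟨hp⟩
  have hk : ∀ x ∈ S, p ^ m • x = 0 := fun x hx => by
    have := card_nsmul_eq_zero' (G := S) (x := ⟨x, hx⟩)
    rw [hcard] at this
    exact congrArg Subtype.val this
  by_contra hno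
  push Not at hno
  obtain ⟨j, rfl⟩ : ∃ j, m = j + 1 := ⟨m - 1, by omega⟩
  have hk' : ∀ x ∈ S, p ^ j • x = 0 := fun x hx => by
    by_contra hne
    exact hno x hx (addOrderOf_eq_prime_pow hne (hk x hx))
  have := card_le_pow p j S hk' hS
  rw [hcard] at this
  exact absurd this (not_le.2 (Nat.pow_lt_pow_right hp.one_lt (Nat.lt_succ_self j)))

end group

variable {W : WeierstrassCurve ℤ} {p : ℕ} {A : ValuationSubring Q̄}

/-- The points killed by `n`. -/
def torsionSub (W : WeierstrassCurve ℤ) (n : ℕ) : AddSubgroup (QbarPoint W) :=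
  (nsmulAddMonoidHom n : QbarPoint W →+ QbarPoint W).ker

theorem mem_torsionSub {n : ℕ} {P : QbarPoint W} : P ∈ torsionSub W n ↔ n • P = 0 := Iff.rfl

theorem finite_torsionSub (hΔ : W.Δ ≠ 0) {n : ℕ} (hn : n ≠ 0) : Finite (torsionSub W n) := by
  haveI : (W.map (Int.castRingHom ℚ)).IsElliptic := by
    rw [WeierstrassCurve.isElliptic_iff, WeierstrassCurve.map_Δ, isUnit_iff_ne_zero, eq_intCast,
      Int.cast_ne_zero]
    exact hΔ
  haveI := EC.finite_torsionBy_Qbar (W := (W.map (Int.castRingHom ℚ))) hn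
  exact Finite.of_injective
    (fun P : torsionSub W n => (⟨P.1, (Submodule.mem_torsionBy_iff _ _).2 (by
      show (n : ℤ) • P.1 = 0
      rw [natCast_zsmul]; exact P.2)⟩ :
      Submodule.torsionBy ℤ ((W.map (Int.castRingHom ℚ))⁄Q̄).Point n))
    fun P P' e => Subtype.ext (congrArg (fun z => z.1) e)

/-- The local line at a semistable prime `p` in the `p^m`-torsion. -/
theorem exists_localSub [Fact p.Prime] (hp2 : p ≠ 2) (hΔ : W.Δ ≠ 0)
    (hss : (p : ℤ) ∣ W.Δ → ¬ (p : ℤ) ∣ W.c₄) (hA : A.LiesOverPrime p)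
    (N : Submodule (ZMod p) (AtP.Tors W p)) (hb : N ≠ ⊥) (ht : N ≠ ⊤)
    (hN : ∀ σ : Q̄ ≃ₐ[ℚ] Q̄, ∀ x ∈ N, σ • x ∈ N) (m : ℕ) :
    ∃ L : AddSubgroup (QbarPoint W), L ≤ torsionSub W (p ^ m) ∧
      (∀ σ ∈ A.decompositionSubgroup ℚ, ∀ P ∈ L, σ • P ∈ L) ∧
      (∀ σ ∈ A.inertiaSubgroupIn ℚ, ∀ P ∈ torsionSub W (p ^ m), σ • P - P ∈ L) ∧
      Nat.card {P : L // p • (P : QbarPoint W) = 0} ≤ p := by
  classical
  have hp : p.Prime := Fact.out
  haveI := finite_torsionSub hΔ hp.ne_zero
  have hstab : ∀ σ : Q̄ ≃ₐ[ℚ] Q̄, ∀ P ∈ torsionSub W (p ^ m), σ • P ∈ torsionSub W (p ^ m) :=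
    fun σ P hP => by
      rw [mem_torsionSub] at hP ⊢
      rw [smul_comm, hP]
      exact smul_zero (A := QbarPoint W) σ
  by_cases hd : (p : ℤ) ∣ W.Δ
  · have h : Mult.IsMultPlace W p A := ⟨hp, hΔ, hd, hss hd, hA⟩
    refine ⟨(Mult.tateLine W A (p ^ m)).toAddSubgroup.map
      (Submodule.torsionBy ℤ (QbarPoint W) ((p ^ m : ℕ) : ℤ)).subtype.toAddMonoidHom,
      ?_, ?_, ?_, ?_⟩
    · rintro _ ⟨x, -, rfl⟩
      rw [mem_torsionSub, ← natCast_zsmul]
      exact Mult.torsion_zsmul_eq_zero x
    · rintro σ hσ _ ⟨x, hx, rfl⟩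
      exact ⟨σ • x, Mult.smul_mem_tateLine h (pow_ne_zero m hp.ne_zero) hσ hx, rfl⟩
    · intro σ hσ P hP
      let x : Mult.Tors W (p ^ m) := ⟨P, (Submodule.mem_torsionBy_iff _ _).2 (by
        show ((p ^ m : ℕ) : ℤ) • P = 0
        rw [natCast_zsmul]; exact hP)⟩
      exact ⟨σ • x - x, Mult.inertia_smul_sub_mem h (pow_ne_zero m hp.ne_zero) hσ x, rfl⟩
    · haveI : Finite (Mult.tateLine W A p) := Nat.finite_of_card_ne_zero (by
        rw [Mult.natCard_tateLine h hp.ne_zero]; exact hp.ne_zero)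
      refine le_of_le_of_eq (Nat.card_le_card_of_injective
        (fun P => (⟨⟨P.1.1, (Submodule.mem_torsionBy_iff _ _).2
          ((natCast_zsmul _ _).trans P.2)⟩, ?_⟩ : Mult.tateLine W A p)) ?_)
        (Mult.natCard_tateLine h hp.ne_zero)
      · obtain ⟨x, hx, he⟩ := P.1.2
        rw [Mult.mem_tateLine_iff h hp.ne_zero]
        have := (Mult.mem_tateLine_iff h (pow_ne_zero m hp.ne_zero) x).1 hx
        show W.InZeroComponentAt A P.1.1
        rw [← he]; exact this
      · intro P P' e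
        exact Subtype.ext (Subtype.ext (congrArg (fun z => z.1.1) e))
  · have hgood : W.IsGoodPrimeFor p := hd
    let f := redHom hp hA hgood
    refine ⟨f.ker ⊓ torsionSub W (p ^ m), inf_le_right, fun σ hσ P hP => ?_, fun σ hσ P hP => ?_, ?_⟩
    · refine ⟨?_, hstab σ P hP.2⟩
      rcases (redHom_eq_zero_iff hp hA hgood P).1 hP.1 with rfl | ⟨a, b, h, rfl, ha⟩
      · show σ • (0 : QbarPoint W) ∈ f.ker
        rw [show σ • (0 : QbarPoint W) = 0 from smul_zero (A := QbarPoint W) σ]
        exact zero_mem _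
      · exact (redHom_eq_zero_iff hp hA hgood _).2 (Or.inr ⟨_, _, _, rfl,
          fun h' => ha ((mem_iff_smul_mem ⟨σ, hσ⟩ a).1 h')⟩)
    · refine ⟨?_, AddSubgroup.sub_mem _ (hstab σ P hP) hP⟩
      show f (σ • P - P) = 0
      rw [map_sub, redHom_smul_of_mem_inertia hp hA hgood hσ, sub_self]
    · obtain ⟨k, hk, hdvd⟩ : ∃ k, k ≠ 0 ∧ ¬ (p : ℤ) ∣ (W.preΨ' p).coeff k := by
        by_contra hcon
        push Not at hcon
        have htr := AtP.isInertiaTransitive_of_const hp2 hgood hA hcon
        rcases htr.eq_bot_or_eq_top N (fun σ _ x hx => hN σ x hx) with h | h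
        · exact hb h
        · exact ht h
      have h1 := AtP.finrank_formalPart hp2 hA hgood hk hdvd
      haveI : Module.Finite (ZMod p) (AtP.formalPart hA hgood) :=
        Module.finite_of_finrank_eq_succ h1
      have hc : Nat.card (AtP.formalPart hA hgood) = p := by
        rw [Module.natCard_eq_pow_finrank (K := ZMod p), h1, pow_one, Nat.card_zmod]
      haveI : Finite (AtP.formalPart hA hgood) :=
        Nat.finite_of_card_ne_zero (by rw [hc]; exact hp.ne_zero)
      refine le_of_le_of_eq (Nat.card_le_card_of_injective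
        (fun P => (⟨⟨P.1.1, (Submodule.mem_torsionBy_iff _ _).2
          ((natCast_zsmul _ _).trans P.2)⟩, P.1.2.1⟩ : AtP.formalPart hA hgood))
        fun P P' e => ?_) hc
      exact Subtype.ext (Subtype.ext (congrArg (fun z => z.1.1) e))

end Fermat.Agent.Mazur
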