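/-
Division polynomials of cuspidal cubics: all roots of an odd division polynomial of a curve with
`Δ = c₄ = 0` sit at the cusp.
-/
import Mathlib.AlgebraicGeometry.EllipticCurve.DivisionPolynomial.Basic
import Mathlib.FieldTheory.IsAlgClosed.Basic
import Mathlib.Algebra.CharP.Basic
import Mathlib.Tactic.LinearCombination

set_option autoImplicit false
set_option maxHeartbeats 400000

open Polynomial WeierstrassCurve

namespace Fermat.Agent.Mazur

section closedForm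

variable {R : Type*} [CommRing R] (u : R)

/-- Closed form of the normalised EDS of the cuspidal cubic. -/
theorem preNormEDS'_cusp (n : ℕ) : ∀ k : ℕ,
    (n = 2 * k + 1 → preNormEDS' (16 * u ^ 6) (3 * u ^ 4) (2 * u ^ 6) n =
      (2 * k + 1 : R) * u ^ (2 * k ^ 2 + 2 * k)) ∧
    (n = 2 * k + 2 → preNormEDS' (16 * u ^ 6) (3 * u ^ 4) (2 * u ^ 6) n =
      (k + 1 : R) * u ^ (2 * k ^ 2 + 4 * k)) := by
  induction n using normEDSRec' with
  | zero => intro k; constructor <;> intro h <;> omega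
  | one =>
    intro k; constructor <;> intro h
    · obtain rfl : k = 0 := by omega
      simp
    · omega
  | two =>
    intro k; constructor <;> intro h
    · omega
    · obtain rfl : k = 0 := by omega
      simp
  | three =>
    intro k; constructor <;> intro h
    · obtain rfl : k = 1 := by omega
      simp; norm_num
    · omega
  | four =>
    intro k; constructor <;> intro h
    · omega
    · obtain rfl : k = 1 := by omega
      simp; norm_num
  | even m ih =>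
    intro k; refine ⟨fun h => absurd h (by omega), fun h => ?_⟩
    obtain rfl : k = m + 2 := by omega
    rw [preNormEDS'_even]
    obtain ⟨j, rfl | rfl⟩ := m.even_or_odd'
    · rw [(ih (2 * j + 2) (by omega) j).2 rfl, (ih (2 * j + 3) (by omega) (j + 1)).1 (by ring),
        (ih (2 * j + 5) (by omega) (j + 2)).1 (by ring), (ih (2 * j + 1) (by omega) j).1 rfl,
        (ih (2 * j + 4) (by omega) (j + 1)).2 (by ring)]
      push_cast
      ring
    · rw [show 2 * j + 1 + 2 = 2 * (j + 1) + 1 by ring, show 2 * j + 1 + 3 = 2 * (j + 1) + 2 by ring,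
        show 2 * j + 1 + 5 = 2 * (j + 2) + 2 by ring, show 2 * j + 1 + 1 = 2 * j + 2 by ring,
        show 2 * j + 1 + 4 = 2 * (j + 2) + 1 by ring,
        (ih _ (by omega) (j + 1)).1 rfl, (ih _ (by omega) (j + 1)).2 rfl,
        (ih _ (by omega) (j + 2)).2 rfl, (ih _ (by omega) j).2 rfl, (ih _ (by omega) (j + 2)).1 rfl]
      push_cast
      ring
  | odd m ih =>
    intro k; refine ⟨fun h => ?_, fun h => absurd h (by omega)⟩
    obtain rfl : k = m + 2 := by omega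
    rw [preNormEDS'_odd]
    obtain ⟨j, rfl | rfl⟩ := m.even_or_odd'
    · rw [if_pos (even_two_mul j), if_pos (even_two_mul j),
        (ih (2 * j + 2) (by omega) j).2 rfl, (ih (2 * j + 4) (by omega) (j + 1)).2 (by ring),
        (ih (2 * j + 1) (by omega) j).1 rfl, (ih (2 * j + 3) (by omega) (j + 1)).1 (by ring)]
      push_cast
      ring
    · rw [if_neg (Nat.not_even_two_mul_add_one j), if_neg (Nat.not_even_two_mul_add_one j),
        show 2 * j + 1 + 2 = 2 * (j + 1) + 1 by ring, show 2 * j + 1 + 3 = 2 * (j + 1) + 2 by ring,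
        show 2 * j + 1 + 1 = 2 * j + 2 by ring, show 2 * j + 1 + 4 = 2 * (j + 2) + 1 by ring,
        (ih _ (by omega) (j + 1)).1 rfl, (ih _ (by omega) (j + 1)).2 rfl, (ih _ (by omega) j).2 rfl,
        (ih _ (by omega) (j + 2)).1 rfl]
      push_cast
      ring

end closedForm

variable {k : Type*} [Field k] [IsAlgClosed k] (E : WeierstrassCurve k)

/-- The abscissa of the cusp of a curve with `Δ = c₄ = 0`. -/
theorem exists_cusp (hΔ : E.Δ = 0) (hc : E.c₄ = 0) :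
    ∃ x₀ : k, E.b₂ = -12 * x₀ ∧ E.b₄ = 6 * x₀ ^ 2 ∧ E.b₆ = -4 * x₀ ^ 3 ∧
      E.b₈ = 3 * x₀ ^ 4 := by
  have h8 := E.b_relation
  have hD : -E.b₂ ^ 2 * E.b₈ - 8 * E.b₄ ^ 3 - 27 * E.b₆ ^ 2 + 9 * E.b₂ * E.b₄ * E.b₆ = 0 := hΔ
  have hC : E.b₂ ^ 2 - 24 * E.b₄ = 0 := hc
  have sq0 : ∀ {z : k}, z ^ 2 = 0 → z = 0 := fun h => eq_zero_of_pow_eq_zero h
  by_cases h2 : (2 : k) = 0
  · obtain ⟨x₀, hx⟩ := IsAlgClosed.exists_pow_nat_eq E.b₈ (by norm_num : 0 < 4)
    have hb2 : E.b₂ = 0 := sq0 (by linear_combination hC + 12 * E.b₄ * h2)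
    have hb4 : E.b₄ = 0 := sq0 (by linear_combination h8 - 2 * E.b₈ * h2 + E.b₆ * hb2)
    have hb6 : E.b₆ = 0 := sq0 (by
      linear_combination hD + (E.b₂ * E.b₈ - 9 * E.b₄ * E.b₆) * hb2
        + 8 * E.b₄ ^ 2 * hb4 + 14 * E.b₆ ^ 2 * h2)
    refine ⟨x₀, ?_, ?_, ?_, ?_⟩
    · linear_combination hb2 + 6 * x₀ * h2
    · linear_combination hb4 - 3 * x₀ ^ 2 * h2
    · linear_combination hb6 + 2 * x₀ ^ 3 * h2
    · linear_combination -hx - x₀ ^ 4 * h2
  by_cases h3 : (3 : k) = 0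
  · obtain ⟨x₀, hx⟩ := IsAlgClosed.exists_pow_nat_eq (-E.b₆) (by norm_num : 0 < 3)
    have hb2 : E.b₂ = 0 := sq0 (by linear_combination hC + 8 * E.b₄ * h3)
    have hb4 : E.b₄ = 0 := eq_zero_of_pow_eq_zero (n := 3) (by
      linear_combination hD + (E.b₂ * E.b₈ - 9 * E.b₄ * E.b₆) * hb2
        + (3 * E.b₄ ^ 3 + 9 * E.b₆ ^ 2) * h3)
    have hb8 : E.b₈ = 0 := by
      linear_combination h8 + E.b₆ * hb2 - E.b₄ * hb4 - E.b₈ * h3
    refine ⟨x₀, ?_, ?_, ?_, ?_⟩
    · linear_combination hb2 + 4 * x₀ * h3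
    · linear_combination hb4 - 2 * x₀ ^ 2 * h3
    · linear_combination hx + x₀ ^ 3 * h3
    · linear_combination hb8 - x₀ ^ 4 * h3
  have h12 : (12 : k) ≠ 0 := by
    rw [show (12 : k) = 2 * 2 * 3 by norm_num]
    exact mul_ne_zero (mul_ne_zero h2 h2) h3
  have h4 : (4 : k) ≠ 0 := by rw [show (4 : k) = 2 * 2 by norm_num]; exact mul_ne_zero h2 h2
  have h24 : (24 : k) ≠ 0 := by rw [show (24 : k) = 12 * 2 by norm_num]; exact mul_ne_zero h12 h2
  obtain ⟨x₀, hx⟩ : ∃ x₀ : k, E.b₂ = -12 * x₀ := ⟨-E.b₂ / 12, by field_simp⟩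
  have hb4 : E.b₄ = 6 * x₀ ^ 2 := mul_left_cancel₀ h24 (by
    linear_combination -hC + (E.b₂ - 12 * x₀) * hx)
  have hb8 : E.b₈ = -3 * x₀ * E.b₆ - 9 * x₀ ^ 4 := mul_left_cancel₀ h4 (by
    rw [hx, hb4] at h8; linear_combination h8)
  have hb6 : E.b₆ = -4 * x₀ ^ 3 := by
    rw [hx, hb4, hb8] at hD
    have h27 : (27 : k) ≠ 0 := by
      rw [show (27 : k) = 3 ^ 3 by norm_num]; exact pow_ne_zero _ h3
    refine eq_neg_of_add_eq_zero_left ?_ |>.trans (by ring : -(4 * x₀ ^ 3) = -4 * x₀ ^ 3)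
    refine eq_zero_of_pow_eq_zero (n := 2) (mul_left_cancel₀ h27 ?_)
    linear_combination -hD
  exact ⟨x₀, hx, hb4, hb6, by rw [hb8, hb6]; ring⟩

variable {E}

omit [IsAlgClosed k] in

/-- An odd division polynomial, not vanishing identically, only vanishes at the cusp. -/
theorem eq_cusp_of_preΨ'_eval_eq_zero {x₀ z : k} (h₂ : E.b₂ = -12 * x₀)
    (h₄ : E.b₄ = 6 * x₀ ^ 2) (h₆ : E.b₆ = -4 * x₀ ^ 3) (h₈ : E.b₈ = 3 * x₀ ^ 4) {r : ℕ}
    (hr : Odd r) (hrk : (r : k) ≠ 0) (hz : (E.preΨ' r).eval z = 0) : z = x₀ := by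
  obtain ⟨j, rfl⟩ := hr
  rw [preΨ', ← coe_evalRingHom, map_preNormEDS'] at hz
  simp only [coe_evalRingHom] at hz
  rw [show (E.Ψ₂Sq ^ 2).eval z = 16 * (z - x₀) ^ 6 by
      simp [Ψ₂Sq, h₂, h₄, h₆]; ring,
    show E.Ψ₃.eval z = 3 * (z - x₀) ^ 4 by
      simp [Ψ₃, h₂, h₄, h₆, h₈]; ring,
    show E.preΨ₄.eval z = 2 * (z - x₀) ^ 6 by
      simp [preΨ₄, h₂, h₄, h₆, h₈]; ring,
    (preNormEDS'_cusp (z - x₀) _ j).1 rfl] at hz
  rcases mul_eq_zero.mp hz with h | h
  · exact absurd (by exact_mod_cast h) hrk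
  · exact sub_eq_zero.mp (eq_zero_of_pow_eq_zero h)

end Fermat.Agent.Mazur
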