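/-
Velu's formulas in general Weierstrass form.
-/
import Fermat.Agent.Isogeny.Quotient

set_option autoImplicit false
set_option maxHeartbeats 800000

open WeierstrassCurve WeierstrassCurve.Affine WeierstrassCurve.Affine.Point

namespace Fermat.Agent.Mazur.GenVelu

variable {K : Type*} [Field K]

/-- The abscissa (`0` at infinity). -/
def xOf {E : WeierstrassCurve.Affine K} : E.Point → K
  | .zero => 0
  | .some x _ _ => x

/-- `3x² + 2 a₂ x + a₄ - a₁ y` (`0` at infinity). -/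
def gX {E : WeierstrassCurve.Affine K} : E.Point → K
  | .zero => 0
  | .some x y _ => 3 * x ^ 2 + 2 * E.a₂ * x + E.a₄ - E.a₁ * y

/-- Velu's `u` up to symmetrisation (`0` at infinity). -/
def uF {E : WeierstrassCurve.Affine K} : E.Point → K
  | .zero => 0
  | .some x y _ => 2 * (x ^ 3 + E.a₂ * x ^ 2 + E.a₄ * x + E.a₆) - y * (E.a₁ * x + E.a₃)

variable {E : WeierstrassCurve.Affine K} [DecidableEq K]

open scoped Classical in
/-- The nonzero points of a finite subgroup. -/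
noncomputable def nz (C : AddSubgroup E.Point) [Finite C] : Finset E.Point :=
  ((C : Set E.Point).toFinite.toFinset).erase 0

theorem mem_nz {C : AddSubgroup E.Point} [Finite C] {Q : E.Point} :
    Q ∈ nz C ↔ Q ≠ 0 ∧ Q ∈ C := by
  simp [nz]

/-- Velu's `t`. -/
noncomputable def vT (C : AddSubgroup E.Point) [Finite C] : K := ∑ Q ∈ nz C, gX Q

/-- Velu's `w`. -/
noncomputable def vW (C : AddSubgroup E.Point) [Finite C] : K :=
  ∑ Q ∈ nz C, (uF Q + xOf Q * gX Q)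

/-- Velu's abscissa. -/
noncomputable def vX (C : AddSubgroup E.Point) [Finite C] (x : K) : K :=
  x + ∑ Q ∈ nz C, (gX Q / (x - xOf Q) + uF Q / (x - xOf Q) ^ 2)

theorem map_vT {C : AddSubgroup E.Point} [Finite C] (σ : K →+* K) (g : E.Point ≃+ E.Point)
    (hg : ∀ P ∈ C, g P ∈ C) (hG : ∀ P, gX (g P) = σ (gX P)) : σ (vT C) = vT C := by
  classical
  rw [vT, map_sum]
  have hmaps : ∀ P ∈ nz C, g P ∈ nz C := fun P hP => by
    rw [mem_nz] at hP ⊢
    exact ⟨fun h => hP.1 (g.injective (h.trans (_root_.map_zero g).symm)), hg P hP.2⟩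
  have himg : (nz C).image g = nz C := Finset.eq_of_subset_of_card_le
    (Finset.image_subset_iff.2 hmaps) (Finset.card_image_of_injective _ g.injective).ge
  conv_rhs => rw [← himg, Finset.sum_image fun a _ b _ h => g.injective h]
  exact Finset.sum_congr rfl fun P _ => (hG P).symm

theorem map_vW {C : AddSubgroup E.Point} [Finite C] (σ : K →+* K) (g : E.Point ≃+ E.Point)
    (hg : ∀ P ∈ C, g P ∈ C) (hG : ∀ P, gX (g P) = σ (gX P)) (hU : ∀ P, uF (g P) = σ (uF P))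
    (hX : ∀ P, xOf (g P) = σ (xOf P)) : σ (vW C) = vW C := by
  classical
  rw [vW, map_sum]
  have hmaps : ∀ P ∈ nz C, g P ∈ nz C := fun P hP => by
    rw [mem_nz] at hP ⊢
    exact ⟨fun h => hP.1 (g.injective (h.trans (_root_.map_zero g).symm)), hg P hP.2⟩
  have himg : (nz C).image g = nz C := Finset.eq_of_subset_of_card_le
    (Finset.image_subset_iff.2 hmaps) (Finset.card_image_of_injective _ g.injective).ge
  conv_rhs => rw [← himg, Finset.sum_image fun a _ b _ h => g.injective h]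
  exact Finset.sum_congr rfl fun P _ => by rw [map_add, map_mul, hG, hU, hX]

variable [CharZero K]

open Fermat.Agent.Isogeny Fermat.Agent.Isogeny.Velu

section pairs

variable {A B r s t : K} (h : IsShear E (shortW A B).toAffine r s t)
  (hr : r = -E.b₂ / 12) (hs : s = -E.a₁ / 2) (ht : t = -(E.a₃ + r * E.a₁) / 2)

include h hr hs ht

theorem gX_add_gX_neg (Q : E.Point) (hQ : Q ≠ 0) :
    gX Q + gX (-Q) = 2 * tQ (h.pointEquiv Q) := by
  rcases Q with _ | ⟨x, y, hxy⟩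
  · exact absurd rfl hQ
  rw [Point.neg_some, h.pointEquiv_some]
  have e4 : A = _ := h.a₄
  simp only [gX, tQ, xc, e4, Affine.negY, hs, ht, hr, WeierstrassCurve.b₂]
  field_simp
  ring

theorem uF_add_uF_neg (Q : E.Point) (hQ : Q ≠ 0) :
    uF Q + uF (-Q) = 2 * uQ (h.pointEquiv Q) := by
  rcases Q with _ | ⟨x, y, hxy⟩
  · exact absurd rfl hQ
  rw [Point.neg_some, h.pointEquiv_some]
  have e4 : A = _ := h.a₄
  have e6 : B = _ := h.a₆
  simp only [uF, uQ, xc, e4, e6, Affine.negY, hs, ht, hr, WeierstrassCurve.b₂]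
  field_simp
  ring

variable (C : AddSubgroup E.Point) [Finite C] [Fintype (C.map h.pointEquiv.toAddMonoidHom)]

omit hr hs ht in
/-- Transport of sums to the short model. -/
theorem sum_C0_map (f : (shortW A B).toAffine.Point → K) :
    ∑ Q ∈ C0 (C.map h.pointEquiv.toAddMonoidHom), f (Q : (shortW A B).toAffine.Point) =
      ∑ Q ∈ nz C, f (h.pointEquiv Q) := by
  refine (Finset.sum_bij (fun Q hQ => (⟨h.pointEquiv Q,
    AddSubgroup.mem_map_of_mem h.pointEquiv.toAddMonoidHom (mem_nz.1 hQ).2⟩ :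
      C.map h.pointEquiv.toAddMonoidHom)) (fun Q hQ => ?_) (fun Q _ Q' _ e => ?_)
    (fun Q hQ => ?_) fun Q _ => rfl).symm
  · exact (mem_C0 _).2 fun e =>
      (mem_nz.1 hQ).1 (h.pointEquiv.injective (e.trans (_root_.map_zero _).symm))
  · exact h.pointEquiv.injective (congrArg Subtype.val e)
  · obtain ⟨R, hR, e⟩ := Q.2
    refine ⟨R, mem_nz.2 ⟨?_, hR⟩, Subtype.ext e⟩
    rintro rfl
    exact (mem_C0 _).1 hQ (e.symm.trans (_root_.map_zero _))

omit h hr hs ht [CharZero K] in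
theorem sum_nz_neg (f : E.Point → K) : ∑ Q ∈ nz C, f Q = ∑ Q ∈ nz C, f (-Q) := by
  refine Finset.sum_equiv (Equiv.neg _) (fun Q => ?_) fun Q _ => ?_
  · simp [mem_nz]
  · simp

omit h hr hs ht in
theorem sum_nz_pairs {f g : E.Point → K} (hfg : ∀ Q ∈ nz C, f Q + f (-Q) = 2 * g Q) :
    ∑ Q ∈ nz C, f Q = ∑ Q ∈ nz C, g Q := by
  have h' : (2 : K) * ∑ Q ∈ nz C, f Q = 2 * ∑ Q ∈ nz C, g Q := by
    rw [two_mul]
    nth_rw 2 [sum_nz_neg C f]
    rw [← Finset.sum_add_distrib, Finset.mul_sum]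
    exact Finset.sum_congr rfl hfg
  exact mul_left_cancel₀ two_ne_zero h'

theorem vT_eq : ∑ Q ∈ C0 (C.map h.pointEquiv.toAddMonoidHom),
    tQ (Q : (shortW A B).toAffine.Point) = vT C := by
  rw [sum_C0_map h C, vT]
  exact (sum_nz_pairs C fun Q hQ => gX_add_gX_neg h hr hs ht Q (mem_nz.1 hQ).1).symm

omit hr hs ht [CharZero K] in
theorem xc_pointEquiv (Q : E.Point) (hQ : Q ≠ 0) : xc (h.pointEquiv Q) = xOf Q - r := by
  rcases Q with _ | ⟨x, y, hxy⟩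
  · exact absurd rfl hQ
  · rfl

omit h hr hs ht [CharZero K] [DecidableEq K] in
theorem xOf_neg (Q : E.Point) : xOf (-Q) = xOf Q := by
  rcases Q with _ | ⟨x, y, hxy⟩ <;> rfl

theorem vW_eq : ∑ Q ∈ C0 (C.map h.pointEquiv.toAddMonoidHom),
    (uQ (Q : (shortW A B).toAffine.Point) + xc (Q : (shortW A B).toAffine.Point) *
      tQ (Q : (shortW A B).toAffine.Point)) = vW C - r * vT C := by
  rw [sum_C0_map h C (fun Q => uQ Q + xc Q * tQ Q), vW, vT, Finset.mul_sum,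
    ← Finset.sum_sub_distrib]
  refine (sum_nz_pairs C fun Q hQ => ?_).symm
  have h0 := (mem_nz.1 hQ).1
  rw [xc_pointEquiv h Q h0, xOf_neg]
  linear_combination uF_add_uF_neg h hr hs ht Q h0 +
    (xOf Q - r) * gX_add_gX_neg h hr hs ht Q h0

theorem vX_eq (x : K) : Rx (C.map h.pointEquiv.toAddMonoidHom) (x - r) + x = vX C x := by
  rw [Rx, sum_C0_map h C (fun Q => tQ Q / (x - r - xc Q) + uQ Q / (x - r - xc Q) ^ 2), vX,
    add_comm x]
  refine congrArg (· + x) (sum_nz_pairs C fun Q hQ => ?_).symm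
  have h0 := (mem_nz.1 hQ).1
  rw [xc_pointEquiv h Q h0, xOf_neg, sub_sub_sub_cancel_right]
  rw [mul_add, ← mul_div_assoc, ← mul_div_assoc, ← gX_add_gX_neg h hr hs ht Q h0,
    ← uF_add_uF_neg h hr hs ht Q h0]
  ring

end pairs

end Fermat.Agent.Mazur.GenVelu

namespace Fermat.Agent.Mazur.GenVelu

open Fermat.Agent.Isogeny Fermat.Agent.Isogeny.Velu

section quotient

variable {F : Type*} [Field F] [CharZero F]
  {K : Type*} [Field K] [DecidableEq K] [IsAlgClosed K] [Algebra F K] [IsGalois F K]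

omit [CharZero F] [IsAlgClosed K] [IsGalois F K] in
theorem coord_smul (W : WeierstrassCurve F) (σ : K ≃ₐ[F] K) (P : (W.toAffine⁄K).Point) :
    gX (σ • P) = σ (gX P) ∧ uF (σ • P) = σ (uF P) ∧ xOf (σ • P) = σ (xOf P) := by
  rcases P with _ | ⟨x, y, h⟩
  · exact ⟨(_root_.map_zero σ).symm, (_root_.map_zero σ).symm, (_root_.map_zero σ).symm⟩
  · rw [smul_some_eq]
    refine ⟨?_, ?_, rfl⟩ <;>
    simp [gX, uF, Affine.baseChange, WeierstrassCurve.baseChange, map_sub, map_add, map_mul,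
      AlgEquiv.commutes, map_ofNat]

/-- Velu's quotient in general Weierstrass form. -/
theorem exists_quotient (W : WeierstrassCurve F) (hΔ : W.Δ ≠ 0)
    (C : AddSubgroup (W.toAffine⁄K).Point) [Finite C] (hodd : Odd (Nat.card C))
    (hC : ∀ σ : K ≃ₐ[F] K, ∀ P ∈ C, σ • P ∈ C) :
    ∃ q : QuotientCurve W C, q.curve.a₁ = W.a₁ ∧ q.curve.a₂ = W.a₂ ∧ q.curve.a₃ = W.a₃ ∧
      algebraMap F K q.curve.a₄ = algebraMap F K W.a₄ - 5 * vT C ∧
      algebraMap F K q.curve.a₆ = algebraMap F K W.a₆ - algebraMap F K W.b₂ * vT C - 7 * vW C ∧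
      ∀ (x y : K) (h : (W.toAffine⁄K).Nonsingular x y), Point.some x y h ∉ C →
        ∃ (Y : K) (h' : (q.curve.toAffine⁄K).Nonsingular (vX C x) Y),
          q.toHom (Point.some x y h) = Point.some (vX C x) Y h' := by
  classical
  have : CharZero K := charZero_of_injective_algebraMap (algebraMap F K).injective
  set r₀ : F := -W.b₂ / 12 with hr₀
  set s₀ : F := -W.a₁ / 2 with hs₀
  set t₀ : F := -(W.a₃ + r₀ * W.a₁) / 2 with ht₀
  set A₀ : F := W.a₄ - s₀ * W.a₃ + 2 * r₀ * W.a₂ - (t₀ + r₀ * s₀) * W.a₁ + 3 * r₀ ^ 2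
    - 2 * s₀ * t₀ with hA₀
  set B₀ : F := W.a₆ + r₀ * W.a₄ + r₀ ^ 2 * W.a₂ + r₀ ^ 3 - t₀ * W.a₃ - t₀ ^ 2
    - r₀ * t₀ * W.a₁ with hB₀
  set ι := algebraMap F K with hι
  have ha : (W.toAffine⁄K).a₁ = ι W.a₁ ∧ (W.toAffine⁄K).a₂ = ι W.a₂ ∧ (W.toAffine⁄K).a₃ = ι W.a₃ ∧ (W.toAffine⁄K).a₄ = ι W.a₄ ∧ (W.toAffine⁄K).a₆ = ι W.a₆ :=
    ⟨rfl, rfl, rfl, rfl, rfl⟩
  obtain ⟨ha₁, ha₂, ha₃, ha₄, ha₆⟩ := ha
  have hΔE : (W.toAffine⁄K).Δ ≠ 0 := by
    show (W.map (algebraMap F K)).Δ ≠ 0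
    rw [map_Δ]; exact (map_ne_zero _).mpr hΔ
  have hrK : ι r₀ = -(W.toAffine⁄K).b₂ / 12 := by
    rw [hr₀, map_div₀, map_neg, map_ofNat, ← W.map_b₂ ι]; rfl
  have hsK : ι s₀ = -(W.toAffine⁄K).a₁ / 2 := by rw [hs₀, map_div₀, map_neg, map_ofNat, ha₁]
  have htK : ι t₀ = -((W.toAffine⁄K).a₃ + ι r₀ * (W.toAffine⁄K).a₁) / 2 := by
    rw [ht₀, map_div₀, map_neg, map_add, map_mul, map_ofNat, ha₁, ha₃]
  have hshort : (⟨1, r₀, s₀, t₀⟩ : VariableChange F) • W = shortW A₀ B₀ := by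
    ext <;> simp [variableChange_def, hA₀, hB₀, hs₀, hr₀, ht₀, WeierstrassCurve.b₂] <;> ring
  have hΔs : (shortW (ι A₀) (ι B₀)).Δ ≠ 0 := by
    have : (shortW A₀ B₀).Δ ≠ 0 := by rw [← hshort, variableChange_Δ]; simp [hΔ]
    rw [shortW_Δ] at this ⊢
    have hm := (map_ne_zero ι).mpr this
    simpa [map_mul, map_add, map_pow, map_ofNat] using hm
  have h₁ : IsShear (W.toAffine⁄K) (shortW (ι A₀) (ι B₀)).toAffine (ι r₀) (ι s₀) (ι t₀) := by
    refine ⟨?_, ?_, ?_, ?_, ?_, hΔE, hΔs⟩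
    · show (0 : K) = _; rw [hsK, ha₁]; field_simp; ring
    · show (0 : K) = _; rw [hrK, hsK, WeierstrassCurve.b₂]; field_simp; ring
    · show (0 : K) = _; rw [htK]; field_simp; ring
    · show ι A₀ = _
      rw [hA₀, ha₁, ha₂, ha₃, ha₄]; simp only [map_sub, map_add, map_mul, map_pow, map_ofNat]
    · show ι B₀ = _
      rw [hB₀, ha₁, ha₂, ha₃, ha₄, ha₆]; simp only [map_sub, map_add, map_mul, map_pow]
  set e := h₁.pointEquiv with he
  set C' := C.map e.toAddMonoidHom with hC'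
  haveI : Finite C' := Finite.of_equiv C (C.equivMapOfInjective e.toAddMonoidHom e.injective).toEquiv
  letI : Fintype C' := Fintype.ofFinite C'
  have hodd' : Odd (Fintype.card C') := by
    rwa [← Nat.card_eq_fintype_card,
      ← Nat.card_congr (C.equivMapOfInjective e.toAddMonoidHom e.injective).toEquiv]
  have hT := vT_eq h₁ hrK hsK htK C
  have hW := vW_eq h₁ hrK hsK htK C
  -- Galois fixes `t` and `w`
  have hfix : ∀ σ : K ≃ₐ[F] K, σ (vT C) = vT C ∧ σ (vW C) = vW C := fun σ =>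
    ⟨map_vT (σ.toAlgHom.toRingHom) (DistribMulAction.toAddEquiv (W.toAffine⁄K).Point σ)
      (hC σ) (fun P => (coord_smul W σ P).1),
     map_vW (σ.toAlgHom.toRingHom) (DistribMulAction.toAddEquiv (W.toAffine⁄K).Point σ)
      (hC σ) (fun P => (coord_smul W σ P).1) (fun P => (coord_smul W σ P).2.1)
      fun P => (coord_smul W σ P).2.2⟩
  obtain ⟨T₀, hT₀⟩ := (InfiniteGalois.mem_range_algebraMap_iff_fixed (k := F) (vT C)).mpr
    fun σ => (hfix σ).1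
  obtain ⟨w₀, hw₀⟩ := (InfiniteGalois.mem_range_algebraMap_iff_fixed (k := F) (vW C)).mpr
    fun σ => (hfix σ).2
  set W' : WeierstrassCurve F :=
    ⟨W.a₁, W.a₂, W.a₃, W.a₄ - 5 * T₀, W.a₆ - W.b₂ * T₀ - 7 * w₀⟩ with hW'
  have hΔv := Velu.Δ_quotient_ne_zero C' hΔs hodd'
  have hAv : Velu.Av C' = ι A₀ - 5 * vT C := by rw [Velu.Av, hT]
  have hBv : Velu.Bv C' = ι B₀ - 7 * (vW C - ι r₀ * vT C) := by rw [Velu.Bv, hW]
  have e4' : (W'.map ι).a₄ = (W.toAffine⁄K).a₄ - 5 * vT C := by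
    show ι (W.a₄ - 5 * T₀) = _; rw [ha₄, map_sub, map_mul, map_ofNat, hT₀]
  have e6' : (W'.map ι).a₆ = (W.toAffine⁄K).a₆ - (W.toAffine⁄K).b₂ * vT C - 7 * vW C := by
    show ι (W.a₆ - W.b₂ * T₀ - 7 * w₀) = _
    rw [ha₆, map_sub, map_sub, map_mul, map_mul, map_ofNat, hT₀, hw₀,
      show (W.toAffine⁄K).b₂ = ι W.b₂ from W.map_b₂ ι]
  have hcoef : (W'.map ι).a₁ = 0 + 2 * -ι s₀ ∧
      (W'.map ι).a₂ = 0 - -ι s₀ * 0 + 3 * -ι r₀ - (-ι s₀) ^ 2 ∧
      (W'.map ι).a₃ = 0 + -ι r₀ * 0 + 2 * (ι s₀ * ι r₀ - ι t₀) ∧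
      (W'.map ι).a₄ = Velu.Av C' - -ι s₀ * 0 + 2 * -ι r₀ * 0
        - (ι s₀ * ι r₀ - ι t₀ + -ι r₀ * -ι s₀) * 0 + 3 * (-ι r₀) ^ 2
        - 2 * -ι s₀ * (ι s₀ * ι r₀ - ι t₀) ∧
      (W'.map ι).a₆ = Velu.Bv C' + -ι r₀ * Velu.Av C' + (-ι r₀) ^ 2 * 0 + (-ι r₀) ^ 3
        - (ι s₀ * ι r₀ - ι t₀) * 0 - (ι s₀ * ι r₀ - ι t₀) ^ 2
        - -ι r₀ * (ι s₀ * ι r₀ - ι t₀) * 0 := by
    refine ⟨?_, ?_, ?_, ?_, ?_⟩
    · show ι W.a₁ = _; rw [← ha₁, hsK]; field_simp; ring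
    · show ι W.a₂ = _; rw [← ha₂, hsK, hrK, WeierstrassCurve.b₂]; field_simp; ring
    · show ι W.a₃ = _; rw [← ha₃, htK, hrK, hsK]; field_simp; ring
    · rw [e4', hAv, show ι A₀ = _ from h₁.a₄, htK, hrK, hsK, WeierstrassCurve.b₂]; field_simp; ring
    · rw [e6', hBv, hAv, show ι A₀ = _ from h₁.a₄, show ι B₀ = _ from h₁.a₆, htK, hrK, hsK,
        WeierstrassCurve.b₂]
      field_simp
      ring
  have hΔW' : (W'.map ι).Δ = (shortW (Velu.Av C') (Velu.Bv C')).Δ := by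
    obtain ⟨c1, c2, c3, c4, c6⟩ := hcoef
    simp only [WeierstrassCurve.Δ, WeierstrassCurve.b₂, WeierstrassCurve.b₄, WeierstrassCurve.b₆,
      WeierstrassCurve.b₈, c1, c2, c3, c4, c6]
    ring
  have hΔ' : W'.Δ ≠ 0 := fun h0 => hΔv (by rw [← hΔW', map_Δ, h0, _root_.map_zero])
  have h₂ : IsShear (shortW (Velu.Av C') (Velu.Bv C')).toAffine (W'.toAffine⁄K)
      (-ι r₀) (-ι s₀) (ι s₀ * ι r₀ - ι t₀) :=
    ⟨hcoef.1, hcoef.2.1, hcoef.2.2.1, hcoef.2.2.2.1, hcoef.2.2.2.2, hΔv,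
      hΔW'.trans_ne hΔv⟩
  let g : (K ≃ₐ[F] K) → (shortW (ι A₀) (ι B₀)).toAffine.Point →+
      (shortW (ι A₀) (ι B₀)).toAffine.Point := fun σ =>
    e.toAddMonoidHom.comp ((DistribSMul.toAddMonoidHom _ σ).comp e.symm.toAddMonoidHom)
  have hge : ∀ (σ : K ≃ₐ[F] K) (P : (W.toAffine⁄K).Point), g σ (e P) = e (σ • P) :=
    fun σ P => by
      show e (σ • e.symm (e P)) = _
      rw [e.symm_apply_apply]
  have hxy : ∀ (σ : K ≃ₐ[F] K) (P : (W.toAffine⁄K).Point),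
      xc (e (σ • P)) = σ (xc (e P)) ∧ yc (e (σ • P)) = σ (yc (e P)) := by
    intro σ P
    rcases P with _ | ⟨x, y, h⟩
    · show xc (e (σ • 0)) = σ (xc (e 0)) ∧ yc (e (σ • 0)) = σ (yc (e 0))
      simp
    · rw [smul_some_eq, he, h₁.pointEquiv_some, h₁.pointEquiv_some]
      simp [xc, yc, map_sub, map_mul, hι, AlgEquiv.commutes]
  have hcompat : ∀ σ : K ≃ₐ[F] K, IsCompat C' (σ.toAlgHom.toRingHom) (g σ) := by
    intro σ
    refine ⟨σ.commutes A₀, σ.commutes B₀, ?_, fun P => ?_, fun P => ?_, ?_⟩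
    · exact e.injective.comp ((MulAction.injective σ).comp e.symm.injective)
    · obtain ⟨P, rfl⟩ := e.surjective P
      rw [hge]; exact (hxy σ P).1
    · obtain ⟨P, rfl⟩ := e.surjective P
      rw [hge]; exact (hxy σ P).2
    · rintro _ ⟨Q, hQ, rfl⟩
      exact ⟨σ • Q, hC σ Q hQ, (hge σ Q).symm⟩
  set φ := Velu.vHom C' hΔs hodd' with hφ
  refine ⟨⟨W', hΔ', h₂.pointEquiv.toAddMonoidHom.comp (φ.comp e.toAddMonoidHom),
    h₂.pointEquiv.surjective.comp ((Velu.vPoint_surjective C' hΔs hodd').comp e.surjective),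
    ?_, ?_⟩, rfl, rfl, rfl, ?_, ?_, ?_⟩
  · ext P
    simp only [AddMonoidHom.mem_ker, AddMonoidHom.comp_apply, AddEquiv.coe_toAddMonoidHom,
      AddEquiv.map_eq_zero_iff]
    rw [← AddMonoidHom.mem_ker, hφ, Velu.vHom_ker]
    exact AddSubgroup.mem_map_equiv.trans (by simp)
  · intro σ P
    simp only [AddMonoidHom.comp_apply, AddEquiv.coe_toAddMonoidHom]
    show h₂.pointEquiv (Velu.vPoint C' hΔs hodd' (e (σ • P))) =
      σ • h₂.pointEquiv (Velu.vPoint C' hΔs hodd' (e P))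
    rw [← hge]
    by_cases hP : e P ∈ C'
    · rw [Velu.vPoint_of_mem _ _ _ hP, Velu.vPoint_of_mem _ _ _ ((hcompat σ).maps _ hP)]
      simp
    · have hgP : g σ (e P) ∉ C' := by
        rw [hge]
        intro h
        obtain ⟨Q, hQ, hQe⟩ := h
        refine hP ⟨σ⁻¹ • Q, hC _ Q hQ, ?_⟩
        rw [e.injective hQe, inv_smul_smul]
        rfl
      simp only [Velu.vPoint, dif_neg hP, dif_neg hgP]
      rw [h₂.pointEquiv_some, h₂.pointEquiv_some, smul_some_eq]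
      simp [← (hcompat σ).Xv, ← (hcompat σ).Yv, hι, AlgEquiv.commutes]
  · show ι (W.a₄ - 5 * T₀) = _; rw [map_sub, map_mul, map_ofNat, hT₀]
  · show ι (W.a₆ - W.b₂ * T₀ - 7 * w₀) = _
    rw [map_sub, map_sub, map_mul, map_mul, map_ofNat, hT₀, hw₀]
  · intro x y h hP
    have hP' : e (Point.some x y h) ∉ C' := fun hm => hP (by
      obtain ⟨Q, hQ, hQe⟩ := hm
      exact e.injective hQe ▸ hQ)
    have hX : Velu.Xv C' (e (Point.some x y h)) - -ι r₀ = vX C x := by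
      rw [Velu.Xv_eq C' hP', ← vX_eq h₁ hrK hsK htK C x]
      show x - ι r₀ + Rx C' (x - ι r₀) - -ι r₀ = Rx C' (x - ι r₀) + x
      ring
    obtain ⟨hne, hXc, -⟩ := Velu.vPoint_coords C' hΔs hodd' hP'
    show ∃ Y h', h₂.pointEquiv (Velu.vPoint C' hΔs hodd' (e (Point.some x y h))) =
      Point.some (vX C x) Y h'
    generalize Velu.vPoint C' hΔs hodd' (e (Point.some x y h)) = R at hne hXc
    rcases R with _ | ⟨X, Y, hR⟩
    · exact absurd rfl hne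
    obtain rfl : X = Velu.Xv C' (e (Point.some x y h)) := hXc
    have hR' := (h₂.nonsingular_iff _ _).mpr hR
    rw [hX] at hR'
    exact ⟨_, hR', by rw [h₂.pointEquiv_some]; simp [hX]⟩

end quotient

end Fermat.Agent.Mazur.GenVelu
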