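/-
Velu's quotient of a curve semistable away from `p` does not reduce to a cusp away from `p`.
-/
import Fermat.Agent.Mazur.TwelveDefs
import Fermat.Agent.Mazur.TwelveCusp
import Fermat.Agent.Mazur.TwelveVelu
import Fermat.Agent.Mult.Main
import Fermat.Agent.ECRed.ResidueField
import Fermat.Agent.EC.Torsion

set_option autoImplicit false
set_option maxHeartbeats 800000

open WeierstrassCurve Polynomial IsLocalRing
open scoped WeierstrassCurve.Affine Fermat.Agent.Galois

noncomputable section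

namespace Fermat.Agent.Mazur

open ECRed

variable {W : WeierstrassCurve ℤ} {A : ValuationSubring Q̄} {ℓ p : ℕ}

/-- Coefficients of an integral curve are integral everywhere. -/
theorem intCoeff_mem (n : ℤ) : algebraMap ℚ Q̄ (Int.castRingHom ℚ n) ∈ A := by
  rw [eq_intCast, map_intCast]; exact intCast_mem A n

theorem coord_mem_of_nsmul_eq_zero (hℓ : ℓ.Prime) (hA : A.LiesOverPrime ℓ) {n : ℕ}
    (hn : ¬ ℓ ∣ n) {x y : Q̄} (h : ((W.map (Int.castRingHom ℚ))⁄Q̄).Nonsingular x y)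
    (hP : n • (Affine.Point.some x y h : QbarPoint W) = 0) : x ∈ A ∧ y ∈ A := by
  have hx : x ∈ A := by
    by_contra hx
    exact Affine.Point.some_ne_zero h (eq_zero_of_inKernel_of_nsmul_eq_zero
      (isReductionOf_rat W A) (P := Affine.Point.some x y h) hx
      (valuation_natCast_eq_one hℓ hA hn) hP)
  exact ⟨hx, Y_mem (isReductionOf_rat W A) h.1 hx⟩

section

variable (C : AddSubgroup (QbarPoint W)) [Finite C]

theorem data_mem (hp : p.Prime) (hcard : Nat.card C = p) (hℓ : ℓ.Prime) (hℓp : ℓ ≠ p)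
    (hA : A.LiesOverPrime ℓ) {Q : QbarPoint W} (hQ : Q ∈ GenVelu.nz C) :
    GenVelu.xOf Q ∈ A ∧ GenVelu.gX Q ∈ A ∧ GenVelu.uF Q ∈ A := by
  have hQ' := (GenVelu.mem_nz.1 hQ).2
  have h0 : p • Q = 0 := by
    have := card_nsmul_eq_zero' (G := C) (x := ⟨Q, hQ'⟩)
    rw [hcard] at this
    exact congrArg Subtype.val this
  rcases Q with _ | ⟨x, y, h⟩
  · exact absurd rfl (GenVelu.mem_nz.1 hQ).1
  obtain ⟨hx, hy⟩ := coord_mem_of_nsmul_eq_zero hℓ hA
    (fun hd => hℓp ((Nat.prime_dvd_prime_iff_eq hℓ hp).1 hd)) h h0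
  have h2 : (2 : Q̄) ∈ A := natCast_mem A 2
  have h3 : (3 : Q̄) ∈ A := natCast_mem A 3
  refine ⟨hx, ?_, ?_⟩
  · exact sub_mem (add_mem (add_mem (mul_mem h3 (pow_mem hx 2))
      (mul_mem (mul_mem h2 (intCoeff_mem _)) hx)) (intCoeff_mem _)) (mul_mem (intCoeff_mem _) hy)
  · exact sub_mem (mul_mem h2 (add_mem (add_mem (add_mem (pow_mem hx 3)
      (mul_mem (intCoeff_mem _) (pow_mem hx 2))) (mul_mem (intCoeff_mem _) hx)) (intCoeff_mem _)))
      (mul_mem hy (add_mem (mul_mem (intCoeff_mem _) hx) (intCoeff_mem _)))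

end

/-- A point of prime order all of whose multiples reduce to nonsingular points. -/
theorem exists_point_smooth (hW : SemistableAway W p) (hℓ : ℓ.Prime) (hℓp : ℓ ≠ p)
    (hA : A.LiesOverPrime ℓ) {r : ℕ} (hr : r.Prime) :
    ∃ P : QbarPoint W, P ≠ 0 ∧ r • P = 0 ∧
      ∀ j : ℕ, SmoothlyReducing A _ (redCurve W A) (j • P) := by
  classical
  haveI : ((W.map (Int.castRingHom ℚ))⁄Q̄).IsElliptic :=
    EC.isElliptic_baseChange_of_Δ_ne_zero _ (by
      rw [map_Δ, eq_intCast]; exact_mod_cast hW.Δ_ne_zero)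
  by_cases hd : (ℓ : ℤ) ∣ W.Δ
  · have h : Mult.IsMultPlace W ℓ A := ⟨hℓ, hW.Δ_ne_zero, hd, hW.not_dvd_c₄ ℓ hℓ hℓp hd, hA⟩
    obtain ⟨⟨z, hz, hz0⟩⟩ : Nonempty {z : Mult.Tors W r // z ∈ Mult.tateLine W A r ∧ z ≠ 0} := by
      obtain ⟨z, hz, hz0⟩ :=
        Submodule.exists_mem_ne_zero_of_ne_bot (Mult.tateLine_ne_bot_and_ne_top h hr).1
      exact ⟨⟨z, hz, hz0⟩⟩
    refine ⟨z.1, fun h0 => hz0 (Subtype.ext h0), ?_, fun j => ?_⟩
    · rw [← natCast_zsmul]; exact Mult.torsion_zsmul_eq_zero z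
    have hmem := (Mult.mem_tateLine_iff h hr.ne_zero (j • z)).1 (nsmul_mem hz j)
    have he : (j • z).1 = j • z.1 := Submodule.coe_smul_of_tower j z
    rw [he] at hmem
    rcases hmem with h0 | ⟨x, y, hxy, he', hcase⟩
    · rw [h0]; trivial
    · rw [he']
      intro hx
      rcases hcase with hx' | ⟨hx', hy', hns⟩
      · exact absurd hx hx'
      · rw [red_of_mem hx', red_of_mem hy']; exact hns
  · have hn : ((r : ℕ) : Q̄) ≠ 0 := Nat.cast_ne_zero.2 hr.ne_zero
    obtain ⟨e⟩ := EC.nonempty_torsionBy_linearEquiv (W := (W.map (Int.castRingHom ℚ)).toAffine) hn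
    haveI : Fact r.Prime := ⟨hr⟩
    set z := e.symm (fun _ => 1) with hz
    refine ⟨z.1, fun h0 => ?_, ?_, fun j =>
      smoothlyReducing_of_Δ_ne_zero (isReductionOf_rat W A) (Δ_redCurve_ne_zero hℓ hA hd) _⟩
    · have h1 : z = 0 := Subtype.ext h0
      rw [hz, LinearEquiv.map_eq_zero_iff] at h1
      exact one_ne_zero (congrFun h1 0)
    · exact EC.mem_torsionBy_iff_nsmul.1 z.2

theorem aeval_red {A : ValuationSubring Q̄} (f : ℤ[X]) {X₀ : Q̄} (hX : X₀ ∈ A) :
    f.eval₂ (Int.castRingHom Q̄) X₀ = (f.eval₂ (Int.castRingHom A) ⟨X₀, hX⟩ : A) ∧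
      f.eval₂ (Int.castRingHom (ResidueField A)) (red A X₀) =
        residue A (f.eval₂ (Int.castRingHom A) ⟨X₀, hX⟩) := by
  constructor
  · change _ = A.subtype _
    rw [hom_eval₂]
    congr 1
  · rw [hom_eval₂, red_of_mem hX]
    congr 1

/-- A torsion point with integral abscissa reduces to a root of the division polynomial. -/
theorem eval_preΨ'_red_eq_zero {W' : WeierstrassCurve ℤ} {r : ℕ} (hr : Odd r) {X₀ Y₀ : Q̄}
    (h : ((W'.map (Int.castRingHom ℚ))⁄Q̄).Nonsingular X₀ Y₀) (hX : X₀ ∈ A)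
    (hP : r • (Affine.Point.some X₀ Y₀ h : QbarPoint W') = 0) :
    ((redCurve W' A).preΨ' r).eval (red A X₀) = 0 := by
  rw [EC.nsmul_some_eq_zero_iff_ΨSq, EC.eval_ΨSq_natCast, if_neg (Nat.not_even_iff_odd.2 hr),
    mul_one, sq_eq_zero_iff] at hP
  change (((W'.map (Int.castRingHom ℚ)).map (algebraMap ℚ Q̄)).preΨ' r).eval X₀ = 0 at hP
  rw [WeierstrassCurve.map_map, map_preΨ', eval_map,
    show (algebraMap ℚ Q̄).comp (Int.castRingHom ℚ) = Int.castRingHom Q̄ from RingHom.ext_int _ _,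
    (aeval_red _ hX).1] at hP
  rw [map_preΨ', eval_map, (aeval_red _ hX).2,
    show (W'.preΨ' r).eval₂ (Int.castRingHom A) ⟨X₀, hX⟩ = 0 from Subtype.ext hP, map_zero]

/-- The numerator of Velu's abscissa minus a constant is a nonzero polynomial of degree
`2n + 1`, where `n` is the number of poles. -/
theorem card_le_of_forall_velu_eq {k ι : Type*} [Field k] (T : Finset ι) (a g F : ι → k)
    (c : k) (S : Finset k)
    (hS : ∀ x ∈ S, (∀ i ∈ T, x ≠ a i) ∧
      x + ∑ i ∈ T, (g i / (x - a i) + F i / (x - a i) ^ 2) = c) :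
    S.card ≤ 2 * T.card + 1 := by
  classical
  set M := ∏ i ∈ T, (X - C (a i)) ^ 2 with hM
  set R := ∑ i ∈ T, (C (g i) * (X - C (a i)) + C (F i)) * ∏ j ∈ T.erase i, (X - C (a j)) ^ 2
    with hR
  set N := (X - C c) * M + R with hN
  have hmon : ((X - C c) * M).Monic :=
    (monic_X_sub_C c).mul (monic_prod_of_monic _ _ fun i _ => (monic_X_sub_C _).pow 2)
  have hdeg : ((X - C c) * M).natDegree = 2 * T.card + 1 := by
    rw [(monic_X_sub_C c).natDegree_mul (monic_prod_of_monic _ _ fun i _ => (monic_X_sub_C _).pow 2),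
      natDegree_X_sub_C,
      natDegree_prod_of_monic _ _ (fun i _ => (monic_X_sub_C _).pow 2)]
    simp only [natDegree_pow, natDegree_X_sub_C, mul_one, Finset.sum_const, smul_eq_mul]
    ring
  have hRdeg : R.natDegree ≤ 2 * T.card - 1 := by
    refine natDegree_sum_le_of_forall_le _ _ fun i hi => ?_
    refine natDegree_mul_le.trans ?_
    have h1 : (C (g i) * (X - C (a i)) + C (F i)).natDegree ≤ 1 := by compute_degree
    have h2 : (∏ j ∈ T.erase i, (X - C (a j)) ^ 2).natDegree = 2 * (T.card - 1) := by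
      rw [natDegree_prod_of_monic _ _ (fun j _ => (monic_X_sub_C _).pow 2)]
      simp only [natDegree_pow, natDegree_X_sub_C, mul_one, Finset.sum_const, smul_eq_mul,
        Finset.card_erase_of_mem hi]
      ring
    have := Finset.card_pos.2 ⟨i, hi⟩
    omega
  have hcoef : N.coeff (2 * T.card + 1) = 1 := by
    rw [hN, coeff_add, coeff_eq_zero_of_natDegree_lt (show R.natDegree < 2 * T.card + 1 by omega),
      add_zero, ← hdeg]
    exact hmon.coeff_natDegree
  have hN0 : N ≠ 0 := fun h => by rw [h, coeff_zero] at hcoef; exact zero_ne_one hcoef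
  have hNdeg : N.natDegree ≤ 2 * T.card + 1 :=
    (natDegree_add_le _ _).trans (max_le hdeg.le (by omega))
  refine (Polynomial.card_le_degree_of_subset_roots (p := N) fun x hx => ?_).trans hNdeg
  rw [mem_roots hN0, IsRoot]
  obtain ⟨hne, he⟩ := hS x hx
  have hterm : ∀ i ∈ T, (C (g i) * (X - C (a i)) + C (F i)).eval x *
      (∏ j ∈ T.erase i, (X - C (a j)) ^ 2).eval x =
      M.eval x * (g i / (x - a i) + F i / (x - a i) ^ 2) := fun i hi => by
    rw [hM, ← Finset.mul_prod_erase _ _ hi, eval_mul]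
    simp only [eval_add, eval_mul, eval_C, eval_sub, eval_X, eval_pow]
    have : x - a i ≠ 0 := sub_ne_zero.2 (hne i hi)
    field_simp
  rw [hN, hR, eval_add, eval_finsetSum]
  simp only [eval_mul] at hterm ⊢
  rw [Finset.sum_congr rfl hterm, ← Finset.mul_sum, eval_sub, eval_X, eval_C,
    eq_sub_iff_add_eq'.2 he]
  ring

/-- The reduction of Velu's abscissa. -/
theorem red_vX (C : AddSubgroup (QbarPoint W)) [Finite C] (hp : p.Prime)
    (hcard : Nat.card C = p) (hℓ : ℓ.Prime) (hℓp : ℓ ≠ p) (hA : A.LiesOverPrime ℓ) {x : Q̄}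
    (hx : x ∈ A) (hne : ∀ Q ∈ GenVelu.nz C, red A x ≠ red A (GenVelu.xOf Q)) :
    GenVelu.vX C x ∈ A ∧ red A (GenVelu.vX C x) = red A x + ∑ Q ∈ GenVelu.nz C,
      (red A (GenVelu.gX Q) / (red A x - red A (GenVelu.xOf Q)) +
        red A (GenVelu.uF Q) / (red A x - red A (GenVelu.xOf Q)) ^ 2) := by
  have key : ∀ Q ∈ GenVelu.nz C, ∃ z : A, (z : Q̄) =
      GenVelu.gX Q / (x - GenVelu.xOf Q) + GenVelu.uF Q / (x - GenVelu.xOf Q) ^ 2 ∧
      residue A z = red A (GenVelu.gX Q) / (red A x - red A (GenVelu.xOf Q)) +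
        red A (GenVelu.uF Q) / (red A x - red A (GenVelu.xOf Q)) ^ 2 := fun Q hQ => by
    obtain ⟨ha, hg, hF⟩ := data_mem C hp hcard hℓ hℓp hA hQ
    have hd : x - GenVelu.xOf Q ∈ A := sub_mem hx ha
    have hd0 : red A (x - GenVelu.xOf Q) ≠ 0 := by
      rw [red_sub hx ha, sub_ne_zero]; exact hne Q hQ
    have hd' : x - GenVelu.xOf Q ≠ 0 := fun h0 => hd0 (by
      rw [h0, red_of_mem (zero_mem A)]; exact map_zero (residue A))
    obtain ⟨h1, h1'⟩ := div_mem_of_mul_eq hg hd hd0 (div_mul_cancel₀ (GenVelu.gX Q) hd')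
    have hd20 : red A ((x - GenVelu.xOf Q) ^ 2) ≠ 0 := by
      rw [sq, red_mul hd hd]; exact mul_ne_zero hd0 hd0
    obtain ⟨h2, h2'⟩ := div_mem_of_mul_eq hF (pow_mem hd 2) hd20
      (div_mul_cancel₀ (GenVelu.uF Q) (pow_ne_zero 2 hd'))
    refine ⟨⟨_, add_mem h1 h2⟩, rfl, ?_⟩
    rw [← red_of_mem, red_add h1 h2, h1', h2', sq (x - _), red_mul hd hd, red_sub hx ha]
    rw [sq]
  choose z hz hz' using key
  have heq : GenVelu.vX C x =
      ((⟨x, hx⟩ + ∑ Q ∈ (GenVelu.nz C).attach, z Q.1 Q.2 : A) : Q̄) := by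
    rw [GenVelu.vX, ← Finset.sum_attach (GenVelu.nz C)]
    push_cast
    exact congrArg (x + ·) (Finset.sum_congr rfl fun Q _ => (hz Q.1 Q.2).symm)
  rw [heq, red_coe, map_add, ← red_of_mem hx, map_sum]
  refine ⟨Subtype.coe_prop _, congrArg (red A x + ·) ?_⟩
  rw [← Finset.sum_attach (GenVelu.nz C) fun Q => red A (GenVelu.gX Q) /
    (red A x - red A (GenVelu.xOf Q)) + red A (GenVelu.uF Q) /
    (red A x - red A (GenVelu.xOf Q)) ^ 2]
  exact Finset.sum_congr rfl fun Q _ => hz' Q.1 Q.2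

/-- **The quotient does not reduce to a cusp away from `p`.** -/
theorem not_dvd_c₄_of_velu {W' : WeierstrassCurve ℤ} (hp : p.Prime) (hW : SemistableAway W p)
    (hℓ : ℓ.Prime) (hℓp : ℓ ≠ p) (hA : A.LiesOverPrime ℓ) (C : AddSubgroup (QbarPoint W))
    [Finite C] (hcard : Nat.card C = p) (φ : QbarPoint W →+ QbarPoint W') (hker : φ.ker = C)
    (u : Q̄) (hu : A.valuation u = 1)
    (hX : ∀ (x y : Q̄) (h : ((W.map (Int.castRingHom ℚ))⁄Q̄).Nonsingular x y),
      (Affine.Point.some x y h : QbarPoint W) ∉ C →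
      ∃ (Y : Q̄) (h' : ((W'.map (Int.castRingHom ℚ))⁄Q̄).Nonsingular (u * GenVelu.vX C x) Y),
        φ (Affine.Point.some x y h) = Affine.Point.some _ _ h')
    (hd : (ℓ : ℤ) ∣ W'.Δ) : ¬ (ℓ : ℤ) ∣ W'.c₄ := by
  classical
  intro hc
  haveI := charP_residueField hℓ hA
  haveI : IsAlgClosed (IsLocalRing.ResidueField A) := isAlgClosed_residueField A
  have hzero : ∀ n : ℤ, (ℓ : ℤ) ∣ n → (n : ResidueField A) = 0 := fun n hn =>
    (CharP.intCast_eq_zero_iff (ResidueField A) ℓ n).2 hn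
  obtain ⟨x₀, h₂, h₄, h₆, h₈⟩ := exists_cusp (redCurve W' A)
    (by rw [map_Δ]; exact hzero _ hd) (by rw [map_c₄]; exact hzero _ hc)
  obtain ⟨r, hrp, hr⟩ := Nat.exists_infinite_primes (6 * p + ℓ + 2)
  have hrodd : Odd r := hr.odd_of_ne_two (by omega)
  have hℓr : ¬ ℓ ∣ r := fun h => by
    have := (Nat.prime_dvd_prime_iff_eq hℓ hr).1 h
    omega
  have hrk : (r : ResidueField A) ≠ 0 := fun h => hℓr ((CharP.cast_eq_zero_iff _ ℓ r).1 h)
  obtain ⟨P, hP0, hPr, hsm⟩ := exists_point_smooth hW hℓ hℓp hA hr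
  haveI : Fact r.Prime := ⟨hr⟩
  have hord : addOrderOf P = r := addOrderOf_eq_prime hPr hP0
  have hjr : ∀ j : ℕ, r • (j • P) = 0 := fun j => by rw [← mul_nsmul', mul_comm, mul_nsmul', hPr, nsmul_zero]
  set J := Finset.Icc 1 ((r - 1) / 2) with hJ
  have hj0 : ∀ j ∈ J, j • P ≠ 0 := fun j hj h0 => by
    have h1 := addOrderOf_dvd_of_nsmul_eq_zero h0
    rw [hord] at h1
    have h2 := Finset.mem_Icc.1 hj
    have := Nat.le_of_dvd (by omega) h1
    omega
  let X₁ : ℕ → ResidueField A := fun j => red A (GenVelu.xOf (j • P))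
  -- distinct reduced abscissae
  have hinj : Set.InjOn X₁ J := by
    intro i hi j hj hij
    have hI := Finset.mem_Icc.1 hi
    have hJ' := Finset.mem_Icc.1 hj
    have red0 : ∀ R : QbarPoint W, r • R = 0 → SmoothlyReducing A _ (redCurve W A) R →
        reduce A _ (redCurve W A) R = 0 → R = 0 := fun R hR hs h0 =>
      eq_zero_of_inKernel_of_nsmul_eq_zero (isReductionOf_rat W A)
        ((reduce_eq_zero_iff hs).1 h0) (valuation_natCast_eq_one hℓ hA hℓr) hR
    have hne : ∀ m ∈ J, ∃ x y h', m • P = Affine.Point.some x y h' ∧ x ∈ A ∧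
        ∃ hns, reduce A _ (redCurve W A) (m • P) = Affine.Point.some (red A x) (red A y) hns := by
      intro m hm
      have hs := hsm m
      have h0 := hj0 m hm
      have hr' := hjr m
      generalize m • P = R at hs h0 hr' ⊢
      rcases R with _ | ⟨x, y, h⟩
      · exact absurd rfl h0
      obtain ⟨hx, -⟩ := coord_mem_of_nsmul_eq_zero hℓ hA hℓr h hr'
      exact ⟨x, y, h, rfl, hx, hs hx, reduce_some_of_mem h hx (hs hx)⟩
    obtain ⟨x, y, hxy, ei, hx, hnsi, ri⟩ := hne i hi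
    obtain ⟨x', y', hxy', ej, hx', hnsj, rj⟩ := hne j hj
    have hxx : red A x = red A x' := by
      simpa [X₁, ei, ej, GenVelu.xOf] using hij
    rcases Affine.Y_eq_of_X_eq hnsi.1 hnsj.1 hxx with hy | hy
    · have he : reduce A _ (redCurve W A) (i • P + -(j • P)) = 0 := by
        rw [(reduce_add (isReductionOf_rat W A) (hsm i)
            (SmoothlyReducing.neg (isReductionOf_rat W A) (hsm j))).2,
          reduce_neg (isReductionOf_rat W A) (hsm j), ri, rj, ← sub_eq_add_neg, sub_eq_zero]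
        simp only [Affine.Point.some.injEq]; exact ⟨hxx, hy⟩
      have h0 := red0 _ (by rw [nsmul_add, neg_nsmul, hjr, hjr, neg_zero, add_zero])
        (reduce_add (isReductionOf_rat W A) (hsm i)
          (SmoothlyReducing.neg (isReductionOf_rat W A) (hsm j))).1 he
      rw [← sub_eq_add_neg, sub_eq_zero] at h0
      have := (nsmul_injOn_Iio_addOrderOf (x := P)) (show i < addOrderOf P by omega)
        (show j < addOrderOf P by omega) h0
      exact this
    · have he : reduce A _ (redCurve W A) (i • P + j • P) = 0 := by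
        rw [(reduce_add (isReductionOf_rat W A) (hsm i) (hsm j)).2, ri, rj]
        exact Affine.Point.add_of_Y_eq hxx hy
      have h0 := red0 _ (by rw [nsmul_add, hjr, hjr, add_zero])
        (reduce_add (isReductionOf_rat W A) (hsm i) (hsm j)).1 he
      rw [← add_nsmul] at h0
      have h1 := addOrderOf_dvd_of_nsmul_eq_zero h0
      rw [hord] at h1
      have := Nat.le_of_dvd (by omega) h1
      omega
  set bad := (GenVelu.nz C).image fun Q => red A (GenVelu.xOf Q) with hbad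
  set S := (J.image X₁) \ bad with hS
  have hnz : (GenVelu.nz C).card + 1 = p := by
    rw [← hcard, GenVelu.nz, Finset.card_erase_add_one]
    · exact (Nat.card_eq_card_finite_toFinset _).symm
    · simp
  have hu0 : u ≠ 0 := fun h => by rw [h, map_zero] at hu; exact zero_ne_one hu
  have huA : u ∈ A := A.mem_of_valuation_le_one u hu.le
  have hru : red A u ≠ 0 := (red_ne_zero_iff huA).2 hu
  have hle := card_le_of_forall_velu_eq (GenVelu.nz C) (fun Q => red A (GenVelu.xOf Q))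
    (fun Q => red A (GenVelu.gX Q)) (fun Q => red A (GenVelu.uF Q)) (x₀ / red A u) S ?_
  · have hSc : J.card ≤ S.card + bad.card := by
      rw [hS, ← Finset.card_image_of_injOn hinj]
      exact Finset.card_le_card_sdiff_add_card
    have hbc : bad.card ≤ (GenVelu.nz C).card := Finset.card_image_le
    rw [hJ, Nat.card_Icc] at hSc
    omega
  intro X₂ hX₂
  rw [hS, Finset.mem_sdiff, Finset.mem_image] at hX₂
  obtain ⟨⟨j, hj, rfl⟩, hnb⟩ := hX₂
  have hne : ∀ Q ∈ GenVelu.nz C, X₁ j ≠ red A (GenVelu.xOf Q) := fun Q hQ h =>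
    hnb (Finset.mem_image.2 ⟨Q, hQ, h.symm⟩)
  refine ⟨hne, ?_⟩
  have h0 := hj0 j hj
  have hr' := hjr j
  have hnC : j • P ∉ C := fun hm => h0 (by
    have h1 : Nat.card C • (⟨j • P, hm⟩ : C) = 0 := card_nsmul_eq_zero'
    rw [hcard] at h1
    have h2 := addOrderOf_dvd_of_nsmul_eq_zero (congrArg Subtype.val h1 : p • (j • P) = 0)
    have h3 : addOrderOf (j • P) = r := addOrderOf_eq_prime hr' h0
    rw [h3] at h2
    have := Nat.le_of_dvd hp.pos h2
    omega)
  have hphi : r • φ (j • P) = 0 := by rw [← map_nsmul, hr', map_zero]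
  simp only [X₁] at hne ⊢
  generalize j • P = R at h0 hr' hne hnC hphi ⊢
  rcases R with _ | ⟨x, y, h⟩
  · exact absurd rfl h0
  obtain ⟨hx, -⟩ := coord_mem_of_nsmul_eq_zero hℓ hA hℓr h hr'
  obtain ⟨hvA, hv⟩ := red_vX C hp hcard hℓ hℓp hA hx hne
  obtain ⟨Y, h', he⟩ := hX x y h hnC
  rw [he] at hphi
  have hroot := eq_cusp_of_preΨ'_eval_eq_zero h₂ h₄ h₆ h₈ hrodd hrk
    (eval_preΨ'_red_eq_zero hrodd h' (mul_mem huA hvA) hphi)
  rw [red_mul huA hvA, hv] at hroot
  rw [eq_div_iff hru, mul_comm]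
  exact hroot

end Fermat.Agent.Mazur
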