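/-
Integral models, semistable away from `p`, of quotients by subgroups of order `p`.
-/
import Fermat.Agent.Mazur.TwelveDefs
import Fermat.Agent.Mazur.TwelveNoCusp
import Fermat.Agent.Small13.VarChange
import Fermat.Agent.Galois.QbarInstances
import Fermat.Agent.Galois.Frobenius

set_option autoImplicit false
set_option maxHeartbeats 800000

open WeierstrassCurve
open scoped WeierstrassCurve.Affine Fermat.Agent.Galois

noncomputable section

namespace Fermat.Agent.Mazur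

open ECRed

/-- A rational number integral at all places away from `p` has a power of `p` as denominator. -/
theorem exists_den_eq_pow {p : ℕ} {a : ℚ}
    (h : ∀ ℓ : ℕ, ℓ.Prime → ℓ ≠ p → ∀ A : ValuationSubring Q̄, A.LiesOverPrime ℓ →
      algebraMap ℚ Q̄ a ∈ A) :
    ∃ k : ℕ, a.den = p ^ k := by
  refine ⟨_, Nat.eq_prime_pow_of_unique_prime_dvd a.den_nz fun {ℓ} hℓ hd => ?_⟩
  by_contra hne
  obtain ⟨A, hA⟩ := Galois.exists_liesOverPrime hℓ
  have hmul : algebraMap ℚ Q̄ a * ((a.den : ℤ) : Q̄) = (a.num : Q̄) := by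
    rw [Int.cast_natCast, ← map_natCast (algebraMap ℚ Q̄), ← map_mul, Rat.mul_den_eq_num,
      map_intCast]
  have hn : ¬ (ℓ : ℤ) ∣ a.num := fun hn =>
    hℓ.not_dvd_one (a.reduced ▸ Nat.dvd_gcd (Int.natCast_dvd.1 hn) hd)
  rw [← Galois.intCast_mem_nonunits_iff (K := Q̄) hℓ hA, ValuationSubring.mem_nonunits_iff,
    ← hmul, map_mul] at hn
  refine hn (lt_of_le_of_lt (mul_le_of_le_one_left' (val_le_one (h ℓ hℓ hne A hA))) ?_)
  rw [← ValuationSubring.mem_nonunits_iff, Galois.intCast_mem_nonunits_iff hℓ hA]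
  exact_mod_cast hd

/-- Clearing a power of `p`. -/
theorem exists_int_eq_mul_pow {p : ℕ} {a : ℚ} {k j : ℕ} (hk : a.den = p ^ k) (hkj : k ≤ j) :
    ∃ z : ℤ, (z : ℚ) = (p : ℚ) ^ j * a := by
  refine ⟨(p : ℤ) ^ (j - k) * a.num, ?_⟩
  have he : (p : ℚ) ^ k * a = a.num := by
    rw [mul_comm, show (p : ℚ) ^ k = ((a.den : ℕ) : ℚ) by rw [hk]; push_cast; rfl]
    exact Rat.mul_den_eq_num a
  push_cast
  rw [← he, ← mul_assoc, ← pow_add, Nat.sub_add_cancel hkj]

/-- Rescaling a Weierstrass equation. -/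
theorem exists_scaleHom {K : Type*} [Field K] [DecidableEq K] [IsAlgClosed K]
    {W₁ W₂ : WeierstrassCurve K} (u : Kˣ) (h : W₁ = (⟨u, 0, 0, 0⟩ : VariableChange K) • W₂)
    (hΔ : W₂.Δ ≠ 0) :
    ∃ e : W₁.toAffine.Point →+ W₂.toAffine.Point, Function.Bijective e ∧
      ∀ (x y : K) (hxy : W₁.toAffine.Nonsingular x y),
        ∃ h', e (.some x y hxy) = .some ((u : K) ^ 2 * x) ((u : K) ^ 3 * y) h' := by
  subst h
  refine ⟨Small13.vcHom hΔ _, ⟨Small13.vcHom_injective hΔ _, ?_⟩, fun x y hxy => ?_⟩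
  · rintro (_ | ⟨X, Y, hXY⟩)
    · exact ⟨0, rfl⟩
    · have hu := u.ne_zero
      have hns : ((⟨u, 0, 0, 0⟩ : VariableChange K) • W₂).toAffine.Nonsingular
          (X / (u : K) ^ 2) (Y / (u : K) ^ 3) := by
        refine (Affine.equation_iff_nonsingular_of_Δ_ne_zero ?_).1 ?_
        · rw [variableChange_Δ]; exact mul_ne_zero (pow_ne_zero _ u⁻¹.ne_zero) hΔ
        · have he := (Affine.equation_iff X Y).1 hXY.1
          rw [Affine.equation_iff]
          simp only [variableChange_def, Units.val_inv_eq_inv_val]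
          field_simp
          linear_combination he
      refine ⟨.some _ _ hns, ?_⟩
      rw [Small13.vcHom_some]
      simp only [Small13.vcX, Small13.vcY, Affine.Point.some.injEq]
      constructor <;> field_simp <;> ring
  · have e1 : Small13.vcX (⟨u, 0, 0, 0⟩ : VariableChange K) x = (u : K) ^ 2 * x := by
      simp [Small13.vcX]
    have e2 : Small13.vcY (⟨u, 0, 0, 0⟩ : VariableChange K) x y = (u : K) ^ 3 * y := by
      simp [Small13.vcY]
    have h' := Small13.vc_nonsingular hΔ (⟨u, 0, 0, 0⟩ : VariableChange K) hxy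
    rw [e1, e2] at h'
    exact ⟨h', by rw [Small13.vcHom_some]; simp [e1, e2]⟩

/-- The quotient of a curve semistable away from `p` by a Galois stable subgroup of order `p` has
a model which is again semistable away from `p`. -/
theorem nonempty_quotientModel {W : WeierstrassCurve ℤ} {p : ℕ} (hp : p.Prime) (hp2 : p ≠ 2)
    (hW : SemistableAway W p) (C : AddSubgroup (ECRed.QbarPoint W)) (hcard : Nat.card C = p)
    (hC : ∀ σ : AlgebraicClosure ℚ ≃ₐ[ℚ] AlgebraicClosure ℚ, ∀ P ∈ C, σ • P ∈ C) :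
    Nonempty (QuotientModel W p C) := by
  classical
  haveI : Finite C := Nat.finite_of_card_ne_zero (by rw [hcard]; exact hp.ne_zero)
  obtain ⟨q, h₁, h₂, h₃, h₄, h₆, hX⟩ :=
    GenVelu.exists_quotient (W.map (Int.castRingHom ℚ))
      (by rw [map_Δ, eq_intCast]; exact_mod_cast hW.Δ_ne_zero) C
      (hcard.symm ▸ hp.odd_of_ne_two hp2) hC
  -- integrality away from `p`
  have hden : ∀ a ∈ ({q.curve.a₄, q.curve.a₆} : Finset ℚ), ∃ k, a.den = p ^ k := by
    intro a ha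
    refine exists_den_eq_pow fun ℓ hℓ hℓp A hA => ?_
    have hd := fun Q (hQ : Q ∈ GenVelu.nz C) => data_mem C hp hcard hℓ hℓp hA hQ
    have hT : GenVelu.vT C ∈ A := sum_mem fun Q hQ => (hd Q hQ).2.1
    have hw : GenVelu.vW C ∈ A := sum_mem fun Q hQ =>
      add_mem (hd Q hQ).2.2 (mul_mem (hd Q hQ).1 (hd Q hQ).2.1)
    simp only [Finset.mem_insert, Finset.mem_singleton] at ha
    rcases ha with rfl | rfl
    · rw [h₄]; exact sub_mem (intCoeff_mem _) (mul_mem (natCast_mem A 5) hT)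
    · rw [h₆, map_b₂]
      exact sub_mem (sub_mem (intCoeff_mem _) (mul_mem (intCoeff_mem _) hT))
        (mul_mem (natCast_mem A 7) hw)
  obtain ⟨k₄, hk₄⟩ := hden _ (Finset.mem_insert_self _ _)
  obtain ⟨k₆, hk₆⟩ := hden _ (Finset.mem_insert_of_mem (Finset.mem_singleton_self _))
  set k := max k₄ k₆ with hk
  obtain ⟨z₄, hz₄⟩ := exists_int_eq_mul_pow (j := 4 * k) hk₄ (by omega)
  obtain ⟨z₆, hz₆⟩ := exists_int_eq_mul_pow (j := 6 * k) hk₆ (by omega)
  set W' : WeierstrassCurve ℤ :=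
    ⟨(p : ℤ) ^ k * W.a₁, (p : ℤ) ^ (2 * k) * W.a₂, (p : ℤ) ^ (3 * k) * W.a₃, z₄, z₆⟩ with hW'
  set u : Q̄ˣ := Units.mk0 ((p : Q̄) ^ k) (pow_ne_zero _ (Nat.cast_ne_zero.2 hp.ne_zero)) with hu
  have hp0 : (p : Q̄) ≠ 0 := Nat.cast_ne_zero.2 hp.ne_zero
  have hcastz : ∀ {z : ℤ} {a : ℚ} {j : ℕ}, (z : ℚ) = (p : ℚ) ^ j * a →
      (z : Q̄) = (p : Q̄) ^ j * algebraMap ℚ Q̄ a := fun h => by
    rw [← map_intCast (algebraMap ℚ Q̄), h, map_mul, map_pow, map_natCast]
  set E' := q.curve.map (algebraMap ℚ Q̄) with hE'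
  set E'' := (W'.map (Int.castRingHom ℚ)).map (algebraMap ℚ Q̄) with hE''
  have hsc : E' = (⟨u, 0, 0, 0⟩ : VariableChange Q̄) • E'' := by
    rw [hE', hE'', hu]
    ext <;>
      simp [variableChange_def, hW', h₁, h₂, h₃, hcastz hz₄, hcastz hz₆] <;> field_simp <;> ring
  have hΔ' : E'.Δ ≠ 0 := by
    rw [hE', map_Δ]; exact (map_ne_zero _).2 q.Δ_ne_zero
  have hΔ'' : E''.Δ ≠ 0 := fun h0 => hΔ' (by rw [hsc, variableChange_Δ, h0, mul_zero])
  have hW'0 : W'.Δ ≠ 0 := fun h0 => hΔ'' (by rw [hE'', map_Δ, map_Δ, h0]; simp)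
  obtain ⟨e, he, hes⟩ := exists_scaleHom u hsc hΔ''
  let e' : (q.curve.toAffine⁄Q̄).Point →+ ECRed.QbarPoint W' := e
  let φ : ECRed.QbarPoint W →+ ECRed.QbarPoint W' := AddMonoidHom.comp e' q.toHom
  have hker : φ.ker = C := by
    rw [← q.ker_eq]; ext P
    simp only [AddMonoidHom.mem_ker, φ, AddMonoidHom.comp_apply]
    exact map_eq_zero_iff e he.1
  refine ⟨⟨W', ⟨hW'0, fun ℓ hℓ hℓp hd => ?_⟩, φ, he.2.comp q.surjective, hker, fun σ P => ?_⟩⟩
  · obtain ⟨A, hA⟩ := Galois.exists_liesOverPrime hℓ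
    refine not_dvd_c₄_of_velu hp hW hℓ hℓp hA C hcard φ hker ((u : Q̄) ^ 2) ?_ ?_ hd
    · rw [map_pow, hu, Units.val_mk0, map_pow, valuation_natCast_eq_one hℓ hA
        (fun h => hℓp ((Nat.prime_dvd_prime_iff_eq hℓ hp).1 h)), one_pow, one_pow]
    · intro x y h hP
      obtain ⟨Y, h', hq⟩ := hX x y h hP
      obtain ⟨h'', he'⟩ := hes _ _ h'
      exact ⟨_, h'', (congrArg e' hq).trans he'⟩
  · show e' (q.toHom (σ • P)) = σ • e' (q.toHom P)
    rw [q.map_smul]
    generalize q.toHom P = R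
    rcases R with _ | ⟨x, y, h⟩
    · show e' (σ • 0) = σ • e' 0
      refine Eq.trans (_root_.map_zero e') ?_
      rw [show e' 0 = 0 from _root_.map_zero e']
      rfl
    · obtain ⟨g₁, e₁⟩ := hes x y h
      rw [Isogeny.smul_some_eq]
      obtain ⟨g₂, e₂⟩ := hes (σ x) (σ y) ((q.curve.toAffine.baseChange_nonsingular
        σ.toAlgHom.injective x y).mpr h)
      rw [show e' (Affine.Point.some x y h) = _ from e₁]
      refine Eq.trans e₂ ?_
      show _ = Affine.Point.some (σ ((u : Q̄) ^ 2 * x)) (σ ((u : Q̄) ^ 3 * y)) _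
      simp [hu, map_mul, map_pow]

end Fermat.Agent.Mazur
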