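/-
The Galois module `E[p]` of a curve with a cofixed line, and the cyclotomic character.
-/
import Fermat.Agent.Mazur.TwelveDefs
import Fermat.Agent.Mult.Main
import Fermat.Agent.AtP.Inertia
import Fermat.Agent.AtP.Ordinary
import Fermat.Agent.Weil.DetCyclotomic
import Fermat.Prelude.Def_ExtCitation_AdmissibleExtension_v2
import Mathlib.RingTheory.RootsOfUnity.Lemmas

set_option autoImplicit false
set_option maxHeartbeats 400000

open WeierstrassCurve
open scoped WeierstrassCurve.Affine Fermat.Agent.Galois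

noncomputable section

namespace Fermat.Agent.Mazur

open ECRed

/-- The inertia group at `P` over the odd prime `p` moves every non-trivial `p`-th root of
unity. -/
theorem exists_inertia_moves_root {p : ℕ} (hp : p.Prime) (hp2 : p ≠ 2)
    {P : ValuationSubring Q̄} (hP : P.LiesOverPrime p) {ζ : Q̄}
    (hζ : IsPrimitiveRoot ζ p) : ∃ σ ∈ P.inertiaSubgroupIn ℚ, σ ζ ≠ ζ := by
  by_contra hcon
  push Not at hcon
  set v := P.valuation
  have hpv : v (p : Q̄) < 1 := (ValuationSubring.mem_nonunits_iff P).1 hP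
  have hζA : ζ ∈ P := by
    rw [← P.valuation_le_one_iff]
    refine (pow_le_one_iff hp.ne_zero).1 ?_
    rw [← map_pow, hζ.pow_eq_one, map_one]
  let z : P := ⟨ζ, hζA⟩
  have hres : IsLocalRing.residue P z = 1 := by
    have : Fact p.Prime := ⟨hp⟩
    have hchar : CharP (IsLocalRing.ResidueField P) p := by
      refine (CharP.charP_iff_prime_eq_zero hp).2 ?_
      rw [← map_natCast (IsLocalRing.residue P) p, IsLocalRing.residue_eq_zero_iff,
        ← ValuationSubring.coe_mem_nonunits_iff]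
      simp only [SubringClass.coe_natCast]
      exact hP
    have h1 : IsLocalRing.residue P z ^ p = 1 := by
      rw [← map_pow, show z ^ p = 1 from Subtype.ext hζ.pow_eq_one, map_one]
    have h2 : (IsLocalRing.residue P z - 1) ^ p = 0 := by
      rw [sub_pow_char, h1, one_pow, sub_self]
    exact sub_eq_zero.1 (pow_eq_zero_iff hp.ne_zero |>.1 h2)
  have hbound : ∀ i < p - 1, v (1 - ζ ^ (i + 1)) ≤ v (p : Q̄) := by
    intro i hi
    have hne : (1 : Q̄) - ζ ^ (i + 1) ≠ 0 :=
      sub_ne_zero.2 (Ne.symm (hζ.pow_ne_one_of_pos_of_lt (by omega) (by omega)))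
    obtain ⟨m, hm⟩ := AtP.exists_zpow_valuation_eq hp hP hne fun σ hσ => by
      rw [map_sub, map_one, map_pow, hcon σ hσ]
    have hlt : v (1 - ζ ^ (i + 1)) < 1 := by
      rw [← ValuationSubring.mem_nonunits_iff]
      have : (((1 - z ^ (i + 1) : P)) : Q̄) ∈ P.nonunits := by
        rw [ValuationSubring.coe_mem_nonunits_iff, ← IsLocalRing.residue_eq_zero_iff, map_sub,
          map_one, map_pow, hres, one_pow, sub_self]
      simpa using this
    have hp0 : v (p : Q̄) ≠ 0 := (map_ne_zero v).2 (Nat.cast_ne_zero.2 hp.ne_zero)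
    rw [hm] at hlt ⊢
    have hm1 : 1 ≤ m := by
      by_contra hm1
      have : (1 : _) ≤ v (p : Q̄) ^ m := by
        calc (1 : _) = v (p : Q̄) ^ (0 : ℤ) := (zpow_zero _).symm
          _ ≤ v (p : Q̄) ^ m :=
            zpow_le_zpow_right_of_le_one₀ (zero_lt_iff.2 hp0) hpv.le (by omega)
      exact absurd hlt (not_lt.2 this)
    calc v (p : Q̄) ^ m ≤ v (p : Q̄) ^ (1 : ℤ) :=
          zpow_le_zpow_right_of_le_one₀ (zero_lt_iff.2 hp0) hpv.le hm1
      _ = v (p : Q̄) := zpow_one _
  obtain ⟨n, hn⟩ : ∃ n, p = n + 3 := ⟨p - 3, by have := hp.two_le; omega⟩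
  have hprod := IsPrimitiveRoot.prod_one_sub_pow_eq_order (n := n + 2) (μ := ζ)
    (by rw [show n + 2 + 1 = p by omega]; exact hζ)
  have hle : v (p : Q̄) ≤ v (p : Q̄) ^ (n + 2) := by
    calc v (p : Q̄) = v (∏ k ∈ Finset.range (n + 2), (1 - ζ ^ (k + 1))) := by
          rw [hprod, hn]; push_cast; ring_nf
      _ ≤ v (p : Q̄) ^ (n + 2) := by
          rw [map_prod]
          calc _ ≤ ∏ k ∈ Finset.range (n + 2), v (p : Q̄) :=
                Finset.prod_le_prod' fun k hk => hbound k (by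
                  have := Finset.mem_range.1 hk; omega)
            _ = _ := by rw [Finset.prod_const, Finset.card_range]
  have hp0 : v (p : Q̄) ≠ 0 := (map_ne_zero v).2 (Nat.cast_ne_zero.2 hp.ne_zero)
  refine absurd hle (not_le.2 ?_)
  calc v (p : Q̄) ^ (n + 2) < v (p : Q̄) ^ 1 :=
        pow_lt_pow_right_of_lt_one₀ (zero_lt_iff.2 hp0) hpv (by omega)
    _ = v (p : Q̄) := pow_one _

variable {p : ℕ} [Fact p.Prime]

theorem smul_root_eq_pow_cycloExp (σ : Q̄ ≃ₐ[ℚ] Q̄) {μ : Q̄} (hμ : μ ^ p = 1) :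
    σ μ = μ ^ ExtCitation.cycloExp p σ := by
  haveI : NeZero p := ⟨(Fact.out : p.Prime).ne_zero⟩
  have hu : IsUnit μ := IsUnit.of_pow_eq_one hμ (NeZero.ne p)
  have := modularCyclotomicCharacter.spec Q̄ (ExtCitation.card_rootsOfUnity_eq_self p)
    σ.toRingEquiv (t := hu.unit) (by rw [mem_rootsOfUnity]; ext; simpa using hμ)
  simpa [ExtCitation.cycloExp] using this

/-- Some inertia element at `p` has non-trivial cyclotomic character. -/
theorem exists_inertia_cycloExp_ne_one (hp2 : p ≠ 2) {A : ValuationSubring Q̄}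
    (hA : A.LiesOverPrime p) :
    ∃ σ ∈ A.inertiaSubgroupIn ℚ, (ExtCitation.cycloExp p σ : ZMod p) ≠ 1 := by
  have hp : p.Prime := Fact.out
  haveI : NeZero (p : Q̄) := ⟨Nat.cast_ne_zero.2 hp.ne_zero⟩
  obtain ⟨ζ, hζ⟩ := HasEnoughRootsOfUnity.exists_primitiveRoot Q̄ p
  obtain ⟨σ, hσ, hne⟩ := exists_inertia_moves_root hp hp2 hA hζ
  refine ⟨σ, hσ, fun h => hne ?_⟩
  rw [smul_root_eq_pow_cycloExp σ hζ.pow_eq_one, pow_eq_pow_mod _ hζ.pow_eq_one,
    ← ZMod.val_natCast, h, ZMod.val_one, pow_one]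

theorem isElliptic_map_rat {W : WeierstrassCurve ℤ} (hΔ : W.Δ ≠ 0) :
    (W.map (Int.castRingHom ℚ)).IsElliptic := by
  rw [WeierstrassCurve.isElliptic_iff, WeierstrassCurve.map_Δ, isUnit_iff_ne_zero, eq_intCast,
    Int.cast_ne_zero]
  exact hΔ

theorem det_smul_torsion {W : WeierstrassCurve ℤ} (hΔ : W.Δ ≠ 0) (σ : Q̄ ≃ₐ[ℚ] Q̄) :
    LinearMap.det (Affine.Point.galoisRepModuleEnd (K := Q̄) ℚ (W.map (Int.castRingHom ℚ)) p σ) =
      (ExtCitation.cycloExp p σ : ZMod p) := by
  haveI := isElliptic_map_rat hΔ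
  rw [Weil.det_galoisRepModuleEnd (W.map (Int.castRingHom ℚ)) p
    (ExtCitation.card_rootsOfUnity_eq_self p) σ]
  exact (ZMod.natCast_zmod_val _).symm

theorem natCard_tors {W : WeierstrassCurve ℤ} (hΔ : W.Δ ≠ 0) :
    Nat.card (Mult.Tors W p) = p ^ 2 := by
  have h2 := AtP.finrank_tors (p := p) hΔ
  haveI : Module.Finite (ZMod p) (Mult.Tors W p) := Module.finite_of_finrank_eq_succ h2
  rw [Module.natCard_eq_pow_finrank (K := ZMod p), h2, Nat.card_zmod]

/-- An endomorphism of a plane fixing a vector acts on the quotient by its determinant. -/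
theorem sub_det_smul_mem {k V : Type*} [Field k] [AddCommGroup V] [Module k V]
    [FiniteDimensional k V] (h2 : Module.finrank k V = 2) {q : V} (hq : q ≠ 0) (f : Module.End k V)
    (hf : f q = q) (v : V) : f v - LinearMap.det f • v ∈ Submodule.span k {q} := by
  obtain ⟨w, hw⟩ : ∃ w, w ∉ Submodule.span k {q} := by
    by_contra! hall
    have := finrank_span_singleton (K := k) hq
    rw [Submodule.eq_top_iff'.2 hall, finrank_top, h2] at this
    omega
  have hli : LinearIndependent k ![q, w] := by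
    rw [LinearIndependent.pair_iff' hq]
    exact fun c hc => hw (hc ▸ Submodule.smul_mem _ c (Submodule.mem_span_singleton_self q))
  let b := basisOfLinearIndependentOfCardEqFinrank hli (by rw [Fintype.card_fin, h2])
  have hb : ⇑b = ![q, w] := coe_basisOfLinearIndependentOfCardEqFinrank hli _
  have e0 : b 0 = q := congrFun hb 0
  have e1 : b 1 = w := congrFun hb 1
  have hdec : ∀ u : V, u = b.repr u 0 • q + b.repr u 1 • w := fun u => by
    conv_lhs => rw [← b.sum_repr u, Fin.sum_univ_two, e0, e1]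
  have hdet : LinearMap.det f = b.repr (f w) 1 := by
    rw [← LinearMap.det_toMatrix b, Matrix.det_fin_two]
    have h00 : b.repr (f q) = Finsupp.single 0 1 := by rw [hf, ← e0, b.repr_self]
    simp [LinearMap.toMatrix_apply, e0, e1, h00]
  rw [hdet]
  refine Submodule.mem_span_singleton.2
    ⟨b.repr v 0 + b.repr v 1 * b.repr (f w) 0 - b.repr (f w) 1 * b.repr v 0, ?_⟩
  have hfv : f v = b.repr v 0 • q + b.repr v 1 • (b.repr (f w) 0 • q + b.repr (f w) 1 • w) := by
    conv_lhs => rw [hdec v, map_add, map_smul, map_smul, hf]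
    rw [← hdec (f w)]
  rw [hfv]
  generalize b.repr (f w) 1 = d
  conv_rhs => arg 2; rw [hdec v]
  module

/-- The hypotheses of the construction: a stable cofixed line. -/
structure Setup (W : WeierstrassCurve ℤ) (p : ℕ) (N : Submodule (ZMod p) (Mult.Tors W p)) :
    Prop where
  semistableAway : SemistableAway W p
  semistableAt : (p : ℤ) ∣ W.Δ → ¬ (p : ℤ) ∣ W.c₄
  stable : ∀ σ : Q̄ ≃ₐ[ℚ] Q̄, ∀ x ∈ N, σ • x ∈ N
  ne_bot : N ≠ ⊥
  ne_top : N ≠ ⊤
  cofixed : ∀ σ : Q̄ ≃ₐ[ℚ] Q̄, ∀ x : Mult.Tors W p, σ • x - x ∈ N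

variable {W : WeierstrassCurve ℤ} {N : Submodule (ZMod p) (Mult.Tors W p)}

/-- The line as a subgroup of the points. -/
def baseLine (N : Submodule (ZMod p) (Mult.Tors W p)) : AddSubgroup (QbarPoint W) :=
  N.toAddSubgroup.map (Submodule.torsionBy ℤ (QbarPoint W) (p : ℤ)).subtype.toAddMonoidHom

theorem mem_baseLine {P : QbarPoint W} :
    P ∈ baseLine N ↔ ∃ x ∈ N, x.1 = P := Iff.rfl

namespace Setup

theorem finrank_eq (S : Setup W p N) : Module.finrank (ZMod p) N = 1 := by
  have h2 : Module.finrank (ZMod p) (Mult.Tors W p) = 2 :=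
    AtP.finrank_tors (p := p) S.semistableAway.Δ_ne_zero
  haveI : Module.Finite (ZMod p) (Mult.Tors W p) := Module.finite_of_finrank_eq_succ h2
  have h1 := Submodule.finrank_lt S.ne_top
  have h0 : Module.finrank (ZMod p) N ≠ 0 := mt Submodule.finrank_eq_zero.1 S.ne_bot
  omega

theorem natCard_baseLine (S : Setup W p N) : Nat.card (baseLine N) = p := by
  have h1 := S.finrank_eq
  haveI : Module.Finite (ZMod p) N := Module.finite_of_finrank_eq_succ h1
  rw [baseLine, Nat.card_congr (AddSubgroup.equivMapOfInjective N.toAddSubgroup _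
    (Submodule.subtype_injective _)).toEquiv.symm]
  exact (Module.natCard_eq_pow_finrank (K := ZMod p) (V := N)).trans
    (by rw [h1, pow_one, Nat.card_zmod])

theorem smul_mem_baseLine (S : Setup W p N) (σ : Q̄ ≃ₐ[ℚ] Q̄) {P : QbarPoint W}
    (hP : P ∈ baseLine N) : σ • P ∈ baseLine N := by
  obtain ⟨x, hx, rfl⟩ := hP
  exact ⟨σ • x, S.stable σ x hx, rfl⟩

theorem nsmul_eq_zero_of_mem {P : QbarPoint W} (hP : P ∈ baseLine N) : p • P = 0 := by
  obtain ⟨x, -, rfl⟩ := hP
  rw [← natCast_zsmul]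
  exact Mult.torsion_zsmul_eq_zero x

/-- On the line Galois acts by the cyclotomic character. -/
theorem smul_eq_cyclo (S : Setup W p N) (σ : Q̄ ≃ₐ[ℚ] Q̄) {P : QbarPoint W}
    (hP : P ∈ baseLine N) : σ • P = ExtCitation.cycloExp p σ • P := by
  obtain ⟨x, hx, rfl⟩ := hP
  have h2 : Module.finrank (ZMod p) (Mult.Tors W p) = 2 :=
    AtP.finrank_tors (p := p) S.semistableAway.Δ_ne_zero
  haveI : Module.Finite (ZMod p) (Mult.Tors W p) := Module.finite_of_finrank_eq_succ h2
  have h : σ • x = _ := AtP.smul_eq_det_smul h2 N S.finrank_eq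
    (Affine.Point.galoisRepModuleEnd (K := Q̄) ℚ (W.map (Int.castRingHom ℚ)) p σ)
    (S.cofixed σ) hx
  rw [det_smul_torsion S.semistableAway.Δ_ne_zero, Nat.cast_smul_eq_nsmul] at h
  exact congrArg Subtype.val h

/-- A point outside the line generates `E[p]` together with it. -/
theorem exists_sub_zsmul_mem (S : Setup W p N) {x₀ : Mult.Tors W p} (hx₀ : x₀ ∉ N)
    {P : QbarPoint W} (hP : p • P = 0) : ∃ a : ℤ, P - a • x₀.1 ∈ baseLine N := by
  have h2 : Module.finrank (ZMod p) (Mult.Tors W p) = 2 :=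
    AtP.finrank_tors (p := p) S.semistableAway.Δ_ne_zero
  haveI : Module.Finite (ZMod p) (Mult.Tors W p) := Module.finite_of_finrank_eq_succ h2
  have htop : N ⊔ Submodule.span (ZMod p) {x₀} = ⊤ := by
    refine Submodule.eq_top_of_finrank_eq (le_antisymm (Submodule.finrank_le _) ?_)
    have := Submodule.finrank_lt_finrank_of_lt (show N < N ⊔ Submodule.span (ZMod p) {x₀} from
      lt_of_le_of_ne le_sup_left fun h => hx₀ (h ▸ Submodule.mem_sup_right
        (Submodule.mem_span_singleton_self x₀)))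
    rw [S.finrank_eq] at this
    omega
  let x : Mult.Tors W p := ⟨P, (Submodule.mem_torsionBy_iff _ _).2 (by
    show (p : ℤ) • P = 0
    rw [natCast_zsmul]; exact hP)⟩
  obtain ⟨n, hn, z, hz, hnz⟩ := Submodule.mem_sup.1 (htop ▸ Submodule.mem_top : x ∈ _)
  obtain ⟨c, rfl⟩ := Submodule.mem_span_singleton.1 hz
  obtain ⟨a, rfl⟩ := ZMod.intCast_surjective c
  refine ⟨a, n, hn, ?_⟩
  rw [Int.cast_smul_eq_zsmul] at hnz
  have := congrArg Subtype.val hnz
  simp only [Submodule.coe_add, SetLike.val_smul] at this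
  show n.1 = P - a • x₀.1
  rw [eq_sub_iff_add_eq]
  exact this

/-- Galois moves a point of `E[p]` only within the line. -/
theorem smul_sub_mem_baseLine (S : Setup W p N) (σ : Q̄ ≃ₐ[ℚ] Q̄) (x : Mult.Tors W p) :
    σ • x.1 - x.1 ∈ baseLine N :=
  ⟨σ • x - x, S.cofixed σ x, rfl⟩

end Setup

end Fermat.Agent.Mazur
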