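/-
The chain of cyclic isogenies of `p`-power degree attached to a cofixed line.
-/
import Fermat.Agent.Mazur.TwelveSetup
import Fermat.Agent.Mazur.TwelveLocal
import Fermat.Agent.Mazur.TwelveAway
import Fermat.Agent.Mazur.TwelveModel

set_option autoImplicit false
set_option maxHeartbeats 800000

open WeierstrassCurve
open scoped WeierstrassCurve.Affine Fermat.Agent.Galois

noncomputable section

namespace Fermat.Agent.Mazur

open ECRed

variable {W : WeierstrassCurve ℤ} {p : ℕ} [Fact p.Prime]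
  {N : Submodule (ZMod p) (Mult.Tors W p)}

theorem smul_nsmul_point (σ : Q̄ ≃ₐ[ℚ] Q̄) (n : ℕ) (P : QbarPoint W) :
    σ • (n • P) = n • (σ • P) :=
  (DistribSMul.toAddMonoidHom (QbarPoint W) σ).map_nsmul n P

/-- The `i`-th curve of the chain, with its cyclic kernel of order `p^i`. -/
structure Chain (W : WeierstrassCurve ℤ) (p : ℕ) [Fact p.Prime] (N : Submodule (ZMod p) (Mult.Tors W p))
    (i : ℕ) where
  /-- the curve -/
  curve : WeierstrassCurve ℤ
  semistableAway : SemistableAway curve p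
  /-- the isogeny -/
  toHom : QbarPoint W →+ QbarPoint curve
  surjective : Function.Surjective toHom
  card_ker : Nat.card toHom.ker = p ^ i
  mem_baseLine_of_ker : ∀ P, toHom P = 0 → p • P = 0 → P ∈ baseLine N
  map_smul : ∀ (σ : Q̄ ≃ₐ[ℚ] Q̄) (P : QbarPoint W), toHom (σ • P) = σ • toHom P

/-- The first step. -/
theorem nonempty_chain_one (S : Setup W p N) (hp2 : p ≠ 2) : Nonempty (Chain W p N 1) := by
  obtain ⟨q⟩ := nonempty_quotientModel (Fact.out : p.Prime) hp2 S.semistableAway (baseLine N)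
    S.natCard_baseLine fun σ _ hP => S.smul_mem_baseLine σ hP
  exact ⟨⟨q.curve, q.semistableAway, q.toHom, q.surjective,
    by rw [q.ker_eq, S.natCard_baseLine, pow_one],
    fun P hP _ => q.ker_eq ▸ hP, q.map_smul⟩⟩

namespace Chain

variable {i : ℕ} (c : Chain W p N i)

theorem finite_ker : Finite c.toHom.ker :=
  Nat.finite_of_card_ne_zero (by rw [c.card_ker]; exact pow_ne_zero _ (Fact.out : p.Prime).ne_zero)

theorem pow_nsmul_ker {P : QbarPoint W} (hP : c.toHom P = 0) : p ^ i • P = 0 := by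
  have := card_nsmul_eq_zero' (G := c.toHom.ker) (x := ⟨P, hP⟩)
  rw [c.card_ker] at this
  exact congrArg Subtype.val this

theorem baseLine_le_ker (S : Setup W p N) (hi : i ≠ 0) : baseLine N ≤ c.toHom.ker := by
  haveI := c.finite_ker
  haveI : Finite (baseLine N) := Nat.finite_of_card_ne_zero
    (by rw [S.natCard_baseLine]; exact (Fact.out : p.Prime).ne_zero)
  obtain ⟨z, hz⟩ := exists_prime_addOrderOf_dvd_card' (G := c.toHom.ker) p
    (by rw [c.card_ker]; exact dvd_pow_self p hi)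
  have hz' : addOrderOf (z : QbarPoint W) = p := by rw [AddSubgroup.addOrderOf_coe]; exact hz
  have hmem : (z : QbarPoint W) ∈ baseLine N :=
    c.mem_baseLine_of_ker _ z.2 (by
      have := addOrderOf_nsmul_eq_zero (z : QbarPoint W)
      rwa [hz'] at this)
  have heq : AddSubgroup.zmultiples (z : QbarPoint W) = baseLine N := by
    refine AddSubgroup.eq_of_le_of_card_ge (AddSubgroup.zmultiples_le_of_mem hmem) ?_
    rw [S.natCard_baseLine, Nat.card_zmultiples, hz']
  rw [← heq]
  exact AddSubgroup.zmultiples_le_of_mem z.2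

variable {x₀ : Mult.Tors W p}

/-- The rational point of order `p`. -/
def point (x₀ : Mult.Tors W p) : Mult.Tors c.curve p :=
  ⟨c.toHom x₀.1, (Submodule.mem_torsionBy_iff _ _).2 (by
    show (p : ℤ) • c.toHom x₀.1 = 0
    rw [← map_zsmul, Mult.torsion_zsmul_eq_zero, map_zero])⟩

theorem smul_point (S : Setup W p N) (hi : i ≠ 0) (σ : Q̄ ≃ₐ[ℚ] Q̄) :
    σ • c.toHom x₀.1 = c.toHom x₀.1 := by
  rw [← c.map_smul, ← sub_eq_zero, ← map_sub]
  exact c.baseLine_le_ker S hi (S.smul_sub_mem_baseLine σ x₀)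

theorem addOrderOf_point (hx₀ : x₀ ∉ N) : addOrderOf (c.toHom x₀.1) = p := by
  have h0 : p • x₀.1 = 0 := by rw [← natCast_zsmul]; exact Mult.torsion_zsmul_eq_zero x₀
  refine addOrderOf_eq_prime (by rw [← map_nsmul, h0, map_zero]) fun h => hx₀ ?_
  obtain ⟨x, hx, hxe⟩ := c.mem_baseLine_of_ker _ h h0
  rwa [← show x = x₀ from Subtype.ext hxe]

/-- The kernel is generated by a point of order `p^i` on which inertia at `p` acts through a
character reducing to the cyclotomic one. -/
theorem exists_ker_generator (S : Setup W p N) (hi : i ≠ 0) :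
    ∃ x, c.toHom x = 0 ∧ addOrderOf x = p ^ i ∧ AddSubgroup.zmultiples x = c.toHom.ker ∧
      ∀ σ : Q̄ ≃ₐ[ℚ] Q̄, ∃ a : ℤ, σ • x = a • x ∧ (a : ZMod p) = ExtCitation.cycloExp p σ := by
  have hp : p.Prime := Fact.out
  haveI := c.finite_ker
  have hle : Nat.card {x : c.toHom.ker // p • (x : QbarPoint W) = 0} ≤ p := by
    haveI : Finite (baseLine N) := Nat.finite_of_card_ne_zero
      (by rw [S.natCard_baseLine]; exact hp.ne_zero)
    refine le_of_le_of_eq (Nat.card_le_card_of_injective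
      (fun x => (⟨x.1.1, c.mem_baseLine_of_ker _ x.1.2 x.2⟩ : baseLine N)) fun x y e =>
        Subtype.ext (Subtype.ext (congrArg (fun z => z.1) e))) S.natCard_baseLine
  obtain ⟨x, hx, hord⟩ := exists_generator hp hi c.toHom.ker c.card_ker hle
  have hgen : AddSubgroup.zmultiples x = c.toHom.ker :=
    AddSubgroup.eq_of_le_of_card_ge (AddSubgroup.zmultiples_le_of_mem hx)
      (by rw [Nat.card_zmultiples, hord, c.card_ker])
  refine ⟨x, hx, hord, hgen, fun σ => ?_⟩
  have hmem : σ • x ∈ AddSubgroup.zmultiples x := by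
    rw [hgen]; show c.toHom (σ • x) = 0
    rw [c.map_smul, show c.toHom x = 0 from hx]; exact smul_zero (A := QbarPoint c.curve) σ
  obtain ⟨a, ha⟩ := AddSubgroup.mem_zmultiples_iff.1 hmem
  refine ⟨a, ha.symm, ?_⟩
  set z := (p ^ (i - 1)) • x with hz
  have hzord : addOrderOf z = p := by
    rw [hz, addOrderOf_nsmul' _ (pow_ne_zero _ hp.ne_zero), hord,
      Nat.gcd_eq_right (pow_dvd_pow p (Nat.sub_le i 1)), Nat.pow_div (Nat.sub_le i 1) hp.pos,
      show i - (i - 1) = 1 by omega, pow_one]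
  have hzmem : z ∈ baseLine N := c.mem_baseLine_of_ker z
    (by rw [hz, map_nsmul, show c.toHom x = 0 from hx, nsmul_zero])
    (by have := addOrderOf_nsmul_eq_zero z; rwa [hzord] at this)
  have h1 : σ • z = a • z := by
    rw [hz, smul_nsmul_point, ← ha, smul_comm]
  have h2 : (a - (ExtCitation.cycloExp p σ : ℤ)) • z = 0 := by
    rw [sub_zsmul, natCast_zsmul, ← S.smul_eq_cyclo σ hzmem, h1]; exact sub_self _
  have h3 := dvd_of_zsmul_eq_zero hzord h2
  rw [← ZMod.intCast_zmod_eq_zero_iff_dvd, Int.cast_sub, sub_eq_zero] at h3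
  simpa using h3

/-- At `p` the plane `E'[p]` has a complement to the rational point stable under decomposition. -/
theorem exists_local_complement (S : Setup W p N) (hp2 : p ≠ 2) (hi : i ≠ 0) (hx₀ : x₀ ∉ N)
    {A : ValuationSubring Q̄} (hA : A.LiesOverPrime p) :
    ∃ C' : Submodule (ZMod p) (Mult.Tors c.curve p),
      (∀ σ ∈ A.decompositionSubgroup ℚ, ∀ v ∈ C', σ • v ∈ C') ∧
      IsCompl (Submodule.span (ZMod p) {c.point x₀}) C' := by
  have hp : p.Prime := Fact.out
  obtain ⟨x, hx, hord, hgen, hchar⟩ := c.exists_ker_generator S hi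
  obtain ⟨σ₀, hσ₀, hne⟩ := exists_inertia_cycloExp_ne_one hp2 hA
  obtain ⟨a, ha, hac⟩ := hchar σ₀
  have hd : ¬ (p : ℤ) ∣ a - 1 := fun h => hne (by
    rw [← hac, ← sub_eq_zero, ← Int.cast_one, ← Int.cast_sub]
    exact (ZMod.intCast_zmod_eq_zero_iff_dvd _ p).2 h)
  obtain ⟨Li, hLi, -, hLiI, hLip⟩ := exists_localSub hp2 S.semistableAway.Δ_ne_zero S.semistableAt
    hA N S.ne_bot S.ne_top S.stable i
  obtain ⟨L, hL, hLD, hLI, hLp⟩ := exists_localSub hp2 S.semistableAway.Δ_ne_zero S.semistableAt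
    hA N S.ne_bot S.ne_top S.stable (i + 1)
  haveI := finite_torsionSub S.semistableAway.Δ_ne_zero (n := p ^ (i + 1)) (pow_ne_zero _ hp.ne_zero)
  haveI := finite_torsionSub S.semistableAway.Δ_ne_zero (n := p ^ i) (pow_ne_zero _ hp.ne_zero)
  haveI : Finite L := Finite.of_injective _ (AddSubgroup.inclusion_injective hL)
  haveI : Finite Li := Finite.of_injective _ (AddSubgroup.inclusion_injective hLi)
  obtain ⟨y₀, hy₀⟩ : ∃ y₀ : QbarPoint W, p • y₀ = x := by
    haveI := isElliptic_map_rat S.semistableAway.Δ_ne_zero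
    obtain ⟨y, hy⟩ := EC.zsmul_surjective (W := ((W.map (Int.castRingHom ℚ))⁄Q̄))
      (n := (p : ℤ)) (by exact_mod_cast hp.ne_zero) x
    exact ⟨y, by rw [← natCast_zsmul]; exact hy⟩
  have hy₀t : y₀ ∈ torsionSub W (p ^ (i + 1)) := by
    rw [mem_torsionSub, pow_succ, mul_nsmul', hy₀]; exact c.pow_nsmul_ker hx
  set y := σ₀ • y₀ - y₀ with hy
  have hyL : y ∈ L := hLI σ₀ hσ₀ y₀ hy₀t
  have hpy : p • y = (a - 1) • x := by
    rw [hy, nsmul_sub, ← smul_nsmul_point, hy₀, ha, sub_zsmul, one_zsmul]; rfl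
  have hyord : addOrderOf y = p ^ (i + 1) := by
    haveI : Fact p.Prime := ⟨hp⟩
    refine addOrderOf_eq_prime_pow (fun h => hd ?_) (hL hyL)
    obtain ⟨j, rfl⟩ : ∃ j, i = j + 1 := ⟨i - 1, by omega⟩
    rw [pow_succ, mul_nsmul', hpy, ← natCast_zsmul, ← mul_zsmul] at h
    have := (addOrderOf_dvd_iff_zsmul_eq_zero).2 h
    rw [hord] at this
    push_cast at this
    rw [pow_succ] at this
    exact (mul_dvd_mul_iff_left (pow_ne_zero j (Int.natCast_ne_zero.2 hp.ne_zero))).1
      (by simpa [mul_comm] using this)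
  have hLy : AddSubgroup.zmultiples y = L := by
    refine AddSubgroup.eq_of_le_of_card_ge (AddSubgroup.zmultiples_le_of_mem hyL) ?_
    rw [Nat.card_zmultiples, hyord]
    exact card_le_pow p (i + 1) L (fun z hz => hL hz) hLp
  have hΦy : p • c.toHom y = 0 := by
    rw [← map_nsmul, hpy, map_zsmul, hx]; exact zsmul_zero _
  set v : Mult.Tors c.curve p := ⟨c.toHom y, (Submodule.mem_torsionBy_iff _ _).2 (by
    show (p : ℤ) • c.toHom y = 0
    rw [natCast_zsmul]; exact hΦy)⟩ with hv
  have hDv : ∀ σ ∈ A.decompositionSubgroup ℚ, ∃ k : ℤ, σ • y = k • y ∧ σ • v = k • v := by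
    intro σ hσ
    obtain ⟨k, hk⟩ := AddSubgroup.mem_zmultiples_iff.1 (hLy.symm ▸ hLD σ hσ y hyL)
    refine ⟨k, hk.symm, Subtype.ext ?_⟩
    show σ • c.toHom y = k • c.toHom y
    rw [← c.map_smul, ← hk, map_zsmul]
  have hvne : v ∉ Submodule.span (ZMod p) {c.point x₀} := by
    intro hv'
    obtain ⟨z, hz⟩ := Submodule.mem_span_singleton.1 hv'
    obtain ⟨z, rfl⟩ := ZMod.intCast_surjective z
    rw [Int.cast_smul_eq_zsmul] at hz
    have hz' : z • c.toHom x₀.1 = c.toHom y := congrArg Subtype.val hz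
    obtain ⟨k, hk, -⟩ := hDv σ₀ (Mult.mem_decomposition_of_mem_inertia hσ₀)
    have hker : c.toHom ((k - 1) • y) = 0 := by
      rw [map_zsmul, sub_zsmul, one_zsmul, ← map_zsmul, ← hk, c.map_smul, ← hz',
        smul_zsmul_point, c.smul_point S hi]
      exact sub_self _
    have hk1 := c.pow_nsmul_ker hker
    rw [← natCast_zsmul, ← mul_zsmul] at hk1
    have hk1' := (addOrderOf_dvd_iff_zsmul_eq_zero).2 hk1
    rw [hyord] at hk1'
    push_cast at hk1'
    rw [pow_succ] at hk1'
    have hpk : (p : ℤ) ∣ k - 1 :=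
      (mul_dvd_mul_iff_left (pow_ne_zero i (Int.natCast_ne_zero.2 hp.ne_zero))).1 hk1'
    have hpy' : σ₀ • (p • y) = k • (p • y) := by
      rw [smul_nsmul_point, hk, smul_comm]
    have hk2 : σ₀ • (p • y) = a • (p • y) := by
      rw [hpy, smul_zsmul_point, ha, smul_comm]
    have h0 : (k - a) • (p • y) = 0 := by
      rw [sub_zsmul, ← hpy', hk2]; exact sub_self _
    rw [hpy, ← mul_zsmul] at h0
    have h1 := (addOrderOf_dvd_iff_zsmul_eq_zero).2 h0
    rw [hord] at h1
    have h2 : (p : ℤ) ∣ (k - a) * (a - 1) :=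
      (Int.natCast_dvd_natCast.2 (dvd_pow_self p hi)).trans (by simpa [mul_comm] using h1)
    rcases (Nat.prime_iff_prime_int.1 hp).dvd_or_dvd h2 with h3 | h3
    · exact hd (by simpa using dvd_sub hpk h3)
    · exact hd h3
  refine ⟨Submodule.span (ZMod p) {v}, fun σ hσ w hw => ?_, ?_⟩
  · obtain ⟨k, -, hk⟩ := hDv σ hσ
    obtain ⟨z, rfl⟩ := Submodule.mem_span_singleton.1 hw
    obtain ⟨z, rfl⟩ := ZMod.intCast_surjective z
    rw [Int.cast_smul_eq_zsmul, Mult.smul_zsmul_tors, hk]
    exact zsmul_mem (zsmul_mem (Submodule.mem_span_singleton_self v) k) z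
  · have h2 : Module.finrank (ZMod p) (Mult.Tors c.curve p) = 2 :=
      AtP.finrank_tors (p := p) c.semistableAway.Δ_ne_zero
    haveI : Module.Finite (ZMod p) (Mult.Tors c.curve p) := Module.finite_of_finrank_eq_succ h2
    have hv0 : v ≠ 0 := fun h => hvne (h ▸ Submodule.zero_mem _)
    have hdis : Disjoint (Submodule.span (ZMod p) {c.point x₀}) (Submodule.span (ZMod p) {v}) := by
      rw [Submodule.disjoint_span_singleton' hv0]
      exact hvne
    refine ⟨hdis, codisjoint_iff.2 (Submodule.eq_top_of_finrank_eq ?_)⟩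
    have hpt : c.point x₀ ≠ 0 := fun h => by
      have := c.addOrderOf_point hx₀
      rw [show c.toHom x₀.1 = 0 from congrArg Subtype.val h, addOrderOf_zero] at this
      exact hp.ne_one this.symm
    have := Submodule.finrank_sup_add_finrank_inf_eq (Submodule.span (ZMod p) {c.point x₀})
      (Submodule.span (ZMod p) {v})
    rw [hdis.eq_bot, finrank_bot, finrank_span_singleton hpt, finrank_span_singleton hv0] at this
    omega

end Chain

end Fermat.Agent.Mazur
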