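/-
A long cyclic chain contradicts Hasse's bound.
-/
import Fermat.Agent.Mazur.TwelveChain
import Fermat.Agent.Reducible.Places
import Fermat.Agent.Weil.DetCyclotomic
import Fermat.Agent.Datum.Roots
import Fermat.Agent.Galois.Frobenius

set_option autoImplicit false
set_option maxHeartbeats 800000

open WeierstrassCurve
open scoped WeierstrassCurve.Affine Fermat.Agent.Galois

noncomputable section

namespace Fermat.Agent.Mazur

open ECRed

/-- An endomorphism of a free plane that moves everything into `R x` and multiplies `x` by `a` has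
determinant `a`, up to the annihilator of `x`. -/
theorem det_sub_smul_eq_zero {R V : Type*} [CommRing R] [AddCommGroup V] [Module R V]
    (b : Module.Basis (Fin 2) R V) (f : Module.End R V) (x : V) (a : R) (ha : f x = a • x)
    (hf : ∀ v, ∃ t : R, f v - v = t • x) : (LinearMap.det f - a) • x = 0 := by
  obtain ⟨t₀, h₀⟩ := hf (b 0)
  obtain ⟨t₁, h₁⟩ := hf (b 1)
  set x₀ := b.repr x 0 with hx₀
  set x₁ := b.repr x 1 with hx₁
  have hdec : x = x₀ • b 0 + x₁ • b 1 := by
    conv_lhs => rw [← b.sum_repr x, Fin.sum_univ_two]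
  rw [sub_eq_iff_eq_add] at h₀ h₁
  have hfx : f x = (1 + (x₀ * t₀ + x₁ * t₁)) • x := by
    conv_lhs => rw [hdec, map_add, map_smul, map_smul, h₀, h₁]
    rw [add_smul, one_smul]
    nth_rw 3 [hdec]
    module
  have hdet : LinearMap.det f = 1 + (x₀ * t₀ + x₁ * t₁) := by
    rw [← LinearMap.det_toMatrix b, Matrix.det_fin_two]
    simp [LinearMap.toMatrix_apply, h₀, h₁, ← hx₀, ← hx₁]
    ring
  rw [hdet, sub_smul, ← hfx, ← ha, sub_self]

variable {W : WeierstrassCurve ℤ} {p : ℕ} [Fact p.Prime]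
  {N : Submodule (ZMod p) (Mult.Tors W p)}

/-- A point of order `p^(2m)` spanning a stable line whose character is cyclotomic mod `p`, as
given by the chain, does not exist once `p^m` exceeds Hasse's bound at a good prime. -/
theorem false_of_chain (S : Setup W p N) (hp2 : p ≠ 2) {ℓ m : ℕ} (hℓ : ℓ.Prime) (hℓp : ℓ ≠ p)
    (hg : W.IsGoodPrimeFor ℓ) (hbound : 2 * ℓ + 2 < p ^ m) (c : Chain W p N (2 * m)) : False := by
  classical
  have hp : p.Prime := Fact.out
  have hm : m ≠ 0 := fun h => by rw [h, pow_zero] at hbound; omega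
  have hΔ := S.semistableAway.Δ_ne_zero
  haveI : NeZero (p ^ m) := ⟨pow_ne_zero m hp.ne_zero⟩
  haveI : NeZero (p ^ (2 * m)) := ⟨pow_ne_zero _ hp.ne_zero⟩
  obtain ⟨x, hx, hord, -, hchar⟩ := c.exists_ker_generator S (by omega)
  choose a ha hac using hchar
  set z := p ^ m • x with hz
  have hzord : addOrderOf z = p ^ m := by
    rw [hz, addOrderOf_nsmul' _ (pow_ne_zero _ hp.ne_zero), hord,
      Nat.gcd_eq_right (pow_dvd_pow p (by omega)), Nat.pow_div (by omega) hp.pos,
      show 2 * m - m = m by omega]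
  have hza : ∀ σ, σ • z = a σ • z := fun σ => by
    rw [hz, smul_nsmul_point, ha, smul_comm]
  have hzdvd : ∀ k : ℤ, k • z = 0 → (k : ZMod (p ^ m)) = 0 := fun k hk =>
    (ZMod.intCast_zmod_eq_zero_iff_dvd k (p ^ m)).2 (hzord ▸ addOrderOf_dvd_iff_zsmul_eq_zero.2 hk)
  let χ : (Q̄ ≃ₐ[ℚ] Q̄) →* ZMod (p ^ m) :=
    { toFun := fun σ => (a σ : ZMod (p ^ m))
      map_one' := by
        have h := hzdvd (a 1 - 1) (by rw [sub_zsmul, ← hza, one_smul, one_zsmul]; exact sub_self _)
        rwa [Int.cast_sub, sub_eq_zero, Int.cast_one] at h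
      map_mul' := fun σ τ => by
        have h := hzdvd (a (σ * τ) - a σ * a τ) (by
          rw [sub_zsmul, ← hza, mul_smul, hza τ, smul_zsmul_point, hza σ, ← mul_zsmul,
            mul_comm (a τ) (a σ)]
          exact sub_self _)
        rwa [Int.cast_sub, sub_eq_zero, Int.cast_mul] at h }
  let F : (Q̄ ≃ₐ[ℚ] Q̄) →* (ZMod (p ^ m))ˣ :=
    χ.toHomUnits * (Datum.chiMod (p ^ m)).toHomUnits⁻¹
  have hF : ∀ σ, F σ = 1 ↔ (a σ : ZMod (p ^ m)) = Datum.chiMod (p ^ m) σ := fun σ => by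
    rw [MonoidHom.mul_apply, MonoidHom.inv_apply, mul_inv_eq_one]
    exact ⟨fun h => congrArg Units.val h, fun h => Units.ext h⟩
  have hopen : IsOpen (F.ker : Set (Q̄ ≃ₐ[ℚ] Q̄)) := by
    haveI := isElliptic_map_rat hΔ
    obtain ⟨L₁, hL₁, hfix⟩ := EC.exists_finiteDimensional_fixing_torsionBy
      (W := W.map (Int.castRingHom ℚ)) (pow_ne_zero m hp.ne_zero)
    obtain ⟨L₂, hL₂, hχ⟩ := Datum.exists_level_chiMod (p ^ m)
    refine Subgroup.isOpen_mono (H₁ := (L₁ ⊔ L₂).fixingSubgroup) (fun σ hσ => ?_)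
      (L₁ ⊔ L₂).fixingSubgroup_isOpen
    have hσ' := (IntermediateField.mem_fixingSubgroup_iff _ σ).1 hσ
    rw [MonoidHom.mem_ker, hF, hχ σ fun y hy => hσ' y ((le_sup_right : L₂ ≤ L₁ ⊔ L₂) hy)]
    have hfz : σ • z = z := congrArg Subtype.val (hfix σ
      (fun y hy => hσ' y ((le_sup_left : L₁ ≤ L₁ ⊔ L₂) hy))
      ⟨z, (Submodule.mem_torsionBy_iff _ _).2 (by
        show ((p ^ m : ℕ) : ℤ) • z = 0
        rw [natCast_zsmul, ← hzord]; exact addOrderOf_nsmul_eq_zero z)⟩)
    have h := hzdvd (a σ - 1) (by rw [sub_zsmul, ← hza, hfz, one_zsmul]; exact sub_self _)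
    rwa [Int.cast_sub, sub_eq_zero, Int.cast_one] at h
  have hxt : p ^ (2 * m) • x = 0 := by rw [← hord]; exact addOrderOf_nsmul_eq_zero x
  have key : ∀ σ, F σ = 1 := Reducible.eq_one_of_unramified F hopen fun q hq A hA σ hσ => by
    rw [hF]
    by_cases hqp : q = p
    · subst hqp
      obtain ⟨σ₀, hσ₀, hne⟩ := exists_inertia_cycloExp_ne_one hp2 hA
      obtain ⟨L, hL, -, hLI, hLp⟩ := exists_localSub hp2 hΔ S.semistableAt hA N S.ne_bot S.ne_top
        S.stable m
      haveI := finite_torsionSub hΔ (n := q ^ m) (pow_ne_zero _ hp.ne_zero)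
      haveI : Finite L := Finite.of_injective _ (AddSubgroup.inclusion_injective hL)
      have hzt : z ∈ torsionSub W (q ^ m) := by
        rw [mem_torsionSub, ← hzord]; exact addOrderOf_nsmul_eq_zero z
      have hcop : IsCoprime (a σ₀ - 1) ((q ^ m : ℕ) : ℤ) := by
        push_cast
        refine IsCoprime.pow_right (IsCoprime.symm
          ((Prime.coprime_iff_not_dvd (Nat.prime_iff_prime_int.1 hp)).2 fun h => hne ?_))
        rw [← hac, ← sub_eq_zero, ← Int.cast_one, ← Int.cast_sub]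
        exact (ZMod.intCast_zmod_eq_zero_iff_dvd _ q).2 h
      have hzL : z ∈ L := by
        obtain ⟨u, v, huv⟩ := hcop
        have h1 : z = u • (σ₀ • z - z) := by
          conv_lhs => rw [← one_zsmul z, ← huv, add_zsmul, mul_zsmul, mul_zsmul,
            natCast_zsmul z (q ^ m), show q ^ m • z = 0 from hzt, zsmul_zero, add_zero]
          rw [hza, sub_zsmul, one_zsmul]; rfl
        rw [h1]
        exact zsmul_mem (hLI σ₀ hσ₀ z hzt) u
      have hLz : AddSubgroup.zmultiples z = L := by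
        refine AddSubgroup.eq_of_le_of_card_ge (AddSubgroup.zmultiples_le_of_mem hzL) ?_
        rw [Nat.card_zmultiples, hzord]
        exact card_le_pow q m L (fun w hw => hL hw) hLp
      haveI := isElliptic_map_rat hΔ
      obtain ⟨e⟩ := EC.nonempty_torsionBy_linearEquiv (W := (W.map (Int.castRingHom ℚ)).toAffine)
        (K := Q̄) (n := q ^ m) (Nat.cast_ne_zero.2 (pow_ne_zero m hp.ne_zero))
      let zt : Mult.Tors W (q ^ m) := ⟨z, (Submodule.mem_torsionBy_iff _ _).2 (by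
        show ((q ^ m : ℕ) : ℤ) • z = 0
        rw [natCast_zsmul]; exact hzt)⟩
      have h := det_sub_smul_eq_zero ((Pi.basisFun (ZMod (q ^ m)) (Fin 2)).map e.symm)
        (Affine.Point.galoisRepModuleEnd (K := Q̄) ℚ (W.map (Int.castRingHom ℚ)) (q ^ m) σ)
        zt (a σ : ZMod (q ^ m))
        (by rw [Int.cast_smul_eq_zsmul]; exact Subtype.ext (hza σ))
        fun v => by
          obtain ⟨k, hk⟩ := AddSubgroup.mem_zmultiples_iff.1 (hLz.symm ▸ hLI σ hσ v.1 (by
            rw [mem_torsionSub, ← natCast_zsmul]; exact Mult.torsion_zsmul_eq_zero v))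
          refine ⟨(k : ZMod (q ^ m)), ?_⟩
          rw [Int.cast_smul_eq_zsmul]
          exact Subtype.ext hk.symm
      rw [Weil.det_galoisRepModuleEnd_model W hΔ hp m σ] at h
      obtain ⟨k, hk⟩ := ZMod.intCast_surjective (Datum.chiMod (q ^ m) σ - (a σ : ZMod (q ^ m)))
      rw [← hk, Int.cast_smul_eq_zsmul] at h
      have := hzdvd k (congrArg Subtype.val h)
      rw [hk, sub_eq_zero] at this
      exact this.symm
    · have hco : q.Coprime (p ^ m) := Nat.Coprime.pow_right _ ((Nat.coprime_primes hq hp).2 hqp)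
      rw [Datum.chiMod_inertia (p ^ m) hA hσ hco]
      have hqn : ¬ q ∣ p ^ (2 * m) := fun h =>
        hqp ((Nat.prime_dvd_prime_iff_eq hq hp).1 (hq.dvd_of_dvd_pow h))
      have hd : ((p ^ (2 * m) : ℕ) : ℤ) ∣ (a σ - 1) * (a σ - 1) := by
        rw [← hord]
        refine addOrderOf_dvd_iff_zsmul_eq_zero.2 ?_
        have e : σ • x - x = (a σ - 1) • x := by
          rw [ha, sub_zsmul, one_zsmul, sub_eq_add_neg]
        by_cases hd : (q : ℤ) ∣ W.Δ
        · have h : Mult.IsMultPlace W q A :=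
            ⟨hq, hΔ, hd, S.semistableAway.not_dvd_c₄ q hq hqp hd, hA⟩
          have hu := congrArg Subtype.val (Mult.inertia_smul_sub_smul_eq h
            (pow_ne_zero _ hp.ne_zero) hqn hσ ⟨x, (Submodule.mem_torsionBy_iff _ _).2 (by
              show ((p ^ (2 * m) : ℕ) : ℤ) • x = 0
              rw [natCast_zsmul]; exact hxt)⟩)
          have hu' : σ • (σ • x - x) = σ • x - x := hu
          rw [e, smul_zsmul_point, ha, ← mul_zsmul] at hu'
          rw [show (a σ - 1) * (a σ - 1) = (a σ - 1) * a σ - (a σ - 1) by ring, sub_zsmul, hu']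
          exact add_neg_cancel _
        · rw [smul_eq_self_of_mem_inertia hq hA hd hqn hσ hxt, sub_self] at e
          rw [mul_zsmul, ← e, zsmul_zero]
      rw [pow_mul', Nat.cast_pow, ← sq, Int.pow_dvd_pow_iff two_ne_zero] at hd
      have := (ZMod.intCast_zmod_eq_zero_iff_dvd _ (p ^ m)).2 hd
      rwa [Int.cast_sub, sub_eq_zero, Int.cast_one] at this
  -- Frobenius at the good prime
  obtain ⟨A, σ, hA, hσ⟩ := Galois.exists_valuationSubring_isFrobeniusAt hℓ
  have hcoℓ : ℓ.Coprime (p ^ m) := Nat.Coprime.pow_right _ ((Nat.coprime_primes hℓ hp).2 hℓp)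
  have haℓ : (a σ : ZMod (p ^ m)) = (ℓ : ZMod (p ^ m)) := by
    rw [(hF σ).1 (key σ), Datum.chiMod_frobenius (p ^ m) hA hσ hcoℓ]
  have hrel := frobenius_relation hℓ hA hg hσ hp (Ne.symm hℓp) (k := m) (P := z)
    (by rw [← hzord]; exact addOrderOf_nsmul_eq_zero z)
  rw [hza, smul_zsmul_point, hza, ← mul_zsmul, ← mul_zsmul] at hrel
  have h := hzdvd (a σ * a σ - W.apOfModel ℓ * a σ + ℓ) (by
    rw [add_zsmul, sub_zsmul, ← sub_eq_add_neg]; exact hrel)
  push_cast at h
  rw [haℓ] at h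
  have h' : ((ℓ * (ℓ + 1 - W.apOfModel ℓ) : ℤ) : ZMod (p ^ m)) = 0 := by
    push_cast; linear_combination h
  rw [ZMod.intCast_zmod_eq_zero_iff_dvd] at h'
  have hdvd : ((p ^ m : ℕ) : ℤ) ∣ (ℓ : ℤ) + 1 - W.apOfModel ℓ :=
    (Int.isCoprime_iff_nat_coprime.2 (by simpa using hcoℓ.symm)).dvd_of_dvd_mul_left h'
  have hb := apOfModel_sq_le (W := W) hℓ hg
  have hl2 : (2 : ℤ) ≤ ℓ := by exact_mod_cast hℓ.two_le
  have h1 : W.apOfModel ℓ < (ℓ : ℤ) + 1 := by nlinarith
  have h2 : -((ℓ : ℤ) + 1) ≤ W.apOfModel ℓ := by nlinarith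
  have := Int.le_of_dvd (by omega) hdvd
  have hb' : ((2 * ℓ + 2 : ℕ) : ℤ) < ((p ^ m : ℕ) : ℤ) := by exact_mod_cast hbound
  push_cast at hb' this
  omega

end Fermat.Agent.Mazur
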