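/-
One step of the chain: the extension at the `i`-th curve is admissible, hence splits.
-/
import Fermat.Agent.Mazur.TwelveChain
import Fermat.Agent.EC.Torsion
import Mathlib.FieldTheory.KrullTopology
import Mathlib.Topology.Algebra.OpenSubgroup

set_option autoImplicit false
set_option maxHeartbeats 800000

open WeierstrassCurve
open scoped WeierstrassCurve.Affine Fermat.Agent.Galois

noncomputable section

namespace Fermat.Agent.Mazur

open ECRed

variable {W : WeierstrassCurve ℤ} {p : ℕ} [Fact p.Prime]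
  {N : Submodule (ZMod p) (Mult.Tors W p)} {i : ℕ}

/-- The kernel of the action on the `n`-torsion is open. -/
theorem isOpen_setOf_fixing_tors (W : WeierstrassCurve ℤ) {n : ℕ} (hn : n ≠ 0)
    (hΔ : W.Δ ≠ 0) :
    IsOpen {σ : Q̄ ≃ₐ[ℚ] Q̄ | ∀ v : Mult.Tors W n, σ • v = v} := by
  haveI := isElliptic_map_rat hΔ
  obtain ⟨L, hL, hfix⟩ :=
    EC.exists_finiteDimensional_fixing_torsionBy (W := W.map (Int.castRingHom ℚ)) hn
  let H : Subgroup (Q̄ ≃ₐ[ℚ] Q̄) :=
    { carrier := {σ | ∀ v : Mult.Tors W n, σ • v = v}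
      one_mem' := fun v => one_smul _ v
      mul_mem' := fun {σ τ} hσ hτ v => by rw [mul_smul, hτ v, hσ v]
      inv_mem' := fun {σ} hσ v => by rw [inv_smul_eq_iff, hσ v] }
  refine Subgroup.isOpen_mono (H₁ := L.fixingSubgroup) (H₂ := H) (fun σ hσ v => ?_)
    L.fixingSubgroup_isOpen
  exact hfix σ (fun x hx => (IntermediateField.mem_fixingSubgroup_iff L σ).1 hσ x hx) v

/-- The next step of the chain. -/
theorem nonempty_chain_succ (S : Setup W p N) {x₀ : Mult.Tors W p} (hx₀ : x₀ ∉ N)
    (hp17 : 17 ≤ p) (h15 : StepThree p) (h14 : ExtCitation.ExtVanishingCts p) (hi : i ≠ 0)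
    (c : Chain W p N i) : Nonempty (Chain W p N (i + 1)) := by
  have hp : p.Prime := Fact.out
  haveI : SMulCommClass (Q̄ ≃ₐ[ℚ] Q̄) (ZMod p) (Mult.Tors c.curve p) :=
    ⟨fun σ a v => by
      obtain ⟨a, rfl⟩ := ZMod.intCast_surjective a
      rw [Int.cast_smul_eq_zsmul, Int.cast_smul_eq_zsmul, Mult.smul_zsmul_tors]⟩
  have hΔ := c.semistableAway.Δ_ne_zero
  have h2 : Module.finrank (ZMod p) (Mult.Tors c.curve p) = 2 := AtP.finrank_tors (p := p) hΔ
  haveI : Module.Finite (ZMod p) (Mult.Tors c.curve p) := Module.finite_of_finrank_eq_succ h2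
  have hord := c.addOrderOf_point hx₀
  have hfix : ∀ σ : Q̄ ≃ₐ[ℚ] Q̄, σ • c.toHom x₀.1 = c.toHom x₀.1 := c.smul_point S hi
  have hq0 : c.point x₀ ≠ 0 := fun h => by
    rw [show c.toHom x₀.1 = 0 from congrArg Subtype.val h, addOrderOf_zero] at hord
    exact hp.ne_one hord.symm
  have hqfix : ∀ σ : Q̄ ≃ₐ[ℚ] Q̄, σ • c.point x₀ = c.point x₀ := fun σ => Subtype.ext (hfix σ)
  set C := Submodule.span (ZMod p) {c.point x₀} with hC
  have hfixC : ∀ σ : Q̄ ≃ₐ[ℚ] Q̄, ∀ v ∈ C, σ • v = v := by
    intro σ v hv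
    obtain ⟨a, rfl⟩ := Submodule.mem_span_singleton.1 hv
    rw [smul_comm, hqfix]
  have hcardC : Nat.card C = p := by
    rw [Module.natCard_eq_pow_finrank (K := ZMod p), hC, finrank_span_singleton hq0, pow_one,
      Nat.card_zmod]
  have hadm : ExtCitation.IsAdmissibleExtensionCts p (Mult.Tors c.curve p) C := by
    refine { stable := fun σ v hv => by rw [hfixC σ v hv]; exact hv
             fixed_sub := hfixC
             cyclo_quot := fun σ v => ?_
             card_sub := hcardC
             card_total := natCard_tors hΔ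
             unramified_outside := fun ℓ hℓ hℓp A hA σ hσ v =>
               smul_eq_self_away h15 c.semistableAway hp hp17 hfix hord hℓ hℓp hA hσ v
             locally_split := fun A hA => c.exists_local_complement S (by omega) hi hx₀ hA
             open_kernel := isOpen_setOf_fixing_tors c.curve hp.ne_zero hΔ }
    have h := sub_det_smul_mem h2 hq0
      (Affine.Point.galoisRepModuleEnd (K := Q̄) ℚ (c.curve.map (Int.castRingHom ℚ)) p σ)
      (hqfix σ) v
    rw [det_smul_torsion hΔ] at h
    exact h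
  obtain ⟨M, hM, hcompl⟩ := h14 (Mult.Tors c.curve p) C hadm
  set M' : AddSubgroup (QbarPoint c.curve) := baseLine M with hM'
  have hcardM : Nat.card M' = p := by
    have h1 : Module.finrank (ZMod p) M = 1 := by
      have := Submodule.finrank_add_eq_of_isCompl hcompl
      rw [hC, finrank_span_singleton hq0, h2] at this
      omega
    rw [hM', baseLine, Nat.card_congr (AddSubgroup.equivMapOfInjective M.toAddSubgroup _
      (Submodule.subtype_injective _)).toEquiv.symm]
    exact (Module.natCard_eq_pow_finrank (K := ZMod p) (V := M)).trans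
      (by rw [h1, pow_one, Nat.card_zmod])
  obtain ⟨q⟩ := nonempty_quotientModel hp (by omega) c.semistableAway M' hcardM (by
    rintro σ _ ⟨v, hv, rfl⟩
    exact ⟨σ • v, hM σ v hv, rfl⟩)
  let f : (q.toHom.comp c.toHom).ker →+ M' :=
    { toFun := fun P => ⟨c.toHom P.1, SetLike.ext_iff.1 q.ker_eq _ |>.1 P.2⟩
      map_zero' := Subtype.ext (map_zero c.toHom)
      map_add' := fun P Q => Subtype.ext (map_add c.toHom P.1 Q.1) }
  have hf : Function.Surjective f := fun m => by
    obtain ⟨P, hP⟩ := c.surjective m.1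
    refine ⟨⟨P, ?_⟩, Subtype.ext hP⟩
    show q.toHom (c.toHom P) = 0
    rw [hP]
    exact SetLike.ext_iff.1 q.ker_eq _ |>.2 m.2
  refine ⟨⟨q.curve, q.semistableAway, q.toHom.comp c.toHom, q.surjective.comp c.surjective,
    ?_, fun P hP hpP => ?_, fun σ P => ?_⟩⟩
  · rw [AddSubgroup.card_eq_card_quotient_mul_card_addSubgroup f.ker,
      Nat.card_congr (QuotientAddGroup.quotientKerEquivOfSurjective f hf).toEquiv, hcardM]
    have hk : Nat.card f.ker = Nat.card c.toHom.ker :=
      Nat.card_congr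
        { toFun := fun P => ⟨P.1.1, congrArg Subtype.val P.2⟩
          invFun := fun P => ⟨⟨P.1, by
            show q.toHom (c.toHom P.1) = 0
            rw [show c.toHom P.1 = 0 from P.2, map_zero]⟩, Subtype.ext P.2⟩
          left_inv := fun P => rfl
          right_inv := fun P => rfl }
    rw [hk, c.card_ker, pow_succ']
  · refine c.mem_baseLine_of_ker P ?_ hpP
    have hm : c.toHom P ∈ M' := SetLike.ext_iff.1 q.ker_eq _ |>.1 hP
    obtain ⟨a, hsub⟩ := S.exists_sub_zsmul_mem hx₀ hpP
    have he := c.baseLine_le_ker S hi hsub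
    rw [AddMonoidHom.mem_ker, map_sub, map_zsmul, sub_eq_zero] at he
    obtain ⟨v, hv, hve⟩ := hm
    have hv' : v = a • c.point x₀ := Subtype.ext (hve.trans he)
    have hbot : v ∈ C ⊓ M :=
      ⟨hv' ▸ zsmul_mem (Submodule.mem_span_singleton_self _) a, hv⟩
    rw [hcompl.inf_eq_bot, Submodule.mem_bot] at hbot
    rw [← hve, hbot]
    rfl
  · show q.toHom (c.toHom (σ • P)) = _
    rw [c.map_smul, q.map_smul]
    rfl

/-- The chain reaches every level. -/
theorem nonempty_chain (S : Setup W p N) (hp17 : 17 ≤ p) (h15 : StepThree p)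
    (h14 : ExtCitation.ExtVanishingCts p) : ∀ i : ℕ, i ≠ 0 → Nonempty (Chain W p N i) := by
  obtain ⟨x₀, -, hx₀⟩ := SetLike.exists_of_lt (lt_top_iff_ne_top.2 S.ne_top)
  intro i
  induction i with
  | zero => exact fun h => absurd rfl h
  | succ i ih =>
    intro _
    by_cases hi : i = 0
    · subst hi; exact nonempty_chain_one S (by omega)
    · obtain ⟨c⟩ := ih hi
      exact nonempty_chain_succ S hx₀ hp17 h15 h14 hi c

end Fermat.Agent.Mazur
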