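/-
S12 from S15 and S14: the Frey representation has no cofixed line for `p ≥ 17`.
-/
import Fermat.Agent.Mazur.TwelveStep
import Fermat.Agent.Mazur.TwelveFinish
import Fermat.Agent.Mult.Frey
import Fermat.Prelude.Def_FLTPrelim_CofixedLine
import Fermat.Prelude.Def_ExtCitation_AdmissibleExtension_v2

set_option autoImplicit false

open WeierstrassCurve WeierstrassCurve.Affine WeierstrassCurve.Affine.Point

namespace Fermat.Agent.Mazur

/-- A curve with semistable reduction everywhere has no cofixed line for `p ≥ 17`, given step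
three and the vanishing of extensions. -/
theorem false_of_setup {W : WeierstrassCurve ℤ} {p : ℕ} [Fact p.Prime]
    {N : Submodule (ZMod p) (Mult.Tors W p)} (S : Setup W p N) (hp17 : 17 ≤ p)
    (h15 : StepThree p) (h14 : ExtCitation.ExtVanishingCts p) : False := by
  obtain ⟨ℓ, hℓb, hℓ⟩ := Nat.exists_infinite_primes (W.Δ.natAbs + p + 1)
  have hg : W.IsGoodPrimeFor ℓ := fun h => by
    have := Nat.le_of_dvd (Int.natAbs_pos.2 S.semistableAway.Δ_ne_zero) (Int.natCast_dvd.1 h)
    omega
  obtain ⟨c⟩ := nonempty_chain S hp17 h15 h14 (2 * (2 * ℓ + 2)) (by omega)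
  exact false_of_chain S (by omega) hℓ (by omega) hg
    (Nat.lt_pow_self (by omega : 1 < p)) c

/-- No cofixed line for `p ≥ 17`, given Mazur's step three and the vanishing of extensions. -/
theorem no_cofixedLine_of_stepThree (P : FreyPackage) (hp : 17 ≤ P.p) (h15 : StepThree P.p)
    (h14 : @ExtCitation.ExtVanishingCts P.p ⟨P.pp⟩) :
    ¬ HasGaloisStableCofixedLine (K := AlgebraicClosure ℚ) ℚ P.freyCurve P.p := by
  haveI : Fact P.p.Prime := ⟨P.pp⟩
  intro h
  rw [← Mult.freyCurveInt_map P] at h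
  obtain ⟨N, hst, hb, ht, hco⟩ := h
  have hΔ := Mult.freyCurveInt_Δ_ne_zero P
  exact false_of_setup (W := P.freyCurveInt) (N := N)
    ⟨⟨hΔ, fun ℓ hℓ _ hd => Mult.isSemistableModel_freyCurveInt P ℓ hℓ hd⟩,
      fun hd => Mult.isSemistableModel_freyCurveInt P P.p P.pp hd, hst, hb, ht, hco⟩ hp h15 h14

end Fermat.Agent.Mazur
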