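import Fermat.Agent.Mazur.EisenBound
import Fermat.Agent.Torsion.Main
import Fermat.Agent.Mazur.Defs
import Fermat.Agent.HeckeJ.Operator

/-!
# The anemic Hecke algebra acting on `J₀(N)`

Every element of `heckeAlgebra N 2 S` lifts to an endomorphism of `J₀(N)` in the subring generated
by the `heckeOperatorBar j`, `j ∉ S`, compatible with `Torsion.heckeRep` on every torsion group.
-/

set_option autoImplicit false

noncomputable section

open ModularCurve CongruenceSubgroup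

namespace Fermat.Agent.Mazur

local notation "Γℚ" => AlgebraicClosure ℚ ≃ₐ[ℚ] AlgebraicClosure ℚ

variable {N : ℕ} [NeZero N] {S : Finset ℕ}

theorem heckeOperatorBar_mem_heckeAway {ℓ : Nat.Primes} (h : (ℓ : ℕ) ∉ S) :
    (heckeOperatorBar N ℓ).toAddMonoidHom ∈ heckeAway N S :=
  Subring.subset_closure ⟨ℓ, h, rfl⟩

/-- Anything stable under the operators away from `S` is stable under `heckeAway`. -/
theorem heckeAway_apply_mem {E : AddMonoid.End (JZero N)} (hE : E ∈ heckeAway N S)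
    (H : AddSubgroup (JZero N))
    (hH : ∀ ℓ : Nat.Primes, (ℓ : ℕ) ∉ S → ∀ x ∈ H, heckeOperatorBar N ℓ x ∈ H) :
    ∀ x ∈ H, E x ∈ H := by
  induction hE using Subring.closure_induction with
  | mem E hE =>
    obtain ⟨ℓ, hℓ, rfl⟩ := hE
    exact hH ℓ hℓ
  | zero => intro x _; exact H.zero_mem
  | one => intro x hx; exact hx
  | add a b _ _ ha hb => intro x hx; exact H.add_mem (ha x hx) (hb x hx)
  | neg a _ ha => intro x hx; exact H.neg_mem (ha x hx)
  | mul a b _ _ ha hb => intro x hx; exact ha _ (hb x hx)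

/-- Elements of `heckeAway` commute with the Galois action. -/
theorem heckeAway_galois_smul {E : AddMonoid.End (JZero N)} (hE : E ∈ heckeAway N S) (σ : Γℚ)
    (x : JZero N) : σ • E x = E (σ • x) := by
  induction hE using Subring.closure_induction generalizing x with
  | mem E hE =>
    obtain ⟨ℓ, -, rfl⟩ := hE
    exact (HeckeJ.heckeOperatorBar_galois_smul N ℓ σ x).symm
  | zero => exact map_zero (DistribSMul.toAddMonoidHom (JZero N) σ)
  | one => rfl
  | add a b _ _ ha hb =>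
    show σ • (a x + b x) = a (σ • x) + b (σ • x)
    rw [smul_add, ha, hb]
  | neg a _ ha =>
    show σ • (-(a x)) = -(a (σ • x))
    rw [smul_neg, ha]
  | mul a b _ _ ha hb =>
    show σ • a (b x) = a (b (σ • x))
    rw [ha, hb]

section Generic

variable {R A : Type*} [CommRing R] [AddCommGroup A] (φ : R →+* AddMonoid.End A)

theorem endHom_mul_apply (a b : R) (x : A) : φ (a * b) x = φ a (φ b x) := by
  rw [map_mul]; rfl

theorem endHom_add_apply (a b : R) (x : A) : φ (a + b) x = φ a x + φ b x := by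
  rw [map_add]; rfl

theorem endHom_intCast_apply (r : ℤ) (x : A) : φ (r : R) x = r • x := by
  rw [map_intCast, AddMonoid.End.intCast_apply]

theorem endHom_natCast_apply (r : ℕ) (x : A) : φ (r : R) x = r • x := by
  rw [map_natCast, AddMonoid.End.natCast_apply]

theorem endHom_sub_natCast_apply (a : R) (r : ℕ) (x : A) : φ (a - (r : R)) x = φ a x - r • x := by
  rw [map_sub, map_natCast]
  show φ a x - (r : AddMonoid.End A) x = _
  rw [AddMonoid.End.natCast_apply]

/-- An element of a set on which an ideal's generators vanish is killed by the ideal. -/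
theorem endHom_apply_eq_zero_of_mem_span (H : AddSubgroup A) (hH : ∀ t, ∀ x ∈ H, φ t x ∈ H)
    {B : Type*} [AddCommGroup B] (χ : H →+ B) {G : Set R}
    (hG : ∀ g ∈ G, ∀ x : H, χ ⟨φ g x, hH g x x.2⟩ = 0) {t : R} (ht : t ∈ Ideal.span G) (x : H) :
    χ ⟨φ t x, hH t x x.2⟩ = 0 := by
  induction ht using Submodule.span_induction generalizing x with
  | mem g hg => exact hG g hg x
  | zero =>
    rw [← map_zero χ]
    refine congrArg χ (Subtype.ext ?_)
    show φ 0 (x : A) = 0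
    rw [map_zero]; rfl
  | add a b _ _ ha hb =>
    have e : (⟨φ (a + b) x, hH _ x x.2⟩ : H) = ⟨φ a x, hH a x x.2⟩ + ⟨φ b x, hH b x x.2⟩ :=
      Subtype.ext (endHom_add_apply φ a b x)
    rw [e, map_add, ha, hb, add_zero]
  | smul a b _ hb =>
    have e : (⟨φ (a • b) x, hH _ x x.2⟩ : H) =
        ⟨φ b (⟨φ a x, hH a x x.2⟩ : H), hH b _ (hH a x x.2)⟩ := by
      refine Subtype.ext ?_
      show φ (a • b) (x : A) = φ b (φ a x)
      rw [smul_eq_mul, mul_comm, endHom_mul_apply]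
    rw [e, hb]

end Generic

/-- The inclusion of the anemic algebra in the full Hecke algebra. -/
def anemicIncl (N : ℕ) [NeZero N] (S : Set ℕ) :
    CuspForm.heckeAlgebra N 2 S →+* CuspForm.heckeAlgebra N 2 (∅ : Set ℕ) where
  toFun t := ⟨t.1, CuspForm.heckeAlgebra_mono (Set.empty_subset S) t.2⟩
  map_one' := Subtype.ext rfl
  map_mul' _ _ := Subtype.ext rfl
  map_zero' := Subtype.ext rfl
  map_add' _ _ := Subtype.ext rfl

theorem anemicIncl_T {S : Set ℕ} {ℓ : ℕ} (hℓ : ℓ.Prime) (hℓN : ¬ ℓ ∣ N) (hℓS : ℓ ∉ S) :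
    anemicIncl N S (CuspForm.heckeAlgebra.T hℓ hℓN hℓS) =
      CuspForm.heckeAlgebra.T hℓ hℓN (Set.notMem_empty ℓ) :=
  Subtype.ext rfl

theorem anemicIncl_U {S : Set ℕ} {q : ℕ} (hq : q.Prime) (hqN : q ∣ N) (hqS : q ∉ S) :
    anemicIncl N S (CuspForm.heckeAlgebra.U hq hqN hqS) =
      CuspForm.heckeAlgebra.U hq hqN (Set.notMem_empty q) :=
  Subtype.ext rfl

/-- The action of the anemic algebra on the `n`-torsion of `J₀(N)`. -/
def anemicRep (N : ℕ) [NeZero N] (S : Set ℕ) (n : ℕ) [NeZero n] :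
    CuspForm.heckeAlgebra N 2 S →+* AddMonoid.End (Torsion.jTorsion N n) :=
  (Torsion.heckeRep N n).comp (anemicIncl N S)

theorem anemicRep_T {S : Set ℕ} (n : ℕ) [NeZero n] {ℓ : ℕ} (hℓ : ℓ.Prime) (hℓN : ¬ ℓ ∣ N) (hℓS : ℓ ∉ S)
    (x : Torsion.jTorsion N n) :
    (anemicRep N S n (CuspForm.heckeAlgebra.T hℓ hℓN hℓS) x : JZero N) =
      heckeOperatorBar N ⟨ℓ, hℓ⟩ (x : JZero N) := by
  rw [anemicRep, RingHom.comp_apply, anemicIncl_T, Torsion.heckeRep_T]
  exact Torsion.coe_heckeTors n _ x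

theorem anemicRep_U {S : Set ℕ} (n : ℕ) [NeZero n] {q : ℕ} (hq : q.Prime) (hqN : q ∣ N) (hqS : q ∉ S)
    (x : Torsion.jTorsion N n) :
    (anemicRep N S n (CuspForm.heckeAlgebra.U hq hqN hqS) x : JZero N) =
      heckeOperatorBar N ⟨q, hq⟩ (x : JZero N) := by
  rw [anemicRep, RingHom.comp_apply, anemicIncl_U, Torsion.heckeRep_U]
  exact Torsion.coe_heckeTors n _ x

/-- The pairs `(t, E)` where `E` acts as `t` on all torsion. -/
def RepCompat (t : CuspForm.heckeAlgebra N 2 (↑S : Set ℕ)) (E : AddMonoid.End (JZero N)) : Prop :=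
  ∀ (n : ℕ) [NeZero n] (x : Torsion.jTorsion N n),
    E (x : JZero N) = (anemicRep N (↑S : Set ℕ) n t x : JZero N)

set_option maxHeartbeats 800000 in
/-- Every element of the anemic Hecke algebra is the action on torsion of an endomorphism of
`J₀(N)` from `heckeAway`. -/
theorem exists_heckeAway (t : CuspForm.heckeAlgebra N 2 (↑S : Set ℕ)) :
    ∃ E ∈ heckeAway N S, RepCompat t E := by
  obtain ⟨t, ht⟩ := t
  induction ht using Algebra.adjoin_induction with
  | mem x hx =>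
    rcases hx with ⟨ℓ, hℓ, hℓN, hℓS, rfl⟩ | ⟨q, hqN, hq, hqS, rfl⟩
    · exact ⟨(heckeOperatorBar N ⟨ℓ, hℓ⟩).toAddMonoidHom,
        heckeOperatorBar_mem_heckeAway (by simpa using hℓS),
        fun n _ x => (anemicRep_T n hℓ hℓN hℓS x).symm⟩
    · exact ⟨(heckeOperatorBar N ⟨q, hq⟩).toAddMonoidHom,
        heckeOperatorBar_mem_heckeAway (by simpa using hqS),
        fun n _ x => (anemicRep_U n hq hqN hqS x).symm⟩
  | algebraMap r =>
    refine ⟨r • (1 : AddMonoid.End (JZero N)), (heckeAway N S).zsmul_mem (Subring.one_mem _) r,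
      fun n _ x => ?_⟩
    rw [show (⟨algebraMap ℤ _ r, Subalgebra.algebraMap_mem _ r⟩ :
        CuspForm.heckeAlgebra N 2 (↑S : Set ℕ)) = (r : CuspForm.heckeAlgebra N 2 (↑S : Set ℕ)) from
      eq_intCast (algebraMap ℤ (CuspForm.heckeAlgebra N 2 (↑S : Set ℕ))) r, endHom_intCast_apply]
    rfl
  | add a b ha hb iha ihb =>
    obtain ⟨A, hA, hA'⟩ := iha
    obtain ⟨B, hB, hB'⟩ := ihb
    refine ⟨A + B, add_mem hA hB, fun n _ x => ?_⟩
    show A (x : JZero N) + B (x : JZero N) = _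
    rw [hA' n x, hB' n x,
      show (⟨a + b, _⟩ : CuspForm.heckeAlgebra N 2 (↑S : Set ℕ)) = ⟨a, ha⟩ + ⟨b, hb⟩ from
      Subtype.ext rfl,
      endHom_add_apply]
    rfl
  | mul a b ha hb iha ihb =>
    obtain ⟨A, hA, hA'⟩ := iha
    obtain ⟨B, hB, hB'⟩ := ihb
    refine ⟨A * B, mul_mem hA hB, fun n _ x => ?_⟩
    show A (B (x : JZero N)) = _
    refine (congrArg (⇑A) (hB' n x)).trans (Eq.trans (hA' n _) ?_)
    rw [show (⟨a * b, _⟩ : CuspForm.heckeAlgebra N 2 (↑S : Set ℕ)) = ⟨a, ha⟩ * ⟨b, hb⟩ from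
      Subtype.ext rfl]
    exact congrArg Subtype.val (endHom_mul_apply (anemicRep N (↑S : Set ℕ) n) _ _ x).symm

/-- A subgroup of torsion stable under the operators away from `S` is stable under the anemic
algebra. -/
theorem anemicRep_apply_mem {n : ℕ} [NeZero n] (H : AddSubgroup (JZero N))
    (hH : ∀ ℓ : Nat.Primes, (ℓ : ℕ) ∉ S → ∀ x ∈ H, heckeOperatorBar N ℓ x ∈ H)
    (t : CuspForm.heckeAlgebra N 2 (↑S : Set ℕ)) (x : Torsion.jTorsion N n)
    (hx : (x : JZero N) ∈ H) : (anemicRep N (↑S : Set ℕ) n t x : JZero N) ∈ H := by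
  obtain ⟨E, hE, hE'⟩ := exists_heckeAway t
  rw [← hE' n x]
  exact heckeAway_apply_mem hE H hH _ hx

/-- A torsion class on which all good operators act through the Eisenstein system is killed by
every natural number in the Eisenstein ideal. -/
theorem nsmul_eq_zero_of_eisenstein {n : ℕ} [NeZero n] {S : Set ℕ} (x : Torsion.jTorsion N n) {N₀ : ℕ}
    (hN₀ : (N₀ : CuspForm.heckeAlgebra N 2 S) ∈ Ideal.span
      {t | ∃ (ℓ : ℕ) (hℓ : ℓ.Prime) (hℓN : ¬ ℓ ∣ N) (hℓS : ℓ ∉ S),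
        t = CuspForm.heckeAlgebra.T hℓ hℓN hℓS - ((1 + ℓ : ℕ) : CuspForm.heckeAlgebra N 2 S)})
    (hx : ∀ (ℓ : ℕ) (hℓ : ℓ.Prime), ¬ ℓ ∣ N → ℓ ∉ S →
      heckeOperatorBar N ⟨ℓ, hℓ⟩ (x : JZero N) = (1 + ℓ) • (x : JZero N)) :
    N₀ • (x : JZero N) = 0 := by
  have hG : ∀ g ∈ {t : CuspForm.heckeAlgebra N 2 S | ∃ (ℓ : ℕ) (hℓ : ℓ.Prime) (hℓN : ¬ ℓ ∣ N)
      (hℓS : ℓ ∉ S), t = CuspForm.heckeAlgebra.T hℓ hℓN hℓS -
        ((1 + ℓ : ℕ) : CuspForm.heckeAlgebra N 2 S)},
      anemicRep N S n g x = 0 := by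
    rintro _ ⟨ℓ, hℓ, hℓN, hℓS, rfl⟩
    rw [endHom_sub_natCast_apply, sub_eq_zero]
    refine Subtype.ext ?_
    rw [anemicRep_T, hx ℓ hℓ hℓN hℓS, AddSubgroup.coe_nsmul]
  have h := Submodule.span_induction (p := fun t _ => anemicRep N S n t x = 0)
    (fun g hg => hG g hg) (by rw [map_zero]; rfl)
    (fun a b _ _ ha hb => by rw [endHom_add_apply, ha, hb, add_zero])
    (fun a b _ hb => by rw [smul_eq_mul, endHom_mul_apply, hb, map_zero]) hN₀
  rw [endHom_natCast_apply] at h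
  simpa using congrArg Subtype.val h

end Fermat.Agent.Mazur
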