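import Mathlib.NumberTheory.ModularForms.Bounds
import Mathlib.NumberTheory.SumPrimeReciprocals
import Mathlib.FieldTheory.IsAlgClosed.Basic
import Fermat.Agent.Integral.Eigenform

/-!
# Cusp eigensystems are not Eisenstein

By Hecke's bound `a_n = O(n)` no normalised eigenform has `a_ℓ = 1 + ℓ` for almost all primes, so
the Eisenstein ideal of the anemic Hecke algebra contains a non-zero integer.
-/

set_option autoImplicit false

noncomputable section

open CongruenceSubgroup ModularFormClass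
open scoped IsMulCommutative

namespace Fermat.Agent.Mazur

variable {N : ℕ} [NeZero N]

/-- Hecke's bound in weight two, for all `n`. -/
theorem exists_qCoeff_le (f : CuspForm (Gamma0 N) 2) :
    ∃ C : ℝ, ∀ n : ℕ, ‖qCoeff f n‖ ≤ C * n := by
  have h := CuspFormClass.qExpansion_isBigO (k := 2) f
  rw [strictWidthInfty_Gamma0] at h
  have h' : (fun n : ℕ => qCoeff f n) =O[Filter.atTop] fun n : ℕ => (n : ℝ) := by
    simpa [qCoeff] using h
  obtain ⟨C, -, hC⟩ := Asymptotics.bound_of_isBigO_nat_atTop h'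
  refine ⟨C, fun n => ?_⟩
  rcases eq_or_ne n 0 with rfl | hn
  · simp [Eigen.qCoeff_index_zero]
  · have := hC (x := n) (Nat.cast_ne_zero.mpr hn)
    simpa using this

/-- No normalised eigenform has the Eisenstein eigenvalue at almost all primes. -/
theorem exists_qCoeff_ne_one_add {f : CuspForm (Gamma0 N) 2} (hf : f.IsNormalizedEigenform)
    {S : Set ℕ} (hS : S.Finite) :
    ∃ ℓ : ℕ, ℓ.Prime ∧ ¬ ℓ ∣ N ∧ ℓ ∉ S ∧ qCoeff f ℓ ≠ 1 + ℓ := by
  classical
  by_contra hcon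
  push Not at hcon
  let good : Set ℕ := {ℓ | ℓ.Prime ∧ ¬ ℓ ∣ N ∧ ℓ ∉ S}
  obtain ⟨C, hC⟩ := exists_qCoeff_le f
  have hprod : ∀ P : Finset ℕ, (∀ ℓ ∈ P, ℓ ∈ good) →
      qCoeff f (∏ ℓ ∈ P, ℓ) = ∏ ℓ ∈ P, ((1 : ℂ) + ℓ) := by
    intro P
    induction P using Finset.induction_on with
    | empty => intro _; simpa using hf.qCoeff_one
    | insert a P ha ih =>
      intro hP
      have hag := hP a (Finset.mem_insert_self a P)
      have hPg : ∀ ℓ ∈ P, ℓ ∈ good := fun ℓ hℓ => hP ℓ (Finset.mem_insert_of_mem hℓ)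
      rw [Finset.prod_insert ha, Finset.prod_insert ha, hf.qCoeff_mul_of_coprime, ih hPg,
        hcon a hag.1 hag.2.1 hag.2.2]
      refine Nat.Coprime.prod_right fun b hb => (Nat.coprime_primes hag.1 (hPg b hb).1).mpr ?_
      rintro rfl
      exact ha hb
  have hsum : Summable (good.indicator fun n : ℕ => (1 : ℝ) / n) := by
    refine summable_of_sum_le (c := C) (fun n => ?_) fun u => ?_
    · exact Set.indicator_nonneg (fun m _ => by positivity) n
    · rw [Finset.sum_indicator_eq_sum_filter]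
      set P := u.filter fun n => n ∈ good with hPdef
      have hP : ∀ ℓ ∈ P, ℓ ∈ good := fun ℓ hℓ => (Finset.mem_filter.mp hℓ).2
      have hpos : (0 : ℝ) < ∏ ℓ ∈ P, (ℓ : ℝ) :=
        Finset.prod_pos fun ℓ hℓ => by exact_mod_cast (hP ℓ hℓ).1.pos
      have h1 : ∏ ℓ ∈ P, ((1 : ℝ) + ℓ) ≤ C * ∏ ℓ ∈ P, (ℓ : ℝ) := by
        have := hC (∏ ℓ ∈ P, ℓ)
        rw [hprod P hP, Nat.cast_prod, norm_prod] at this
        refine le_trans (le_of_eq (Finset.prod_congr rfl fun ℓ _ => ?_)) this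
        rw [show (1 : ℂ) + ℓ = ((1 + ℓ : ℝ) : ℂ) by push_cast; ring, Complex.norm_real,
          Real.norm_of_nonneg (by positivity)]
      have h2 : ∏ ℓ ∈ P, (1 + (1 : ℝ) / ℓ) ≤ C := by
        rw [← div_le_iff₀ hpos, ← Finset.prod_div_distrib] at h1
        refine le_trans (le_of_eq (Finset.prod_congr rfl fun ℓ hℓ => ?_)) h1
        have : (ℓ : ℝ) ≠ 0 := by exact_mod_cast (hP ℓ hℓ).1.ne_zero
        field_simp
        ring
      have h3 : ∀ Q : Finset ℕ, ∑ ℓ ∈ Q, (1 : ℝ) / ℓ ≤ ∏ ℓ ∈ Q, (1 + (1 : ℝ) / ℓ) := by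
        intro Q
        induction Q using Finset.induction_on with
        | empty => simp
        | insert a Q ha ih =>
          rw [Finset.sum_insert ha, Finset.prod_insert ha]
          have h0 : (1 : ℝ) ≤ ∏ ℓ ∈ Q, (1 + (1 : ℝ) / ℓ) :=
            Finset.one_le_prod fun ℓ _ => by
              have : (0 : ℝ) ≤ 1 / (ℓ : ℝ) := by positivity
              linarith
          have ha0 : (0 : ℝ) ≤ 1 / (a : ℝ) := by positivity
          nlinarith
      exact (h3 P).trans h2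
  apply not_summable_one_div_on_primes
  have hbad : (S ∪ {n | n ∣ N}).Finite :=
    hS.union ((N.divisors.finite_toSet).subset fun n hn =>
      Nat.mem_divisors.mpr ⟨hn, NeZero.ne N⟩)
  refine hsum.congr_cofinite ?_
  filter_upwards [hbad.compl_mem_cofinite] with n hn
  simp only [Set.mem_compl_iff, Set.mem_union, Set.mem_ofPred_eq, not_or] at hn
  simp [Set.indicator_apply, good, hn.1, hn.2]

/-- A nonzero integer lies in the Eisenstein ideal of the anemic Hecke algebra. -/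
theorem exists_natCast_mem_eisenstein (N : ℕ) [NeZero N] {S : Set ℕ} (hS : S.Finite) :
    ∃ N₀ : ℕ, N₀ ≠ 0 ∧ (N₀ : CuspForm.heckeAlgebra N 2 S) ∈ Ideal.span
      {t | ∃ (ℓ : ℕ) (hℓ : ℓ.Prime) (hℓN : ¬ ℓ ∣ N) (hℓS : ℓ ∉ S),
        t = CuspForm.heckeAlgebra.T hℓ hℓN hℓS - ((1 + ℓ : ℕ) : CuspForm.heckeAlgebra N 2 S)} := by
  set R := CuspForm.heckeAlgebra N 2 S
  set I : Ideal R := Ideal.span {t | ∃ (ℓ : ℕ) (hℓ : ℓ.Prime) (hℓN : ¬ ℓ ∣ N) (hℓS : ℓ ∉ S),
        t = CuspForm.heckeAlgebra.T hℓ hℓN hℓS - ((1 + ℓ : ℕ) : R)}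
  by_contra hcon
  push Not at hcon
  let M : Submonoid R :=
    { carrier := {x | ∃ n : ℕ, n ≠ 0 ∧ (n : R) = x}
      one_mem' := ⟨1, one_ne_zero, Nat.cast_one⟩
      mul_mem' := by
        rintro x y ⟨a, ha, rfl⟩ ⟨b, hb, rfl⟩
        exact ⟨a * b, mul_ne_zero ha hb, Nat.cast_mul a b⟩ }
  have hdis : Disjoint (I : Set R) M := Set.disjoint_left.mpr fun x hx hxM => by
    obtain ⟨n, hn, rfl⟩ := hxM
    exact hcon n hn hx
  obtain ⟨P, hP, hIP, hPdis⟩ := Ideal.exists_le_prime_disjoint I M hdis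
  have : Module.Finite ℤ R := Integral.moduleFinite_heckeAlgebra N 2 S
  have : IsDomain (R ⧸ P) := Ideal.Quotient.isDomain P
  have hzero : ∀ z : ℤ, (z : R ⧸ P) = 0 → z = 0 := by
    intro z hz
    by_contra hne
    rw [← map_intCast (Ideal.Quotient.mk P), Ideal.Quotient.eq_zero_iff_mem] at hz
    refine Set.disjoint_left.mp hPdis ?_
      (⟨z.natAbs, Int.natAbs_ne_zero.mpr hne, rfl⟩ : ((z.natAbs : ℕ) : R) ∈ M)
    rcases Int.natAbs_eq z with h | h <;> rw [h] at hz <;> simpa using hz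
  have hinj : Function.Injective (algebraMap ℤ (R ⧸ P)) :=
    (injective_iff_map_eq_zero _).mpr fun z hz => hzero z (by simpa using hz)
  have : Module.IsTorsionFree ℤ (R ⧸ P) := by
    rw [Module.isTorsionFree_iff_algebraMap_injective]; exact hinj
  obtain ⟨φ⟩ : Nonempty (R ⧸ P →ₐ[ℤ] ℂ) := ⟨IsAlgClosed.lift⟩
  obtain ⟨f, hf, hχ⟩ := Integral.exists_eigenform_of_ringHom
    (φ.toRingHom.comp (Ideal.Quotient.mk P))
  obtain ⟨ℓ, hℓ, hℓN, hℓS, hne⟩ := exists_qCoeff_ne_one_add hf hS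
  refine hne ?_
  rw [← Eigen.eigenChar_T hf hℓ hℓN hℓS, hχ, RingHom.comp_apply]
  have hmem : CuspForm.heckeAlgebra.T hℓ hℓN hℓS - ((1 + ℓ : ℕ) : R) ∈ P :=
    hIP (Ideal.subset_span ⟨ℓ, hℓ, hℓN, hℓS, rfl⟩)
  rw [← Ideal.Quotient.mk_eq_mk_iff_sub_mem] at hmem
  rw [hmem, map_natCast, map_natCast]
  push_cast
  ring

end Fermat.Agent.Mazur
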